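import Fermat.Agent.BadRed.Conc3
import Fermat.Agent.KField.Ram

/-!
# Valuation rings of algebraic extensions of `ℚ` have rank one
-/

set_option autoImplicit false
set_option linter.unusedSectionVars false

namespace Fermat.Agent.BadRed

attribute [-instance] DivisionRing.toRatAlgebra

variable {Ω : Type*} [Field Ω] [Algebra ℚ Ω] [IsGalois ℚ Ω] {A : ValuationSubring Ω} {p : ℕ}

theorem exists_val_pow (hp : p.Prime) (hA : A.LiesOverPrime p) {θ : Ω} (hθ : θ ≠ 0) :
    ∃ (d : ℕ) (n : ℤ), 0 < d ∧ A.valuation θ ^ d = A.valuation (p : Ω) ^ n := by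
  let J : Subgroup (Ω ≃ₐ[ℚ] Ω) := MulAction.stabilizer (Ω ≃ₐ[ℚ] Ω) θ
  have hfin : Finite (MulAction.orbit (Ω ≃ₐ[ℚ] Ω) θ) := by
    have hint : IsIntegral ℚ θ := Algebra.IsIntegral.isIntegral θ
    have hs : MulAction.orbit (Ω ≃ₐ[ℚ] Ω) θ ⊆ (minpoly ℚ θ).rootSet Ω := by
      rintro _ ⟨g, rfl⟩
      rw [Polynomial.mem_rootSet_of_ne (minpoly.ne_zero hint)]
      show Polynomial.aeval (g θ) (minpoly ℚ θ) = 0
      have h := Polynomial.aeval_algHom_apply (g : Ω →ₐ[ℚ] Ω) θ (minpoly ℚ θ)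
      refine h.trans ?_
      rw [minpoly.aeval, map_zero]
    exact ((minpoly ℚ θ).rootSet_finite Ω).subset hs
  have hidx : J.index ≠ 0 := by
    have e := MulAction.orbitEquivQuotientStabilizer (Ω ≃ₐ[ℚ] Ω) θ
    have : Finite ((Ω ≃ₐ[ℚ] Ω) ⧸ J) := Finite.of_equiv _ e
    exact Subgroup.index_ne_zero_of_finite
  have hrel : J.relIndex (A.inertiaSubgroupIn ℚ) ≠ 0 := by
    intro h
    exact hidx (Subgroup.index_eq_zero_of_relIndex_eq_zero h)
  obtain ⟨n, hn⟩ := KField.val_pow_index hp hA J hrel hθ (fun s hs => hs)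
  exact ⟨_, n, Nat.pos_of_ne_zero hrel, hn⟩

theorem archA (hp : p.Prime) (hA : A.LiesOverPrime p) : ArchA (IsLocalRing.residue A) := by
  intro ε hε0 hε a ha
  have hvp : A.valuation (p : Ω) < 1 := by
    have h1 : ((p : A) : Ω) ∈ A.nonunits := by
      have : ((p : A) : Ω) = (p : Ω) := by simp
      rw [this]; exact hA
    have h2 : (p : Ω) = ((p : A) : Ω) := by simp
    rw [h2]
    exact (ValuationSubring.mem_nonunits_iff A).mp h1
  have hp0 : (p : Ω) ≠ 0 := by
    have : CharZero Ω := charZero_of_injective_algebraMap (algebraMap ℚ Ω).injective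
    exact_mod_cast hp.ne_zero
  have hvp0 : 0 < A.valuation (p : Ω) := by
    rw [zero_lt_iff]
    exact (Valuation.ne_zero_iff _).mpr hp0
  have hvε : A.valuation (ε : Ω) < 1 := by
    have h1 : ¬ IsUnit ε := by
      intro hu
      exact (IsLocalRing.residue_ne_zero_iff_isUnit ε).mpr hu hε
    have h2 : (ε : Ω) ∈ A.nonunits := by
      rw [ValuationSubring.coe_mem_nonunits_iff]
      exact (IsLocalRing.mem_maximalIdeal _).mpr h1
    exact (ValuationSubring.mem_nonunits_iff A).mp h2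
  obtain ⟨d, n, hd, hn⟩ := exists_val_pow hp hA hε0
  obtain ⟨d', n', hd', hn'⟩ := exists_val_pow hp hA ha
  -- `n > 0`
  have hnpos : 0 < n := by
    by_contra hcon
    push Not at hcon
    have h1 : A.valuation (ε : Ω) ^ d < 1 := pow_lt_one₀ zero_le hvε hd.ne'
    rw [hn] at h1
    have h2 : 1 ≤ A.valuation (p : Ω) ^ n := by
      obtain ⟨k, hk⟩ := Int.exists_eq_neg_ofNat hcon
      rw [hk, zpow_neg, zpow_natCast]
      exact (one_le_inv₀ (pow_pos hvp0 k)).mpr (pow_le_one₀ zero_le hvp.le)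
    exact absurd h1 (not_lt.mpr h2)
  have hva : 0 < A.valuation a := by
    rw [zero_lt_iff]
    exact (Valuation.ne_zero_iff _).mpr ha
  -- a lower bound for `v a`
  obtain ⟨k, hk⟩ : ∃ k : ℕ, A.valuation (p : Ω) ^ k ≤ A.valuation a := by
    rcases le_or_gt 1 (A.valuation a) with h | h
    · exact ⟨0, by rw [pow_zero]; exact h⟩
    · refine ⟨n'.toNat, ?_⟩
      have h1 : A.valuation a ^ d' ≤ A.valuation a := by
        calc A.valuation a ^ d' ≤ A.valuation a ^ 1 :=
              pow_le_pow_of_le_one zero_le h.le hd'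
          _ = A.valuation a := pow_one _
      refine le_trans ?_ h1
      rw [hn']
      have h2 : 0 ≤ n' := by
        by_contra hcon
        push Not at hcon
        have h3 : A.valuation a ^ d' ≤ 1 := pow_le_one₀ zero_le h.le
        rw [hn'] at h3
        obtain ⟨j, hj⟩ := Int.exists_eq_neg_ofNat hcon.le
        rw [hj, zpow_neg, zpow_natCast] at h3
        have hj0 : j ≠ 0 := by
          rintro rfl
          rw [hj] at hcon
          simp at hcon
        have h4 : A.valuation (p : Ω) ^ j < 1 := pow_lt_one₀ zero_le hvp hj0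
        have h5 : 1 < (A.valuation (p : Ω) ^ j)⁻¹ := (one_lt_inv₀ (pow_pos hvp0 j)).mpr h4
        exact absurd h3 (not_le.mpr h5)
      have h3 : n' = ((n'.toNat : ℕ) : ℤ) := (Int.toNat_of_nonneg h2).symm
      rw [h3, zpow_natCast, Int.toNat_natCast]
  refine ⟨d * (k + 1), ?_⟩
  rw [← A.valuation_le_one_iff, map_mul, map_inv₀, map_pow, not_le]
  have h1 : A.valuation (ε : Ω) ^ (d * (k + 1)) < A.valuation a := by
    refine lt_of_lt_of_le ?_ hk
    rw [pow_mul, hn]
    have h2 : n = ((n.toNat : ℕ) : ℤ) := (Int.toNat_of_nonneg hnpos.le).symm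
    have h3 : 1 ≤ n.toNat := by omega
    rw [h2, zpow_natCast, ← pow_mul]
    refine pow_lt_pow_right_of_lt_one₀ hvp0 hvp ?_
    nlinarith
  have h2 : 0 < A.valuation (ε : Ω) ^ (d * (k + 1)) := by
    apply pow_pos
    rw [zero_lt_iff]
    exact (Valuation.ne_zero_iff _).mpr hε0
  have h3 := mul_lt_mul_of_pos_right h1 (inv_pos.mpr h2)
  rwa [mul_inv_cancel₀ h2.ne'] at h3

end Fermat.Agent.BadRed
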