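import Fermat.Agent.BadRed.FrobPencil
import Fermat.Agent.FunField.NormFormula
import Fermat.Prelude.Def_AlgebraicCurve_BaseChangeGalois

/-!
# The pencil `t = j · j_r`, abstract construction

From a reduction datum `𝔇₀` (level `N`), a two-component reduction datum `𝔇` (level `N r`), an
embedding `i`, an involution `w`, with the usual compatibilities, we construct a `FrobPencil`.
-/

set_option autoImplicit false
set_option linter.unusedSectionVars false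

noncomputable section

open AlgebraicCurve Module IntermediateField

namespace Fermat.Agent.BadRed

open Fermat.Agent.FunField Fermat.Agent.FunField.PlaceLemmas

section Semilinear

variable {K E : Type*} [Field K] [Field E] [Algebra K E]

theorem ord_semilinear_smul (g : SemilinearAut K E) (v : Place K E) (f : E) :
    v.ord (g • f) = (g⁻¹ • v).ord f := by
  have := SemilinearAut.ord_smul g (g⁻¹ • v) f
  rwa [smul_inv_smul] at this

theorem smul_mem_rr_iff (g : SemilinearAut K E) (D : Divisor K E) (f : E) :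
    g • f ∈ riemannRochSpace (g • D) ↔ f ∈ riemannRochSpace D := by
  rcases eq_or_ne f 0 with rfl | hf
  · simp
  have hgf : g • f ≠ 0 := fun h => hf ((smul_eq_zero_iff_eq g).mp h)
  rw [Deuring.mem_rr_of_ne hf, Deuring.mem_rr_of_ne hgf]
  constructor
  · intro h v
    have h1 := h (g • v)
    rwa [SemilinearAut.divisor_smul_apply_smul, ord_semilinear_smul, inv_smul_smul] at h1
  · intro h v
    rw [ord_semilinear_smul, SemilinearAut.divisor_smul_apply]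
    exact h _

variable [IsFF K E]

theorem smul_poleDiv (g : SemilinearAut K E) (f : E) :
    g • (poleDiv f : Divisor K E) = poleDiv (g • f) := by
  ext v
  rw [SemilinearAut.divisor_smul_apply, poleDiv_apply, poleDiv_apply, ord_semilinear_smul]

theorem smul_poleDiv_of_fixed {g : SemilinearAut K E} {f : E} (h : g • f = f) :
    g • (poleDiv f : Divisor K E) = poleDiv f := by
  rw [smul_poleDiv, h]

theorem smul_nsmul_divisor (g : SemilinearAut K E) (m : ℕ) (D : Divisor K E) :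
    g • (m • D) = m • (g • D) :=
  map_nsmul (DistribSMul.toAddMonoidHom (Divisor K E) g) m D

theorem smul_mem_rr_fixed {g : SemilinearAut K E} {f : E} (h : g • f = f) (m : ℕ) (x : E) :
    g • x ∈ riemannRochSpace (m • (poleDiv f : Divisor K E)) ↔
      x ∈ riemannRochSpace (m • (poleDiv f : Divisor K E)) := by
  conv_lhs => rw [← smul_poleDiv_of_fixed h, ← smul_nsmul_divisor]
  exact smul_mem_rr_iff g _ x

theorem mem_rr_nsmul_poleDiv {f x : E} (hx : x ≠ 0) (m : ℕ) :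
    x ∈ riemannRochSpace (m • (poleDiv f : Divisor K E)) ↔
      ∀ v : Place K E, -(v.ord x) ≤ m * max (-(v.ord f)) 0 := by
  rw [Deuring.mem_rr_of_ne hx]
  refine forall_congr' fun v => ?_
  rw [Finsupp.smul_apply, poleDiv_apply, nsmul_eq_mul]
  constructor <;> intro h <;> linarith

end Semilinear

section Embed

variable {L F₀ F : Type*} [Field L] [Field F₀] [Field F] [Algebra L F₀] [Algebra L F]

/-- poles of the image of a function -/
theorem map_mem_rr [IsFF L F₀] [IsFF L F] (i : F₀ →ₐ[L] F) {f j : F₀} {m : ℕ}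
    (hf : f ∈ riemannRochSpace (m • (poleDiv j : Divisor L F₀))) :
    i f ∈ riemannRochSpace (m • (poleDiv (i j) : Divisor L F)) := by
  rcases eq_or_ne f 0 with rfl | hf0
  · rw [map_zero]; exact Submodule.zero_mem _
  have hif0 : i f ≠ 0 := (map_ne_zero i).mpr hf0
  letI := algebraAlong i
  haveI := isScalarTower_along i
  haveI : Algebra.IsIntegral F₀ F := isIntegral_along i (isIntegral_of_isFF i)
  rw [mem_rr_nsmul_poleDiv hf0] at hf
  rw [mem_rr_nsmul_poleDiv hif0]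
  intro v
  have h1 := hf (v.restrict F₀)
  have h2 : v.ord (i f) = v.ramificationIndex F₀ * (v.restrict F₀).ord f := v.ord_restrict f
  have h3 : v.ord (i j) = v.ramificationIndex F₀ * (v.restrict F₀).ord j := v.ord_restrict j
  have h4 : (0 : ℤ) < v.ramificationIndex F₀ := by
    exact_mod_cast v.ramificationIndex_pos (F := F₀)
  rw [h2, h3]
  have h5 : max (-((v.ramificationIndex F₀ : ℤ) * (v.restrict F₀).ord j)) 0 =
      v.ramificationIndex F₀ * max (-(v.restrict F₀).ord j) 0 := by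
    rw [mul_max_of_nonneg _ _ h4.le]
    congr 1 <;> ring
  rw [h5]
  nlinarith

end Embed

section Main

variable {L k F₀ F F₁ : Type*} [Field L] [Field k] [Field F₀] [Field F] [Field F₁]
  [Algebra L F₀] [Algebra L F] [Algebra k F₁] [IsFF L F₀] [IsFF L F] [IsFF k F₁]

/-- Input for the construction of the pencil. -/
structure PencilData (𝔇₀ : RData L k F₀ F₁) (𝔇 : RData L k F (F₁ × F₁)) where
  r : ℕ
  hr : 1 < r
  /-- the `k`-linear Frobenius -/
  Fr : F₁ →ₐ[k] F₁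
  /-- the coefficientwise Frobenius -/
  φ : SemilinearAut k F₁
  hFr : ∀ a, Fr (φ • a) = a ^ r
  /-- the first degeneracy map -/
  i : F₀ →ₐ[L] F
  /-- the Atkin-Lehner involution -/
  w : F ≃ₐ[L] F
  hww : ∀ f, w (w f) = f
  hi : ∀ f : 𝔇₀.O, i f ∈ 𝔇.O
  hri : ∀ f : 𝔇₀.O, 𝔇.res ⟨i f, hi f⟩ = (𝔇₀.res f, Fr (𝔇₀.res f))
  hw : ∀ f : 𝔇.O, w f ∈ 𝔇.O
  hrw : ∀ f : 𝔇.O, 𝔇.res ⟨w f, hw f⟩ = (𝔇.res f).swap
  j : 𝔇₀.O
  hφj : φ • (𝔇₀.res j) = 𝔇₀.res j
  hj_tr : Transcendental k (𝔇₀.res j)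
  hJ_tr : Transcendental L (i j)
  pole_iff : ∀ v : Place L F, v.ord (i j) < 0 ↔ v.ord (w (i j)) < 0
  pole_le : ∀ v : Place L F, v.ord (i j) < 0 → -(v.ord (w (i j))) ≤ r * -(v.ord (i j))
  degree : finrank L⟮i (j : F₀)⟯ F = (r + 1) * finrank k⟮𝔇₀.res j⟯ F₁
  lift : ∃ m₀ : ℕ, ∀ m, m₀ ≤ m → ∀ a ∈ riemannRochSpace (m • (poleDiv (𝔇₀.res j) : Divisor k F₁)),
    ∃ f : 𝔇₀.O, (f : F₀) ∈ riemannRochSpace (m • (poleDiv (j : F₀) : Divisor L F₀)) ∧
      𝔇₀.res f = a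
  /-- a lift of the coefficientwise Frobenius -/
  γ : SemilinearAut L F
  hγ : ∀ f : F, f ∈ 𝔇.O → γ⁻¹ • f ∈ 𝔇.O
  hrγ : ∀ f : 𝔇.O, ∃ h : γ • (f : F) ∈ 𝔇.O,
    𝔇.res ⟨γ • (f : F), h⟩ = (φ • (𝔇.res f).1, φ • (𝔇.res f).2)
  hγJ : γ • (i (j : F₀)) = i j
  hγJr : γ • (w (i (j : F₀))) = w (i j)

namespace PencilData

variable {𝔇₀ : RData L k F₀ F₁} {𝔇 : RData L k F (F₁ × F₁)} (P : PencilData 𝔇₀ 𝔇)

/-- the function `j` on level `N r` -/
def J : 𝔇.O := ⟨P.i P.j, P.hi P.j⟩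

/-- the function `j_r` on level `N r` -/
def Jr : 𝔇.O := ⟨P.w (P.J : F), P.hw P.J⟩

/-- the reduction of `j` -/
def jb : F₁ := 𝔇₀.res P.j

@[simp] theorem coe_J : (P.J : F) = P.i P.j := rfl

@[simp] theorem coe_Jr : (P.Jr : F) = P.w (P.i P.j) := rfl

theorem jb_ne : P.jb ≠ 0 := by
  intro h
  apply P.hj_tr
  have : 𝔇₀.res P.j = 0 := h
  rw [this]
  exact isAlgebraic_zero

theorem Fr_jb : P.Fr P.jb = P.jb ^ P.r := by
  rw [← P.hFr, jb, P.hφj]

theorem res_J : 𝔇.res P.J = (P.jb, P.jb ^ P.r) := by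
  rw [J, P.hri, ← Fr_jb]
  rfl

theorem res_Jr : 𝔇.res P.Jr = (P.jb ^ P.r, P.jb) := by
  rw [Jr, P.hrw, P.res_J]
  rfl

theorem r_pos : 0 < P.r := lt_trans zero_lt_one P.hr

theorem J_ne : P.i (P.j : F₀) ≠ 0 := by
  intro h
  apply P.hJ_tr
  rw [h]
  exact isAlgebraic_zero

theorem Jr_ne : P.w (P.i (P.j : F₀)) ≠ 0 := (map_ne_zero P.w).mpr P.J_ne

/-- the pencil function -/
def t : 𝔇.O := P.J * P.Jr

/-- the reduction of the pencil function -/
def tb : F₁ := P.jb ^ (1 + P.r)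

@[simp] theorem coe_t : (P.t : F) = P.i P.j * P.w (P.i P.j) := rfl

theorem t_ne : (P.t : F) ≠ 0 := mul_ne_zero P.J_ne P.Jr_ne

theorem res_t : 𝔇.res P.t = (P.tb, P.tb) := by
  rw [t, map_mul, res_J, res_Jr, tb]
  refine Prod.ext ?_ ?_
  · show P.jb * P.jb ^ P.r = _
    ring
  · show P.jb ^ P.r * P.jb = _
    ring

theorem tb_ne : P.tb ≠ 0 := pow_ne_zero _ P.jb_ne

theorem w_t : P.w (P.t : F) = P.t := by
  rw [coe_t, map_mul, P.hww, mul_comm]

/-- the pole divisor of `t` -/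
def E : Divisor L F := poleDiv (P.t : F)

/-- the pole divisor of `tb` -/
def Eb : Divisor k F₁ := poleDiv P.tb

theorem ord_t (v : Place L F) :
    v.ord (P.t : F) = v.ord (P.i (P.j : F₀)) + v.ord (P.w (P.i (P.j : F₀))) := by
  rw [coe_t, v.ord_mul P.J_ne P.Jr_ne]

theorem E_eq : P.E = poleDiv (P.i (P.j : F₀)) + poleDiv (P.w (P.i (P.j : F₀))) := by
  ext v
  rw [E, poleDiv_apply, Finsupp.add_apply, poleDiv_apply, poleDiv_apply, P.ord_t]
  by_cases h : v.ord (P.i (P.j : F₀)) < 0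
  · have h' := (P.pole_iff v).mp h
    omega
  · have h' : ¬ v.ord (P.w (P.i (P.j : F₀))) < 0 := fun h1 => h ((P.pole_iff v).mpr h1)
    omega

theorem Eb_eq : P.Eb = (1 + P.r) • (poleDiv P.jb : Divisor k F₁) := by
  ext v
  rw [Eb, poleDiv_apply, Finsupp.smul_apply, poleDiv_apply, tb, ord_pow, nsmul_eq_mul]
  push_cast
  rw [mul_max_of_nonneg _ _ (by positivity)]
  congr 1 <;> ring

theorem finrank_Jr : finrank L⟮P.w (P.i (P.j : F₀))⟯ F = finrank L⟮P.i (P.j : F₀)⟯ F := by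
  have hmap : L⟮P.i (P.j : F₀)⟯.map (P.w : F →ₐ[L] F) = L⟮P.w (P.i (P.j : F₀))⟯ := by
    rw [IntermediateField.adjoin_map, Set.image_singleton]
    rfl
  let e : L⟮P.i (P.j : F₀)⟯ ≃ₐ[L] L⟮P.w (P.i (P.j : F₀))⟯ :=
    (equivMap L⟮P.i (P.j : F₀)⟯ (P.w : F →ₐ[L] F)).trans (equivOfEq hmap)
  refine (Algebra.finrank_eq_of_equiv_equiv e.toRingEquiv P.w.toRingEquiv ?_).symm
  ext a
  rfl

theorem Jr_tr : Transcendental L (P.w (P.i (P.j : F₀))) := by
  intro h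
  exact P.hJ_tr ((isAlgebraic_algHom_iff (P.w : F →ₐ[L] F) P.w.injective).mp h)

theorem degree_E : Divisor.degree P.E = 2 * Divisor.degree P.Eb := by
  rw [E_eq, Eb_eq, map_add, map_nsmul, degree_poleDiv P.hJ_tr, degree_poleDiv P.Jr_tr,
    P.finrank_Jr, jb, degree_poleDiv P.hj_tr, P.degree, nsmul_eq_mul]
  push_cast
  ring

/-- the underlying pencil -/
def pencil : Pencil 𝔇 where
  t := P.t
  tb := P.tb
  res_t := P.res_t
  tb_ne := P.tb_ne
  E := P.E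
  hE := fun v => by rw [E, poleDiv_apply, max_comm]
  Eb := P.Eb
  hEb := fun v => by rw [Eb, poleDiv_apply, max_comm]
  deg_eq := P.degree_E

theorem φ_tb : P.φ • P.tb = P.tb := by
  rw [tb, smul_pow', jb, P.hφj]

theorem φ_mem_iff (m : ℕ) (a : F₁) :
    P.φ • a ∈ riemannRochSpace (m • P.Eb) ↔ a ∈ riemannRochSpace (m • P.Eb) :=
  smul_mem_rr_fixed P.φ_tb m a

theorem γ_t : P.γ • (P.t : F) = P.t := by
  rw [coe_t, smul_mul', P.hγJ, P.hγJr]

theorem γ_mem_iff (m : ℕ) (a : F) :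
    P.γ • a ∈ riemannRochSpace (m • P.E) ↔ a ∈ riemannRochSpace (m • P.E) :=
  smul_mem_rr_fixed P.γ_t m a

theorem w_mem_iff (m : ℕ) (a : F) :
    P.w a ∈ riemannRochSpace (m • P.E) ↔ a ∈ riemannRochSpace (m • P.E) :=
  smul_mem_rr_fixed (g := SemilinearAut.ofAlgAut P.w) P.w_t m a

theorem swap_mem_red {m : ℕ} {x : F₁ × F₁} (h : x ∈ 𝔇.red (riemannRochSpace (m • P.E))) :
    x.swap ∈ 𝔇.red (riemannRochSpace (m • P.E)) := by
  obtain ⟨f, hf, rfl⟩ := h
  exact ⟨⟨P.w f, P.hw f⟩, (P.w_mem_iff m f).mpr hf, P.hrw f⟩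

theorem Eb_nonneg : 0 ≤ P.Eb := P.pencil.Eb_nonneg

theorem E_nonneg : 0 ≤ P.E := P.pencil.E_nonneg

theorem rr_le_rr {m m' : ℕ} (h : m ≤ m') :
    riemannRochSpace (m • P.E) ≤ riemannRochSpace (m' • P.E) :=
  Deuring.rr_mono (P.pencil.E_mono h)

theorem rrb_le_rrb {m m' : ℕ} (h : m ≤ m') :
    riemannRochSpace (m • P.Eb) ≤ riemannRochSpace (m' • P.Eb) :=
  Deuring.rr_mono (P.pencil.Eb_mono h)

/-- the lifting property for `Eb` -/
theorem exists_lift : ∃ m₀ : ℕ, ∀ m, m₀ ≤ m → ∀ a ∈ riemannRochSpace (m • P.Eb),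
    ∃ f : 𝔇₀.O, P.i (f : F₀) ∈
      riemannRochSpace ((m * (1 + P.r)) • (poleDiv (P.i (P.j : F₀)) : Divisor L F)) ∧
      𝔇₀.res f = a := by
  obtain ⟨m₀, hm₀⟩ := P.lift
  refine ⟨m₀, fun m hm a ha => ?_⟩
  rw [Eb_eq, smul_smul] at ha
  obtain ⟨f, hf, hfa⟩ := hm₀ (m * (1 + P.r)) (le_trans hm (Nat.le_mul_of_pos_right _ (by omega)))
    a ha
  exact ⟨f, map_mem_rr P.i hf, hfa⟩

theorem mem_Eb_iff {a : F₁} (ha : a ≠ 0) (m : ℕ) :
    a ∈ riemannRochSpace (m • P.Eb) ↔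
      ∀ v : Place k F₁, -(v.ord a) ≤ m * ((1 + P.r) * max (-(v.ord P.jb)) 0) := by
  rw [Deuring.mem_rr_of_ne ha]
  refine forall_congr' fun v => ?_
  rw [Eb_eq, Finsupp.smul_apply, Finsupp.smul_apply, poleDiv_apply, nsmul_eq_mul, nsmul_eq_mul]
  push_cast
  constructor <;> intro h <;> linarith

theorem mem_E_iff {a : F} (ha : a ≠ 0) (m : ℕ) :
    a ∈ riemannRochSpace (m • P.E) ↔
      ∀ v : Place L F, -(v.ord a) ≤ m * (max (-(v.ord (P.i (P.j : F₀)))) 0 +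
        max (-(v.ord (P.w (P.i (P.j : F₀))))) 0) := by
  rw [Deuring.mem_rr_of_ne ha]
  refine forall_congr' fun v => ?_
  rw [E_eq, Finsupp.smul_apply, Finsupp.add_apply, poleDiv_apply, poleDiv_apply, nsmul_eq_mul]
  constructor <;> intro h <;> linarith

theorem J_rr_le (m : ℕ) : riemannRochSpace (m • (poleDiv (P.i (P.j : F₀)) : Divisor L F)) ≤
    riemannRochSpace (m • P.E) := by
  apply Deuring.rr_mono
  apply nsmul_le_nsmul_right
  rw [E_eq]
  exact le_add_of_nonneg_right (poleDiv_nonneg _)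

theorem hS1 (m : ℕ) (a : F₁) (ha : a ∈ riemannRochSpace (m • P.Eb)) :
    ∃ m' : ℕ, (a, P.Fr a) ∈ 𝔇.red (riemannRochSpace (m' • P.E)) := by
  obtain ⟨m₀, hm₀⟩ := P.exists_lift
  obtain ⟨f, hf, rfl⟩ := hm₀ (max m m₀) (le_max_right _ _) a (P.rrb_le_rrb (le_max_left _ _) ha)
  exact ⟨_, ⟨P.i f, P.hi f⟩, P.J_rr_le _ hf, P.hri f⟩

theorem hS2 (m : ℕ) (a : F₁) (ha : a ∈ riemannRochSpace (m • P.Eb)) :
    ∃ m' : ℕ, (P.Fr a, a) ∈ 𝔇.red (riemannRochSpace (m' • P.E)) := by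
  obtain ⟨m', hm'⟩ := P.hS1 m a ha
  exact ⟨m', P.swap_mem_red hm'⟩

theorem hSφ (m : ℕ) (a b : F₁)
    (h : (P.φ • a, P.φ • b) ∈ 𝔇.red (riemannRochSpace (m • P.E))) :
    (a, b) ∈ 𝔇.red (riemannRochSpace (m • P.E)) := by
  obtain ⟨f, hf, hr⟩ := h
  have h1 : P.γ • (P.γ⁻¹ • (f : F)) = f := smul_inv_smul _ _
  refine ⟨⟨P.γ⁻¹ • (f : F), P.hγ f f.2⟩, ?_, ?_⟩
  · rw [← P.γ_mem_iff m]
    show P.γ • (P.γ⁻¹ • (f : F)) ∈ _
    rw [h1]
    exact hf
  · obtain ⟨h2, h3⟩ := P.hrγ ⟨P.γ⁻¹ • (f : F), P.hγ f f.2⟩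
    have h4 : (⟨P.γ • (((⟨P.γ⁻¹ • (f : F), P.hγ f f.2⟩ : 𝔇.O) : F)), h2⟩ : 𝔇.O) = f :=
      Subtype.ext h1
    rw [h4, hr] at h3
    have h5 := congrArg Prod.fst h3
    have h6 := congrArg Prod.snd h3
    simp only at h5 h6
    exact Prod.ext (smul_left_cancel _ h5.symm) (smul_left_cancel _ h6.symm)

theorem Fr_mem {m : ℕ} {a : F₁} (ha : a ∈ riemannRochSpace (m • P.Eb)) :
    P.Fr a ∈ riemannRochSpace ((P.r * m) • P.Eb) := by
  have h1 : P.Fr a = (P.φ⁻¹ • a) ^ P.r := by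
    rw [← P.hFr, smul_inv_smul]
  rw [h1, mul_smul]
  apply Deuring.pow_mem_rr
  rw [← P.φ_mem_iff, smul_inv_smul]
  exact ha

/-- the basic construction for `hSb` -/
theorem exists_one : ∃ m₀ : ℕ, ∀ m, m₀ ≤ m → ∀ a ∈ riemannRochSpace (m • P.Eb),
    ∀ n : ℕ, P.r * (m + 1) ≤ n + 1 → ∃ b ∈ riemannRochSpace ((m + n) • P.Eb),
      (P.tb ^ (n + 1) * a, b) ∈ 𝔇.red (riemannRochSpace ((m + n + 1) • P.E)) := by
  obtain ⟨m₀, hm₀⟩ := P.exists_lift
  refine ⟨m₀, fun m hm a ha n hn => ?_⟩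
  obtain ⟨f, hf, rfl⟩ := hm₀ m hm a ha
  rcases eq_or_ne (f : F₀) 0 with hf0 | hf0
  · refine ⟨0, Submodule.zero_mem _, ?_⟩
    have : f = 0 := Subtype.ext hf0
    rw [this, map_zero, mul_zero]
    exact Submodule.zero_mem _
  have hif0 : P.i (f : F₀) ≠ 0 := (map_ne_zero P.i).mpr hf0
  set N := n + 1 - P.r * (m + 1) with hN
  have hN' : N + P.r * (m + 1) = n + 1 := Nat.sub_add_cancel hn
  set u : 𝔇.O := ⟨P.i f, P.hi f⟩ * (P.Jr ^ (m + n + 2) * P.J ^ N) with hu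
  have hres : 𝔇.res u = (P.tb ^ (n + 1) * 𝔇₀.res f,
      P.Fr (𝔇₀.res f) * (P.jb ^ (m + n + 2) * P.jb ^ (P.r * N))) := by
    rw [hu, map_mul, map_mul, map_pow, map_pow, P.hri, res_J, res_Jr]
    refine Prod.ext ?_ ?_
    · show 𝔇₀.res f * ((P.jb ^ P.r) ^ (m + n + 2) * P.jb ^ N) = _
      rw [tb, ← pow_mul, ← pow_mul, ← pow_add, mul_comm]
      congr 2
      have : P.r * (m + n + 2) + N = P.r * (m + 1) + N + P.r * (n + 1) := by ring
      rw [this, add_comm (P.r * (m + 1)), hN']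
      ring
    · show P.Fr (𝔇₀.res f) * (P.jb ^ (m + n + 2) * (P.jb ^ P.r) ^ N) = _
      rw [← pow_mul]
  refine ⟨_, ?_, u, ?_, hres⟩
  · -- the second component
    rcases eq_or_ne (𝔇₀.res f) 0 with ha0 | ha0
    · rw [ha0, map_zero, zero_mul]
      exact Submodule.zero_mem _
    have hFa := P.Fr_mem ha
    have hFa0 : P.Fr (𝔇₀.res f) ≠ 0 := (map_ne_zero P.Fr).mpr ha0
    rw [P.mem_Eb_iff hFa0] at hFa
    rw [P.mem_Eb_iff (mul_ne_zero hFa0 (mul_ne_zero (pow_ne_zero _ P.jb_ne)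
      (pow_ne_zero _ P.jb_ne)))]
    intro v
    have h1 := hFa v
    rw [v.ord_mul hFa0 (mul_ne_zero (pow_ne_zero _ P.jb_ne) (pow_ne_zero _ P.jb_ne)),
      v.ord_mul (pow_ne_zero _ P.jb_ne) (pow_ne_zero _ P.jb_ne), ord_pow, ord_pow]
    push_cast at h1 ⊢
    have hN'' : (N : ℤ) + P.r * (m + 1) = n + 1 := by exact_mod_cast hN'
    have hr2 : (2 : ℤ) ≤ P.r := by exact_mod_cast P.hr
    set x : ℤ := v.ord P.jb
    set R : ℤ := (P.r : ℤ)
    set M : ℤ := (m : ℤ)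
    have hM : 0 ≤ M := Int.natCast_nonneg m
    have hNN : 0 ≤ (N : ℤ) := Int.natCast_nonneg N
    have hnn : 0 ≤ (n : ℤ) := Int.natCast_nonneg n
    rcases le_total 0 (-x) with hx | hx
    · rw [max_eq_left hx] at h1 ⊢
      have e1 : (N : ℤ) = n + 1 - R * (M + 1) := by linarith
      rw [e1]
      -- total exponent: (1+R)(-x)[(n + M) + 2 - R]
      have key : (1 + R) * (-x) * (2 - R) ≤ 0 := by
        apply mul_nonpos_of_nonneg_of_nonpos
        · apply mul_nonneg _ hx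
          linarith
        · linarith
      nlinarith [key, h1]
    · rw [max_eq_right hx] at h1 ⊢
      have h2 : 0 ≤ (M + n + 2) * x := mul_nonneg (by linarith) (by linarith)
      have h3 : 0 ≤ R * (N : ℤ) * x := mul_nonneg (mul_nonneg (by linarith) hNN) (by linarith)
      linarith
  · -- the poles
    have hu0 : (u : F) = P.i f * (P.w (P.i (P.j : F₀)) ^ (m + n + 2) *
      P.i (P.j : F₀) ^ N) := rfl
    have hune : (u : F) ≠ 0 := by
      rw [hu0]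
      exact mul_ne_zero hif0 (mul_ne_zero (pow_ne_zero _ P.Jr_ne) (pow_ne_zero _ P.J_ne))
    rw [mem_rr_nsmul_poleDiv hif0] at hf
    rw [P.mem_E_iff hune]
    intro v
    have h1 := hf v
    rw [hu0, v.ord_mul hif0 (mul_ne_zero (pow_ne_zero _ P.Jr_ne) (pow_ne_zero _ P.J_ne)),
      v.ord_mul (pow_ne_zero _ P.Jr_ne) (pow_ne_zero _ P.J_ne), ord_pow, ord_pow]
    push_cast at h1 ⊢
    have hN'' : (N : ℤ) + P.r * (m + 1) = n + 1 := by exact_mod_cast hN'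
    have hr2 : (2 : ℤ) ≤ P.r := by exact_mod_cast P.hr
    have hpi := P.pole_iff v
    have hpl := P.pole_le v
    set x : ℤ := v.ord (P.i (P.j : F₀))
    set y : ℤ := v.ord (P.w (P.i (P.j : F₀)))
    set R : ℤ := (P.r : ℤ)
    set M : ℤ := (m : ℤ)
    have hM : 0 ≤ M := Int.natCast_nonneg m
    have hNN : 0 ≤ (N : ℤ) := Int.natCast_nonneg N
    have hnn : 0 ≤ (n : ℤ) := Int.natCast_nonneg n
    by_cases hx : x < 0
    · have hy := hpi.mp hx
      have hle := hpl hx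
      rw [max_eq_left (by linarith)] at h1 ⊢
      rw [max_eq_left (by linarith)]
      have e1 : (N : ℤ) = n + 1 - R * (M + 1) := by linarith
      rw [e1]
      nlinarith [h1, hle]
    · have hy : ¬ y < 0 := fun h => hx (hpi.mpr h)
      push Not at hx hy
      rw [max_eq_right (by linarith)] at h1 ⊢
      rw [max_eq_right (by linarith)]
      have h2 : 0 ≤ (M + n + 2) * y := mul_nonneg (by linarith) hy
      have h3 : 0 ≤ (N : ℤ) * x := mul_nonneg hNN hx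
      linarith

theorem hSb (m : ℕ) (a b : F₁) (ha : a ∈ riemannRochSpace (m • P.Eb))
    (hb : b ∈ riemannRochSpace (m • P.Eb)) :
    ∃ (n : ℕ) (a' b' : F₁), (a', b') ∈ 𝔇.red (riemannRochSpace ((m + n + 1) • P.E)) ∧
      P.tb ^ (n + 1) * a - a' ∈ riemannRochSpace ((m + n) • P.Eb) ∧
      P.tb ^ (n + 1) * b - b' ∈ riemannRochSpace ((m + n) • P.Eb) := by
  obtain ⟨c, hc⟩ := P.exists_one
  have hmul : ∀ x ∈ riemannRochSpace (m • P.Eb), P.tb ^ c * x ∈
      riemannRochSpace ((m + c) • P.Eb) := by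
    intro x hx
    have h1 := Deuring.mul_mem_rr (Deuring.pow_mem_rr P.pencil.tb_mem c) hx
    have h2 : c • P.pencil.Eb + m • P.Eb = (m + c) • P.Eb := by
      rw [add_smul, add_comm]
      rfl
    rw [h2] at h1
    exact h1
  set n' := P.r * (m + c + 1) - 1 with hn'
  have hn'1 : P.r * (m + c + 1) = n' + 1 := by
    have : 0 < P.r * (m + c + 1) := Nat.mul_pos P.r_pos (by omega)
    omega
  obtain ⟨β, hβ, hβ'⟩ := hc (m + c) (by omega) _ (hmul a ha) n' hn'1.le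
  obtain ⟨α, hα, hα'⟩ := hc (m + c) (by omega) _ (hmul b hb) n' hn'1.le
  refine ⟨c + n', P.tb ^ (c + n' + 1) * a + α, β + P.tb ^ (c + n' + 1) * b, ?_, ?_, ?_⟩
  · have h1 := Submodule.add_mem _ hβ' (P.swap_mem_red hα')
    have h2 : m + c + n' + 1 = m + (c + n') + 1 := by ring
    rw [h2] at h1
    have h3 : ((P.tb ^ (n' + 1) * (P.tb ^ c * a), β) +
        (P.tb ^ (n' + 1) * (P.tb ^ c * b), α).swap : F₁ × F₁) =
        (P.tb ^ (c + n' + 1) * a + α, β + P.tb ^ (c + n' + 1) * b) := by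
      refine Prod.ext ?_ ?_
      · show P.tb ^ (n' + 1) * (P.tb ^ c * a) + α = _
        ring
      · show β + P.tb ^ (n' + 1) * (P.tb ^ c * b) = _
        ring
    rw [← h3]
    exact h1
  · rw [sub_add_cancel_left]
    rw [add_assoc] at hα
    exact Submodule.neg_mem _ hα
  · rw [sub_add_cancel_right]
    rw [add_assoc] at hβ
    exact Submodule.neg_mem _ hβ

/-- **The pencil** `t = j · j_r`. -/
def frobPencil : FrobPencil 𝔇 where
  toPencil := P.pencil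
  r := P.r
  hr := P.hr
  Fr := P.Fr
  φ := SemilinearAut.toRingAut P.φ
  hFr := P.hFr
  hφ := P.φ_mem_iff
  hS1 := P.hS1
  hS2 := P.hS2
  hSφ := P.hSφ
  hSb := P.hSb

theorem degree_Eb_pos : 0 < Divisor.degree P.frobPencil.Eb := by
  show 0 < Divisor.degree P.Eb
  haveI := finiteDimensional_adjoin_of_isFF (K := k) P.hj_tr
  have h1 : 0 < finrank k⟮𝔇₀.res P.j⟯ F₁ := Module.finrank_pos
  rw [Eb_eq, map_nsmul, jb, degree_poleDiv P.hj_tr, nsmul_eq_mul]
  push_cast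
  positivity

end PencilData

end Main

end Fermat.Agent.BadRed
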