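import Fermat.Agent.BadRed.CPGauss
import Fermat.Agent.AtkinLehner.Coeff
import Fermat.Agent.TorsInj.Nonspecial
import Fermat.Agent.ModDeg.DegreeClosed

/-!
# The pencil for `X₀(N r)` at `r`
-/

set_option autoImplicit false
set_option linter.unusedSectionVars false

noncomputable section

open AlgebraicCurve Module IntermediateField ModularCurve HahnSeries

namespace Fermat.Agent.BadRed.CP

open Fermat.Agent.FunField Fermat.Agent.Igusa Fermat.Agent.Deuring Fermat.Agent.ModPoly

section DegreeJ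

theorem finrank_adjoin_eq {K Ω : Type*} [Field K] [Field Ω] [Algebra K Ω]
    (B : IntermediateField K Ω) (x : B) :
    Module.finrank K⟮x⟯ B = relfinrank (adjoin K {(x : Ω)}) B := by
  have h1 := finrank_comap (adjoin K {(x : Ω)}) B.val
  have h2 : (adjoin K {(x : Ω)}).comap B.val = K⟮x⟯ := by
    have h3 : (K⟮x⟯).map B.val = adjoin K {(x : Ω)} := by
      rw [adjoin_map, Set.image_singleton]; rfl
    rw [← h3, comap_map]
  rw [h2, fieldRange_val] at h1
  exact h1

variable (K : Type*) [Field K] [IsAlgClosed K]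

theorem finrank_jF (N : ℕ) [NeZero N] (hN : (N : K) ≠ 0) :
    finrank K⟮HeckeRed.jF K N⟯ (modularFunctionFieldFullC K N) = dedekindPsi N := by
  have h1 := finrank_adjoin_eq (modularFunctionFieldFullC K N)
    (HeckeRed.jF K N)
  rw [h1]
  exact ModDeg.relfinrank_full_of_isAlgClosed N hN

theorem relfinrank_j (N : ℕ) (hN : (N : K) ≠ 0) :
    IntermediateField.relfinrank (IntermediateField.adjoin K {jqModC K})
      (modularFunctionFieldFullC K N) = dedekindPsi N :=
  ModDeg.relfinrank_full_of_isAlgClosed N hN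

end DegreeJ

section W

variable {K : Type*} [Field K]

theorem pole_iff_of_involution {F : Type*} [Field F] [Algebra K F] (w : F ≃ₐ[K] F)
    (hww : ∀ f, w (w f) = f) (x : F)
    (h : ∀ v : Place K F, ¬ v.ord x < 0 → ¬ v.ord (w x) < 0) (v : Place K F) :
    v.ord x < 0 ↔ v.ord (w x) < 0 := by
  refine ⟨fun hx => ?_, fun hx => ?_⟩
  · by_contra hcon
    have h1 : ∀ f, ((SemilinearAut.ofAlgAut w)⁻¹ • v).ord f = v.ord (w f) := fun f =>
      (ord_semilinear_smul (SemilinearAut.ofAlgAut w) v f).symm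
    have h2 := h ((SemilinearAut.ofAlgAut w)⁻¹ • v) (by rw [h1]; exact hcon)
    rw [h1, hww] at h2
    exact h2 hx
  · by_contra hcon
    exact h v hcon hx

variable [IsAlgClosed K] {N r : ℕ} [NeZero N] [hr : Fact r.Prime]

/-- `j(q^r)` as an element of the function field of level `N r` -/
def jrF (K : Type*) [Field K] (N r : ℕ) [Fact r.Prime] : modularFunctionFieldFullC K (N * r) :=
  ⟨qExpand K r (jqModC K), jqModCd_mem_full K (N * r) (Dvd.intro_left N rfl)⟩

theorem modularEquation :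
    ((modPolyK K r).map (Polynomial.aeval (HeckeRed.jF K (N * r)) :
      Polynomial K →ₐ[K] _).toRingHom).eval (jrF K N r) = 0 := by
  apply (modularFunctionFieldFullC K (N * r)).val.injective
  rw [map_zero]
  have h1 := HeckeRed.modPolyK_eval K r
  rw [← h1, Polynomial.eval_map, Polynomial.eval_map]
  have h2 := Polynomial.hom_eval₂ (modPolyK K r)
    (Polynomial.aeval (HeckeRed.jF K (N * r)) : Polynomial K →ₐ[K] _).toRingHom
    ((modularFunctionFieldFullC K (N * r)).val : _ →+* LaurentSeries K) (jrF K N r)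
  refine h2.trans ?_
  congr 1
  refine RingHom.ext fun G => ?_
  show (modularFunctionFieldFullC K (N * r)).val (Polynomial.aeval (HeckeRed.jF K (N * r)) G) =
    Polynomial.aeval (jqModC K) G
  rw [← Polynomial.aeval_algHom_apply]
  rfl

theorem jF_pole_reg (v : Place K (modularFunctionFieldFullC K (N * r)))
    (h : ¬ v.ord (HeckeRed.jF K (N * r)) < 0) : ¬ v.ord (jrF K N r) < 0 :=
  ord_root_nonneg v (modPolyK_monic r) modularEquation h

theorem jF_pole_le (hrK : (r : K) ≠ 0) (v : Place K (modularFunctionFieldFullC K (N * r)))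
    (h : v.ord (HeckeRed.jF K (N * r)) < 0) :
    -(v.ord (jrF K N r)) ≤ r * -(v.ord (HeckeRed.jF K (N * r))) :=
  ord_root_le v (modPolyK_monic r) modularEquation
    (fun _ hi => natDegree_coeff_modPolyK_le r hrK hi) h

end W

theorem gaussRes_congr' {L : Type*} [Field L] {A : ValuationSubring L} {κ : Type*} [Field κ]
    {π : A →+* κ} {x y : LaurentSeries L} (h : x = y) (hx : x ∈ gaussRing A π)
    (hy : y ∈ gaussRing A π) : gaussRes A π ⟨x, hx⟩ = gaussRes A π ⟨y, hy⟩ := by
  subst h; rfl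

section Main

variable {L : Type*} [Field L] [IsAlgClosed L] {A : ValuationSubring L} {κ : Type*} [Field κ]
  [IsAlgClosed κ] {π : A →+* κ} [IsLocalHom π] (hπ : Function.Surjective π) {N r : ℕ} [NeZero N]
  [hr : Fact r.Prime] [CharP κ r] (hNL : (N : L) ≠ 0) (hrL : (r : L) ≠ 0) (hrN : ¬ r ∣ N)

/-- the inclusion of the function field of level `N` in the function field of level `N r` -/
def incl (L : Type*) [Field L] (N r : ℕ) [NeZero N] [Fact r.Prime] :
    modularFunctionFieldFullC L N →ₐ[L] modularFunctionFieldFullC L (N * r) :=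
  haveI : NeZero (N * r) := ⟨mul_ne_zero (NeZero.ne N) (Fact.out : r.Prime).ne_zero⟩
  IntermediateField.inclusion (full_degeneracyC_le L (Dvd.intro r rfl))

theorem coe_incl (f : modularFunctionFieldFullC L N) :
    (incl L N r f : LaurentSeries L) = f := IntermediateField.coe_inclusion _ f

/-- A reduction datum for the function field of `X₀(N r)` given by the Gauss valuation and its
transform under the Atkin-Lehner involution. -/
structure IsConc (π : A →+* κ) (hNL : (N : L) ≠ 0) (hrL : (r : L) ≠ 0) (hrN : ¬ r ∣ N)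
    (𝔇 : RData L κ (modularFunctionFieldFullC L (N * r))
      (modularFunctionFieldFullC κ N × modularFunctionFieldFullC κ N)) : Prop where
  mem_O : ∀ f : modularFunctionFieldFullC L (N * r), f ∈ 𝔇.O ↔
    (f : LaurentSeries L) ∈ gaussRing A π ∧
      (AtkinLehner.w hNL hrL hrN f : LaurentSeries L) ∈ gaussRing A π
  res_fst : ∀ (f : modularFunctionFieldFullC L (N * r)) (hf : f ∈ 𝔇.O)
    (h : (f : LaurentSeries L) ∈ gaussRing A π),
    ((𝔇.res ⟨f, hf⟩).1 : LaurentSeries κ) = gaussRes A π ⟨(f : LaurentSeries L), h⟩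
  res_snd : ∀ (f : modularFunctionFieldFullC L (N * r)) (hf : f ∈ 𝔇.O)
    (h : (AtkinLehner.w hNL hrL hrN f : LaurentSeries L) ∈ gaussRing A π),
    ((𝔇.res ⟨f, hf⟩).2 : LaurentSeries κ) =
      gaussRes A π ⟨(AtkinLehner.w hNL hrL hrN f : LaurentSeries L), h⟩

variable {hNL hrL hrN}
variable {𝔇 : RData L κ (modularFunctionFieldFullC L (N * r))
      (modularFunctionFieldFullC κ N × modularFunctionFieldFullC κ N)}

theorem w_incl (f : modularFunctionFieldFullC L N) :
    (AtkinLehner.w hNL hrL hrN (incl L N r f) : LaurentSeries L) = qExpand L r f :=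
  AtkinLehner.w_apply_of_mem hNL hrL hrN f.2 _

namespace IsConc

variable (h𝔇 : IsConc π hNL hrL hrN 𝔇)

include h𝔇

theorem ext_res {f : 𝔇.O} {a b : modularFunctionFieldFullC κ N}
    (h1 : ((𝔇.res f).1 : LaurentSeries κ) = a) (h2 : ((𝔇.res f).2 : LaurentSeries κ) = b) :
    𝔇.res f = (a, b) := Prod.ext (Subtype.ext h1) (Subtype.ext h2)

theorem incl_mem {f : modularFunctionFieldFullC L N}
    (hf : (f : LaurentSeries L) ∈ gaussRing A π) : incl L N r f ∈ 𝔇.O := by
  rw [h𝔇.mem_O, w_incl, coe_incl]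
  exact ⟨hf, qExpand_mem_gaussRing r hf⟩

theorem res_incl {f : modularFunctionFieldFullC L N}
    (hf : (f : LaurentSeries L) ∈ gaussRing A π) {a : modularFunctionFieldFullC κ N}
    (ha : (a : LaurentSeries κ) = gaussRes A π ⟨_, hf⟩) :
    𝔇.res ⟨incl L N r f, h𝔇.incl_mem hf⟩ = (a, frFull κ r N a) := by
  apply h𝔇.ext_res
  · have h1 : (incl L N r f : LaurentSeries L) ∈ gaussRing A π := by
      rw [coe_incl]
      exact hf
    refine (h𝔇.res_fst (incl L N r f) (h𝔇.incl_mem hf) h1).trans ?_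
    rw [ha]
    exact gaussRes_congr' (coe_incl f) _ _
  · have h1 : (AtkinLehner.w hNL hrL hrN (incl L N r f) : LaurentSeries L) ∈ gaussRing A π := by
      rw [w_incl]
      exact qExpand_mem_gaussRing r hf
    refine (h𝔇.res_snd (incl L N r f) (h𝔇.incl_mem hf) h1).trans ?_
    rw [coe_frFull, ha, ← gaussRes_qExpand r ⟨_, hf⟩]
    exact gaussRes_congr' (w_incl f) _ _

theorem w_mem {f : modularFunctionFieldFullC L (N * r)} (hf : f ∈ 𝔇.O) :
    AtkinLehner.w hNL hrL hrN f ∈ 𝔇.O := by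
  have h1 := (h𝔇.mem_O _).mp hf
  rw [h𝔇.mem_O, AtkinLehner.w_w]
  exact ⟨h1.2, h1.1⟩

theorem res_w {f : modularFunctionFieldFullC L (N * r)} (hf : f ∈ 𝔇.O) :
    𝔇.res ⟨AtkinLehner.w hNL hrL hrN f, h𝔇.w_mem hf⟩ = (𝔇.res ⟨f, hf⟩).swap := by
  have h1 := (h𝔇.mem_O _).mp hf
  refine h𝔇.ext_res (a := (𝔇.res ⟨f, hf⟩).2) (b := (𝔇.res ⟨f, hf⟩).1) ?_ ?_
  · exact (h𝔇.res_fst _ (h𝔇.w_mem hf) h1.2).trans (h𝔇.res_snd f hf h1.2).symm
  · have h2 : (AtkinLehner.w hNL hrL hrN (AtkinLehner.w hNL hrL hrN f) : LaurentSeries L) ∈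
        gaussRing A π := by
      rw [AtkinLehner.w_w]
      exact h1.1
    refine (h𝔇.res_snd _ (h𝔇.w_mem hf) h2).trans (Eq.trans ?_ (h𝔇.res_fst f hf h1.1).symm)
    exact gaussRes_congr' (congrArg Subtype.val (AtkinLehner.w_w hNL hrL hrN f)) _ _

end IsConc

/-- the action of a decomposition group element -/
def gal (d : DecAut A π) (N : ℕ) : SemilinearAut L (modularFunctionFieldFullC L N) :=
  coeffAut (N := N) rfl d.σ

theorem coe_gal_smul (d : DecAut A π) (N : ℕ) (x : modularFunctionFieldFullC L N) :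
    ((gal d N • x : modularFunctionFieldFullC L N) : LaurentSeries L) =
      coeffMap (d.σ : L →+* L) (x : LaurentSeries L) := rfl

theorem coe_gal_inv_smul (d : DecAut A π) (N : ℕ) (x : modularFunctionFieldFullC L N) :
    (((gal d N)⁻¹ • x : modularFunctionFieldFullC L N) : LaurentSeries L) =
      coeffMap (d.σ.symm : L →+* L) (x : LaurentSeries L) := rfl

/-- `w` commutes with Galois -/
theorem coe_w_gal (d : DecAut A π) (x : modularFunctionFieldFullC L (N * r)) :
    (AtkinLehner.w hNL hrL hrN (gal d (N * r) • x) : LaurentSeries L) =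
      coeffMap (d.σ : L →+* L) (AtkinLehner.w hNL hrL hrN x : LaurentSeries L) :=
  (AtkinLehner.w_coeffMap hNL hrL hrN hNL hrL (d.σ : L →+* L) x).symm

theorem coe_w_gal_inv (d : DecAut A π) (x : modularFunctionFieldFullC L (N * r)) :
    (AtkinLehner.w hNL hrL hrN ((gal d (N * r))⁻¹ • x) : LaurentSeries L) =
      coeffMap (d.σ.symm : L →+* L) (AtkinLehner.w hNL hrL hrN x : LaurentSeries L) :=
  (AtkinLehner.w_coeffMap hNL hrL hrN hNL hrL (d.σ.symm : L →+* L) x).symm

theorem w_gal (d : DecAut A π) (x : modularFunctionFieldFullC L (N * r)) :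
    AtkinLehner.w hNL hrL hrN (gal d (N * r) • x) = gal d (N * r) • AtkinLehner.w hNL hrL hrN x :=
  Subtype.ext (coe_w_gal d x)

namespace IsConc

variable (h𝔇 : IsConc π hNL hrL hrN 𝔇) (d : DecAut A π)

include h𝔇

theorem gal_mem {f : modularFunctionFieldFullC L (N * r)} (hf : f ∈ 𝔇.O) :
    gal d (N * r) • f ∈ 𝔇.O := by
  rw [h𝔇.mem_O] at hf ⊢
  rw [coe_w_gal]
  exact ⟨d.coeffMap_mem hf.1, d.coeffMap_mem hf.2⟩

theorem gal_inv_mem {f : modularFunctionFieldFullC L (N * r)} (hf : f ∈ 𝔇.O) :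
    (gal d (N * r))⁻¹ • f ∈ 𝔇.O := by
  rw [h𝔇.mem_O] at hf ⊢
  rw [coe_w_gal_inv]
  exact ⟨d.coeffMap_inv_mem hf.1, d.coeffMap_inv_mem hf.2⟩

theorem res_gal {f : modularFunctionFieldFullC L (N * r)} (hf : f ∈ 𝔇.O) :
    𝔇.res ⟨gal d (N * r) • f, h𝔇.gal_mem d hf⟩ =
      (coeffAut (N := N) rfl d.τ • (𝔇.res ⟨f, hf⟩).1,
        coeffAut (N := N) rfl d.τ • (𝔇.res ⟨f, hf⟩).2) := by
  have h0 := (h𝔇.mem_O _).mp hf
  apply h𝔇.ext_res
  · have h1 : ((gal d (N * r) • f : modularFunctionFieldFullC L (N * r)) : LaurentSeries L) ∈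
        gaussRing A π := by
      rw [coe_gal_smul]
      exact d.coeffMap_mem h0.1
    refine (h𝔇.res_fst _ (h𝔇.gal_mem d hf) h1).trans ?_
    rw [coe_coeffAut_smul, h𝔇.res_fst f hf h0.1, ← d.gaussRes_coeffMap ⟨_, h0.1⟩]
    exact gaussRes_congr' (coe_gal_smul d _ f) _ _
  · have h1 : (AtkinLehner.w hNL hrL hrN (gal d (N * r) • f) : LaurentSeries L) ∈
        gaussRing A π := by
      rw [coe_w_gal]
      exact d.coeffMap_mem h0.2
    refine (h𝔇.res_snd _ (h𝔇.gal_mem d hf) h1).trans ?_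
    rw [coe_coeffAut_smul, h𝔇.res_snd f hf h0.2, ← d.gaussRes_coeffMap ⟨_, h0.2⟩]
    exact gaussRes_congr' (coe_w_gal d f) _ _

end IsConc

omit [IsAlgClosed L] [IsAlgClosed κ] [IsLocalHom π] in
theorem gal_jF (d : DecAut A π) (N : ℕ) : gal d N • HeckeRed.jF L N = HeckeRed.jF L N :=
  Subtype.ext (coeffMap_jqModC (d.σ : L →+* L))

end Main

end Fermat.Agent.BadRed.CP
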