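import Fermat.Agent.BadRed.CPLift

/-!
# A constructor for `PencilData`
-/

set_option autoImplicit false

noncomputable section

open AlgebraicCurve Module IntermediateField

namespace Fermat.Agent.BadRed

open Fermat.Agent.FunField Fermat.Agent.FunField.PlaceLemmas Fermat.Agent.Deuring

theorem pole_iff_of_involution {K F : Type*} [Field K] [Field F] [Algebra K F] (w : F ≃ₐ[K] F)
    (hww : ∀ f, w (w f) = f) (x : F)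
    (h : ∀ v : Place K F, ¬ v.ord x < 0 → ¬ v.ord (w x) < 0) (v : Place K F) :
    v.ord x < 0 ↔ v.ord (w x) < 0 := by
  refine ⟨fun hx => ?_, fun hx => ?_⟩
  · by_contra hcon
    have h1 : ∀ f, ((SemilinearAut.ofAlgAut w)⁻¹ • v).ord f = v.ord (w f) := fun f =>
      (ord_semilinear_smul (SemilinearAut.ofAlgAut w) v f).symm
    have h2 := h ((SemilinearAut.ofAlgAut w)⁻¹ • v) (by rw [h1]; exact hcon)
    rw [h1, hww] at h2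
    exact h2 hx
  · by_contra hcon
    exact h v hcon hx

variable {L k F₀ F F₁ : Type*} [Field L] [Field k] [Field F₀] [Field F] [Field F₁]
  [Algebra L F₀] [Algebra L F] [Algebra k F₁] [IsFF L F₀] [IsFF L F] [IsFF k F₁]
  [HasPrincipalDivisors L F₀] [HasPrincipalDivisors k F₁] [Infinite k]

/-- the geometric input for the pencil -/
structure PencilInput (𝔇₀ : Data L k F₀ F₁) (𝔇 : RData L k F (F₁ × F₁)) where
  r : ℕ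
  hr : 1 < r
  Fr : F₁ →ₐ[k] F₁
  φ : SemilinearAut k F₁
  hFr : ∀ a, Fr (φ • a) = a ^ r
  i : F₀ →ₐ[L] F
  w : F ≃ₐ[L] F
  hww : ∀ f, w (w f) = f
  hi : ∀ f ∈ 𝔇₀.O, i f ∈ 𝔇.O
  hri : ∀ f (hf : f ∈ 𝔇₀.O),
    𝔇.res ⟨i f, hi f hf⟩ = (𝔇₀.res ⟨f, hf⟩, Fr (𝔇₀.res ⟨f, hf⟩))
  hw : ∀ f ∈ 𝔇.O, w f ∈ 𝔇.O
  hrw : ∀ f (hf : f ∈ 𝔇.O), 𝔇.res ⟨w f, hw f hf⟩ = (𝔇.res ⟨f, hf⟩).swap
  j₀ : F₀
  hj₀ : j₀ ∈ 𝔇₀.O
  J : F
  Jr : F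
  jb : F₁
  hJ : i j₀ = J
  hJr : w J = Jr
  hjb : 𝔇₀.res ⟨j₀, hj₀⟩ = jb
  hφj : φ • jb = jb
  jb_tr : Transcendental k jb
  J_tr : Transcendental L J
  j₀_tr : Transcendental L j₀
  pole_reg : ∀ v : Place L F, ¬ v.ord J < 0 → ¬ v.ord Jr < 0
  pole_le : ∀ v : Place L F, v.ord J < 0 → -(v.ord Jr) ≤ r * -(v.ord J)
  degree : finrank L⟮J⟯ F = (r + 1) * finrank k⟮jb⟯ F₁
  degree₀ : finrank L⟮j₀⟯ F₀ = finrank k⟮jb⟯ F₁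
  g₀ : ℤ
  hRR : RRLarge L F₀ g₀
  hRR₁ : RRLarge k F₁ g₀
  γ : SemilinearAut L F
  hγ : ∀ f ∈ 𝔇.O, γ • f ∈ 𝔇.O
  hγ' : ∀ f ∈ 𝔇.O, γ⁻¹ • f ∈ 𝔇.O
  hrγ : ∀ f (hf : f ∈ 𝔇.O), 𝔇.res ⟨γ • f, hγ f hf⟩ =
    (φ • (𝔇.res ⟨f, hf⟩).1, φ • (𝔇.res ⟨f, hf⟩).2)
  hγJ : γ • J = J
  hγJr : γ • Jr = Jr

variable {𝔇₀ : Data L k F₀ F₁} {𝔇 : RData L k F (F₁ × F₁)}

/-- the pencil data -/
def PencilInput.toData (P : PencilInput 𝔇₀ 𝔇) : PencilData (RData.ofData 𝔇₀) 𝔇 where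
  r := P.r
  hr := P.hr
  Fr := P.Fr
  φ := P.φ
  hFr := P.hFr
  i := P.i
  w := P.w
  hww := P.hww
  hi := fun f => P.hi f f.2
  hri := fun f => P.hri f f.2
  hw := fun f => P.hw f f.2
  hrw := fun f => P.hrw f f.2
  j := ⟨P.j₀, P.hj₀⟩
  hφj := by
    have h : (RData.ofData 𝔇₀).res ⟨P.j₀, P.hj₀⟩ = P.jb := P.hjb
    rw [h, P.hφj]
  hj_tr := by
    have h : (RData.ofData 𝔇₀).res ⟨P.j₀, P.hj₀⟩ = P.jb := P.hjb
    rw [h]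
    exact P.jb_tr
  hJ_tr := by
    show Transcendental L (P.i P.j₀)
    rw [P.hJ]
    exact P.J_tr
  pole_iff := by
    show ∀ v : Place L F, v.ord (P.i P.j₀) < 0 ↔ v.ord (P.w (P.i P.j₀)) < 0
    rw [P.hJ]
    refine pole_iff_of_involution P.w P.hww P.J ?_
    rw [P.hJr]
    exact P.pole_reg
  pole_le := by
    show ∀ v : Place L F, v.ord (P.i P.j₀) < 0 →
      -(v.ord (P.w (P.i P.j₀))) ≤ P.r * -(v.ord (P.i P.j₀))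
    rw [P.hJ, P.hJr]
    exact P.pole_le
  degree := by
    have h : (RData.ofData 𝔇₀).res ⟨P.j₀, P.hj₀⟩ = P.jb := P.hjb
    rw [h]
    show finrank L⟮P.i P.j₀⟯ F = _
    rw [P.hJ]
    exact P.degree
  lift := by
    have h : (RData.ofData 𝔇₀).res ⟨P.j₀, P.hj₀⟩ = P.jb := P.hjb
    refine exists_lift_poleDiv 𝔇₀ P.hRR P.hRR₁ (j := ⟨P.j₀, P.hj₀⟩) P.j₀_tr ?_ ?_
    · rw [P.hjb]; exact P.jb_tr
    · rw [P.hjb]; exact P.degree₀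
  γ := P.γ
  hγ := P.hγ'
  hrγ := fun f => ⟨P.hγ f f.2, P.hrγ f f.2⟩
  hγJ := by
    show P.γ • (P.i P.j₀) = P.i P.j₀
    rw [P.hJ, P.hγJ]
  hγJr := by
    show P.γ • (P.w (P.i P.j₀)) = P.w (P.i P.j₀)
    rw [P.hJ, P.hJr, P.hγJr]

theorem PencilInput.toData_r (P : PencilInput 𝔇₀ 𝔇) : P.toData.r = P.r := rfl

/-- the pencil -/
def PencilInput.pencil (P : PencilInput 𝔇₀ 𝔇) : FrobPencil 𝔇 := P.toData.frobPencil

theorem PencilInput.pencil_r (P : PencilInput 𝔇₀ 𝔇) : P.pencil.r = P.r := rfl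

theorem PencilInput.pencil_φ (P : PencilInput 𝔇₀ 𝔇) (a : F₁) : P.pencil.φ a = P.φ • a := rfl

theorem PencilInput.pencil_Fr (P : PencilInput 𝔇₀ 𝔇) : P.pencil.Fr = P.Fr := rfl

theorem PencilInput.pencil_t (P : PencilInput 𝔇₀ 𝔇) : (P.pencil.t : F) = P.J * P.Jr := by
  show P.i P.j₀ * P.w (P.i P.j₀) = _
  rw [P.hJ, P.hJr]

theorem PencilInput.pencil_tb (P : PencilInput 𝔇₀ 𝔇) : P.pencil.tb = P.jb ^ (1 + P.r) := by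
  have h : (RData.ofData 𝔇₀).res ⟨P.j₀, P.hj₀⟩ = P.jb := P.hjb
  rw [← h]
  rfl

theorem PencilInput.degree_Eb_pos (P : PencilInput 𝔇₀ 𝔇) : 0 < Divisor.degree P.pencil.Eb :=
  P.toData.degree_Eb_pos

end Fermat.Agent.BadRed
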