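import Fermat.Agent.BadRed.CPConc
import Fermat.Agent.BadRed.CPMk

/-!
# The pencil data for `X₀(N r)` at `r`
-/

set_option autoImplicit false
set_option linter.unusedSectionVars false

noncomputable section

open AlgebraicCurve Module IntermediateField ModularCurve HahnSeries

namespace Fermat.Agent.BadRed.CP

open Fermat.Agent.FunField Fermat.Agent.Igusa Fermat.Agent.Deuring Fermat.Agent.ModPoly

section Main

variable {L : Type*} [Field L] [IsAlgClosed L] {A : ValuationSubring L} {κ : Type*} [Field κ]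
  [IsAlgClosed κ] {π : A →+* κ} [IsLocalHom π] (hπ : Function.Surjective π) {N r : ℕ} [NeZero N]
  [hr : Fact r.Prime] [CharP κ r] {hNL : (N : L) ≠ 0} {hrL : (r : L) ≠ 0} {hrN : ¬ r ∣ N}
  {𝔇 : RData L κ (modularFunctionFieldFullC L (N * r))
      (modularFunctionFieldFullC κ N × modularFunctionFieldFullC κ N)}

/-- a Frobenius element of the decomposition group -/
def IsFrob (d : DecAut A π) (r : ℕ) : Prop := ∀ a : κ, d.τ a = a ^ r

theorem dedekindPsi_pos' (N : ℕ) [NeZero N] : 0 < dedekindPsi N := ModDeg.psi_pos (NeZero.ne N)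

/-- the reduction data at level `N` -/
def data₀ (hNL : (N : L) ≠ 0) (hNκ : (N : κ) ≠ 0) :
    Deuring.Data L κ (modularFunctionFieldFullC L N) (modularFunctionFieldFullC κ N) :=
  fullData A π N hπ (dedekindPsi_pos' N) (relfinrank_j L N hNL) (relfinrank_j κ N hNκ)

variable (hNκ : (N : κ) ≠ 0)

theorem mem_data₀_O {hNκ : (N : κ) ≠ 0} {x : modularFunctionFieldFullC L N} :
    x ∈ (data₀ (N := N) hπ hNL hNκ).O ↔ (x : LaurentSeries L) ∈ gaussRing A π := by
  unfold data₀
  rw [fullData_O, mem_gaussVal_iff]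

theorem data₀_res {hNκ : (N : κ) ≠ 0} {x : modularFunctionFieldFullC L N}
    (hx : x ∈ (data₀ (N := N) hπ hNL hNκ).O) :
    ((data₀ (N := N) hπ hNL hNκ).res ⟨x, hx⟩ : LaurentSeries κ) =
      gaussRes A π ⟨(x : LaurentSeries L), (mem_data₀_O hπ).mp hx⟩ :=
  gaussValRes_apply A π (isTameField_full N) ⟨x, hx⟩

theorem coe_jF (K : Type*) [Field K] (N : ℕ) :
    ((HeckeRed.jF K N : modularFunctionFieldFullC K N) : LaurentSeries K) = jqModC K := rfl

theorem jF_mem_gauss : ((HeckeRed.jF L N : modularFunctionFieldFullC L N) : LaurentSeries L) ∈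
    gaussRing A π := by
  have h1 : ((HeckeRed.jF L N : modularFunctionFieldFullC L N) : LaurentSeries L) =
      coeffMap A.subtype (jqModC A) := (coeffMap_jqModC A.subtype).symm
  rw [h1]
  exact emb_mem_gaussRing _

theorem gaussRes_jF : gaussRes A π
    ⟨((HeckeRed.jF L N : modularFunctionFieldFullC L N) : LaurentSeries L),
      jF_mem_gauss (π := π) (N := N)⟩ = jqModC κ := by
  have h1 : ((HeckeRed.jF L N : modularFunctionFieldFullC L N) : LaurentSeries L) =
      coeffMap A.subtype (jqModC A) := (coeffMap_jqModC A.subtype).symm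
  have h2 := gaussRes_emb (π := π) (jqModC A)
  rw [coeffMap_jqModC π] at h2
  rw [← h2]
  exact gaussRes_congr' h1 _ _

/-- the function `j` as an integral element -/
def j₀ : (data₀ (N := N) hπ hNL hNκ).O :=
  ⟨HeckeRed.jF L N, (mem_data₀_O hπ).mpr (jF_mem_gauss (π := π))⟩

theorem res_j₀ : (data₀ (N := N) hπ hNL hNκ).res (j₀ hπ hNκ) = HeckeRed.jF κ N :=
  Subtype.ext ((data₀_res hπ _).trans (gaussRes_jF (π := π) (N := N)))

theorem incl_jF : incl L N r (HeckeRed.jF L N) = HeckeRed.jF L (N * r) :=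
  Subtype.ext ((coe_incl (r := r) (HeckeRed.jF L N)).trans
    ((coe_jF L N).trans (coe_jF L (N * r)).symm))

theorem w_jF : AtkinLehner.w hNL hrL hrN (HeckeRed.jF L (N * r)) = jrF L N r := by
  rw [← incl_jF]
  exact Subtype.ext (w_incl (HeckeRed.jF L N))

theorem gal_jrF (d : DecAut A π) : gal d (N * r) • jrF L N r = jrF L N r := by
  apply Subtype.ext
  rw [coe_gal_smul]
  show coeffMap _ (qExpand L r (jqModC L)) = qExpand L r (jqModC L)
  rw [coeffMap_qExpand, coeffMap_jqModC]

theorem coeffAut_eq_phiFull {d : DecAut A π} (hd : IsFrob d r) :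
    coeffAut (N := N) (F := modularFunctionFieldFullC κ N) rfl d.τ = phiFull κ r N := by
  have : d.τ = frobeniusEquiv κ r := RingEquiv.ext hd
  rw [this]
  rfl

theorem neZero_mul : NeZero (N * r) := ⟨mul_ne_zero (NeZero.ne N) hr.out.ne_zero⟩

/-- **The pencil data for `X₀(N r)`.** -/
def pencilInput (h𝔇 : IsConc π hNL hrL hrN 𝔇) (hNκ : (N : κ) ≠ 0)
    (hg : genusFF κ (modularFunctionFieldFullC κ N) = genusFF L (modularFunctionFieldFullC L N))
    (d : DecAut A π) (hd : IsFrob d r) :
    haveI : NeZero (N * r) := neZero_mul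
    PencilInput (data₀ (N := N) hπ hNL hNκ) 𝔇 :=
  haveI : NeZero (N * r) := neZero_mul
  { r := r
    hr := hr.out.one_lt
    Fr := frFull κ r N
    φ := phiFull κ r N
    hFr := frFull_phiFull N
    i := incl L N r
    w := AtkinLehner.w hNL hrL hrN
    hww := AtkinLehner.w_w hNL hrL hrN
    hi := fun f hf => h𝔇.incl_mem ((mem_data₀_O hπ).mp hf)
    hri := fun f hf => h𝔇.res_incl ((mem_data₀_O hπ).mp hf) (data₀_res hπ hf)
    hw := fun f hf => h𝔇.w_mem hf
    hrw := fun f hf => h𝔇.res_w hf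
    j₀ := HeckeRed.jF L N
    hj₀ := (mem_data₀_O hπ).mpr (jF_mem_gauss (π := π))
    J := HeckeRed.jF L (N * r)
    Jr := jrF L N r
    jb := HeckeRed.jF κ N
    hJ := incl_jF
    hJr := w_jF
    hjb := res_j₀ hπ hNκ
    hφj := phiFull_jF N
    jb_tr := HeckeRed.transcendental_jF κ N
    J_tr := HeckeRed.transcendental_jF L (N * r)
    j₀_tr := HeckeRed.transcendental_jF L N
    pole_reg := jF_pole_reg
    pole_le := jF_pole_le hrL
    degree := by
      rw [finrank_jF κ N hNκ, finrank_jF L (N * r) (by rw [Nat.cast_mul]; exact mul_ne_zero hNL hrL),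
        ModDeg.psi_mul_prime_of_not_dvd hr.out hrN, mul_comm]
    degree₀ := by
      rw [finrank_jF κ N hNκ, finrank_jF L N hNL]
    g₀ := genusFF L (modularFunctionFieldFullC L N)
    hRR := TorsInj.rrLarge_genusFF
    hRR₁ := by
      rw [← hg]
      exact TorsInj.rrLarge_genusFF
    γ := gal d (N * r)
    hγ := fun f hf => h𝔇.gal_mem d hf
    hγ' := fun f hf => h𝔇.gal_inv_mem d hf
    hrγ := fun f hf => by rw [h𝔇.res_gal d hf, coeffAut_eq_phiFull hd]
    hγJ := gal_jF d (N * r)
    hγJr := gal_jrF d }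

end Main

end Fermat.Agent.BadRed.CP
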