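import Fermat.Agent.BadRed.Conc4

/-!
# Galois elements for the two valuations of `X₀(N r)`
-/

set_option autoImplicit false

noncomputable section

open HahnSeries ModularCurve Module Polynomial AlgebraicCurve

namespace Fermat.Agent.BadRed

open Fermat.Agent.Igusa Fermat.Agent.AtkinLehner

section Coeff

variable {K : Type*} [Field K]

/-- coefficientwise action on `F_M` -/
def coeffEquiv (σ : K ≃+* K) (M : ℕ) :
    modularFunctionFieldFullC K M ≃+* modularFunctionFieldFullC K M where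
  toFun x := ⟨coeffMap (σ : K →+* K) (x : LaurentSeries K), ModDeg.coeffMap_mem_full _ x.2⟩
  invFun x := ⟨coeffMap (σ.symm : K →+* K) (x : LaurentSeries K),
    ModDeg.coeffMap_mem_full _ x.2⟩
  left_inv x := Subtype.ext <| by
    show coeffMap (σ.symm : K →+* K) (coeffMap (σ : K →+* K) (x : LaurentSeries K))
      = (x : LaurentSeries K)
    ext n
    rw [coeffMap_coeff, coeffMap_coeff]
    exact σ.symm_apply_apply _
  right_inv x := Subtype.ext <| by
    show coeffMap (σ : K →+* K) (coeffMap (σ.symm : K →+* K) (x : LaurentSeries K))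
      = (x : LaurentSeries K)
    ext n
    rw [coeffMap_coeff, coeffMap_coeff]
    exact σ.apply_symm_apply _
  map_mul' x y :=
    Subtype.ext (map_mul (coeffMap (σ : K →+* K)) (x : LaurentSeries K) (y : LaurentSeries K))
  map_add' x y :=
    Subtype.ext (map_add (coeffMap (σ : K →+* K)) (x : LaurentSeries K) (y : LaurentSeries K))

@[simp] theorem coe_coeffEquiv (σ : K ≃+* K) (M : ℕ) (x : modularFunctionFieldFullC K M) :
    ((coeffEquiv σ M x : modularFunctionFieldFullC K M) : LaurentSeries K) =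
      coeffMap (σ : K →+* K) (x : LaurentSeries K) := rfl

end Coeff

section GaussSigma

variable {L : Type*} [Field L] {A : ValuationSubring L}
  {κ : Type*} [Field κ] {π : A →+* κ} {σ : L →+* L} (hσ : ∀ a ∈ A, σ a ∈ A)
  {s : κ →+* κ} (hs : ∀ a : A, π ⟨σ a, hσ a a.2⟩ = s (π a))

/-- restriction to the valuation ring -/
def sigmaA (hσ : ∀ a ∈ A, σ a ∈ A) : A →+* A :=
  (σ.comp A.subtype).codRestrict A (fun a => hσ a a.2)

include hs in
theorem gauss_sigma {x : LaurentSeries L} (hx : x ∈ gaussRing A π) :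
    ∃ h : coeffMap σ x ∈ gaussRing A π,
      gaussRes A π ⟨coeffMap σ x, h⟩ = coeffMap s (gaussRes A π ⟨x, hx⟩) := by
  obtain ⟨P, Q, hQ, hPQ⟩ := mem_gaussRing_iff.mp hx
  have h1 : ∀ P : LaurentSeries A, coeffMap σ (coeffMap A.subtype P) =
      coeffMap A.subtype (coeffMap (sigmaA hσ) P) := fun P => by
    ext n
    rfl
  have h2 : ∀ P : LaurentSeries A, coeffMap π (coeffMap (sigmaA hσ) P) =
      coeffMap s (coeffMap π P) := fun P => by
    ext n
    exact hs _
  have hQ' : coeffMap π (coeffMap (sigmaA hσ) Q) ≠ 0 := by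
    rw [h2]
    intro h
    exact hQ (coeffMap_injective_of_injective s.injective (h.trans (map_zero _).symm))
  have h3 : coeffMap σ x * coeffMap A.subtype (coeffMap (sigmaA hσ) Q) =
      coeffMap A.subtype (coeffMap (sigmaA hσ) P) := by
    rw [← h1, ← h1, ← hPQ, map_mul]
  have h4 : coeffMap σ x ∈ gaussRing A π := mem_gaussRing_iff.mpr ⟨_, _, hQ', h3⟩
  refine ⟨h4, ?_⟩
  rw [gaussRes_eq (⟨_, h4⟩ : gaussRing A π) hQ' h3,
    gaussRes_eq (⟨x, hx⟩ : gaussRing A π) hQ hPQ, map_div₀, h2, h2]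

end GaussSigma

variable {L : Type*} [Field L] [IsAlgClosed L] [CharZero L] (A : ValuationSubring L)
  {κ : Type*} [Field κ] (π : A →+* κ) [IsLocalHom π] (hπ : Function.Surjective π)
  (harch : ArchA π)
  (N r : ℕ) [hr : Fact r.Prime] [hN : NeZero N] [CharP κ r] (hrN : ¬ r ∣ N)
  {σ : L ≃+* L} (hσ : ∀ a, a ∈ A ↔ σ a ∈ A)
  {s : κ ≃+* κ} (hs : ∀ a : A, π ⟨σ a, (hσ a).mp a.2⟩ = s (π a))
  {g : SemilinearAut L (modularFunctionFieldFullC L (N * r))}
  (hg : ∀ x : modularFunctionFieldFullC L (N * r),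
    ((g • x : modularFunctionFieldFullC L (N * r)) : LaurentSeries L) =
      coeffMap (σ : L →+* L) (x : LaurentSeries L))

include hg in
/-- `w` commutes with the coefficientwise action. -/
theorem ww_smul (x : modularFunctionFieldFullC L (N * r)) :
    ww L N r hrN (g • x) = g • ww L N r hrN x := by
  let f₁ : modularFunctionFieldFullC L (N * r) →+* modularFunctionFieldFullC L (N * r) :=
    ((ww L N r hrN).toAlgHom.toRingHom).comp (SemilinearAut.toRingAut g : _ →+* _)
  let f₂ : modularFunctionFieldFullC L (N * r) →+* modularFunctionFieldFullC L (N * r) :=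
    (SemilinearAut.toRingAut g : _ →+* _).comp ((ww L N r hrN).toAlgHom.toRingHom)
  have hgj : ∀ (d : ℕ) (h : ModDeg.vj L d ∈ modularFunctionFieldFullC L (N * r)),
      g • (⟨ModDeg.vj L d, h⟩ : modularFunctionFieldFullC L (N * r)) = ⟨ModDeg.vj L d, h⟩ := by
    intro d h
    apply Subtype.ext
    rw [hg]
    exact ModDeg.coeffMap_vj (σ : L →+* L) d
  have h12 : f₁ = f₂ := by
    refine ringHom_ext f₁ f₂ (fun c => ?_) (fun d hd hd0 => ?_)
    · show ww L N r hrN (g • algebraMap L _ c) = g • ww L N r hrN (algebraMap L _ c)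
      rw [SemilinearAut.smul_algebraMap, AlgEquiv.commutes, AlgEquiv.commutes,
        SemilinearAut.smul_algebraMap]
    · show ww L N r hrN (g • (⟨ModDeg.vj L d, _⟩ : modularFunctionFieldFullC L (N * r))) =
        g • ww L N r hrN (⟨ModDeg.vj L d, _⟩ : modularFunctionFieldFullC L (N * r))
      rw [hgj]
      rcases dvd_mul_prime_cases hr.out hd with hd1 | ⟨e, he, rfl⟩
      · have e1 : ww L N r hrN ⟨ModDeg.vj L d, ModDeg.vj_mem_full L hd0 hd⟩ =
            ⟨ModDeg.vj L (d * r), ModDeg.vj_mem_full L (mul_ne_zero hd0 hr.out.ne_zero)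
              (Nat.mul_dvd_mul_right hd1 r)⟩ := Subtype.ext (w_vj _ _ _ hd1 _)
        rw [e1, hgj]
      · have he0 : e ≠ 0 := left_ne_zero_of_mul hd0
        have e1 : ww L N r hrN ⟨ModDeg.vj L (e * r), ModDeg.vj_mem_full L hd0 hd⟩ =
            ⟨ModDeg.vj L e, ModDeg.vj_mem_full L he0 (he.trans (Dvd.intro r rfl))⟩ :=
          Subtype.ext (w_vj_mul _ _ _ he _)
        rw [e1, hgj]
  exact DFunLike.congr_fun h12 x

omit [IsAlgClosed L] [CharZero L] [IsLocalHom π] hr hN [CharP κ r] in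
include hg hs in
theorem smul_mem_O₁ {f : modularFunctionFieldFullC L (N * r)} (hf : f ∈ O₁ A π N r) :
    ∃ h : g • f ∈ O₁ A π N r,
      res₁ A π N r ⟨g • f, h⟩ = coeffMap (s : κ →+* κ) (res₁ A π N r ⟨f, hf⟩) := by
  obtain ⟨h1, e1⟩ := gauss_sigma (A := A) (π := π) (σ := (σ : L →+* L)) (s := (s : κ →+* κ))
    (fun a ha => (hσ a).mp ha) hs (x := (f : LaurentSeries L)) hf
  have h2 : g • f ∈ O₁ A π N r := by
    rw [mem_O₁, hg]
    exact h1
  refine ⟨h2, ?_⟩
  have h3 : res₁ A π N r ⟨g • f, h2⟩ =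
      gaussRes A π ⟨coeffMap (σ : L →+* L) (f : LaurentSeries L), h1⟩ :=
    gaussRes_congr (hg f)
  rw [h3]
  exact e1

omit [IsAlgClosed L] [CharZero L] [IsLocalHom π] hr hN [CharP κ r] in
include hg hs in
theorem mem_O₁_of_smul {f : modularFunctionFieldFullC L (N * r)} (hf : g • f ∈ O₁ A π N r) :
    f ∈ O₁ A π N r := by
  have hσ' : ∀ a ∈ A, σ.symm a ∈ A := fun a ha => by
    rw [hσ, σ.apply_symm_apply]; exact ha
  have hs' : ∀ a : A, π ⟨σ.symm a, hσ' a a.2⟩ = s.symm (π a) := by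
    intro a
    apply s.injective
    rw [s.apply_symm_apply, ← hs]
    congr 1
    exact Subtype.ext (σ.apply_symm_apply _)
  obtain ⟨h1, -⟩ := gauss_sigma (A := A) (π := π) (σ := (σ.symm : L →+* L))
    (s := (s.symm : κ →+* κ)) hσ' hs' (x := ((g • f : modularFunctionFieldFullC L (N * r)) :
      LaurentSeries L)) hf
  rw [mem_O₁]
  have h2 : coeffMap (σ.symm : L →+* L) ((g • f : modularFunctionFieldFullC L (N * r)) :
      LaurentSeries L) = f := by
    rw [hg]
    ext n
    rw [coeffMap_coeff, coeffMap_coeff]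
    exact σ.symm_apply_apply _
  rw [h2] at h1
  exact h1

omit [IsAlgClosed L] [CharZero L] [IsLocalHom π] hr hN [CharP κ r] in
theorem res₁_congr {x y : modularFunctionFieldFullC L (N * r)} (h : x = y)
    (hx : x ∈ O₁ A π N r) (hy : y ∈ O₁ A π N r) :
    res₁ A π N r ⟨x, hx⟩ = res₁ A π N r ⟨y, hy⟩ := by
  subst h
  rfl

include hg hs in
theorem smul_mem_O₂ {f : modularFunctionFieldFullC L (N * r)} (hf : f ∈ O₂ A π N r hrN) :
    ∃ h : g • f ∈ O₂ A π N r hrN,
      res₂ A π N r hrN ⟨g • f, h⟩ = coeffMap (s : κ →+* κ) (res₂ A π N r hrN ⟨f, hf⟩) := by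
  have h2 : ww L N r hrN f ∈ O₁ A π N r := hf
  obtain ⟨h3, e3⟩ := smul_mem_O₁ A π N r hσ hs hg h2
  have h1 : ww L N r hrN (g • f) = g • ww L N r hrN f := ww_smul N r hrN hg f
  have h5 : ww L N r hrN (g • f) ∈ O₁ A π N r := by rw [h1]; exact h3
  have h6 : g • f ∈ O₂ A π N r hrN := h5
  refine ⟨h6, ?_⟩
  rw [res₂_eq A π N r hrN h6 h5, res₁_congr A π N r h1 h5 h3, e3, res₂_eq A π N r hrN hf h2]

include hg hs in
theorem mem_O₂_of_smul {f : modularFunctionFieldFullC L (N * r)}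
    (hf : g • f ∈ O₂ A π N r hrN) : f ∈ O₂ A π N r hrN := by
  have h1 : ww L N r hrN (g • f) = g • ww L N r hrN f := ww_smul N r hrN hg f
  have h2 : ww L N r hrN (g • f) ∈ O₁ A π N r := hf
  rw [h1] at h2
  exact mem_O₁_of_smul A π N r hσ hs hg h2

/-- **Galois elements for `twoVal`.** -/
def galV : TwoVal.GalV (twoVal A π hπ harch N r hrN) where
  g := g
  σ := coeffEquiv s N
  h₁ f := ⟨fun h => (smul_mem_O₁ A π N r hσ hs hg h).1,
    fun h => mem_O₁_of_smul A π N r hσ hs hg h⟩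
  h₂ f := ⟨fun h => (smul_mem_O₂ A π N r hrN hσ hs hg h).1,
    fun h => mem_O₂_of_smul A π N r hrN hσ hs hg h⟩
  r₁ f := Subtype.ext (smul_mem_O₁ A π N r hσ hs hg f.2).2
  r₂ f := Subtype.ext (smul_mem_O₂ A π N r hrN hσ hs hg f.2).2

end Fermat.Agent.BadRed
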