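import Fermat.Agent.BadRed.CPData
import Fermat.Agent.BadRed.Conc5

/-!
# The pencil for `(twoVal A π hπ harch N r hrN).toRData` and the standing hypotheses
-/

set_option autoImplicit false
set_option linter.unusedSectionVars false

noncomputable section

open AlgebraicCurve Module IntermediateField ModularCurve HahnSeries

namespace Fermat.Agent.BadRed.CP

open Fermat.Agent.FunField Fermat.Agent.Igusa Fermat.Agent.Deuring

variable {L : Type*} [Field L] [IsAlgClosed L] [CharZero L] (A : ValuationSubring L)
  {κ : Type*} [Field κ] [IsAlgClosed κ] (π : A →+* κ) [IsLocalHom π] (hπ : Function.Surjective π)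
  (harch : ArchA π)
  (N r : ℕ) [hr : Fact r.Prime] [hN : NeZero N] [CharP κ r] (hrN : ¬ r ∣ N)

theorem isConc_twoVal : IsConc π (cast_ne_zero_L L N) (cast_ne_zero_Lr L r) hrN
    (twoVal A π hπ harch N r hrN).toRData where
  mem_O _ := Iff.rfl
  res_fst f hf h := coe_VV₁_r A π hπ harch N r hrN hf.1 h
  res_snd f hf h := coe_VV₂_r A π hπ harch N r hrN hf.2 h

variable (hg : genusFF κ (modularFunctionFieldFullC κ N) =
    genusFF L (modularFunctionFieldFullC L N))
  (d : DecAut A π) (hd : IsFrob d r)

/-- **The pencil of `X₀(N r)` at `r`.** -/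
def pen : FrobPencil (twoVal A π hπ harch N r hrN).toRData :=
  haveI : NeZero (N * r) := neZero_mul
  (pencilInput hπ (isConc_twoVal A π hπ harch N r hrN) (cast_ne_zero_κ N r hrN κ) hg d hd).pencil

theorem pen_r : (pen A π hπ harch N r hrN hg d hd).r = r := rfl

theorem pen_φ (a : modularFunctionFieldFullC κ N) :
    (((pen A π hπ harch N r hrN hg d hd).φ a : modularFunctionFieldFullC κ N) :
      LaurentSeries κ) = coeffMap (frobenius κ r) (a : LaurentSeries κ) := rfl

theorem pen_Fr (a : modularFunctionFieldFullC κ N) :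
    (((pen A π hπ harch N r hrN hg d hd).Fr a : modularFunctionFieldFullC κ N) :
      LaurentSeries κ) = qExpand κ r (a : LaurentSeries κ) := rfl

theorem pen_t : ((pen A π hπ harch N r hrN hg d hd).t : modularFunctionFieldFullC L (N * r)) =
    HeckeRed.jF L (N * r) * jrF L N r := by
  haveI : NeZero (N * r) := neZero_mul
  exact PencilInput.pencil_t _

theorem pen_tb : (pen A π hπ harch N r hrN hg d hd).tb = HeckeRed.jF κ N ^ (1 + r) := by
  haveI : NeZero (N * r) := neZero_mul
  exact PencilInput.pencil_tb _

/-- coefficientwise semilinear automorphisms fix the pencil -/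
theorem smul_pen_t {σ : L ≃+* L} {g : SemilinearAut L (modularFunctionFieldFullC L (N * r))}
    (hg' : ∀ x : modularFunctionFieldFullC L (N * r),
      ((g • x : modularFunctionFieldFullC L (N * r)) : LaurentSeries L) =
        coeffMap (σ : L →+* L) (x : LaurentSeries L)) :
    g • ((pen A π hπ harch N r hrN hg d hd).t : modularFunctionFieldFullC L (N * r)) =
      (pen A π hπ harch N r hrN hg d hd).t := by
  rw [pen_t, smul_mul']
  congr 1
  · apply Subtype.ext
    rw [hg']
    exact coeffMap_jqModC _
  · apply Subtype.ext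
    rw [hg']
    show coeffMap _ (qExpand L r (jqModC L)) = qExpand L r (jqModC L)
    rw [coeffMap_qExpand, coeffMap_jqModC]

/-- **The standing hypotheses.** -/
theorem pen_hyp : haveI : NeZero (N * r) := neZero_mul
    (pen A π hπ harch N r hrN hg d hd).Hyp
      (genusFF L (modularFunctionFieldFullC L (N * r)))
      (genusFF κ (modularFunctionFieldFullC κ N)) := by
  haveI : NeZero (N * r) := neZero_mul
  refine ⟨TorsInj.rrLarge_genusFF, TorsInj.rrLarge_genusFF, ?_, ?_, harch⟩
  · exact PencilInput.degree_Eb_pos _
  · refine ⟨(r : A), ?_, ?_⟩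
    · have : ((r : A) : L) = (r : L) := by push_cast; rfl
      rw [this]
      exact cast_ne_zero_Lr L r
    · show π (r : A) = 0
      rw [map_natCast]
      exact CharP.cast_eq_zero κ r

end Fermat.Agent.BadRed.CP
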