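import Fermat.Prelude.Def_ModularCurve_X0ModL
import Fermat.Prelude.Def_ModularCurve_LaurentCoeff
import Mathlib

/-!
# Frobenius on Laurent series: `f ^ p = (φ f)(q ^ p)`
-/

set_option autoImplicit false

noncomputable section

open HahnSeries ModularCurve

namespace Fermat.Agent.BadRed

variable (κ : Type*) [Field κ] (p : ℕ) [hp : Fact p.Prime]

instance neZero_of_fact : NeZero p := ⟨hp.out.ne_zero⟩

variable [CharP κ p]

theorem powerSeries_frobenius (g : PowerSeries κ) (m : ℕ) :
    (g ^ p).coeff (p * m) = (g.coeff m) ^ p := by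
  have h := MvPowerSeries.map_frobenius_expand (σ := Unit) (R := κ) p hp.out.ne_zero (f := g)
  have h2 : PowerSeries.map (frobenius κ p) (PowerSeries.expand p hp.out.ne_zero g) = g ^ p := h
  rw [← h2, PowerSeries.coeff_map, PowerSeries.coeff_expand_mul]
  rfl

theorem powerSeries_frobenius_not_dvd (g : PowerSeries κ) {m : ℕ} (hm : ¬ p ∣ m) :
    (g ^ p).coeff m = 0 := by
  have h := MvPowerSeries.map_frobenius_expand (σ := Unit) (R := κ) p hp.out.ne_zero (f := g)
  have h2 : PowerSeries.map (frobenius κ p) (PowerSeries.expand p hp.out.ne_zero g) = g ^ p := h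
  rw [← h2, PowerSeries.coeff_map, PowerSeries.coeff_expand_of_not_dvd _ _ _ hm, map_zero]

theorem qExpand_frobenius_powerSeries (g : PowerSeries κ) :
    qExpand κ p (coeffMap (frobenius κ p) (ofPowerSeries ℤ κ g)) = (ofPowerSeries ℤ κ g) ^ p := by
  rw [← map_pow]
  ext m
  by_cases hm : (p : ℤ) ∣ m
  · obtain ⟨m', rfl⟩ := hm
    rw [qExpand_coeff_mul, coeffMap_coeff]
    have hp0 : (0 : ℤ) < p := by exact_mod_cast hp.out.pos
    rcases lt_or_ge m' 0 with h0 | h0
    · rw [PowerSeries.coeff_coe, PowerSeries.coeff_coe, if_pos h0,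
        if_pos (mul_neg_of_pos_of_neg hp0 h0), map_zero]
    · obtain ⟨m'', rfl⟩ := Int.eq_ofNat_of_zero_le h0
      rw [show (p : ℤ) * (m'' : ℤ) = ((p * m'' : ℕ) : ℤ) by push_cast; ring]
      rw [ofPowerSeries_apply_coeff, ofPowerSeries_apply_coeff, powerSeries_frobenius]
      rfl
  · rw [qExpand_coeff_of_not_dvd _ _ hm]
    rcases lt_or_ge m 0 with h0 | h0
    · rw [PowerSeries.coeff_coe, if_pos h0]
    · obtain ⟨m'', rfl⟩ := Int.eq_ofNat_of_zero_le h0
      rw [ofPowerSeries_apply_coeff, powerSeries_frobenius_not_dvd]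
      intro h
      exact hm (by exact_mod_cast h)

/-- `f ^ p = (φ f)(q ^ p)`. -/
theorem qExpand_frobenius (f : LaurentSeries κ) :
    qExpand κ p (coeffMap (frobenius κ p) f) = f ^ p := by
  rw [← LaurentSeries.single_order_mul_powerSeriesPart f, map_mul, map_mul, mul_pow,
    qExpand_frobenius_powerSeries, coeffMap_single, qExpand_single, map_one,
    HahnSeries.single_pow, one_pow, nsmul_eq_mul]

/-- `f(q^p) = f^p` for series with coefficients in the prime field -/
theorem qExpand_eq_pow {f : LaurentSeries κ} (g : LaurentSeries ℤ)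
    (hf : f = coeffMap (Int.castRingHom κ) g) : qExpand κ p f = f ^ p := by
  rw [← qExpand_frobenius κ p f]
  congr 1
  ext m
  rw [hf, coeffMap_coeff, coeffMap_coeff]
  simp

theorem jq_pow : (jqModC κ) ^ p = qExpand κ p (jqModC κ) :=
  (qExpand_eq_pow κ p (jqModC ℤ) (coeffMap_jqModC _).symm).symm

end Fermat.Agent.BadRed
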