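import Fermat.Agent.BadRed.CPLift
import Fermat.Agent.BadRed.FrobLaurent
import Fermat.Agent.HeckeRed.FF

/-!
# Frobenius maps on the modular function fields in characteristic `r`
-/

set_option autoImplicit false

noncomputable section

open AlgebraicCurve Module IntermediateField ModularCurve HahnSeries

namespace Fermat.Agent.BadRed.CP

section Laurent

variable {κ : Type*} [Field κ] {r : ℕ} [hr : Fact r.Prime] [CharP κ r]

theorem coeffMap_frobenius_jqModC : coeffMap (frobenius κ r) (jqModC κ) = jqModC κ :=
  coeffMap_jqModC _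

/-- `j(q^r) = j(q)^r` in characteristic `r`. -/
theorem qExpand_jqModC : qExpand κ r (jqModC κ) = jqModC κ ^ r := (jq_pow κ r).symm

end Laurent

section CoeffAut

variable {K : Type*} [Field K]

theorem coeffMap_mem_full {N : ℕ} (τ : K ≃+* K) {x : LaurentSeries K}
    (hx : x ∈ modularFunctionFieldFullC K N) :
    coeffMap (τ : K →+* K) x ∈ modularFunctionFieldFullC K N := by
  rw [modularFunctionFieldFullC] at hx
  induction hx using IntermediateField.adjoin_induction with
  | mem y hy =>
    obtain ⟨d, hd, hdN, rfl⟩ := hy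
    rw [coeffMap_qExpand, coeffMap_jqModC]
    exact jqModCd_mem_full K N hdN
  | algebraMap y =>
    rw [coeffMap_algebraMap]
    exact IntermediateField.algebraMap_mem _ _
  | add x y hx hy ihx ihy => rw [map_add]; exact add_mem ihx ihy
  | inv x hx ih => rw [map_inv₀]; exact inv_mem ih
  | mul x y hx hy ihx ihy => rw [map_mul]; exact mul_mem ihx ihy

variable {N : ℕ} {F : IntermediateField K (LaurentSeries K)}
  (hF : F = modularFunctionFieldFullC K N)

include hF in
theorem coeffMap_mem_of_eq (τ : K ≃+* K) {x : LaurentSeries K} (hx : x ∈ F) :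
    coeffMap (τ : K →+* K) x ∈ F := by
  subst hF
  exact coeffMap_mem_full τ hx

/-- coefficientwise action of a field automorphism on a modular function field. -/
def coeffRingAut (τ : K ≃+* K) : F ≃+* F where
  toFun x := ⟨coeffMap (τ : K →+* K) (x : LaurentSeries K), coeffMap_mem_of_eq hF τ x.2⟩
  invFun x := ⟨coeffMap (τ.symm : K →+* K) (x : LaurentSeries K),
    coeffMap_mem_of_eq hF τ.symm x.2⟩
  left_inv x := Subtype.ext <| by
    show coeffMap (τ.symm : K →+* K) (coeffMap (τ : K →+* K) (x : LaurentSeries K)) = x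
    rw [coeffMap_coeffMap, coeffMap_congr (g := RingHom.id K)
      (RingHom.ext fun a => τ.symm_apply_apply a), coeffMap_id]
  right_inv x := Subtype.ext <| by
    show coeffMap (τ : K →+* K) (coeffMap (τ.symm : K →+* K) (x : LaurentSeries K)) = x
    rw [coeffMap_coeffMap, coeffMap_congr (g := RingHom.id K)
      (RingHom.ext fun a => τ.apply_symm_apply a), coeffMap_id]
  map_mul' x y := Subtype.ext (map_mul (coeffMap (τ : K →+* K)) _ _)
  map_add' x y := Subtype.ext (map_add (coeffMap (τ : K →+* K)) _ _)

/-- coefficientwise action of a field automorphism, as a semilinear automorphism. -/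
def coeffAut (τ : K ≃+* K) : SemilinearAut K F :=
  ⟨(coeffRingAut hF τ, τ), fun a => Subtype.ext (coeffMap_algebraMap (τ : K →+* K) a)⟩

theorem coe_coeffAut_smul (τ : K ≃+* K) (x : F) :
    ((coeffAut hF τ • x : F) : LaurentSeries K) =
      coeffMap (τ : K →+* K) (x : LaurentSeries K) := rfl

theorem coe_coeffAut_inv_smul (τ : K ≃+* K) (x : F) :
    (((coeffAut hF τ)⁻¹ • x : F) : LaurentSeries K) =
      coeffMap (τ.symm : K →+* K) (x : LaurentSeries K) := rfl

end CoeffAut

section Frob

set_option linter.unusedSectionVars false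

variable {κ : Type*} [Field κ] {r : ℕ} [hr : Fact r.Prime] [CharP κ r]

theorem qExpand_mem_full {N : ℕ} {x : LaurentSeries κ} (hx : x ∈ modularFunctionFieldFullC κ N) :
    qExpand κ r x ∈ modularFunctionFieldFullC κ N := by
  rw [modularFunctionFieldFullC] at hx
  induction hx using IntermediateField.adjoin_induction with
  | mem y hy =>
    obtain ⟨d, hd, hdN, rfl⟩ := hy
    haveI : NeZero (r * d) := ⟨mul_ne_zero hr.out.ne_zero hd.ne⟩
    haveI : NeZero (d * r) := ⟨mul_ne_zero hd.ne hr.out.ne_zero⟩
    have h1 : qExpand κ r (qExpand κ d (jqModC κ)) = (qExpand κ d (jqModC κ)) ^ r := by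
      rw [qExpand_qExpand, qExpand_congr (mul_comm r d), ← qExpand_qExpand, qExpand_jqModC, map_pow]
    rw [h1]
    exact pow_mem (jqModCd_mem_full κ N hdN) r
  | algebraMap y =>
    have : qExpand κ r (algebraMap κ (LaurentSeries κ) y) = algebraMap κ (LaurentSeries κ) y :=
      (qExpandAlgHomC κ r).commutes y
    rw [this]
    exact IntermediateField.algebraMap_mem _ _
  | add x y hx hy ihx ihy => rw [map_add]; exact add_mem ihx ihy
  | inv x hx ih => rw [map_inv₀]; exact inv_mem ih
  | mul x y hx hy ihx ihy => rw [map_mul]; exact mul_mem ihx ihy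

variable (κ r) in
/-- The `κ`-linear Frobenius `f(q) ↦ f(q^r)` on the modular function field in characteristic `r`. -/
def frFull (N : ℕ) : modularFunctionFieldFullC κ N →ₐ[κ] modularFunctionFieldFullC κ N :=
  ((qExpandAlgHomC κ r).comp (modularFunctionFieldFullC κ N).val).codRestrict
    (modularFunctionFieldFullC κ N).toSubalgebra (fun x => qExpand_mem_full x.2)

theorem coe_frFull (N : ℕ) (x : modularFunctionFieldFullC κ N) :
    (frFull κ r N x : LaurentSeries κ) = qExpand κ r x := rfl

variable [PerfectRing κ r]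

variable (κ r) in
/-- The coefficientwise Frobenius. -/
def phiFull (N : ℕ) : SemilinearAut κ (modularFunctionFieldFullC κ N) :=
  coeffAut (N := N) rfl (frobeniusEquiv κ r)

theorem coe_phiFull_smul (N : ℕ) (x : modularFunctionFieldFullC κ N) :
    ((phiFull κ r N • x : modularFunctionFieldFullC κ N) : LaurentSeries κ) =
      coeffMap (frobenius κ r) x := rfl

theorem frFull_phiFull (N : ℕ) (x : modularFunctionFieldFullC κ N) :
    frFull κ r N (phiFull κ r N • x) = x ^ r := by
  apply Subtype.ext
  rw [coe_frFull, coe_phiFull_smul, qExpand_frobenius κ r]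
  rfl

theorem phiFull_jF (N : ℕ) : phiFull κ r N • HeckeRed.jF κ N = HeckeRed.jF κ N :=
  Subtype.ext coeffMap_frobenius_jqModC

theorem frFull_jF (N : ℕ) : frFull κ r N (HeckeRed.jF κ N) = HeckeRed.jF κ N ^ r :=
  Subtype.ext qExpand_jqModC

end Frob

end Fermat.Agent.BadRed.CP
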