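import Fermat.Agent.BadRed.CPPole
import Fermat.Agent.Igusa.DeuringData

/-!
# Gauss rings: stability under `q ↦ q^r` and under Galois
-/

set_option autoImplicit false

noncomputable section

open AlgebraicCurve Module IntermediateField ModularCurve HahnSeries

namespace Fermat.Agent.BadRed.CP

open Fermat.Agent.FunField Fermat.Agent.Igusa

section Gauss

variable {L : Type*} [Field L] {A : ValuationSubring L} {κ : Type*} [Field κ] {π : A →+* κ}

theorem qExpand_mem_gaussRing (r : ℕ) [NeZero r] {x : LaurentSeries L} (hx : x ∈ gaussRing A π) :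
    qExpand L r x ∈ gaussRing A π := by
  obtain ⟨P, Q, hQ, hPQ⟩ := hx
  refine ⟨qExpand A r P, qExpand A r Q, ?_, ?_⟩
  · rw [coeffMap_qExpand]
    exact (map_ne_zero_iff _ (qExpand_injective r)).mpr hQ
  · rw [coeffMap_qExpand, coeffMap_qExpand, ← map_mul, hPQ]

theorem gaussRes_qExpand (r : ℕ) [NeZero r] (x : gaussRing A π) :
    gaussRes A π ⟨qExpand L r x, qExpand_mem_gaussRing r x.2⟩ = qExpand κ r (gaussRes A π x) := by
  obtain ⟨P, Q, hQ, hPQ⟩ := x.2
  rw [gaussRes_eq x hQ hPQ, gaussRes_eq (P := qExpand A r P) (Q := qExpand A r Q), map_div₀,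
    coeffMap_qExpand, coeffMap_qExpand]
  · rw [coeffMap_qExpand]
    exact (map_ne_zero_iff _ (qExpand_injective r)).mpr hQ
  · rw [coeffMap_qExpand, coeffMap_qExpand, ← map_mul, hPQ]

/-- an automorphism of `L` preserving `A` and inducing `τ` on the residue field -/
structure DecAut (A : ValuationSubring L) (π : A →+* κ) where
  σ : L ≃+* L
  τ : κ ≃+* κ
  mem_iff : ∀ a : L, σ a ∈ A ↔ a ∈ A
  res : ∀ a : A, π ⟨σ a, (mem_iff a).mpr a.2⟩ = τ (π a)

namespace DecAut

variable (d : DecAut A π)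

/-- the inverse automorphism -/
def symm : DecAut A π where
  σ := d.σ.symm
  τ := d.τ.symm
  mem_iff a := by rw [← d.mem_iff, RingEquiv.apply_symm_apply]
  res a := by
    have hm : d.σ.symm a ∈ A := by
      rw [← d.mem_iff, RingEquiv.apply_symm_apply]; exact a.2
    have h1 := d.res ⟨d.σ.symm a, hm⟩
    have h2 : (⟨d.σ ((⟨d.σ.symm a, hm⟩ : A) : L), (d.mem_iff _).mpr hm⟩ : A) = a :=
      Subtype.ext (RingEquiv.apply_symm_apply _ _)
    apply d.τ.injective
    refine h1.symm.trans ((congrArg π h2).trans ?_)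
    rw [RingEquiv.apply_symm_apply]

/-- the action on `A` -/
def onA : A →+* A where
  toFun a := ⟨d.σ a, (d.mem_iff a).mpr a.2⟩
  map_one' := Subtype.ext (map_one d.σ)
  map_mul' _ _ := Subtype.ext (map_mul d.σ _ _)
  map_zero' := Subtype.ext (map_zero d.σ)
  map_add' _ _ := Subtype.ext (map_add d.σ _ _)

theorem subtype_comp_onA : A.subtype.comp d.onA = (d.σ : L →+* L).comp A.subtype := rfl

theorem π_comp_onA : π.comp d.onA = (d.τ : κ →+* κ).comp π := RingHom.ext d.res

theorem coeffMap_emb (P : LaurentSeries A) : coeffMap (d.σ : L →+* L) (coeffMap A.subtype P) =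
    coeffMap A.subtype (coeffMap d.onA P) := by
  rw [coeffMap_coeffMap, coeffMap_coeffMap, subtype_comp_onA]

theorem coeffMap_π (P : LaurentSeries A) : coeffMap π (coeffMap d.onA P) =
    coeffMap (d.τ : κ →+* κ) (coeffMap π P) := by
  rw [coeffMap_coeffMap, coeffMap_coeffMap, π_comp_onA]

theorem coeffMap_π_ne {Q : LaurentSeries A} (hQ : coeffMap π Q ≠ 0) :
    coeffMap π (coeffMap d.onA Q) ≠ 0 := by
  rw [coeffMap_π]
  exact (map_ne_zero_iff _ (coeffMap_injective_of_injective d.τ.injective)).mpr hQ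

theorem coeffMap_mem {x : LaurentSeries L} (hx : x ∈ gaussRing A π) :
    coeffMap (d.σ : L →+* L) x ∈ gaussRing A π := by
  obtain ⟨P, Q, hQ, hPQ⟩ := hx
  refine ⟨coeffMap d.onA P, coeffMap d.onA Q, d.coeffMap_π_ne hQ, ?_⟩
  rw [← coeffMap_emb, ← coeffMap_emb, ← map_mul, hPQ]

theorem gaussRes_coeffMap (x : gaussRing A π) :
    gaussRes A π ⟨coeffMap (d.σ : L →+* L) x, d.coeffMap_mem x.2⟩ =
      coeffMap (d.τ : κ →+* κ) (gaussRes A π x) := by
  obtain ⟨P, Q, hQ, hPQ⟩ := x.2
  rw [gaussRes_eq x hQ hPQ, gaussRes_eq (P := coeffMap d.onA P) (Q := coeffMap d.onA Q) _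
    (d.coeffMap_π_ne hQ), map_div₀, coeffMap_π, coeffMap_π]
  rw [← coeffMap_emb, ← coeffMap_emb, ← map_mul, hPQ]

theorem coeffMap_inv_mem {x : LaurentSeries L} (hx : x ∈ gaussRing A π) :
    coeffMap (d.σ.symm : L →+* L) x ∈ gaussRing A π := d.symm.coeffMap_mem hx

end DecAut

end Gauss

end Fermat.Agent.BadRed.CP
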