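import Fermat.Agent.BadRed.CPAbs

/-!
# The lifting property: `L(m (j)_∞)` reduces onto `L(m (jb)_∞)` for large `m`
-/

set_option autoImplicit false

noncomputable section

open AlgebraicCurve Module IntermediateField

namespace Fermat.Agent.BadRed

open Fermat.Agent.FunField Fermat.Agent.FunField.PlaceLemmas Fermat.Agent.Deuring

/-- A one-component Deuring datum as an `RData`. -/
def RData.ofData {L k F F₁ : Type*} [Field L] [Field k] [Field F] [Field F₁] [Algebra L F]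
    [Algebra k F₁] (𝔇 : Data L k F F₁) : RData L k F F₁ where
  A := 𝔇.A
  O := 𝔇.O.toSubring
  π := 𝔇.π
  res := 𝔇.res
  mem_iff := 𝔇.mem_iff
  π_surj := 𝔇.π_surj
  π_ker := 𝔇.π_ker
  res_surj := 𝔇.res_surj
  res_algebraMap := 𝔇.res_algebraMap
  lat := 𝔇.lat

variable {L k F F₁ : Type*} [Field L] [Field k] [Field F] [Field F₁] [Algebra L F] [Algebra k F₁]
  [IsFF L F] [IsFF k F₁] [HasPrincipalDivisors L F] [HasPrincipalDivisors k F₁] [Infinite k]

theorem red_rr_poleDiv_le (𝔇 : Data L k F F₁) {g : ℤ} (hRR : RRLarge L F g) {j : 𝔇.O}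
    (hj : Transcendental L (j : F)) (hjb : Transcendental k (𝔇.res j))
    (hdeg : finrank L⟮(j : F)⟯ F = finrank k⟮𝔇.res j⟯ F₁) (m : ℕ) :
    𝔇.red (riemannRochSpace (m • (poleDiv (j : F) : Divisor L F))) ≤
      riemannRochSpace (m • (poleDiv (𝔇.res j) : Divisor k F₁)) := by
  set E : Divisor L F := m • (poleDiv (j : F) : Divisor L F) with hE
  set Eb : Divisor k F₁ := m • (poleDiv (𝔇.res j) : Divisor k F₁) with hEb
  have hfd := finiteDimensional_rr hRR E
  have hE0 : 0 ≤ E := nsmul_nonneg (poleDiv_nonneg _) m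
  have hj0 : (j : F) ≠ 0 := by
    intro h; rw [h] at hj; exact hj isAlgebraic_zero
  have hjb0 : 𝔇.res j ≠ 0 := by
    intro h; rw [h] at hjb; exact hjb isAlgebraic_zero
  have hone : (1 : F₁) ∈ 𝔇.red (riemannRochSpace E) :=
    ⟨1, by simpa using one_mem_rr hE0, map_one _⟩
  have hjE : (j : F) ∈ riemannRochSpace (poleDiv (j : F) : Divisor L F) := by
    rw [mem_rr_of_ne hj0]
    intro v
    rw [poleDiv_apply]
    have := le_max_left (-(v.ord (j : F))) 0
    linarith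
  have hjm : 𝔇.res j ^ m ∈ 𝔇.red (riemannRochSpace E) :=
    ⟨j ^ m, by push_cast; exact Deuring.pow_mem_rr hjE m, map_pow _ _ _⟩
  have hne : 𝔇.red (riemannRochSpace E) ≠ ⊥ := by
    intro h
    rw [h] at hone
    exact one_ne_zero ((Submodule.mem_bot k).mp hone)
  obtain ⟨D, hD⟩ := IsPoleDiv.exists_isPoleDiv _ hne
  have hle := 𝔇.degree_le hRR hE0 hD
  have h1 : Eb ≤ D := by
    have hD0 := hD.zero_le_of_one_mem hone
    rw [Finsupp.le_def]
    intro v
    have h2 := (mem_rr_of_ne (pow_ne_zero m hjb0)).mp (hD.le hjm) v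
    have h3 := Finsupp.le_def.mp hD0 v
    rw [Finsupp.zero_apply] at h3
    rw [hEb, Finsupp.smul_apply, nsmul_eq_mul, poleDiv_apply]
    rw [ord_pow] at h2
    rcases le_total 0 (-(v.ord (𝔇.res j))) with h4 | h4
    · rw [max_eq_left h4]; linarith
    · rw [max_eq_right h4, mul_zero]; exact h3
  have hdE : Divisor.degree E = Divisor.degree Eb := by
    rw [hE, hEb, map_nsmul, map_nsmul, degree_poleDiv hj, degree_poleDiv hjb, hdeg]
  have e1 := eq_of_le_of_degree_le h1 (by rw [← hdE]; exact hle)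
  rw [e1]
  exact hD.le

/-- **Lifting.** -/
theorem exists_lift_poleDiv (𝔇 : Data L k F F₁) {g : ℤ} (hRR : RRLarge L F g)
    (hRR₁ : RRLarge k F₁ g) {j : 𝔇.O}
    (hj : Transcendental L (j : F)) (hjb : Transcendental k (𝔇.res j))
    (hdeg : finrank L⟮(j : F)⟯ F = finrank k⟮𝔇.res j⟯ F₁) :
    ∃ m₀ : ℕ, ∀ m, m₀ ≤ m → ∀ a ∈ riemannRochSpace (m • (poleDiv (𝔇.res j) : Divisor k F₁)),
      ∃ f : 𝔇.O, (f : F) ∈ riemannRochSpace (m • (poleDiv (j : F) : Divisor L F)) ∧
        𝔇.res f = a := by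
  obtain ⟨c, hc⟩ := hRR
  obtain ⟨c₁, hc₁⟩ := hRR₁
  haveI := finiteDimensional_adjoin_of_isFF (K := L) hj
  haveI := finiteDimensional_adjoin_of_isFF (K := k) hjb
  have hd : (1 : ℤ) ≤ finrank k⟮𝔇.res j⟯ F₁ := by
    have : 0 < finrank k⟮𝔇.res j⟯ F₁ := finrank_pos
    exact_mod_cast this
  refine ⟨max c.toNat c₁.toNat, fun m hm a ha => ?_⟩
  have h0 : c ≤ m := (Int.self_le_toNat c).trans (by exact_mod_cast (le_max_left _ _).trans hm)
  have h0₁ : c₁ ≤ m :=
    (Int.self_le_toNat c₁).trans (by exact_mod_cast (le_max_right _ _).trans hm)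
  have hdegE : Divisor.degree (m • (poleDiv (j : F) : Divisor L F)) =
      m * finrank k⟮𝔇.res j⟯ F₁ := by
    rw [map_nsmul, degree_poleDiv hj, hdeg, nsmul_eq_mul]
  have hdegEb : Divisor.degree (m • (poleDiv (𝔇.res j) : Divisor k F₁)) =
      m * finrank k⟮𝔇.res j⟯ F₁ := by
    rw [map_nsmul, degree_poleDiv hjb, nsmul_eq_mul]
  have hm0 : (0 : ℤ) ≤ m := Int.natCast_nonneg m
  obtain ⟨hfd, h1⟩ := hc (m • (poleDiv (j : F) : Divisor L F)) (by rw [hdegE]; nlinarith)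
  obtain ⟨hfd₁, h2⟩ := hc₁ (m • (poleDiv (𝔇.res j) : Divisor k F₁)) (by rw [hdegEb]; nlinarith)
  have h3 : 𝔇.red (riemannRochSpace (m • (poleDiv (j : F) : Divisor L F))) =
      riemannRochSpace (m • (poleDiv (𝔇.res j) : Divisor k F₁)) := by
    apply Submodule.eq_of_le_of_finrank_eq (red_rr_poleDiv_le 𝔇 ⟨c, hc⟩ hj hjb hdeg m)
    have h4 : (finrank k (𝔇.red (riemannRochSpace (m • (poleDiv (j : F) : Divisor L F)))) : ℤ) =
        finrank k (riemannRochSpace (m • (poleDiv (𝔇.res j) : Divisor k F₁))) := by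
      rw [𝔇.finrank_red, h1, h2, hdegE, hdegEb]
    exact_mod_cast h4
  rw [← h3] at ha
  exact ha

end Fermat.Agent.BadRed
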