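import Fermat.Agent.BadRed.CPFrob

/-!
# The modular equation and poles of `j(q^r)`
-/

set_option autoImplicit false

noncomputable section

open AlgebraicCurve Module IntermediateField ModularCurve HahnSeries

namespace Fermat.Agent.BadRed.CP

open Fermat.Agent.FunField Fermat.Agent.FunField.PlaceLemmas Fermat.Agent.ModPoly

section Root

variable {F Γ₀ : Type*} [Field F] [LinearOrderedCommGroupWithZero Γ₀] (ν : Valuation F Γ₀)

/-- bound for the roots of a monic polynomial -/
theorem valuation_root_le {P : Polynomial F} (hP : P.Monic) {y : F} (hy : P.eval y = 0) {B : Γ₀}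
    (hB : ∀ i < P.natDegree, ν (P.coeff i) ≤ B ^ (P.natDegree - i)) : ν y ≤ B := by
  by_contra hlt
  push Not at hlt
  have hpos : 0 < ν y := lt_of_le_of_lt zero_le hlt
  have h1 : y ^ P.natDegree = -∑ i ∈ Finset.range P.natDegree, P.coeff i * y ^ i := by
    rw [Polynomial.eval_eq_sum_range, Finset.sum_range_succ, hP.coeff_natDegree, one_mul] at hy
    linear_combination hy
  have h2 : ν (∑ i ∈ Finset.range P.natDegree, P.coeff i * y ^ i) < ν y ^ P.natDegree := by
    apply ν.map_sum_lt (pow_pos hpos _).ne'
    intro i hi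
    rw [Finset.mem_range] at hi
    have hne : P.natDegree - i ≠ 0 := by omega
    calc ν (P.coeff i * y ^ i) = ν (P.coeff i) * ν y ^ i := by rw [map_mul, map_pow]
      _ ≤ B ^ (P.natDegree - i) * ν y ^ i := mul_le_mul_left (hB i hi) _
      _ < ν y ^ (P.natDegree - i) * ν y ^ i :=
        mul_lt_mul_of_pos_right (pow_lt_pow_left₀ hlt zero_le hne) (pow_pos hpos i)
      _ = ν y ^ P.natDegree := by rw [← _root_.pow_add]; congr 1; omega
  rw [← map_pow, h1, ν.map_neg] at h2
  exact lt_irrefl _ h2

theorem valuation_aeval_le {K : Type*} [Field K] [Algebra K F] (hK : ∀ c : K, ν (algebraMap K F c) ≤ 1)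
    {x : F} (hx : 1 ≤ ν x) (G : Polynomial K) :
    ν (Polynomial.aeval x G) ≤ ν x ^ G.natDegree := by
  rw [Polynomial.aeval_eq_sum_range]
  apply ν.map_sum_le
  intro i hi
  rw [Finset.mem_range] at hi
  rw [Algebra.smul_def, map_mul, map_pow]
  calc ν (algebraMap K F (G.coeff i)) * ν x ^ i ≤ 1 * ν x ^ i := mul_le_mul_left (hK _) _
    _ = ν x ^ i := one_mul _
    _ ≤ _ := pow_le_pow_right₀ hx (by omega)

theorem valuation_aeval_le_one {K : Type*} [Field K] [Algebra K F]
    (hK : ∀ c : K, ν (algebraMap K F c) ≤ 1)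
    {x : F} (hx : ν x ≤ 1) (G : Polynomial K) :
    ν (Polynomial.aeval x G) ≤ 1 := by
  rw [Polynomial.aeval_eq_sum_range]
  apply ν.map_sum_le
  intro i hi
  rw [Algebra.smul_def, map_mul, map_pow]
  exact mul_le_one' (hK _) (pow_le_one' hx _)

end Root

section Place

variable {K F : Type*} [Field K] [Field F] [Algebra K F]

theorem adicValuation_algebraMap_le (v : Place K F) (c : K) :
    v.adicValuation (algebraMap K F c) ≤ 1 := by
  rw [← mem_iff_adicValuation_le_one]
  exact v.algebraMap_mem' c

theorem one_lt_adicValuation_iff (v : Place K F) (f : F) :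
    1 < v.adicValuation f ↔ v.ord f < 0 := by
  rcases eq_or_ne f 0 with rfl | hf
  · simp
  · rw [← not_le, ← not_le, ← mem_iff_adicValuation_le_one, mem_iff_ord_nonneg v hf]

/-- poles of a root of a modular-type equation -/
theorem ord_root_nonneg (v : Place K F) {P : Polynomial (Polynomial K)} (hP : P.Monic) {x y : F}
    (hxy : (P.map (Polynomial.aeval x : Polynomial K →ₐ[K] F).toRingHom).eval y = 0)
    (hx : ¬ v.ord x < 0) : ¬ v.ord y < 0 := by
  rw [← one_lt_adicValuation_iff, not_lt] at hx ⊢
  apply valuation_root_le v.adicValuation (hP.map _) hxy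
  intro i _
  rw [one_pow, Polynomial.coeff_map]
  exact valuation_aeval_le_one v.adicValuation (adicValuation_algebraMap_le v) hx _

theorem ord_root_le (v : Place K F) {P : Polynomial (Polynomial K)} (hP : P.Monic) {x y : F}
    (hxy : (P.map (Polynomial.aeval x : Polynomial K →ₐ[K] F).toRingHom).eval y = 0) {r : ℕ}
    (hr : ∀ i < P.natDegree, (P.coeff i).natDegree ≤ r * (P.natDegree - i))
    (hx : v.ord x < 0) : -(v.ord y) ≤ r * -(v.ord x) := by
  rcases eq_or_ne y 0 with rfl | hy0
  · rw [v.ord_zero]
    have : (0 : ℤ) ≤ r * -(v.ord x) := mul_nonneg (Int.natCast_nonneg r) (by omega)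
    simpa using this
  have hx0 : x ≠ 0 := by
    rintro rfl
    rw [v.ord_zero] at hx
    exact lt_irrefl _ hx
  have h1 : 1 ≤ v.adicValuation x := ((one_lt_adicValuation_iff v x).mpr hx).le
  have h2 : v.adicValuation y ≤ v.adicValuation x ^ r := by
    have hd : (P.map (Polynomial.aeval x : Polynomial K →ₐ[K] F).toRingHom).natDegree =
        P.natDegree := hP.natDegree_map _
    apply valuation_root_le v.adicValuation (hP.map _) hxy
    intro i hi
    rw [hd] at hi ⊢
    rw [Polynomial.coeff_map, ← pow_mul]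
    refine (valuation_aeval_le v.adicValuation (adicValuation_algebraMap_le v) h1 _).trans ?_
    exact pow_le_pow_right₀ h1 (hr i hi)
  rw [← map_pow, adicValuation_le_iff v hy0 (pow_ne_zero r hx0), ord_pow] at h2
  linarith

end Place

section Degree

variable {K : Type*} [Field K]

/-- `f` has a pole of order at most `M` (or is zero). -/
def PB (M : ℤ) (f : LaurentSeries K) : Prop := f ≠ 0 → -M ≤ f.order

theorem PB.add {M : ℤ} {f g : LaurentSeries K} (hf : PB M f) (hg : PB M g) : PB M (f + g) := by
  intro h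
  rcases eq_or_ne f 0 with rfl | hf0
  · rw [zero_add] at h ⊢; exact hg h
  rcases eq_or_ne g 0 with rfl | hg0
  · rw [add_zero] at h ⊢; exact hf h
  exact (le_min (hf hf0) (hg hg0)).trans (HahnSeries.min_order_le_order_add h)

theorem PB.mul {M M' : ℤ} {f g : LaurentSeries K} (hf : PB M f) (hg : PB M' g) :
    PB (M + M') (f * g) := by
  intro h
  have hf0 := left_ne_zero_of_mul h
  have hg0 := right_ne_zero_of_mul h
  rw [HahnSeries.order_mul hf0 hg0]
  have := hf hf0
  have := hg hg0
  omega

theorem PB.neg {M : ℤ} {f : LaurentSeries K} (hf : PB M f) : PB M (-f) := by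
  intro h
  rw [HahnSeries.order_neg]
  exact hf (neg_ne_zero.mp h)

theorem PB_zero (M : ℤ) : PB M (0 : LaurentSeries K) := fun h => absurd rfl h

theorem PB_prod_coeff {ι : Type*} (s : Finset ι) (a : ι → LaurentSeries K) {M : ℤ}
    (ha : ∀ i, PB M (a i)) (l : ℕ) :
    PB (M * (s.card - l)) ((∏ i ∈ s, (Polynomial.X - Polynomial.C (a i))).coeff l) := by
  classical
  induction s using Finset.induction_on generalizing l with
  | empty =>
    rw [Finset.prod_empty, Polynomial.coeff_one]
    rcases eq_or_ne l 0 with rfl | hl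
    · intro _
      rw [if_pos rfl, HahnSeries.order_one]
      simp
    · rw [if_neg hl]
      exact PB_zero _
  | insert i s hi ih =>
    have e0 : (∏ x ∈ insert i s, (Polynomial.X - Polynomial.C (a x))).coeff l =
        (Polynomial.X * ∏ x ∈ s, (Polynomial.X - Polynomial.C (a x))).coeff l +
        -(a i * (∏ x ∈ s, (Polynomial.X - Polynomial.C (a x))).coeff l) := by
      rw [Finset.prod_insert hi, sub_mul, Polynomial.coeff_sub, Polynomial.coeff_C_mul,
        sub_eq_add_neg]
    rw [e0, Finset.card_insert_of_notMem hi]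
    apply PB.add
    · rcases l with _ | l
      · rw [Polynomial.coeff_X_mul_zero]; exact PB_zero _
      · rw [Polynomial.coeff_X_mul]
        have := ih l
        have e : M * (((s.card + 1 : ℕ) : ℤ) - ((l + 1 : ℕ) : ℤ)) = M * (s.card - l) := by
          push_cast; ring
        rw [e]
        exact this
    · apply PB.neg
      have := (ha i).mul (ih l)
      have e : M + M * ((s.card : ℤ) - l) = M * (((s.card + 1 : ℕ) : ℤ) - l) := by
        push_cast; ring
      rwa [e] at this

variable [IsAlgClosed K] (p : ℕ) [hp : Fact p.Prime]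

omit [IsAlgClosed K] in
theorem modPolyK_natDegree : (modPolyK K p).natDegree = p + 1 := by
  rw [modPolyK, (modPoly_monic p).natDegree_map, modPoly_natDegree]

/-- degree bound for the coefficients of the modular polynomial -/
theorem natDegree_coeff_modPolyK_le (hpK : (p : K) ≠ 0) {i : ℕ}
    (hi : i < (modPolyK K p).natDegree) :
    ((modPolyK K p).coeff i).natDegree ≤ p * ((modPolyK K p).natDegree - i) := by
  haveI : NeZero (p : K) := ⟨hpK⟩
  obtain ⟨v, hv⟩ : ∃ v : Kˣ, IsPrimitiveRoot v p := by
    obtain ⟨z, hz⟩ := HasEnoughRootsOfUnity.exists_primitiveRoot K p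
    exact ⟨(hz.isUnit hp.out.ne_zero).unit, hz.isUnit_unit hp.out.ne_zero⟩
  have h1 := modPolyK_map (K := K) hv
  have hpp : (0 : ℤ) < p := by exact_mod_cast hp.out.pos
  have h2 := PB_prod_coeff Finset.univ (jT K p v) (M := (p * p : ℤ)) (by
    intro x _
    rcases x with _ | b
    · rw [order_jT_none]
    · rw [order_jT_some]
      nlinarith) i
  rw [← h1, Polynomial.coeff_map] at h2
  rcases eq_or_ne ((modPolyK K p).coeff i) 0 with h0 | h0
  · rw [h0, Polynomial.natDegree_zero]; exact Nat.zero_le _
  have h3 := h2 ((map_ne_zero_iff _ (evK_injective p)).mpr h0)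
  rw [evK_apply, order_qExpand, order_aeval_jqModC h0] at h3
  rw [modPolyK_natDegree] at hi ⊢
  have h4 : ((Finset.univ : Finset (Option (Fin p))).card : ℤ) = p + 1 := by
    simp
  rw [h4] at h3
  have h5 : (((modPolyK K p).coeff i).natDegree : ℤ) ≤ p * (p + 1 - i) := by
    have : (p : ℤ) * (((modPolyK K p).coeff i).natDegree : ℤ) ≤ p * (p * (p + 1 - i)) := by
      nlinarith
    exact le_of_mul_le_mul_left this hpp
  zify
  rw [Nat.cast_sub hi.le]
  push_cast
  exact h5

end Degree

end Fermat.Agent.BadRed.CP
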