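import Fermat.Agent.BadRed.Joint

/-!
# The two Gauss valuations on the function field of `X₀(N r)`
-/

set_option autoImplicit false

noncomputable section

open HahnSeries ModularCurve Module Polynomial

namespace Fermat.Agent.BadRed

open Fermat.Agent.Igusa Fermat.Agent.AtkinLehner

section GaussQ

variable {L : Type*} [Field L] {A : ValuationSubring L} {κ : Type*} [Field κ] {π : A →+* κ}

theorem coeffMap_qExp {R S : Type*} [CommRing R] [CommRing S] (f : R →+* S) (n : ℕ) [NeZero n]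
    (x : LaurentSeries R) : coeffMap f (qExpand R n x) = qExpand S n (coeffMap f x) := by
  ext k
  by_cases hk : (n : ℤ) ∣ k
  · obtain ⟨m, rfl⟩ := hk
    rw [coeffMap_coeff, qExpand_coeff_mul, qExpand_coeff_mul, coeffMap_coeff]
  · rw [coeffMap_coeff, qExpand_coeff_of_not_dvd n _ hk, qExpand_coeff_of_not_dvd n _ hk, map_zero]

theorem qExpand_mem_gauss (r : ℕ) [NeZero r] {x : LaurentSeries L} (hx : x ∈ gaussRing A π) :
    ∃ h : qExpand L r x ∈ gaussRing A π,
      gaussRes A π ⟨qExpand L r x, h⟩ = qExpand κ r (gaussRes A π ⟨x, hx⟩) := by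
  obtain ⟨P, Q, hQ, hPQ⟩ := mem_gaussRing_iff.mp hx
  have hQ' : coeffMap π (qExpand A r Q) ≠ 0 := by
    rw [coeffMap_qExp]
    intro h
    exact hQ (qExpand_injective r (h.trans (map_zero _).symm))
  have h1 : qExpand L r x * coeffMap A.subtype (qExpand A r Q) =
      coeffMap A.subtype (qExpand A r P) := by
    rw [coeffMap_qExp, coeffMap_qExp, ← hPQ, map_mul]
  have h2 : qExpand L r x ∈ gaussRing A π := mem_gaussRing_iff.mpr ⟨_, _, hQ', h1⟩
  refine ⟨h2, ?_⟩
  rw [gaussRes_eq (⟨_, h2⟩ : gaussRing A π) hQ' h1,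
    gaussRes_eq (⟨x, hx⟩ : gaussRing A π) hQ hPQ, map_div₀, coeffMap_qExp, coeffMap_qExp]

theorem gauss_emb {x : LaurentSeries L} {P : LaurentSeries A} (hx : x = coeffMap A.subtype P) :
    ∃ h : x ∈ gaussRing A π, gaussRes A π ⟨x, h⟩ = coeffMap π P := by
  subst hx
  exact ⟨emb_mem_gaussRing P, gaussRes_emb P⟩

theorem gauss_jq : ∃ h : jqModC L ∈ gaussRing A π,
    gaussRes A π ⟨jqModC L, h⟩ = jqModC κ := by
  obtain ⟨h, hr⟩ := gauss_emb (A := A) (π := π) (x := jqModC L) (P := jqModC A)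
    (coeffMap_jqModC _).symm
  exact ⟨h, hr.trans (coeffMap_jqModC _)⟩

end GaussQ

variable (L : Type*) [Field L] [IsAlgClosed L] [CharZero L]
  (N r : ℕ) [hr : Fact r.Prime] [hN : NeZero N] (hrN : ¬ r ∣ N)

instance neZero_mul_fact : NeZero (N * r) := ⟨mul_ne_zero hN.out hr.out.ne_zero⟩

omit [IsAlgClosed L] in
theorem cast_ne_zero_L : (N : L) ≠ 0 := Nat.cast_ne_zero.mpr hN.out

omit [IsAlgClosed L] in
theorem cast_ne_zero_Lr : (r : L) ≠ 0 := Nat.cast_ne_zero.mpr hr.out.ne_zero

omit hr hN in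
include hrN in
theorem cast_ne_zero_κ (κ : Type*) [Field κ] [CharP κ r] : (N : κ) ≠ 0 := by
  rw [Ne, CharP.cast_eq_zero_iff κ r]
  exact hrN

/-- the Atkin–Lehner involution -/
def ww : modularFunctionFieldFullC L (N * r) ≃ₐ[L] modularFunctionFieldFullC L (N * r) :=
  w (cast_ne_zero_L L N) (cast_ne_zero_Lr L r) hrN

theorem ww_ww (x : modularFunctionFieldFullC L (N * r)) :
    ww L N r hrN (ww L N r hrN x) = x :=
  w_w _ _ _ x

/-- standard `q`-expansion -/
def psi₁ : modularFunctionFieldFullC L (N * r) →ₐ[L] LaurentSeries L :=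
  (modularFunctionFieldFullC L (N * r)).val

/-- `q`-expansion after `w` -/
def psi₂ : modularFunctionFieldFullC L (N * r) →ₐ[L] LaurentSeries L :=
  (psi₁ L N r).comp (ww L N r hrN).toAlgHom

omit [IsAlgClosed L] [CharZero L] hr hN in
theorem psi₁_apply (x : modularFunctionFieldFullC L (N * r)) : psi₁ L N r x = x := rfl

theorem psi₂_apply (x : modularFunctionFieldFullC L (N * r)) :
    psi₂ L N r hrN x = (ww L N r hrN x : LaurentSeries L) := rfl

omit [IsAlgClosed L] [CharZero L] hr hN in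
theorem tame₁ : IsTameHom (psi₁ L N r) := isTameHom_val (isTameField_full (N * r))

theorem tame₂ : IsTameHom (psi₂ L N r hrN) := (tame₁ L N r).comp _

/-- `F_N` inside `F_{Nr}` -/
def F₀ : Subfield (modularFunctionFieldFullC L (N * r)) :=
  baseSub (modularFunctionFieldFullC L (N * r)) (modularFunctionFieldFullC L N)

omit [IsAlgClosed L] [CharZero L] hr hN in
theorem mem_F₀ {x : modularFunctionFieldFullC L (N * r)} :
    x ∈ F₀ L N r ↔ (x : LaurentSeries L) ∈ modularFunctionFieldFullC L N := Iff.rfl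

theorem psi₂_of_mem {x : modularFunctionFieldFullC L (N * r)} (hx : x ∈ F₀ L N r) :
    psi₂ L N r hrN x = qExpand L r x := w_apply_of_mem _ _ _ hx x.2

omit [IsAlgClosed L] in
include hrN in
theorem finrank_F₀ : finrank (F₀ L N r) (modularFunctionFieldFullC L (N * r)) = r + 1 := by
  rw [F₀, finrank_baseSub]
  exact ModDeg.relfinrank_full_mul_of_not_dvd_field (cast_ne_zero_L L N) (cast_ne_zero_Lr L r) hrN

/-- `j` -/
def jE : modularFunctionFieldFullC L (N * r) := ⟨jqModC L, jqModC_mem_full L (N * r)⟩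

/-- `j(q^r)` -/
def jrE : modularFunctionFieldFullC L (N * r) :=
  ⟨qExpand L r (jqModC L), jqModCd_mem_full L (N * r) (Dvd.intro_left N rfl)⟩

theorem ww_jE : ww L N r hrN (jE L N r) = jrE L N r := by
  apply Subtype.ext
  exact w_apply_of_mem (cast_ne_zero_L L N) (cast_ne_zero_Lr L r) hrN
    (jqModC_mem_full L N) (jqModC_mem_full L (N * r))

theorem ww_jrE : ww L N r hrN (jrE L N r) = jE L N r := by
  rw [← ww_jE L N r hrN, ww_ww]

/-- `j(q^r) - j^r` -/
def uE : modularFunctionFieldFullC L (N * r) := jrE L N r - jE L N r ^ r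

end Fermat.Agent.BadRed
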