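import Fermat.Agent.BadRed.Conc

/-!
# The residue field of the Gauss valuation on `F_{Nr}` is `F_N(κ)`
-/

set_option autoImplicit false

noncomputable section

open HahnSeries ModularCurve Module Polynomial

namespace Fermat.Agent.BadRed

open Fermat.Agent.Igusa Fermat.Agent.AtkinLehner

variable {L : Type*} [Field L] [IsAlgClosed L] [CharZero L] (A : ValuationSubring L)
  {κ : Type*} [Field κ] (π : A →+* κ) [IsLocalHom π]
  (N r : ℕ) [hr : Fact r.Prime] [hN : NeZero N] [CharP κ r] (hrN : ¬ r ∣ N)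

/-- first valuation ring -/
abbrev O₁ : ValuationSubring (modularFunctionFieldFullC L (N * r)) := gaussAlong A π (tame₁ L N r)

/-- second valuation ring -/
abbrev O₂ : ValuationSubring (modularFunctionFieldFullC L (N * r)) :=
  gaussAlong A π (tame₂ L N r hrN)

/-- first residue map -/
abbrev res₁ : O₁ A π N r →+* LaurentSeries κ := gaussAlongRes A π (tame₁ L N r)

/-- second residue map -/
abbrev res₂ : O₂ A π N r hrN →+* LaurentSeries κ := gaussAlongRes A π (tame₂ L N r hrN)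

omit [IsAlgClosed L] [CharZero L] [IsLocalHom π] hr hN [CharP κ r] in
theorem mem_O₁ {x : modularFunctionFieldFullC L (N * r)} :
    x ∈ O₁ A π N r ↔ (x : LaurentSeries L) ∈ gaussRing A π := Iff.rfl

omit [IsLocalHom π] [CharP κ r] in
theorem mem_O₂ {x : modularFunctionFieldFullC L (N * r)} :
    x ∈ O₂ A π N r hrN ↔ ww L N r hrN x ∈ O₁ A π N r := Iff.rfl

omit [IsLocalHom π] [CharP κ r] in
theorem res₂_eq {x : modularFunctionFieldFullC L (N * r)} (hx : x ∈ O₂ A π N r hrN)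
    (hx' : ww L N r hrN x ∈ O₁ A π N r) :
    res₂ A π N r hrN ⟨x, hx⟩ = res₁ A π N r ⟨ww L N r hrN x, hx'⟩ := rfl

omit [IsLocalHom π] [CharP κ r] in
theorem res₁_ww {x : modularFunctionFieldFullC L (N * r)} (hx : x ∈ O₂ A π N r hrN)
    (hx' : ww L N r hrN x ∈ O₁ A π N r) :
    res₁ A π N r ⟨ww L N r hrN x, hx'⟩ = res₂ A π N r hrN ⟨x, hx⟩ := rfl

omit [IsLocalHom π] [CharP κ r] in
theorem ww_mem_O₂ {x : modularFunctionFieldFullC L (N * r)} :
    ww L N r hrN x ∈ O₂ A π N r hrN ↔ x ∈ O₁ A π N r := by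
  rw [mem_O₂, ww_ww]

omit [IsLocalHom π] [CharP κ r] in
theorem res₂_ww {x : modularFunctionFieldFullC L (N * r)} (hx : x ∈ O₁ A π N r)
    (hx' : ww L N r hrN x ∈ O₂ A π N r hrN) :
    res₂ A π N r hrN ⟨ww L N r hrN x, hx'⟩ = res₁ A π N r ⟨x, hx⟩ := by
  have h1 : ww L N r hrN (ww L N r hrN x) ∈ O₁ A π N r := by rw [ww_ww]; exact hx
  rw [res₂_eq A π N r hrN hx' h1]
  congr 1
  exact Subtype.ext (ww_ww L N r hrN x)

/-- an element with zero residue is not a unit -/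
theorem res_inv_ne {F : Type*} [Field F] {O : ValuationSubring F} {k : Type*} [Field k]
    {res : O →+* k} {x : F} (hx : x ∈ O) (hi : x⁻¹ ∈ O) (hx0 : x ≠ 0) : res ⟨x, hx⟩ ≠ 0 := by
  intro h
  have h1 : (⟨x, hx⟩ : O) * ⟨x⁻¹, hi⟩ = 1 := Subtype.ext (mul_inv_cancel₀ hx0)
  have h2 := congrArg res h1
  rw [map_mul, h, zero_mul, map_one] at h2
  exact zero_ne_one h2

omit [IsAlgClosed L] [CharZero L] [IsLocalHom π] hr hN [CharP κ r] in
theorem res₁_unit {x : modularFunctionFieldFullC L (N * r)} (hx : x ∈ O₁ A π N r)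
    (h : res₁ A π N r ⟨x, hx⟩ ≠ 0) : x⁻¹ ∈ O₁ A π N r := by
  rw [mem_gaussAlong, map_inv₀]
  exact inv_mem_gauss A π _ h

omit [IsLocalHom π] [CharP κ r] in
theorem mem_O₂_of_F₀ {x : modularFunctionFieldFullC L (N * r)} (hx0 : x ∈ F₀ L N r)
    (hx : x ∈ O₁ A π N r) : ∃ h : x ∈ O₂ A π N r hrN,
      res₂ A π N r hrN ⟨x, h⟩ = qExpand κ r (res₁ A π N r ⟨x, hx⟩) := by
  obtain ⟨h1, h2⟩ := qExpand_mem_gauss (A := A) (π := π) r (x := (x : LaurentSeries L)) hx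
  have h3 := psi₂_of_mem L N r hrN hx0
  have h4 : x ∈ O₂ A π N r hrN := by rw [mem_gaussAlong, h3]; exact h1
  refine ⟨h4, ?_⟩
  have h5 : res₂ A π N r hrN ⟨x, h4⟩ = gaussRes A π ⟨qExpand L r x, h1⟩ :=
    gaussRes_congr h3
  exact h5.trans h2

omit [IsLocalHom π] [CharP κ r] in
theorem mem_O₁_iff_of_F₀ (x : modularFunctionFieldFullC L (N * r)) (hx0 : x ∈ F₀ L N r) :
    x ∈ O₁ A π N r ↔ x ∈ O₂ A π N r hrN := by
  refine ⟨fun h => (mem_O₂_of_F₀ A π N r hrN hx0 h).1, fun h => ?_⟩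
  by_contra hcon
  have hxne : x ≠ 0 := by
    rintro rfl
    exact hcon (zero_mem _)
  have hi := ((O₁ A π N r).mem_or_inv_mem x).resolve_left hcon
  have hr0 : res₁ A π N r ⟨x⁻¹, hi⟩ = 0 := by
    by_contra h0
    have := res₁_unit A π N r hi h0
    rw [inv_inv] at this
    exact hcon this
  obtain ⟨h2, e2⟩ := mem_O₂_of_F₀ A π N r hrN ((F₀ L N r).inv_mem hx0) hi
  rw [hr0, map_zero] at e2
  exact res_inv_ne (res := res₂ A π N r hrN) h2 (by rwa [inv_inv]) (inv_ne_zero hxne) e2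

omit [IsAlgClosed L] [CharZero L] [IsLocalHom π] hr hN [CharP κ r] in
theorem jE_res₁ : ∃ h : jE L N r ∈ O₁ A π N r, res₁ A π N r ⟨_, h⟩ = jqModC κ :=
  gauss_jq (A := A) (π := π)

omit [IsAlgClosed L] [CharZero L] [IsLocalHom π] hN in
theorem jrE_res₁ : ∃ h : jrE L N r ∈ O₁ A π N r, res₁ A π N r ⟨_, h⟩ = jqModC κ ^ r := by
  obtain ⟨h, e⟩ := gauss_jq (A := A) (π := π)
  obtain ⟨h', e'⟩ := qExpand_mem_gauss (A := A) (π := π) r h
  refine ⟨h', ?_⟩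
  rw [jq_pow, ← e]
  exact e'

/-- `δ = j - j^(r^2)` -/
def delta (κ : Type*) [Field κ] (r : ℕ) : LaurentSeries κ := jqModC κ - (jqModC κ ^ r) ^ r

theorem delta_ne (κ : Type*) [Field κ] (r : ℕ) [hr : Fact r.Prime] [CharP κ r] :
    delta κ r ≠ 0 := by
  intro h
  rw [delta, jq_pow, sub_eq_zero, ← map_pow] at h
  exact jq_notMem_range κ r ⟨_, h.symm⟩

omit [IsAlgClosed L] [CharZero L] [IsLocalHom π] hN in
theorem uE_res₁ : ∃ h : uE L N r ∈ O₁ A π N r, res₁ A π N r ⟨_, h⟩ = 0 := by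
  obtain ⟨h, e⟩ := jE_res₁ A π N r
  obtain ⟨h', e'⟩ := jrE_res₁ (κ := κ) A π N r
  refine ⟨sub_mem h' (pow_mem h r), ?_⟩
  have h1 : (⟨uE L N r, sub_mem h' (pow_mem h r)⟩ : O₁ A π N r) = ⟨_, h'⟩ - ⟨_, h⟩ ^ r := rfl
  rw [h1, map_sub, map_pow, e, e', sub_self]

omit [IsLocalHom π] in
theorem uE_res₂ : ∃ h : uE L N r ∈ O₂ A π N r hrN,
    res₂ A π N r hrN ⟨_, h⟩ = delta κ r := by
  obtain ⟨h, e⟩ := jE_res₁ A π N r
  obtain ⟨h', e'⟩ := jrE_res₁ (κ := κ) A π N r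
  have h2 : jE L N r ∈ O₂ A π N r hrN := by rw [mem_O₂, ww_jE]; exact h'
  have h2' : jrE L N r ∈ O₂ A π N r hrN := by rw [mem_O₂, ww_jrE]; exact h
  have e2 : res₂ A π N r hrN ⟨_, h2⟩ = jqModC κ ^ r := by
    rw [← e', res₂_eq A π N r hrN h2 h2]
    congr 1
    exact Subtype.ext (ww_jE L N r hrN)
  have e2' : res₂ A π N r hrN ⟨_, h2'⟩ = jqModC κ := by
    rw [← e, res₂_eq A π N r hrN h2' h2']
    congr 1
    exact Subtype.ext (ww_jrE L N r hrN)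
  refine ⟨sub_mem h2' (pow_mem h2 r), ?_⟩
  have h1 : (⟨uE L N r, sub_mem h2' (pow_mem h2 r)⟩ : O₂ A π N r hrN) =
    ⟨_, h2'⟩ - ⟨_, h2⟩ ^ r := rfl
  rw [h1, map_sub, map_pow, e2, e2']
  rfl

end Fermat.Agent.BadRed
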