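import Fermat.Agent.BadRed.Conc2

/-!
# The residue field of the Gauss valuation on `F_{Nr}` is `F_N(κ)`
-/

set_option autoImplicit false

noncomputable section

open HahnSeries ModularCurve Module Polynomial

namespace Fermat.Agent.BadRed

open Fermat.Agent.Igusa Fermat.Agent.AtkinLehner

section General

variable {L : Type*} [Field L] {A : ValuationSubring L} {κ : Type*} [Field κ] {π : A →+* κ}

/-- rank one hypothesis -/
def ArchA (π : A →+* κ) : Prop := ∀ ε : A, (ε : L) ≠ 0 → π ε = 0 → ∀ a : L, a ≠ 0 →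
      ∃ m : ℕ, a * ((ε : L) ^ m)⁻¹ ∉ A

theorem ArchA.exists_small [IsLocalHom π] (harch : ArchA π) {ε : A} (hε0 : (ε : L) ≠ 0)
    (hε : π ε = 0) {a : L} (ha : a ≠ 0) :
    ∃ (m : ℕ) (b : A), (b : L) = a * (ε : L) ^ m ∧ π b = 0 := by
  obtain ⟨m, hm⟩ := harch ε hε0 hε a⁻¹ (inv_ne_zero ha)
  have h1 : (a⁻¹ * ((ε : L) ^ m)⁻¹)⁻¹ ∈ A := (A.mem_or_inv_mem _).resolve_left hm
  have h2 : (a⁻¹ * ((ε : L) ^ m)⁻¹)⁻¹ = a * (ε : L) ^ m := by
    rw [mul_inv, inv_inv, inv_inv]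
  rw [h2] at h1
  refine ⟨m, ⟨_, h1⟩, rfl, ?_⟩
  rw [pi_ker]
  intro hu
  apply hm
  obtain ⟨b', hb'⟩ := hu.exists_right_inv
  have h3 : (a * (ε : L) ^ m) * (b' : L) = 1 := congrArg Subtype.val hb'
  have h4 : a⁻¹ * ((ε : L) ^ m)⁻¹ = b' := by
    rw [← mul_inv]
    exact inv_eq_of_mul_eq_one_right h3
  rw [h4]
  exact b'.2

variable {F F₁ : Type*} [Field F] [Field F₁] [Algebra L F] [Algebra κ F₁]

theorem ResVal.exists_pow_mul [IsLocalHom π] (harch : ArchA π) (V : ResVal A π F F₁) {x y : F}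
    (hy : y ∈ V.O) (hy0 : V.r ⟨y, hy⟩ = 0) :
    ∃ (M : ℕ) (h : y ^ M * x ∈ V.O), V.r ⟨_, h⟩ = 0 := by
  rcases eq_or_ne x 0 with rfl | hx
  · refine ⟨0, by rw [mul_zero]; exact zero_mem _, ?_⟩
    have : (⟨y ^ 0 * 0, by rw [mul_zero]; exact zero_mem _⟩ : V.O) = 0 :=
      Subtype.ext (mul_zero _)
    rw [this, map_zero]
  rcases eq_or_ne y 0 with rfl | hyne
  · have h0 : (0 : F) ^ 1 * x = 0 := by rw [pow_one, zero_mul]
    refine ⟨1, by rw [h0]; exact zero_mem _, ?_⟩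
    have : (⟨(0 : F) ^ 1 * x, by rw [h0]; exact zero_mem _⟩ : V.O) = 0 := Subtype.ext h0
    rw [this, map_zero]
  obtain ⟨ε, hε0, hε, ⟨y', hy'O⟩, hyy'⟩ := V.exists_dvd (pi_ker A π) (f := ⟨y, hy⟩) hy0 hyne
  change y = algebraMap L F (ε : L) * y' at hyy'
  obtain ⟨c, hc0, hcO, -⟩ := V.scale x hx
  obtain ⟨M, b, hb, hb0⟩ := harch.exists_small hε0 hε (inv_ne_zero hc0)
  have h1 : y ^ M * x = algebraMap L F (b : L) * (y' ^ M * (c • x)) := by
    have hc' : algebraMap L F c ≠ 0 := by rwa [Ne, map_eq_zero]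
    rw [hb, hyy', mul_pow, Algebra.smul_def, map_mul, map_inv₀, map_pow]
    field_simp
  have h2 : y ^ M * x ∈ V.O := by
    rw [h1]
    exact mul_mem ((V.mem_iff _).mpr b.2) (mul_mem (pow_mem hy'O M) hcO)
  refine ⟨M, h2, ?_⟩
  have h3 : (⟨_, h2⟩ : V.O) = V.cst b * (⟨y', hy'O⟩ ^ M * ⟨c • x, hcO⟩) := Subtype.ext h1
  rw [h3, map_mul, V.r_cst, hb0, map_zero, zero_mul]

end General

variable {L : Type*} [Field L] [IsAlgClosed L] [CharZero L] (A : ValuationSubring L)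
  {κ : Type*} [Field κ] (π : A →+* κ) [IsLocalHom π] (hπ : Function.Surjective π)
  (N r : ℕ) [hr : Fact r.Prime] [hN : NeZero N] [CharP κ r] (hrN : ¬ r ∣ N)

omit [IsAlgClosed L] hr in
include hπ hrN in
/-- residues of elements of `F_N` -/
theorem res₁_mem_of_F₀ {x : modularFunctionFieldFullC L (N * r)} (hx0 : x ∈ F₀ L N r)
    (hx : x ∈ O₁ A π N r) : res₁ A π N r ⟨x, hx⟩ ∈ modularFunctionFieldFullC κ N := by
  have h1 := gaussValRes_mem_full A π N hπ (d := dedekindPsi N)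
    (ModDeg.psi_pos (NeZero.ne N))
    (ModDeg.relfinrank_full L N (cast_ne_zero_L L N))
    (ModDeg.relfinrank_full κ N (cast_ne_zero_κ N r hrN κ))
    ⟨⟨(x : LaurentSeries L), hx0⟩, hx⟩
  have h2 : gaussValRes A π (isTameField_full (L := L) N) ⟨⟨(x : LaurentSeries L), hx0⟩, hx⟩ =
    gaussRes A π ⟨(x : LaurentSeries L), hx⟩ := rfl
  have h3 : res₁ A π N r ⟨x, hx⟩ = gaussRes A π ⟨(x : LaurentSeries L), hx⟩ := rfl
  rw [h3, ← h2]
  exact h1

omit [IsAlgClosed L] [CharZero L] [IsLocalHom π] hN [CharP κ r] hr in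
theorem delta_mem [CharP κ r] : delta κ r ∈ modularFunctionFieldFullC κ N :=
  sub_mem (jqModC_mem_full κ N) (pow_mem (pow_mem (jqModC_mem_full κ N) r) r)

/-- the second family: `u j_r^l`. -/
def cfam (l : Fin r) : modularFunctionFieldFullC L (N * r) := uE L N r * jrE L N r ^ (l : ℕ)

omit [IsAlgClosed L] [CharZero L] [IsLocalHom π] hN in
theorem cfam_res₁ (l : Fin r) : ∃ h : cfam (L := L) N r l ∈ O₁ A π N r,
    res₁ A π N r ⟨_, h⟩ = 0 := by
  obtain ⟨h, e⟩ := uE_res₁ (κ := κ) A π N r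
  obtain ⟨h', -⟩ := jrE_res₁ (κ := κ) A π N r
  refine ⟨mul_mem h (pow_mem h' l), ?_⟩
  have h1 : (⟨cfam (L := L) N r l, mul_mem h (pow_mem h' l)⟩ : O₁ A π N r) =
    ⟨_, h⟩ * ⟨_, h'⟩ ^ (l : ℕ) := rfl
  rw [h1, map_mul, e, zero_mul]

omit [IsLocalHom π] in
theorem cfam_res₂ (l : Fin r) : ∃ h : cfam (L := L) N r l ∈ O₂ A π N r hrN,
    res₂ A π N r hrN ⟨_, h⟩ = delta κ r * jqModC κ ^ (l : ℕ) := by
  obtain ⟨h, e⟩ := uE_res₂ A π N r hrN
  obtain ⟨g, e'⟩ := jE_res₁ A π N r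
  have h' : jrE L N r ∈ O₂ A π N r hrN := by rw [mem_O₂, ww_jrE]; exact g
  have e2 : res₂ A π N r hrN ⟨_, h'⟩ = jqModC κ := by
    rw [← e', res₂_eq A π N r hrN h' h']
    congr 1
    exact Subtype.ext (ww_jrE L N r hrN)
  refine ⟨mul_mem h (pow_mem h' l), ?_⟩
  have h1 : (⟨cfam (L := L) N r l, mul_mem h (pow_mem h' l)⟩ : O₂ A π N r hrN) =
    ⟨_, h⟩ * ⟨_, h'⟩ ^ (l : ℕ) := rfl
  rw [h1, map_mul, map_pow, e, e2]

omit [IsLocalHom π] in
theorem cfam_resIndep :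
    ResIndep (O₂ A π N r hrN) (res₂ A π N r hrN) (F₀ L N r)
      (fun l : Fin r => ⟨cfam (L := L) N r l, (cfam_res₂ A π N r hrN l).1⟩) := by
  intro a ha hsum
  have ha₁ : ∀ l, (a l : modularFunctionFieldFullC L (N * r)) ∈ O₁ A π N r := fun l =>
    (mem_O₁_iff_of_F₀ A π N r hrN _ (ha l)).mpr (a l).2
  have hres : ∀ l, res₂ A π N r hrN (a l) = qExpand κ r (res₁ A π N r ⟨_, ha₁ l⟩) := fun l =>
    (mem_O₂_of_F₀ A π N r hrN (ha l) (ha₁ l)).2
  have h1 : ∑ l : Fin r, qExpand κ r (res₁ A π N r ⟨_, ha₁ l⟩) * (jqModC κ) ^ (l : ℕ) = 0 := by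
    have h2 : delta κ r * ∑ l : Fin r, qExpand κ r (res₁ A π N r ⟨_, ha₁ l⟩) *
        (jqModC κ) ^ (l : ℕ) = 0 := by
      rw [← hsum, Finset.mul_sum]
      refine Finset.sum_congr rfl fun l _ => ?_
      rw [hres l, (cfam_res₂ A π N r hrN l).2]
      ring
    exact (mul_eq_zero.mp h2).resolve_left (delta_ne κ r)
  intro l
  rw [hres l, powers_indep κ r _ h1 l, map_zero]

include hπ hrN in
/-- **The residue field of the first valuation is `F_N(κ)`.** -/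
theorem res₁_mem (harch : ArchA π) (x : O₁ A π N r) :
    res₁ A π N r x ∈ modularFunctionFieldFullC κ N := by
  by_contra hx
  -- the element `u₁`
  obtain ⟨h0, e0⟩ := uE_res₁ (κ := κ) A π N r
  obtain ⟨h0', e0'⟩ := uE_res₂ A π N r hrN
  set u₁ := ww L N r hrN (uE L N r) with hu₁
  have h1 : u₁ ∈ O₁ A π N r := (mem_O₂ A π N r hrN).mp h0'
  have e1 : res₁ A π N r ⟨_, h1⟩ = delta κ r := by rw [← e0']; rfl
  have h2 : u₁ ∈ O₂ A π N r hrN := (ww_mem_O₂ A π N r hrN).mpr h0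
  have e2 : res₂ A π N r hrN ⟨_, h2⟩ = 0 := by rw [← e0]; exact res₂_ww A π N r hrN h0 h2
  obtain ⟨M, hM, eM⟩ := ResVal.exists_pow_mul harch
    (mkResVal A π (tame₂ L N r hrN) (⊤ : IntermediateField κ (LaurentSeries κ))
      (fun _ => trivial)) (x := (x : modularFunctionFieldFullC L (N * r))) (y := u₁) h2
      (Subtype.ext e2)
  have hM₂ : u₁ ^ M * (x : modularFunctionFieldFullC L (N * r)) ∈ O₂ A π N r hrN := hM
  have eM₂ : res₂ A π N r hrN ⟨_, hM₂⟩ = 0 := congrArg Subtype.val eM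
  have hM₁ : u₁ ^ M * (x : modularFunctionFieldFullC L (N * r)) ∈ O₁ A π N r :=
    mul_mem (pow_mem h1 M) x.2
  have eM₁ : res₁ A π N r ⟨_, hM₁⟩ = delta κ r ^ M * res₁ A π N r x := by
    have h3 : (⟨_, hM₁⟩ : O₁ A π N r) = ⟨_, h1⟩ ^ M * x := rfl
    rw [h3, map_mul, map_pow, e1]
  let b : Fin 2 → modularFunctionFieldFullC L (N * r) :=
    ![u₁, u₁ ^ M * (x : modularFunctionFieldFullC L (N * r))]
  have hb₁ : ∀ i, b i ∈ O₁ A π N r := by
    intro i; fin_cases i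
    · exact h1
    · exact hM₁
  have hb₂ : ∀ i, b i ∈ O₂ A π N r hrN := by
    intro i; fin_cases i
    · exact h2
    · exact hM₂
  have hb0 : ∀ i, res₂ A π N r hrN ⟨b i, hb₂ i⟩ = 0 := by
    intro i; fin_cases i
    · exact e2
    · exact eM₂
  have hbI : ResIndep (O₁ A π N r) (res₁ A π N r) (F₀ L N r) (fun i => ⟨b i, hb₁ i⟩) := by
    intro a ha hsum
    rw [Fin.sum_univ_two] at hsum
    have hs := hsum
    change res₁ A π N r (a 0) * res₁ A π N r ⟨_, h1⟩ +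
        res₁ A π N r (a 1) * res₁ A π N r ⟨_, hM₁⟩ = 0 at hs
    rw [e1, eM₁] at hs
    have hm : ∀ i, res₁ A π N r (a i) ∈ modularFunctionFieldFullC κ N := fun i =>
      res₁_mem_of_F₀ A π hπ N r hrN (ha i) (a i).2
    have hδ := delta_ne κ r
    have hz : res₁ A π N r (a 1) = 0 := by
      by_contra hne
      apply hx
      have h3 : res₁ A π N r x = -(res₁ A π N r (a 0) * delta κ r) /
          (res₁ A π N r (a 1) * delta κ r ^ M) := by
        rw [eq_div_iff (mul_ne_zero hne (pow_ne_zero _ hδ))]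
        linear_combination hs
      rw [h3]
      exact div_mem (neg_mem (mul_mem (hm 0) (delta_mem N r)))
        (mul_mem (hm 1) (pow_mem (delta_mem N r) M))
    have hz0 : res₁ A π N r (a 0) = 0 := by
      rw [hz, zero_mul, add_zero] at hs
      exact (mul_eq_zero.mp hs).resolve_right hδ
    intro i; fin_cases i
    · exact hz0
    · exact hz
  have hli := joint_linearIndependent (mem_O₁_iff_of_F₀ A π N r hrN) b hb₁ hb₂ hb0 hbI
    (fun l : Fin r => cfam (L := L) N r l) (fun l => (cfam_res₁ A π N r l).1)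
    (fun l => (cfam_res₂ A π N r hrN l).1) (fun l => (cfam_res₁ A π N r l).2)
    (cfam_resIndep A π N r hrN)
  have hfin := finrank_F₀ L N r hrN
  have : FiniteDimensional (F₀ L N r) (modularFunctionFieldFullC L (N * r)) :=
    FiniteDimensional.of_finrank_pos (by rw [hfin]; omega)
  have hcard := hli.fintype_card_le_finrank
  rw [hfin, Fintype.card_sum, Fintype.card_fin, Fintype.card_fin] at hcard
  omega

end Fermat.Agent.BadRed
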