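import Fermat.Agent.BadRed.InN

/-!
# The norm argument: Frobenius on classes killed by both push-forwards
-/

set_option autoImplicit false

noncomputable section

open AlgebraicCurve Module IntermediateField

namespace Fermat.Agent.BadRed

open Fermat.Agent.FunField Fermat.Agent.FunField.PlaceLemmas Fermat.Agent.Deuring

variable {L k : Type*} [Field L] [Field k]
variable {F F₀ F₁ : Type*} [Field F] [Field F₀] [Field F₁] [Algebra L F] [Algebra L F₀]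
  [Algebra k F₁]

namespace TwoVal

/-- a norm-like map with the residue formula `Nf ↦ r₁(f) φ(r₂(f))` resp. `r₂(f) φ(r₁(f))` -/
structure NormDat (T : TwoVal L k F F₁) (F₀ : Type*) [Field F₀] [Algebra L F₀]
    (φ : F₁ ≃+* F₁) where
  V₀ : ResVal T.A T.π F₀ F₁
  Nα : F →* F₀
  Nβ : F →* F₀
  hα : ∀ (f : F) (a b : F₁), a ≠ 0 → b ≠ 0 → T.V₁.HasRes f a → T.V₂.HasRes f b →
    V₀.HasRes (Nα f) (a * φ b)
  hβ : ∀ (f : F) (a b : F₁), a ≠ 0 → b ≠ 0 → T.V₁.HasRes f a → T.V₂.HasRes f b →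
    V₀.HasRes (Nβ f) (b * φ a)

variable {T : TwoVal L k F F₁} {φ : F₁ ≃+* F₁} (ND : NormDat T F₀ φ)

/-- **Claim 4.** -/
theorem NormDat.inN_sub [IsAlgClosed k] {n : ℕ} (hn : n ≠ 0) (γ : GalV T)
    (hγ : ∀ a, γ.σ a = φ a) {D : Divisor L F} {f : F} (hf : f ≠ 0)
    (hD : ∀ v : Place L F, (n : ℤ) * D v = v.ord f)
    (hα : ∃ (c : L) (h : F₀), c ≠ 0 ∧ h ≠ 0 ∧ ND.Nα f = c • h ^ n)
    (hβ : ∃ (c : L) (h : F₀), c ≠ 0 ∧ h ≠ 0 ∧ ND.Nβ f = c • h ^ n) :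
    T.InN n (γ.g • γ.g • D - D) := by
  obtain ⟨a, ha, har⟩ := ResVal.exists_hasRes (V := T.V₁) hf
  obtain ⟨b, hb, hbr⟩ := ResVal.exists_hasRes (V := T.V₂) hf
  have hφ : ∀ {x : F₁}, x ≠ 0 → φ x ≠ 0 := fun {x} hx => by rwa [Ne, map_eq_zero]
  have key : ∀ (N : F₀) (c : L) (h : F₀) (x : F₁), c ≠ 0 → h ≠ 0 → N = c • h ^ n →
      x ≠ 0 → ND.V₀.HasRes N x → ∃ e : F₁, e ≠ 0 ∧ x = e ^ n := by
    intro N c h x hc hh hN hx hNx
    obtain ⟨e, he, her⟩ := ResVal.exists_hasRes (V := ND.V₀) hh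
    have h1 := (her.pow n).smul hc
    rw [← hN] at h1
    obtain ⟨κ, hκ, hxe⟩ := h1.unique hNx (pow_ne_zero _ he) hx
    obtain ⟨κ', hκ'⟩ := IsAlgClosed.exists_pow_nat_eq κ (Nat.pos_of_ne_zero hn)
    have hκ0 : κ' ≠ 0 := by
      rintro rfl
      rw [zero_pow hn] at hκ'
      exact hκ hκ'.symm
    refine ⟨κ' • e, smul_ne_zero hκ0 he, ?_⟩
    rw [hxe, smul_pow, hκ']
  obtain ⟨c, h, hc, hh, hNα⟩ := hα
  obtain ⟨c', h', hc', hh', hNβ⟩ := hβ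
  obtain ⟨e, he, hea⟩ := key _ c h _ hc hh hNα (mul_ne_zero ha (hφ hb)) (ND.hα f a b ha hb har hbr)
  obtain ⟨e', he', heb⟩ := key _ c' h' _ hc' hh' hNβ (mul_ne_zero hb (hφ ha))
    (ND.hβ f a b ha hb har hbr)
  have hg : ∀ x : F, x ≠ 0 → γ.g • x ≠ 0 := fun x hx h => hx ((smul_eq_zero_iff_eq γ.g).mp h)
  refine ⟨(γ.g • γ.g • f) * f⁻¹, mul_ne_zero (hg _ (hg _ hf)) (inv_ne_zero hf), fun v => ?_,
    ⟨φ e' * e⁻¹, mul_ne_zero (hφ he') (inv_ne_zero he), ?_⟩,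
    ⟨φ e * e'⁻¹, mul_ne_zero (hφ he) (inv_ne_zero he'), ?_⟩⟩
  · rw [Finsupp.sub_apply, mul_sub, SemilinearAut.divisor_smul_apply,
      SemilinearAut.divisor_smul_apply, hD, hD,
      v.ord_mul (hg _ (hg _ hf)) (inv_ne_zero hf), v.ord_inv, γ.ord_smul, γ.ord_smul,
      sub_eq_add_neg]
  · have h1 := (γ.hasRes₁ (γ.hasRes₁ har)).mul (har.inv ha)
    rw [hγ, hγ] at h1
    have h2 : φ (φ a) * a⁻¹ = (φ e' * e⁻¹) ^ n := by
      rw [mul_pow, inv_pow, ← map_pow, ← heb, ← hea, map_mul]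
      have := hφ hb
      field_simp
    rw [← h2]
    exact h1
  · have h1 := (γ.hasRes₂ (γ.hasRes₂ hbr)).mul (hbr.inv hb)
    rw [hγ, hγ] at h1
    have h2 : φ (φ b) * b⁻¹ = (φ e * e'⁻¹) ^ n := by
      rw [mul_pow, inv_pow, ← map_pow, ← heb, ← hea, map_mul]
      have := hφ ha
      field_simp
    rw [← h2]
    exact h1

end TwoVal

end Fermat.Agent.BadRed
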