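import Fermat.Agent.BadRed.Conc3
import Fermat.Agent.BadRed.NormDat

/-!
# The `TwoVal` data of `X₀(N r)` at `r`
-/

set_option autoImplicit false

noncomputable section

open HahnSeries ModularCurve Module Polynomial

namespace Fermat.Agent.BadRed

open Fermat.Agent.Igusa Fermat.Agent.AtkinLehner

attribute [local instance 2000] lsModule lsSMul

variable {L : Type*} [Field L] [IsAlgClosed L] [CharZero L] (A : ValuationSubring L)
  {κ : Type*} [Field κ] (π : A →+* κ) [IsLocalHom π] (hπ : Function.Surjective π)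
  (harch : ArchA π)
  (N r : ℕ) [hr : Fact r.Prime] [hN : NeZero N] [CharP κ r] (hrN : ¬ r ∣ N)

/-- first valuation -/
def VV₁ : ResVal A π (modularFunctionFieldFullC L (N * r)) (modularFunctionFieldFullC κ N) :=
  mkResVal A π (tame₁ L N r) (modularFunctionFieldFullC κ N) (res₁_mem A π hπ N r hrN harch)

include hπ harch in
theorem res₂_mem (x : O₂ A π N r hrN) : res₂ A π N r hrN x ∈ modularFunctionFieldFullC κ N := by
  obtain ⟨x, hx⟩ := x
  rw [res₂_eq A π N r hrN hx hx]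
  exact res₁_mem A π hπ N r hrN harch _

/-- second valuation -/
def VV₂ : ResVal A π (modularFunctionFieldFullC L (N * r)) (modularFunctionFieldFullC κ N) :=
  mkResVal A π (tame₂ L N r hrN) (modularFunctionFieldFullC κ N) (res₂_mem A π hπ harch N r hrN)

theorem mem_VV₁ {x : modularFunctionFieldFullC L (N * r)} :
    x ∈ (VV₁ A π hπ harch N r hrN).O ↔ x ∈ O₁ A π N r := Iff.rfl

theorem mem_VV₂ {x : modularFunctionFieldFullC L (N * r)} :
    x ∈ (VV₂ A π hπ harch N r hrN).O ↔ x ∈ O₂ A π N r hrN := Iff.rfl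

theorem coe_VV₁_r {x : modularFunctionFieldFullC L (N * r)}
    (hx : x ∈ (VV₁ A π hπ harch N r hrN).O) (hx' : x ∈ O₁ A π N r) :
    (((VV₁ A π hπ harch N r hrN).r ⟨x, hx⟩ : modularFunctionFieldFullC κ N) : LaurentSeries κ) =
      res₁ A π N r ⟨x, hx'⟩ := rfl

theorem coe_VV₂_r {x : modularFunctionFieldFullC L (N * r)}
    (hx : x ∈ (VV₂ A π hπ harch N r hrN).O) (hx' : x ∈ O₂ A π N r hrN) :
    (((VV₂ A π hπ harch N r hrN).r ⟨x, hx⟩ : modularFunctionFieldFullC κ N) : LaurentSeries κ) =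
      res₂ A π N r hrN ⟨x, hx'⟩ := rfl

omit [IsAlgClosed L] [CharZero L] [IsLocalHom π] hr hN [CharP κ r] in
include hπ in
/-- lifting residues to `F_N` -/
theorem exists_lift_F₀ [NeZero N] [NeZero (N * r)] {x : LaurentSeries κ}
    (hx : x ∈ modularFunctionFieldFullC κ N) :
    ∃ (g : modularFunctionFieldFullC L (N * r)) (h : g ∈ O₁ A π N r), g ∈ F₀ L N r ∧
      res₁ A π N r ⟨g, h⟩ = x := by
  obtain ⟨y, hy⟩ := full_le_gaussImage (L := L) A π hπ N hx
  refine ⟨⟨((y : modularFunctionFieldFullC L N) : LaurentSeries L),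
    full_degeneracyC_le L (Dvd.intro r rfl) (y : modularFunctionFieldFullC L N).2⟩, y.2,
    (y : modularFunctionFieldFullC L N).2, ?_⟩
  rw [← hy]
  rfl

omit [IsLocalHom π] in
include hπ hrN in
theorem exists_lift_zero {x : LaurentSeries κ} (hx : x ∈ modularFunctionFieldFullC κ N) :
    ∃ (f : modularFunctionFieldFullC L (N * r)) (h₁ : f ∈ O₁ A π N r)
      (h₂ : f ∈ O₂ A π N r hrN), res₁ A π N r ⟨f, h₁⟩ = x ∧ res₂ A π N r hrN ⟨f, h₂⟩ = 0 := by
  obtain ⟨h0, e0⟩ := uE_res₁ (κ := κ) A π N r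
  obtain ⟨h0', e0'⟩ := uE_res₂ A π N r hrN
  set u₁ := ww L N r hrN (uE L N r) with hu₁
  have h1 : u₁ ∈ O₁ A π N r := (mem_O₂ A π N r hrN).mp h0'
  have e1 : res₁ A π N r ⟨_, h1⟩ = delta κ r := by rw [← e0']; rfl
  have h2 : u₁ ∈ O₂ A π N r hrN := (ww_mem_O₂ A π N r hrN).mpr h0
  have e2 : res₂ A π N r hrN ⟨_, h2⟩ = 0 := by rw [← e0]; exact res₂_ww A π N r hrN h0 h2
  obtain ⟨g, hg, hgF, eg⟩ := exists_lift_F₀ A π hπ N r (div_mem hx (delta_mem (κ := κ) N r))
  obtain ⟨hg2, eg2⟩ := mem_O₂_of_F₀ A π N r hrN hgF hg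
  refine ⟨g * u₁, mul_mem hg h1, mul_mem hg2 h2, ?_, ?_⟩
  · have h3 : (⟨_, mul_mem hg h1⟩ : O₁ A π N r) = ⟨_, hg⟩ * ⟨_, h1⟩ := rfl
    rw [h3, map_mul, eg, e1, div_mul_cancel₀ _ (delta_ne κ r)]
  · have h3 : (⟨_, mul_mem hg2 h2⟩ : O₂ A π N r hrN) = ⟨_, hg2⟩ * ⟨_, h2⟩ := rfl
    rw [h3, map_mul, e2, mul_zero]

omit [IsLocalHom π] in
include hπ in
theorem exists_joint_lift {x y : LaurentSeries κ} (hx : x ∈ modularFunctionFieldFullC κ N)
    (hy : y ∈ modularFunctionFieldFullC κ N) :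
    ∃ (f : modularFunctionFieldFullC L (N * r)) (h₁ : f ∈ O₁ A π N r)
      (h₂ : f ∈ O₂ A π N r hrN), res₁ A π N r ⟨f, h₁⟩ = x ∧ res₂ A π N r hrN ⟨f, h₂⟩ = y := by
  obtain ⟨f, f1, f2, ef1, ef2⟩ := exists_lift_zero A π hπ N r hrN hx
  obtain ⟨g, g1, g2, eg1, eg2⟩ := exists_lift_zero A π hπ N r hrN hy
  have g1' : ww L N r hrN g ∈ O₁ A π N r := (mem_O₂ A π N r hrN).mp g2
  have g2' : ww L N r hrN g ∈ O₂ A π N r hrN := (ww_mem_O₂ A π N r hrN).mpr g1
  refine ⟨f + ww L N r hrN g, add_mem f1 g1', add_mem f2 g2', ?_, ?_⟩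
  · have h3 : (⟨_, add_mem f1 g1'⟩ : O₁ A π N r) = ⟨_, f1⟩ + ⟨_, g1'⟩ := rfl
    rw [h3, map_add, ef1, res₁_ww A π N r hrN g2 g1', eg2, add_zero]
  · have h3 : (⟨_, add_mem f2 g2'⟩ : O₂ A π N r hrN) = ⟨_, f2⟩ + ⟨_, g2'⟩ := rfl
    rw [h3, map_add, ef2, res₂_ww A π N r hrN g1 g2', eg1, zero_add]

/-- **The `TwoVal` data of `X₀(Nr)` at `r`.** -/
def twoVal : TwoVal L κ (modularFunctionFieldFullC L (N * r)) (modularFunctionFieldFullC κ N) where
  A := A
  π := π
  π_surj := hπ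
  π_ker := pi_ker A π
  V₁ := VV₁ A π hπ harch N r hrN
  V₂ := VV₂ A π hπ harch N r hrN
  surj x y := by
    obtain ⟨f, h₁, h₂, e₁, e₂⟩ := exists_joint_lift A π hπ N r hrN x.2 y.2
    exact ⟨f, h₁, h₂, Subtype.ext e₁, Subtype.ext e₂⟩
  lat V hV := by
    obtain ⟨b, h, hb, hli⟩ := exists_joint_orthonormal A π (ι := Bool)
      (fun i => match i with
        | true => psi₁ L N r
        | false => psi₂ L N r hrN)
      (fun i => match i with
        | true => tame₁ L N r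
        | false => tame₂ L N r hrN) V
    refine ⟨b, fun i => h i true, fun i => h i false, hb, ?_⟩
    let Φ : (modularFunctionFieldFullC κ N × modularFunctionFieldFullC κ N) →ₗ[κ]
        (Bool → LaurentSeries κ) :=
      LinearMap.pi (fun i => match i with
        | true => (modularFunctionFieldFullC κ N).val.toLinearMap.comp
            (LinearMap.fst κ (modularFunctionFieldFullC κ N) (modularFunctionFieldFullC κ N))
        | false => (modularFunctionFieldFullC κ N).val.toLinearMap.comp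
            (LinearMap.snd κ (modularFunctionFieldFullC κ N) (modularFunctionFieldFullC κ N)))
    refine LinearIndependent.of_comp Φ ?_
    convert hli using 1
    funext j i
    cases i <;> rfl

end Fermat.Agent.BadRed
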