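import Fermat.Agent.BadRed.RData
import Fermat.Agent.Deuring.Main

/-!
# Degree inequality for two components
-/

set_option autoImplicit false

noncomputable section

open AlgebraicCurve Module IntermediateField

namespace Fermat.Agent.BadRed

open Fermat.Agent.FunField Fermat.Agent.FunField.PlaceLemmas Fermat.Agent.Deuring

variable {L k F F₁ : Type*} [Field L] [Field k] [Field F] [Field F₁] [Algebra L F] [Algebra k F₁]

/-- simultaneous generic element -/
theorem exists_generic₂ [Infinite k] {Λ : Submodule k (F₁ × F₁)} {D₁ D₂ : Divisor k F₁}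
    (h₁ : IsPoleDiv (Λ.map (LinearMap.fst k F₁ F₁)) D₁)
    (h₂ : IsPoleDiv (Λ.map (LinearMap.snd k F₁ F₁)) D₂) (S₁ S₂ : Finset (Place k F₁)) :
    ∃ p ∈ Λ, (∀ v ∈ S₁, p.1 ≠ 0 ∧ v.ord p.1 = -D₁ v) ∧ (∀ v ∈ S₂, p.2 ≠ 0 ∧ v.ord p.2 = -D₂ v) := by
  classical
  let p : S₁ ⊕ S₂ → Submodule k Λ := Sum.elim
    (fun v => (riemannRochSpace (D₁ - Finsupp.single v.1 1)).comap
      ((LinearMap.fst k F₁ F₁).comp Λ.subtype))
    (fun v => (riemannRochSpace (D₂ - Finsupp.single v.1 1)).comap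
      ((LinearMap.snd k F₁ F₁).comp Λ.subtype))
  have hp : ∀ v, p v ≠ ⊤ := by
    rintro (v | v) htop
    · obtain ⟨f, ⟨q, hq, rfl⟩, hf0, hv⟩ := h₁.attained v.1
      have hmem : (⟨q, hq⟩ : Λ) ∈ p (Sum.inl v) := by rw [htop]; trivial
      have h1 : q.1 ∈ riemannRochSpace (D₁ - Finsupp.single v.1 1) := hmem
      have hf0' : q.1 ≠ 0 := hf0
      have h2 := (mem_rr_of_ne hf0').mp h1 v.1
      rw [Finsupp.sub_apply, Finsupp.single_eq_same] at h2
      have hv' : v.1.ord q.1 = -D₁ v.1 := hv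
      omega
    · obtain ⟨f, ⟨q, hq, rfl⟩, hf0, hv⟩ := h₂.attained v.1
      have hmem : (⟨q, hq⟩ : Λ) ∈ p (Sum.inr v) := by rw [htop]; trivial
      have h1 : q.2 ∈ riemannRochSpace (D₂ - Finsupp.single v.1 1) := hmem
      have hf0' : q.2 ≠ 0 := hf0
      have h2 := (mem_rr_of_ne hf0').mp h1 v.1
      rw [Finsupp.sub_apply, Finsupp.single_eq_same] at h2
      have hv' : v.1.ord q.2 = -D₂ v.1 := hv
      omega
  have hex : ∃ x : Λ, ∀ v, x ∉ p v := by
    by_contra hcon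
    push Not at hcon
    have hcov : ⋃ v, (p v : Set Λ) = Set.univ := by
      rw [Set.eq_univ_iff_forall]
      intro x
      obtain ⟨v, hv⟩ := hcon x
      exact Set.mem_iUnion.mpr ⟨v, hv⟩
    obtain ⟨v, hv⟩ := Subspace.exists_eq_top_of_iUnion_eq_univ hcov
    exact hp v hv
  obtain ⟨x, hx⟩ := hex
  have key : ∀ (D : Divisor k F₁) (v : Place k F₁) (f : F₁), f ∈ riemannRochSpace D →
      ¬ f ∈ riemannRochSpace (D - Finsupp.single v 1) → f ≠ 0 ∧ v.ord f = -D v := by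
    intro D v f hf hnf
    have hf0 : f ≠ 0 := by
      rintro rfl
      exact hnf (Submodule.zero_mem _)
    refine ⟨hf0, ?_⟩
    rw [mem_rr_of_ne hf0] at hnf
    push Not at hnf
    obtain ⟨w, hw⟩ := hnf
    rw [Finsupp.sub_apply] at hw
    have h3 := (mem_rr_of_ne hf0).mp hf w
    by_cases hwv : w = v
    · subst hwv
      rw [Finsupp.single_eq_same] at hw
      omega
    · rw [Finsupp.single_eq_of_ne hwv] at hw
      omega
  refine ⟨x, x.2, fun v hv => ?_, fun v hv => ?_⟩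
  · exact key D₁ v _ (h₁.le ⟨x, x.2, rfl⟩) (hx (Sum.inl ⟨v, hv⟩))
  · exact key D₂ v _ (h₂.le ⟨x, x.2, rfl⟩) (hx (Sum.inr ⟨v, hv⟩))

/-- a family of the size of the pole divisor, independent over the powers of `a` -/
theorem exists_family [IsFF k F₁] {a : F₁} {D : Divisor k F₁} (hD : 0 ≤ D)
    (ha : ∀ v ∈ D.support, a ≠ 0 ∧ v.ord a = -D v) :
    ∃ (N : ℕ) (e : Fin N → F₁), Divisor.degree D ≤ N ∧
      LinearIndependent k (fun p : ℕ × Fin N => a ^ p.1 * e p.2) := by
  classical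
  by_cases hS : D.support.Nonempty
  swap
  · rw [Finset.not_nonempty_iff_eq_empty, Finsupp.support_eq_empty] at hS
    refine ⟨0, Fin.elim0, by rw [hS, map_zero]; exact le_rfl, ?_⟩
    exact linearIndependent_empty_type
  have hpos : ∀ v ∈ D.support, 0 < D v := by
    intro v hv
    have h1 := Finsupp.le_def.mp hD v
    rw [Finsupp.zero_apply] at h1
    exact lt_of_le_of_ne h1 (Ne.symm (Finsupp.mem_support_iff.mp hv))
  have ha0 : a ≠ 0 := by
    obtain ⟨v, hv⟩ := hS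
    exact (ha v hv).1
  set x : F₁ := a⁻¹ with hx
  have hx0 : x ≠ 0 := inv_ne_zero ha0
  have hxv : ∀ v ∈ D.support, v.ord x = D v := by
    intro v hv
    rw [hx, v.ord_inv, (ha v hv).2, neg_neg]
  have hxtr : Transcendental k x := by
    obtain ⟨v, hv⟩ := hS
    apply transcendental_of_ord_ne_zero v
    rw [hxv v hv]
    exact (hpos v hv).ne'
  have hfin := finiteDimensional_adjoin_of_isFF (K := k) hxtr
  have h1 : Divisor.degree D ≤ finrank k⟮x⟯ F₁ := by
    refine le_trans (le_of_eq ?_) (sum_ord_mul_deg_le x hxtr D.support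
      (fun v hv => by rw [hxv v hv]; exact hpos v hv))
    rw [degree_eq_sum]
    exact Finset.sum_congr rfl fun v hv => by rw [hxv v hv]
  let eb := Module.finBasis k⟮x⟯ F₁
  refine ⟨finrank k⟮x⟯ F₁, eb, h1, ?_⟩
  let y : k⟮x⟯ := (⟨x, mem_adjoin_simple_self k x⟩ : k⟮x⟯)⁻¹
  have hyx : (y : F₁) = a := by
    show ((⟨x, mem_adjoin_simple_self k x⟩ : k⟮x⟯)⁻¹ : k⟮x⟯).1 = a
    rw [show (((⟨x, mem_adjoin_simple_self k x⟩ : k⟮x⟯)⁻¹ : k⟮x⟯) : F₁) = x⁻¹ from rfl, hx, inv_inv]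
  have hytr : Transcendental k y := by
    intro halg
    apply hxtr
    have h2 : IsAlgebraic k (y : F₁) := halg.algebraMap (A := F₁)
    rw [hyx] at h2
    exact h2.inv
  have hli : LinearIndependent k (fun p : ℕ × Fin (finrank k⟮x⟯ F₁) => y ^ p.1 • eb p.2) :=
    linearIndependent_smul (linearIndependent_pow_of_transcendental hytr) eb.linearIndependent
  have h2 : (fun p : ℕ × Fin (finrank k⟮x⟯ F₁) => a ^ p.1 * eb p.2)
      = fun p : ℕ × Fin (finrank k⟮x⟯ F₁) => y ^ p.1 • eb p.2 := by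
    funext p
    rw [← hyx]
    rfl
  rw [h2]
  exact hli

/-- **Key inequality** for two components. -/
theorem RData.degree_le₂ (𝔇 : RData L k F (F₁ × F₁)) [IsFF L F] [IsFF k F₁]
    [HasPrincipalDivisors L F] [Infinite k] {g : ℤ} (hRR : RRLarge L F g) {E : Divisor L F}
    (hE : 0 ≤ E) {D₁ D₂ : Divisor k F₁}
    (hD₁ : IsPoleDiv ((𝔇.red (riemannRochSpace E)).map (LinearMap.fst k F₁ F₁)) D₁)
    (hD₂ : IsPoleDiv ((𝔇.red (riemannRochSpace E)).map (LinearMap.snd k F₁ F₁)) D₂) :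
    Divisor.degree D₁ + Divisor.degree D₂ ≤ Divisor.degree E := by
  classical
  have hone : (1 : F₁ × F₁) ∈ 𝔇.red (riemannRochSpace E) :=
    ⟨1, by simpa using one_mem_rr hE, map_one _⟩
  have hD₁0 : 0 ≤ D₁ := hD₁.zero_le_of_one_mem ⟨1, hone, rfl⟩
  have hD₂0 : 0 ≤ D₂ := hD₂.zero_le_of_one_mem ⟨1, hone, rfl⟩
  obtain ⟨ab, ⟨f, hfE, hf⟩, ha, hb⟩ := exists_generic₂ hD₁ hD₂ D₁.support D₂.support
  obtain ⟨N₁, e₁, hN₁, hli₁⟩ := exists_family hD₁0 ha
  obtain ⟨N₂, e₂, hN₂, hli₂⟩ := exists_family hD₂0 hb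
  choose E₁ hE₁ using fun i => 𝔇.res_surj ((e₁ i, 0) : F₁ × F₁)
  choose E₂ hE₂ using fun i => 𝔇.res_surj ((0, e₂ i) : F₁ × F₁)
  let e : Fin N₁ ⊕ Fin N₂ → 𝔇.O := Sum.elim E₁ E₂
  obtain ⟨c, hc⟩ := hRR
  obtain ⟨E', hE'0, hE'c, hE'⟩ := exists_bound (K := L) (fun i => ((e i : 𝔇.O) : F)) (max c 0)
  -- linear independence over `k`
  have hli : LinearIndependent k (fun p : ℕ × (Fin N₁ ⊕ Fin N₂) => 𝔇.res (f ^ p.1 * e p.2)) := by
    have h1 := linearIndependent_inl_union_inr' hli₁ hli₂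
    have h2 := h1.comp (fun p : ℕ × (Fin N₁ ⊕ Fin N₂) =>
      (Sum.elim (fun i => Sum.inl (p.1, i)) (fun i => Sum.inr (p.1, i)) p.2 :
        (ℕ × Fin N₁) ⊕ (ℕ × Fin N₂))) (by
          rintro ⟨a, i | i⟩ ⟨b, j | j⟩ h
          · simp only [Sum.elim_inl, Sum.inl.injEq, Prod.mk.injEq] at h
            rw [h.1, h.2]
          · simp at h
          · simp at h
          · simp only [Sum.elim_inr, Sum.inr.injEq, Prod.mk.injEq] at h
            rw [h.1, h.2])
    convert h2 using 1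
    funext ⟨l, i⟩
    rcases i with i | i
    · simp only [e, Sum.elim_inl, map_mul, map_pow, hf, hE₁, Function.comp_apply]
      ext <;> simp
    · simp only [e, Sum.elim_inr, map_mul, map_pow, hf, hE₂, Function.comp_apply]
      ext <;> simp
  have hli'' := 𝔇.linearIndependent_of_res _ hli
  have hcount : ∀ m : ℕ, ((m : ℤ) + 1) * (N₁ + N₂) ≤
      Divisor.degree E' + m * Divisor.degree E + 1 - g := by
    intro m
    have hdegE := degree_nonneg hE
    have h2 : c ≤ Divisor.degree (E' + m • E) := by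
      rw [map_add, map_nsmul, nsmul_eq_mul]
      have : max c 0 ≤ Divisor.degree E' := hE'c
      nlinarith [le_max_left c 0, Int.natCast_nonneg m]
    obtain ⟨hfd, hrk⟩ := hc _ h2
    -- the subfamily with `j ≤ m`
    let w : Fin (m + 1) × (Fin N₁ ⊕ Fin N₂) → riemannRochSpace (E' + m • E) := fun p =>
      ⟨((f ^ (p.1 : ℕ) * e p.2 : 𝔇.O) : F), by
        push_cast
        rw [add_comm E']
        refine mul_mem_rr ?_ (hE' p.2)
        refine rr_mono ?_ (pow_mem_rr hfE p.1)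
        exact nsmul_le_nsmul_left hE (by have := p.1.2; omega)⟩
    have hw : LinearIndependent L w := by
      apply LinearIndependent.of_comp (riemannRochSpace (E' + m • E)).subtype
      exact hli''.comp (fun p : Fin (m + 1) × (Fin N₁ ⊕ Fin N₂) => ((p.1 : ℕ), p.2)) (by
        rintro ⟨a, b⟩ ⟨a', b'⟩ h
        simp only [Prod.mk.injEq] at h
        exact Prod.ext (Fin.ext h.1) h.2)
    have h3 := hw.fintype_card_le_finrank
    rw [Fintype.card_prod, Fintype.card_fin, Fintype.card_sum, Fintype.card_fin,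
      Fintype.card_fin] at h3
    have h4 : (((m + 1) * (N₁ + N₂) : ℕ) : ℤ) ≤ finrank L (riemannRochSpace (E' + m • E)) := by
      exact_mod_cast h3
    rw [hrk, map_add, map_nsmul, nsmul_eq_mul] at h4
    push_cast at h4
    linarith
  suffices h : ((N₁ : ℤ) + N₂) ≤ Divisor.degree E by linarith
  by_contra hlt
  push Not at hlt
  set m : ℕ := (Divisor.degree E' + 1 - g).toNat with hm
  have h5 := hcount m
  have h6 : Divisor.degree E' + 1 - g ≤ m := Int.self_le_toNat _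
  have h7 := degree_nonneg hE
  nlinarith [Int.natCast_nonneg m]

end Fermat.Agent.BadRed
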