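import Fermat.Agent.BadRed.PencilO

/-!
# The structure theorem for the special fibre and the gluing data of torsion classes
-/

set_option autoImplicit false

noncomputable section

open AlgebraicCurve Module IntermediateField

namespace Fermat.Agent.BadRed

open Fermat.Agent.FunField Fermat.Agent.FunField.PlaceLemmas Fermat.Agent.Deuring

variable {L k F F₁ : Type*} [Field L] [Field k] [Field F] [Field F₁] [Algebra L F] [Algebra k F₁]

/-- pencil with Frobenius structure -/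
structure FrobPencil (𝔇 : RData L k F (F₁ × F₁)) extends Pencil 𝔇 where
  r : ℕ
  hr : 1 < r
  /-- the `k`-linear Frobenius -/
  Fr : F₁ →ₐ[k] F₁
  /-- the coefficientwise Frobenius -/
  φ : F₁ ≃+* F₁
  hFr : ∀ a, Fr (φ a) = a ^ r
  hφ : ∀ (m : ℕ) (a : F₁), φ a ∈ riemannRochSpace (m • Eb) ↔ a ∈ riemannRochSpace (m • Eb)
  hS1 : ∀ (m : ℕ) (a : F₁), a ∈ riemannRochSpace (m • Eb) →
    ∃ m' : ℕ, (a, Fr a) ∈ 𝔇.red (riemannRochSpace (m' • E))
  hS2 : ∀ (m : ℕ) (a : F₁), a ∈ riemannRochSpace (m • Eb) →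
    ∃ m' : ℕ, (Fr a, a) ∈ 𝔇.red (riemannRochSpace (m' • E))
  hSφ : ∀ (m : ℕ) (a b : F₁), (φ a, φ b) ∈ 𝔇.red (riemannRochSpace (m • E)) →
    (a, b) ∈ 𝔇.red (riemannRochSpace (m • E))
  hSb : ∀ (m : ℕ) (a b : F₁), a ∈ riemannRochSpace (m • Eb) → b ∈ riemannRochSpace (m • Eb) →
    ∃ (n : ℕ) (a' b' : F₁), (a', b') ∈ 𝔇.red (riemannRochSpace ((m + n + 1) • E)) ∧
      tb ^ (n + 1) * a - a' ∈ riemannRochSpace ((m + n) • Eb) ∧
      tb ^ (n + 1) * b - b' ∈ riemannRochSpace ((m + n) • Eb)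

variable {𝔇 : RData L k F (F₁ × F₁)}

namespace FrobPencil

variable (p : FrobPencil 𝔇)

theorem Fr_mem {m : ℕ} {a : F₁} (ha : a ∈ riemannRochSpace (m • p.Eb)) :
    p.Fr a ∈ riemannRochSpace ((p.r * m) • p.Eb) := by
  have h1 : p.Fr a = (p.φ.symm a) ^ p.r := by
    rw [← p.hFr, RingEquiv.apply_symm_apply]
  rw [h1, mul_smul]
  apply pow_mem_rr
  rw [← p.hφ, RingEquiv.apply_symm_apply]
  exact ha

/-- Frobenius on the affine ring -/
def FrO : p.OO →ₐ[k] p.OO :=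
  (p.Fr.comp p.OO.val).codRestrict p.OO (by
    rintro ⟨a, m, ha⟩
    exact ⟨_, p.Fr_mem ha⟩)

@[simp] theorem coe_FrO (a : p.OO) : (p.FrO a : F₁) = p.Fr a := rfl

/-- coefficientwise Frobenius on the affine ring -/
def φO : p.OO →+* p.OO :=
  (p.φ.toRingHom.comp p.OO.val.toRingHom).codRestrict p.OO (by
    rintro ⟨a, m, ha⟩
    exact ⟨m, (p.hφ m a).mpr ha⟩)

@[simp] theorem coe_φO (a : p.OO) : (p.φO a : F₁) = p.φ a := rfl

theorem FrO_φO (a : p.OO) : p.FrO (p.φO a) = a ^ p.r := Subtype.ext (p.hFr a)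

theorem FrO_FrO_φO_φO (a : p.OO) : p.FrO (p.FrO (p.φO (p.φO a))) = a ^ (p.r * p.r) := by
  rw [FrO_φO, map_pow, FrO_φO, pow_mul]

theorem φ_Fr (a : F₁) : p.φ (p.Fr a) = p.Fr (p.φ a) := by
  obtain ⟨b, rfl⟩ := p.φ.surjective a
  rw [p.hFr, p.hFr, map_pow]

theorem mem_S1 (a : p.OO) : (a, p.FrO a) ∈ p.S := by
  obtain ⟨a, m, ha⟩ := a
  obtain ⟨m', hm'⟩ := p.hS1 m a ha
  exact ⟨m', p.T_zero_iff.mpr hm'⟩

theorem mem_S2 (a : p.OO) : (p.FrO a, a) ∈ p.S := by
  obtain ⟨a, m, ha⟩ := a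
  obtain ⟨m', hm'⟩ := p.hS2 m a ha
  exact ⟨m', p.T_zero_iff.mpr hm'⟩

theorem mem_Sφ {a b : p.OO} (h : (p.φO a, p.φO b) ∈ p.S) : (a, b) ∈ p.S := by
  obtain ⟨m', hm'⟩ := h
  exact ⟨m', p.T_zero_iff.mpr (p.hSφ m' _ _ (p.T_zero_iff.mp hm'))⟩

/-- `t` on the affine part -/
def tO : p.OO := ⟨p.tb, 1, by rw [one_smul]; exact p.tb_mem⟩

/-- the gluing points -/
abbrev Pt : Type _ := GluePt p.S

/-- the ideal of the gluing points -/
def I : Ideal p.OO := condIdeal p.FrO p.S p.mem_S2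

variable [IsFF L F] [IsFF k F₁] [HasPrincipalDivisors L F] [HasPrincipalDivisors k F₁]
  [IsAlgClosed k] {g g₁ : ℤ} (hRR : RRLarge L F g) (hRR₁ : RRLarge k F₁ g₁)
  (hpos : 0 < Divisor.degree p.Eb)

include hRR hRR₁ hpos in
theorem exists_saturated : ∃ m₁ : ℕ, ∀ m, m₁ ≤ m →
    p.T (Tors.zero 𝔇 1) m = Subalgebra.toSubmodule p.S ⊓ (p.P m).prod (p.P m) := by
  have hfdP := p.finiteDimensional_P hRR₁
  obtain ⟨m₀, hm₀⟩ := p.exists_finrank_P hRR₁ hpos
  obtain ⟨m₀', hm₀'⟩ := p.exists_finrank_T hRR hpos one_ne_zero (Tors.zero 𝔇 1)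
  have htO : (p.tO : F₁) = p.tb := rfl
  obtain ⟨m₁, -, hm₁⟩ := saturated (k := k) (fun m => (p.P m).prod (p.P m))
    (p.T (Tors.zero 𝔇 1)) (LinearMap.mulLeft k ((p.tO, p.tO) : p.OO × p.OO))
    (by
      intro a b hab
      have h1 : p.tO * a.1 = p.tO * b.1 := congrArg Prod.fst hab
      have h2 : p.tO * a.2 = p.tO * b.2 := congrArg Prod.snd hab
      have h0 : p.tO ≠ 0 := fun h => p.tb_ne (congrArg Subtype.val h)
      exact Prod.ext (mul_left_cancel₀ h0 h1) (mul_left_cancel₀ h0 h2))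
    (fun m m' h => Submodule.prod_mono (p.P_mono h) (p.P_mono h)) (p.T_mono _)
    (fun m => p.T_le hRR one_ne_zero _ m)
    (by
      have key : ∀ (m : ℕ) (a : p.OO), a ∈ p.P m → p.tO * a ∈ p.P (m + 1) := by
        intro m a ha
        rw [p.mem_P] at ha ⊢
        have := mul_mem_rr p.tb_mem ha
        rw [add_smul, one_smul, add_comm]
        exact this
      intro m a ha
      exact ⟨key m _ ha.1, key m _ ha.2⟩)
    (by
      intro m a ha
      rw [p.T_zero_iff] at ha ⊢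
      obtain ⟨u, hu, hur⟩ := ha
      refine ⟨p.t * u, ?_, ?_⟩
      · have := mul_mem_rr p.t_mem hu
        rw [add_smul, one_smul, add_comm]
        push_cast
        exact this
      · rw [map_mul, hur, p.res_t]
        rfl)
    (by
      have key : ∀ (m : ℕ) (a : p.OO), a ∈ p.P (m + 1) → p.tO * a ∈ p.P (m + 1) → a ∈ p.P m := by
        intro m a ha ha'
        rw [p.mem_P] at ha ha' ⊢
        rcases eq_or_ne (a : F₁) 0 with h0 | h0
        · rw [h0]; exact Submodule.zero_mem _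
        have hmul : ((p.tO * a : p.OO) : F₁) = p.tb * (a : F₁) := rfl
        rw [hmul, mem_rr_of_ne (mul_ne_zero p.tb_ne h0)] at ha'
        rw [mem_rr_of_ne h0] at ha ⊢
        intro v
        have h1 := ha v
        have h2 := ha' v
        rw [v.ord_mul p.tb_ne h0] at h2
        simp only [Finsupp.smul_apply, nsmul_eq_mul, p.hEb v] at h1 h2 ⊢
        push_cast at h1 h2
        rcases le_total 0 (-(v.ord p.tb)) with h4 | h4
        · rw [max_eq_right h4] at h1 h2 ⊢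
          linarith
        · rw [max_eq_left h4] at h1 h2 ⊢
          linarith
      intro m a ha ha'
      exact ⟨key m _ ha.1 ha'.1, key m _ ha.2 ha'.2⟩)
    (m₀ := max m₀ m₀') (d := 2 * Divisor.degree p.Eb) (e := 2 * (1 - g₁)) (e' := 1 - g)
    (by
      intro m hm
      rw [finrank_prod']
      push_cast
      rw [hm₀ m ((le_max_left _ _).trans hm)]
      ring)
    (fun m hm => hm₀' m ((le_max_right _ _).trans hm))
    (by
      rintro m ⟨a, b⟩ ⟨ha, hb⟩
      obtain ⟨n, a', b', hab, h1, h2⟩ := p.hSb m a b ha hb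
      have h3 := p.red_le hRR _ hab
      refine ⟨n, (⟨a', _, h3.1⟩, ⟨b', _, h3.2⟩), p.T_zero_iff.mpr hab, ?_⟩
      have hit : ∀ (l : ℕ) (q : p.OO × p.OO),
          ((LinearMap.mulLeft k ((p.tO, p.tO) : p.OO × p.OO))^[l]) q = (p.tO, p.tO) ^ l * q := by
        intro l
        induction l with
        | zero => intro q; simp
        | succ l ih =>
          intro q
          rw [Function.iterate_succ_apply', ih, LinearMap.mulLeft_apply, pow_succ]
          ring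
      rw [hit]
      exact ⟨h1, h2⟩)
  refine ⟨m₁, fun m hm => le_antisymm ?_ ?_⟩
  · exact le_inf (fun q hq => ⟨m, hq⟩) (p.T_le hRR one_ne_zero _ m)
  · rintro q ⟨⟨m', hq⟩, hqP⟩
    have h1 := hm₁ m hm (max m m') (le_max_left _ _)
    exact h1 ⟨p.T_mono _ (le_max_right _ _) hq, hqP⟩

/-- the quotient map with kernel `S` -/
def qmap : p.OO × p.OO →ₗ[k] p.OO ⧸ p.I :=
  (Ideal.Quotient.mkₐ k p.I).toLinearMap.comp
    (LinearMap.snd k p.OO p.OO - p.FrO.toLinearMap.comp (LinearMap.fst k p.OO p.OO))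

omit [IsFF L F] [IsFF k F₁] [HasPrincipalDivisors L F] [HasPrincipalDivisors k F₁]
  [IsAlgClosed k] in
theorem ker_qmap : LinearMap.ker p.qmap = Subalgebra.toSubmodule p.S := by
  ext ⟨a, b⟩
  rw [LinearMap.mem_ker, Subalgebra.mem_toSubmodule, mem_iff_sub_mem p.mem_S2 p.mem_S1]
  exact Ideal.Quotient.eq_zero_iff_mem

omit [IsFF L F] [IsFF k F₁] [HasPrincipalDivisors L F] [HasPrincipalDivisors k F₁]
  [IsAlgClosed k] in
theorem qmap_surjective : Function.Surjective p.qmap := by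
  intro x
  obtain ⟨b, rfl⟩ := Ideal.Quotient.mk_surjective x
  refine ⟨(0, b), ?_⟩
  show Ideal.Quotient.mk p.I (b - p.FrO 0) = _
  rw [map_zero, sub_zero]

/-- an exhausting filtration with bounded images -/
theorem _root_.Fermat.Agent.BadRed.exists_map_eq_top_of_bound {k V U : Type*} [Field k]
    [AddCommGroup V] [Module k V] [AddCommGroup U] [Module k U] (P : ℕ → Submodule k V)
    [∀ m, FiniteDimensional k (P m)] (hP : Monotone P) (hex : ∀ v, ∃ m, v ∈ P m)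
    (f : V →ₗ[k] U) (hf : Function.Surjective f) {s m₀ : ℕ}
    (hs : ∀ m, m₀ ≤ m → finrank k ((P m).map f) = s) : Module.Finite k U ∧ finrank k U = s := by
  have h1 : ∀ m, m₀ ≤ m → (P m₀).map f = (P m).map f := fun m hm =>
    Submodule.eq_of_le_of_finrank_eq (Submodule.map_mono (hP hm)) (by rw [hs m hm, hs m₀ le_rfl])
  have htop : (P m₀).map f = ⊤ := by
    rw [eq_top_iff]
    intro u _
    obtain ⟨v, rfl⟩ := hf u
    obtain ⟨m, hm⟩ := hex v
    rw [h1 (max m₀ m) (le_max_left _ _)]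
    exact ⟨v, hP (le_max_right _ _) hm, rfl⟩
  have hfin : Module.Finite k ((P m₀).map f) := inferInstance
  rw [htop] at hfin
  constructor
  · exact Module.Finite.equiv Submodule.topEquiv
  · rw [← hs m₀ le_rfl, htop, finrank_top]

include hRR hRR₁ hpos in
theorem finite_quotient : Module.Finite k (p.OO ⧸ p.I) ∧
    (finrank k (p.OO ⧸ p.I) : ℤ) = g + 1 - 2 * g₁ := by
  have hfdP := p.finiteDimensional_P hRR₁
  obtain ⟨m₀, hm₀⟩ := p.exists_finrank_P hRR₁ hpos
  obtain ⟨m₀', hm₀'⟩ := p.exists_finrank_T hRR hpos one_ne_zero (Tors.zero 𝔇 1)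
  obtain ⟨m₁, hm₁⟩ := p.exists_saturated hRR hRR₁ hpos
  have hcalc : ∀ m, max m₀ (max m₀' m₁) ≤ m →
      (finrank k (((p.P m).prod (p.P m)).map p.qmap) : ℤ) = g + 1 - 2 * g₁ := by
    intro m hm
    have h0 : m₀ ≤ m := (le_max_left _ _).trans hm
    have h0' : m₀' ≤ m := ((le_max_left _ _).trans (le_max_right _ _)).trans hm
    have h1 : m₁ ≤ m := ((le_max_right _ _).trans (le_max_right _ _)).trans hm
    have h2 := finrank_map_add p.qmap ((p.P m).prod (p.P m))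
    rw [p.ker_qmap, inf_comm, ← hm₁ m h1, finrank_prod'] at h2
    have h3 := hm₀ m h0
    have h4 := hm₀' m h0'
    zify at h2
    linarith
  set M := max m₀ (max m₀' m₁) with hM
  have hres := exists_map_eq_top_of_bound (fun m => (p.P m).prod (p.P m))
    (fun m m' h => Submodule.prod_mono (p.P_mono h) (p.P_mono h)) (by
      rintro ⟨a, b⟩
      obtain ⟨m, hm⟩ := p.exists_mem_P a
      obtain ⟨m', hm'⟩ := p.exists_mem_P b
      exact ⟨max m m', p.P_mono (le_max_left _ _) hm, p.P_mono (le_max_right _ _) hm'⟩)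
    p.qmap p.qmap_surjective (s := finrank k (((p.P M).prod (p.P M)).map p.qmap)) (m₀ := M)
    (fun m hm => by
      have h1 := hcalc m hm
      have h2 := hcalc M le_rfl
      exact_mod_cast h1.trans h2.symm)
  refine ⟨hres.1, ?_⟩
  rw [hres.2]
  exact hcalc M le_rfl

include hRR hRR₁ hpos in
/-- **Structure of the special fibre.** -/
theorem structure_fibre : Finite p.Pt ∧ (Nat.card p.Pt : ℤ) = g + 1 - 2 * g₁ ∧
    ∀ a b : p.OO, (a, b) ∈ p.S ↔ ∀ x : p.Pt, x.1 b = x.1 (p.FrO a) := by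
  obtain ⟨hfin, hcard⟩ := p.finite_quotient hRR hRR₁ hpos
  have hq : 1 < p.r * p.r := by
    have := p.hr
    nlinarith
  obtain ⟨h1, h2, h3⟩ := structure_theorem (Fr := p.FrO) (S := p.S) p.mem_S2 p.mem_S1 hq
    (fun a => p.φO (p.φO a)) p.FrO_FrO_φO_φO (by
      intro c hc
      have h1 : (p.φO 0, p.φO (p.φO c)) ∈ p.S := by rw [map_zero]; exact hc
      have h2 := p.mem_Sφ h1
      have h3 : (p.φO 0, p.φO c) ∈ p.S := by rw [map_zero]; exact h2
      exact p.mem_Sφ h3) hfin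
  refine ⟨h1, ?_, h3⟩
  rw [← hcard]
  exact_mod_cast h2

omit [IsFF L F] [IsFF k F₁] [HasPrincipalDivisors L F] [HasPrincipalDivisors k F₁]
  [IsAlgClosed k] in
theorem pt_FrO_FrO (x : p.Pt) (a : p.OO) : x.1 (p.FrO (p.FrO a)) = x.1 a := by
  have h1 := sub_fr_fr_mem p.mem_S2 p.mem_S1 a
  have h2 := x.2 _ h1
  rw [map_sub, sub_eq_zero] at h2
  exact h2.symm

omit [IsFF L F] [IsFF k F₁] [HasPrincipalDivisors L F] [HasPrincipalDivisors k F₁]
  [IsAlgClosed k] in
theorem pt_φO_φO (x : p.Pt) (a : p.OO) : x.1 (p.φO (p.φO a)) = x.1 a ^ (p.r * p.r) := by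
  rw [← pt_FrO_FrO, FrO_FrO_φO_φO, map_pow]

/-- the Frobenius translate of a gluing point -/
def frPt (x : p.Pt) : p.OO →ₐ[k] k := x.1.comp p.FrO

omit [IsFF L F] [IsFF k F₁] [HasPrincipalDivisors L F] [HasPrincipalDivisors k F₁]
  [IsAlgClosed k] in
@[simp] theorem frPt_apply (x : p.Pt) (a : p.OO) : p.frPt x a = x.1 (p.FrO a) := rfl

omit [IsFF L F] [IsFF k F₁] [HasPrincipalDivisors L F] [HasPrincipalDivisors k F₁]
  [IsAlgClosed k] in
theorem frPt_injective : Function.Injective p.frPt := by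
  intro x y hxy
  apply Subtype.ext
  ext a
  rw [← pt_FrO_FrO, ← pt_FrO_FrO p y]
  exact DFunLike.congr_fun hxy (p.FrO a)

/-- `c` is the gluing datum of the torsion class `τ` -/
def IsGlue {n : ℕ} (τ : Tors 𝔇 n) (c : p.Pt → k) : Prop :=
  (∀ x, c x ^ n = 1) ∧ ∃ m₁ : ℕ, ∀ m, m₁ ≤ m → ∀ a b : p.OO,
    (a, b) ∈ p.T τ m ↔ a ∈ p.P m ∧ b ∈ p.P m ∧ ∀ x, x.1 b = c x * x.1 (p.FrO a)

include hRR hRR₁ hpos in
/-- **Existence of gluing data.** -/
theorem exists_isGlue {n : ℕ} (hn : n ≠ 0) (τ : Tors 𝔇 n) : ∃ c, p.IsGlue τ c := by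
  classical
  obtain ⟨hfin, hcard, hS⟩ := p.structure_fibre hRR hRR₁ hpos
  have := Fintype.ofFinite p.Pt
  have hfdP := p.finiteDimensional_P hRR₁
  obtain ⟨m₀, hm₀⟩ := p.exists_finrank_P hRR₁ hpos
  obtain ⟨m₀', hm₀'⟩ := p.exists_finrank_T hRR hpos hn τ
  obtain ⟨c, hc1, hc2⟩ := gluing_theorem (fun x : p.Pt => x.1) p.frPt Subtype.val_injective
    p.frPt_injective p.P p.P_mono p.exists_mem_P (p.T τ) (p.T_mono τ)
    (fun m => p.T_le hRR hn τ m) hn
    (by
      intro m q hq x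
      obtain ⟨u, hu, hur⟩ := hq
      have h1 : (q.1 ^ n, q.2 ^ n) ∈ p.S := by
        refine ⟨n * m, p.T_zero_iff.mpr ⟨u ^ n * τ.f, ?_, ?_⟩⟩
        · push_cast
          rw [mul_smul]
          exact τ.pow_mul_mem hu
        · rw [map_mul, τ.res_f, mul_one, map_pow, hur]
          rfl
      have h2 := (hS _ _).mp h1 x
      rw [map_pow, map_pow, map_pow] at h2
      exact h2)
    (m₀ := max m₀ m₀')
    (by
      intro m hm
      have h3 := hm₀ m ((le_max_left _ _).trans hm)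
      have h4 := hm₀' m ((le_max_right _ _).trans hm)
      rw [Nat.card_eq_fintype_card] at hcard
      rw [finrank_prod']
      zify
      linarith)
  exact ⟨c, hc1, hc2⟩

end FrobPencil

end Fermat.Agent.BadRed
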