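import Fermat.Agent.BadRed.Principal
import Fermat.Prelude.Def_AlgebraicCurve_BaseChangeGalois

/-!
# Galois action on normalised torsion classes
-/

set_option autoImplicit false

noncomputable section

open AlgebraicCurve Module IntermediateField

namespace Fermat.Agent.BadRed

open Fermat.Agent.FunField Fermat.Agent.FunField.PlaceLemmas Fermat.Agent.Deuring

variable {L k F F₁ : Type*} [Field L] [Field k] [Field F] [Field F₁] [Algebra L F] [Algebra k F₁]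
variable {𝔇 : RData L k F (F₁ × F₁)}

namespace Tors

variable {n : ℕ}

/-- sum of torsion data -/
def add (τ τ' : Tors 𝔇 n) : Tors 𝔇 n where
  D := τ.D + τ'.D
  f := τ.f * τ'.f
  res_f := by rw [map_mul, τ.res_f, τ'.res_f, one_mul]
  hD := fun v => by
    rw [Finsupp.add_apply, mul_add, τ.hD, τ'.hD]
    push_cast
    rw [v.ord_mul τ.f_ne τ'.f_ne]

theorem exists_neg (τ : Tors 𝔇 n) : ∃ τ' : Tors 𝔇 n, τ'.D = -τ.D := by
  obtain ⟨f', hf'⟩ := 𝔇.isUnit_of_res (f := τ.f) (by rw [τ.res_f]; exact isUnit_one)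
  have h1 : τ.f * f' = 1 := Subtype.ext hf'
  have hf0 : (f' : F) ≠ 0 := right_ne_zero_of_mul_eq_one hf'
  refine ⟨⟨-τ.D, f', ?_, ?_⟩, rfl⟩
  · have := congrArg 𝔇.res h1
    rw [map_mul, τ.res_f, one_mul, map_one] at this
    exact this
  · intro v
    have h2 := congrArg v.ord hf'
    rw [v.ord_mul τ.f_ne hf0, v.ord_one, ← τ.hD] at h2
    rw [Finsupp.neg_apply]
    linarith

/-- multiples of torsion data -/
def nsmul (τ : Tors 𝔇 n) : ℕ → Tors 𝔇 n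
  | 0 => ⟨0, 1, map_one _, fun v => by simp⟩
  | (l + 1) => add (nsmul τ l) τ

theorem nsmul_D (τ : Tors 𝔇 n) (l : ℕ) : (τ.nsmul l).D = l • τ.D := by
  induction l with
  | zero => simp [nsmul]
  | succ l ih =>
    show (τ.nsmul l).D + τ.D = _
    rw [ih, succ_nsmul]

end Tors

/-- a semilinear automorphism compatible with the pencil -/
structure GalEl (p : FrobPencil 𝔇) where
  g : SemilinearAut L F
  σ : F₁ ≃+* F₁
  hO : ∀ f : F, f ∈ 𝔇.O → g • f ∈ 𝔇.O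
  hO' : ∀ f : F, g • f ∈ 𝔇.O → f ∈ 𝔇.O
  hres : ∀ f : 𝔇.O, 𝔇.res ⟨g • (f : F), hO f f.2⟩ = (σ (𝔇.res f).1, σ (𝔇.res f).2)
  ht : g • (p.t : F) = p.t

namespace GalEl

variable {p : FrobPencil 𝔇} (γ : GalEl p)

theorem ord_smul (v : Place L F) (f : F) : v.ord (γ.g • f) = (γ.g⁻¹ • v).ord f := by
  have := SemilinearAut.ord_smul γ.g (γ.g⁻¹ • v) f
  rwa [smul_inv_smul] at this

theorem smul_E : γ.g • p.E = p.E := by
  ext v
  rw [SemilinearAut.divisor_smul_apply, p.hE, p.hE, ← γ.ord_smul, γ.ht]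

theorem mem_rr_smul (D : Divisor L F) (f : F) :
    γ.g • f ∈ riemannRochSpace (γ.g • D) ↔ f ∈ riemannRochSpace D := by
  rcases eq_or_ne f 0 with rfl | hf
  · simp
  have hgf : γ.g • f ≠ 0 := by
    intro h
    apply hf
    exact (smul_eq_zero_iff_eq γ.g).mp h
  rw [mem_rr_of_ne hf, mem_rr_of_ne hgf]
  constructor
  · intro h v
    have h1 := h (γ.g • v)
    rwa [SemilinearAut.divisor_smul_apply_smul, γ.ord_smul, inv_smul_smul] at h1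
  · intro h v
    rw [γ.ord_smul, SemilinearAut.divisor_smul_apply]
    exact h _

/-- action on torsion data -/
def smul {n : ℕ} (τ : Tors 𝔇 n) : Tors 𝔇 n where
  D := γ.g • τ.D
  f := ⟨γ.g • (τ.f : F), γ.hO _ τ.f.2⟩
  res_f := by
    rw [γ.hres, τ.res_f]
    simp
  hD := fun v => by
    rw [SemilinearAut.divisor_smul_apply, τ.hD]
    exact (γ.ord_smul v _).symm

@[simp] theorem smul_D {n : ℕ} (τ : Tors 𝔇 n) : (γ.smul τ).D = γ.g • τ.D := rfl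

theorem mem_T_smul {n : ℕ} {τ : Tors 𝔇 n} {m : ℕ} {a b a' b' : p.OO} (h : (a, b) ∈ p.T τ m)
    (ha : (a' : F₁) = γ.σ a) (hb : (b' : F₁) = γ.σ b) : (a', b') ∈ p.T (γ.smul τ) m := by
  obtain ⟨u, hu, hur⟩ := h
  refine ⟨⟨γ.g • (u : F), γ.hO _ u.2⟩, ?_, ?_⟩
  · have h1 : m • p.E + (γ.smul τ).D = γ.g • (m • p.E + τ.D) := by
      have h2 : γ.g • (m • p.E) = m • (γ.g • p.E) :=
        map_nsmul (DistribSMul.toAddMonoidHom (Divisor L F) γ.g) m p.E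
      rw [smul_D, smul_add, h2, γ.smul_E]
    rw [h1]
    exact (γ.mem_rr_smul _ _).mpr hu
  · rw [γ.hres, hur]
    show _ = ((a' : F₁), (b' : F₁))
    rw [ha, hb]
    rfl

end GalEl

namespace FrobPencil

variable {p : FrobPencil 𝔇}

/-- a section with constant first component -/
theorem IsGlue.exists_section [IsFF k F₁] [HasPrincipalDivisors k F₁] [IsAlgClosed k]
    [Finite p.Pt] {n : ℕ} {τ : Tors 𝔇 n} {c : p.Pt → k} (hc : p.IsGlue τ c) :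
    ∃ (b : p.OO), (∀ x : p.Pt, x.1 b = c x) ∧ ∃ m₁ : ℕ, ∀ m, m₁ ≤ m →
      ((1 : p.OO), b) ∈ p.T τ m := by
  obtain ⟨b, hb⟩ := eval_surjective (fun x : p.Pt => x.1) Subtype.val_injective c
  obtain ⟨-, m₁, hm₁⟩ := hc
  obtain ⟨m₂, hm₂⟩ := p.exists_mem_P b
  refine ⟨b, hb, max m₁ m₂, fun m hm => ?_⟩
  rw [hm₁ m ((le_max_left _ _).trans hm)]
  refine ⟨one_mem_rr (nsmul_nonneg p.Eb_nonneg m),
    p.P_mono ((le_max_right _ _).trans hm) hm₂, fun x => ?_⟩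
  rw [map_one, map_one, mul_one]
  exact hb x

theorem IsGlue.eq_of_mem {n : ℕ} {τ : Tors 𝔇 n} {c : p.Pt → k} (hc : p.IsGlue τ c) {b : p.OO}
    {m₀ : ℕ} (h : ((1 : p.OO), b) ∈ p.T τ m₀) (x : p.Pt) : x.1 b = c x := by
  obtain ⟨-, m₁, hm₁⟩ := hc
  have h1 := p.T_mono τ (le_max_left m₀ m₁) h
  have h2 := ((hm₁ _ (le_max_right m₀ m₁) _ _).mp h1).2.2 x
  rwa [map_one, map_one, mul_one] at h2

variable [IsFF k F₁] [HasPrincipalDivisors k F₁] [IsAlgClosed k]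

theorem IsGlue.add [Finite p.Pt] {n : ℕ} {τ τ' τ'' : Tors 𝔇 n} {c c' c'' : p.Pt → k} (hc : p.IsGlue τ c)
    (hc' : p.IsGlue τ' c') (hc'' : p.IsGlue τ'' c'') (h : τ''.D = τ.D + τ'.D) (x : p.Pt) :
    c'' x = c x * c' x := by
  obtain ⟨b, hb, m₁, hm₁⟩ := hc.exists_section
  obtain ⟨b', hb', m₁', hm₁'⟩ := hc'.exists_section
  have h1 := p.T_mul h (hm₁ m₁ le_rfl) (hm₁' m₁' le_rfl)
  have h2 : ((1 : p.OO), b) * ((1 : p.OO), b') = ((1 : p.OO), b * b') := by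
    rw [Prod.mk_mul_mk, one_mul]
  rw [h2] at h1
  rw [← hc''.eq_of_mem h1 x, map_mul, hb, hb']

theorem IsGlue.congr [Finite p.Pt] {n : ℕ} {τ τ' : Tors 𝔇 n} {c c' : p.Pt → k} (hc : p.IsGlue τ c)
    (hc' : p.IsGlue τ' c') (h : τ'.D = τ.D) (x : p.Pt) : c' x = c x := by
  obtain ⟨b, hb, m₁, hm₁⟩ := hc.exists_section
  have h1 : ((1 : p.OO), b) ∈ p.T τ' m₁ := by
    have h2 := hm₁ m₁ le_rfl
    rw [p.mem_T] at h2 ⊢
    rw [h]
    exact h2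
  rw [← hc'.eq_of_mem h1 x, hb]

theorem IsGlue.nsmul [Finite p.Pt] {n : ℕ} (hn : n ≠ 0) {τ : Tors 𝔇 n} {c : p.Pt → k} (hc : p.IsGlue τ c)
    (hex : ∀ τ : Tors 𝔇 n, ∃ c, p.IsGlue τ c) (l : ℕ) {c' : p.Pt → k}
    (hc' : p.IsGlue (τ.nsmul l) c') (x : p.Pt) : c' x = c x ^ l := by
  induction l generalizing c' with
  | zero =>
    have h1 := hc'.add hc' hc' (by simp [Tors.nsmul]) x
    have h2 : c' x ≠ 0 := by
      intro h0
      have := hc'.1 x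
      rw [h0, zero_pow hn] at this
      exact zero_ne_one this
    rw [pow_zero]
    exact mul_left_cancel₀ h2 (by rw [mul_one]; exact h1.symm)
  | succ l ih =>
    obtain ⟨d, hd⟩ := hex (τ.nsmul l)
    rw [hd.add hc hc' rfl x, ih hd, pow_succ]

/-- trivial gluing data -/
theorem trivGlue_of_eq_one [IsFF L F] [HasPrincipalDivisors L F] {g g₁ : ℤ}
    (hRR : RRLarge L F g) (hRR₁ : RRLarge k F₁ g₁) (hpos : 0 < Divisor.degree p.Eb) {n : ℕ}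
    {τ : Tors 𝔇 n} {c : p.Pt → k} (hc : p.IsGlue τ c) (h1 : ∀ x, c x = 1) :
    ∃ m₁, p.TrivGlue τ m₁ := by
  obtain ⟨-, -, hS⟩ := p.structure_fibre hRR hRR₁ hpos
  obtain ⟨-, m₁, hm₁⟩ := hc
  refine ⟨m₁, fun m hm => ?_⟩
  ext ⟨a, b⟩
  rw [hm₁ m hm]
  constructor
  · rintro ⟨ha, hb, hx⟩
    refine ⟨(hS a b).mpr fun x => ?_, ha, hb⟩
    rw [hx x, h1, one_mul]
  · rintro ⟨hab, ha, hb⟩
    refine ⟨ha, hb, fun x => ?_⟩
    rw [h1, one_mul]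
    exact (hS a b).mp hab x

/-- the standing hypotheses -/
structure Hyp (p : FrobPencil 𝔇) (g g₁ : ℤ) : Prop where
  hRR : RRLarge L F g
  hRR₁ : RRLarge k F₁ g₁
  hpos : 0 < Divisor.degree p.Eb
  hnt : ∃ ε : 𝔇.A, (ε : L) ≠ 0 ∧ 𝔇.π ε = 0
  harch : ∀ ε : 𝔇.A, (ε : L) ≠ 0 → 𝔇.π ε = 0 → ∀ a : L, a ≠ 0 →
      ∃ m : ℕ, a * ((ε : L) ^ m)⁻¹ ∉ 𝔇.A

variable [IsFF L F] [HasPrincipalDivisors L F] [IsAlgClosed L] {g g₁ : ℤ}

theorem Hyp.principal_of_eq_one (H : Hyp p g g₁) {n : ℕ} (hnk : (n : k) ≠ 0)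
    {τ : Tors 𝔇 n} {c : p.Pt → k} (hc : p.IsGlue τ c) (h1 : ∀ x, c x = 1) :
    ∃ w : F, w ≠ 0 ∧ ∀ v : Place L F, τ.D v = -(v.ord w) := by
  have hn : n ≠ 0 := by
    rintro rfl
    exact hnk (by simp)
  obtain ⟨m₁, hm₁⟩ := trivGlue_of_eq_one H.hRR H.hRR₁ H.hpos hc h1
  obtain ⟨m₀, hm₀⟩ := p.exists_saturated H.hRR H.hRR₁ H.hpos
  exact p.principal H.hRR hn hnk hm₁ hm₀ H.hnt H.harch

theorem Hyp.inertia_fix (H : Hyp p g g₁) {n : ℕ} (hnk : (n : k) ≠ 0) (τ : Tors 𝔇 n)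
    (γ : GalEl p) (hγ : ∀ a, γ.σ a = a) :
    ∃ w : F, w ≠ 0 ∧ ∀ v : Place L F, (γ.g • τ.D - τ.D) v = v.ord w := by
  have hn : n ≠ 0 := by
    rintro rfl
    exact hnk (by simp)
  have hfin := (p.structure_fibre H.hRR H.hRR₁ H.hpos).1
  have hex : ∀ τ : Tors 𝔇 n, ∃ c, p.IsGlue τ c := fun τ => p.exists_isGlue H.hRR H.hRR₁ H.hpos hn τ
  obtain ⟨c, hc⟩ := hex τ
  obtain ⟨c', hc'⟩ := hex (γ.smul τ)
  have h1 : ∀ x, c' x = c x := by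
    intro x
    obtain ⟨b, hb, m₁, hm₁⟩ := hc.exists_section
    have h2 := γ.mem_T_smul (hm₁ m₁ le_rfl) (a' := 1) (b' := b) (by simp) (hγ _).symm
    rw [← hc'.eq_of_mem h2 x, hb]
  obtain ⟨τn, hτn⟩ := τ.exists_neg
  obtain ⟨cn, hcn⟩ := hex τn
  obtain ⟨cz, hcz⟩ := hex (τ.nsmul 0)
  have hcz1 : ∀ x, cz x = 1 := fun x => by rw [hc.nsmul hn hex 0 hcz x, pow_zero]
  have h2 : ∀ x, c x * cn x = 1 := fun x => by
    rw [← hc.add hcn hcz (by rw [τ.nsmul_D, hτn]; simp) x, hcz1]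
  obtain ⟨cs, hcs⟩ := hex ((γ.smul τ).add τn)
  have h3 : ∀ x, cs x = 1 := fun x => by
    rw [hc'.add hcn hcs rfl x, h1, h2]
  obtain ⟨w, hw0, hw⟩ := H.principal_of_eq_one hnk hcs h3
  refine ⟨w⁻¹, inv_ne_zero hw0, fun v => ?_⟩
  rw [v.ord_inv, ← hw v]
  show _ = (γ.g • τ.D + τn.D) v
  rw [hτn, sub_eq_add_neg]

theorem Hyp.frob_sq (H : Hyp p g g₁) {n : ℕ} (hnk : (n : k) ≠ 0) (τ : Tors 𝔇 n)
    (γ : GalEl p) (hγ : ∀ a, γ.σ a = p.φ a) :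
    ∃ w : F, w ≠ 0 ∧ ∀ v : Place L F,
      (γ.g • (γ.g • τ.D) - (p.r * p.r) • τ.D) v = v.ord w := by
  have hn : n ≠ 0 := by
    rintro rfl
    exact hnk (by simp)
  have hfin := (p.structure_fibre H.hRR H.hRR₁ H.hpos).1
  have hex : ∀ τ : Tors 𝔇 n, ∃ c, p.IsGlue τ c := fun τ => p.exists_isGlue H.hRR H.hRR₁ H.hpos hn τ
  obtain ⟨c, hc⟩ := hex τ
  obtain ⟨c', hc'⟩ := hex (γ.smul (γ.smul τ))
  have h1 : ∀ x, c' x = c x ^ (p.r * p.r) := by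
    intro x
    obtain ⟨b, hb, m₁, hm₁⟩ := hc.exists_section
    have h2 := γ.mem_T_smul (hm₁ m₁ le_rfl) (a' := 1) (b' := p.φO b) (by simp)
      (by rw [p.coe_φO, hγ])
    have h3 := γ.mem_T_smul h2 (a' := 1) (b' := p.φO (p.φO b)) (by simp)
      (by rw [p.coe_φO, hγ])
    rw [← hc'.eq_of_mem h3 x, p.pt_φO_φO, hb]
  obtain ⟨τn, hτn⟩ := (τ.nsmul (p.r * p.r)).exists_neg
  obtain ⟨cn, hcn⟩ := hex τn
  obtain ⟨cr, hcr⟩ := hex (τ.nsmul (p.r * p.r))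
  have hcr1 : ∀ x, cr x = c x ^ (p.r * p.r) := fun x => hc.nsmul hn hex _ hcr x
  obtain ⟨cz, hcz⟩ := hex (τ.nsmul 0)
  have hcz1 : ∀ x, cz x = 1 := fun x => by rw [hc.nsmul hn hex 0 hcz x, pow_zero]
  have h2 : ∀ x, cr x * cn x = 1 := fun x => by
    rw [← hcr.add hcn hcz (by rw [τ.nsmul_D, hτn]; simp) x, hcz1]
  obtain ⟨cs, hcs⟩ := hex ((γ.smul (γ.smul τ)).add τn)
  have h3 : ∀ x, cs x = 1 := fun x => by
    rw [hc'.add hcn hcs rfl x, h1, ← hcr1, h2]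
  obtain ⟨w, hw0, hw⟩ := H.principal_of_eq_one hnk hcs h3
  refine ⟨w⁻¹, inv_ne_zero hw0, fun v => ?_⟩
  rw [v.ord_inv, ← hw v]
  show _ = (γ.g • (γ.g • τ.D) + τn.D) v
  rw [hτn, τ.nsmul_D, sub_eq_add_neg]

end FrobPencil

end Fermat.Agent.BadRed
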