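import Mathlib

/-!
# Gluing: pure algebra behind the structure of the special fibre
-/

set_option autoImplicit false

open Module

namespace Fermat.Agent.BadRed

section FiniteReduced

variable {k : Type*} [Field k] [IsAlgClosed k]

/-- In a finite reduced algebra over an algebraically closed field, an element killed by all
points is zero. -/
theorem eq_zero_of_forall_point {Q : Type*} [CommRing Q] [Algebra k Q] [Module.Finite k Q]
    [IsReduced Q] {a : Q} (h : ∀ x : Q →ₐ[k] k, x a = 0) : a = 0 := by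
  have : IsArtinianRing Q := IsArtinianRing.of_finite k Q
  have h1 : a ∈ nilradical Q := by
    rw [nilradical_eq_sInf, Ideal.mem_sInf]
    intro J hJ
    have hJ' : J.IsPrime := hJ
    have hJm : J.IsMaximal := IsArtinianRing.isMaximal_of_isPrime J
    let _ : Field (Q ⧸ J) := Ideal.Quotient.field J
    have hbij : Function.Bijective (algebraMap k (Q ⧸ J)) :=
      IsAlgClosed.algebraMap_bijective_of_isIntegral
    let e : k ≃ₐ[k] (Q ⧸ J) := AlgEquiv.ofBijective (Algebra.ofId k (Q ⧸ J)) hbij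
    have h2 := h ((e.symm : (Q ⧸ J) →ₐ[k] k).comp (Ideal.Quotient.mkₐ k J))
    have h3 : e.symm (Ideal.Quotient.mk J a) = 0 := h2
    have h4 : Ideal.Quotient.mk J a = 0 := by
      have := congrArg e h3
      simpa using this
    exact Ideal.Quotient.eq_zero_iff_mem.mp h4
  exact (mem_nilradical.mp h1).eq_zero

end FiniteReduced

section Dedekind

variable {k 𝒪 : Type*} [Field k] [CommRing 𝒪] [Algebra k 𝒪]

/-- distinct points are independent: evaluation is surjective. -/
theorem eval_surjective {ι : Type*} [Finite ι] (x : ι → (𝒪 →ₐ[k] k))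
    (hx : Function.Injective x) (c : ι → k) : ∃ a : 𝒪, ∀ i, x i a = c i := by
  classical
  have := Fintype.ofFinite ι
  let W : Submodule k (ι → k) := LinearMap.range (LinearMap.pi fun i => (x i).toLinearMap)
  suffices hW : W = ⊤ by
    have hc : c ∈ W := by rw [hW]; trivial
    obtain ⟨a, ha⟩ := hc
    exact ⟨a, fun i => congrFun ha i⟩
  by_contra hne
  obtain ⟨f, hf0, hf⟩ := Submodule.exists_le_ker_of_lt_top W (lt_top_iff_ne_top.mpr hne)
  apply hf0
  have hli := linearIndependent_monoidHom 𝒪 k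
  have hli2 : LinearIndependent k (fun i => ((x i : 𝒪 →* k) : 𝒪 → k)) := by
    have := hli.comp (fun i => (x i : 𝒪 →* k)) (by
      intro i j hij
      apply hx
      ext a
      exact DFunLike.congr_fun hij a)
    exact this
  have hcoef := Fintype.linearIndependent_iff.mp hli2 (fun i => f (Pi.single i 1)) (by
    funext a
    have h1 : f (fun i => x i a) = 0 := hf ⟨a, rfl⟩
    have h2 : (fun i => x i a) = ∑ i, x i a • (Pi.single i (1 : k) : ι → k) := by
      funext j
      simp [Finset.sum_apply, Pi.single_apply]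
    rw [h2, map_sum] at h1
    simp only [map_smul, smul_eq_mul] at h1
    simp only [Finset.sum_apply, Pi.smul_apply, smul_eq_mul, Pi.zero_apply]
    rw [← h1]
    exact Finset.sum_congr rfl fun i _ => mul_comm _ _)
  apply LinearMap.pi_ext'
  intro i
  apply LinearMap.ext_ring
  simpa using hcoef i

end Dedekind

section Structure

variable {k 𝒪 : Type*} [Field k] [IsAlgClosed k] [CommRing 𝒪] [Algebra k 𝒪]
  (Fr : 𝒪 →ₐ[k] 𝒪) (S : Subalgebra k (𝒪 × 𝒪))

/-- the gluing points -/
def GluePt : Type _ := {x : 𝒪 →ₐ[k] k // ∀ c : 𝒪, ((0 : 𝒪), c) ∈ S → x c = 0}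

/-- the conductor ideal of the second component -/
def condIdeal (hS : ∀ a : 𝒪, (Fr a, a) ∈ S) : Ideal 𝒪 where
  carrier := {c | ((0 : 𝒪), c) ∈ S}
  zero_mem' := S.zero_mem
  add_mem' := by
    intro a b ha hb
    have := S.add_mem ha hb
    simpa using this
  smul_mem' := by
    intro a c hc
    have := S.mul_mem (hS a) hc
    simpa using this

variable {Fr S}

omit [IsAlgClosed k] in
theorem mem_condIdeal {hS : ∀ a : 𝒪, (Fr a, a) ∈ S} {c : 𝒪} :
    c ∈ condIdeal Fr S hS ↔ ((0 : 𝒪), c) ∈ S := Iff.rfl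

omit [IsAlgClosed k] in
theorem mem_iff_sub_mem (hS : ∀ a : 𝒪, (Fr a, a) ∈ S) (hS' : ∀ a : 𝒪, (a, Fr a) ∈ S)
    (a b : 𝒪) : (a, b) ∈ S ↔ b - Fr a ∈ condIdeal Fr S hS := by
  rw [mem_condIdeal]
  constructor
  · intro h
    have := S.sub_mem h (hS' a)
    simpa using this
  · intro h
    have := S.add_mem h (hS' a)
    simpa using this

omit [IsAlgClosed k] in
theorem sub_fr_fr_mem (hS : ∀ a : 𝒪, (Fr a, a) ∈ S) (hS' : ∀ a : 𝒪, (a, Fr a) ∈ S) (b : 𝒪) :
    b - Fr (Fr b) ∈ condIdeal Fr S hS :=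
  (mem_iff_sub_mem hS hS' _ _).mp (hS b)

omit [IsAlgClosed k] in
theorem condIdeal_isRadical (hS : ∀ a : 𝒪, (Fr a, a) ∈ S) (hS' : ∀ a : 𝒪, (a, Fr a) ∈ S)
    {q : ℕ} (hq : 1 < q) (φ₂ : 𝒪 → 𝒪) (hφ : ∀ a, Fr (Fr (φ₂ a)) = a ^ q)
    (hφS : ∀ c, ((0 : 𝒪), φ₂ c) ∈ S → ((0 : 𝒪), c) ∈ S) : (condIdeal Fr S hS).IsRadical := by
  have hstep : ∀ a, a ^ q ∈ condIdeal Fr S hS → a ∈ condIdeal Fr S hS := by
    intro a ha
    apply hφS
    rw [← hφ] at ha
    have := (condIdeal Fr S hS).add_mem (sub_fr_fr_mem hS hS' (φ₂ a)) ha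
    rw [sub_add_cancel] at this
    exact this
  have hiter : ∀ (e : ℕ) (a : 𝒪), a ^ (q ^ e) ∈ condIdeal Fr S hS → a ∈ condIdeal Fr S hS := by
    intro e
    induction e with
    | zero => intro a ha; simpa using ha
    | succ e ih =>
      intro a ha
      rw [pow_succ, pow_mul] at ha
      exact ih a (hstep _ ha)
  intro a ha
  obtain ⟨n, hn⟩ := ha
  apply hiter n
  have hle : n ≤ q ^ n := (Nat.lt_pow_self hq).le
  obtain ⟨d, hd⟩ := Nat.exists_eq_add_of_le hle
  rw [hd, pow_add]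
  exact Ideal.mul_mem_right _ _ hn

/-- **Structure theorem**: `S` is the ring of pairs glued at the (reduced) points. -/
theorem structure_theorem (hS : ∀ a : 𝒪, (Fr a, a) ∈ S) (hS' : ∀ a : 𝒪, (a, Fr a) ∈ S)
    {q : ℕ} (hq : 1 < q) (φ₂ : 𝒪 → 𝒪) (hφ : ∀ a, Fr (Fr (φ₂ a)) = a ^ q)
    (hφS : ∀ c, ((0 : 𝒪), φ₂ c) ∈ S → ((0 : 𝒪), c) ∈ S)
    (hfin : Module.Finite k (𝒪 ⧸ condIdeal Fr S hS)) :
    Finite (GluePt S) ∧ Nat.card (GluePt S) = finrank k (𝒪 ⧸ condIdeal Fr S hS) ∧
      ∀ a b : 𝒪, (a, b) ∈ S ↔ ∀ x : GluePt S, x.1 b = x.1 (Fr a) := by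
  classical
  set I := condIdeal Fr S hS with hI
  have hrad : I.IsRadical := condIdeal_isRadical hS hS' hq φ₂ hφ hφS
  have hred : IsReduced (𝒪 ⧸ I) := (Ideal.isRadical_iff_quotient_reduced I).mp hrad
  -- points of the quotient
  let toQ : GluePt S → ((𝒪 ⧸ I) →ₐ[k] k) := fun x => Ideal.Quotient.liftₐ I x.1 (fun a ha => x.2 a ha)
  have htoQ : ∀ (x : GluePt S) (a : 𝒪), toQ x (Ideal.Quotient.mk I a) = x.1 a := fun x a => rfl
  have hinj : Function.Injective toQ := by
    intro x y hxy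
    apply Subtype.ext
    ext a
    rw [← htoQ, ← htoQ, hxy]
  have hfinQ : Finite ((𝒪 ⧸ I) →ₐ[k] k) := inferInstance
  have hfinS : Finite (GluePt S) := Finite.of_injective toQ hinj
  have hmemI : ∀ c : 𝒪, c ∈ I ↔ ∀ x : GluePt S, x.1 c = 0 := by
    intro c
    constructor
    · intro hc x
      exact x.2 c hc
    · intro h
      rw [← Ideal.Quotient.eq_zero_iff_mem]
      apply eq_zero_of_forall_point (k := k)
      intro y
      have h1 := h ⟨y.comp (Ideal.Quotient.mkₐ k I), fun a ha => by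
        show y (Ideal.Quotient.mk I a) = 0
        rw [Ideal.Quotient.eq_zero_iff_mem.mpr ha, map_zero]⟩
      exact h1
  refine ⟨hfinS, ?_, ?_⟩
  · have := Fintype.ofFinite (GluePt S)
    let ev : (𝒪 ⧸ I) →ₗ[k] (GluePt S → k) := LinearMap.pi fun x => (toQ x).toLinearMap
    have hevinj : Function.Injective ev := by
      rw [injective_iff_map_eq_zero]
      intro a ha
      obtain ⟨a, rfl⟩ := Ideal.Quotient.mk_surjective a
      rw [Ideal.Quotient.eq_zero_iff_mem, hmemI]
      intro x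
      exact congrFun ha x
    have hevsurj : Function.Surjective ev := by
      intro c
      obtain ⟨a, ha⟩ := eval_surjective (fun x : GluePt S => x.1) Subtype.val_injective c
      exact ⟨Ideal.Quotient.mk I a, funext ha⟩
    have e := LinearEquiv.ofBijective ev ⟨hevinj, hevsurj⟩
    rw [e.finrank_eq, Module.finrank_fintype_fun_eq_card, Nat.card_eq_fintype_card]
  · intro a b
    rw [mem_iff_sub_mem hS hS', ← hI, hmemI]
    refine forall_congr' fun x => ?_
    rw [map_sub, sub_eq_zero]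

end Structure

section Saturation

variable {k M : Type*} [Field k] [AddCommGroup M] [Module k M]

theorem finrank_map_inj {N : Type*} [AddCommGroup N] [Module k N] (f : M →ₗ[k] N)
    (hf : Function.Injective f) (p : Submodule k M) : finrank k (p.map f) = finrank k p :=
  (Submodule.equivMapOfInjective f hf p).finrank_eq.symm

/-- **Saturation lemma**: `P` filtration of linear growth, `R ≤ P` a filtration with eventually
the same growth, `τ` (multiplication by `t`) mapping `P m → P (m+1)`, `R m → R (m+1)`. If `R` is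
eventually surjective onto the graded pieces of `P`, then `R M ⊓ P m ≤ R m` for `m` large. -/
theorem saturated (P R : ℕ → Submodule k M) (τ : M →ₗ[k] M) (hτ : Function.Injective τ)
    [∀ m, FiniteDimensional k (P m)] (hP : Monotone P) (hR : Monotone R) (hRP : ∀ m, R m ≤ P m)
    (hPτ : ∀ m, ∀ a ∈ P m, τ a ∈ P (m + 1)) (hRτ : ∀ m, ∀ a ∈ R m, τ a ∈ R (m + 1))
    (hinj : ∀ m, ∀ a ∈ P (m + 1), τ a ∈ P (m + 1) → a ∈ P m)
    {m₀ : ℕ} {d : ℤ} {e e' : ℤ} (hdP : ∀ m, m₀ ≤ m → (finrank k (P m) : ℤ) = m * d + e)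
    (hdR : ∀ m, m₀ ≤ m → (finrank k (R m) : ℤ) = m * d + e')
    (hSb : ∀ m, ∀ p ∈ P m, ∃ n, ∃ r ∈ R (m + n + 1), (τ^[n + 1]) p - r ∈ P (m + n)) :
    ∃ m₁, m₀ ≤ m₁ ∧ ∀ m, m₁ ≤ m → ∀ m', m ≤ m' → R m' ⊓ P m ≤ R m := by
  classical
  have hfdR : ∀ m, FiniteDimensional k (R m) := fun m => Submodule.finiteDimensional_of_le (hRP m)
  have hPit : ∀ (n m : ℕ), ∀ a ∈ P m, (τ^[n]) a ∈ P (m + n) := by
    intro n
    induction n with
    | zero => intro m a ha; simpa using ha
    | succ n ih =>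
      intro m a ha
      rw [Function.iterate_succ_apply']
      exact hPτ _ _ (ih m a ha)
  have hRit : ∀ (n m : ℕ), ∀ a ∈ R m, (τ^[n]) a ∈ R (m + n) := by
    intro n
    induction n with
    | zero => intro m a ha; simpa using ha
    | succ n ih =>
      intro m a ha
      rw [Function.iterate_succ_apply']
      exact hRτ _ _ (ih m a ha)
  have hitsub : ∀ (n : ℕ) (a b : M), (τ^[n]) (a - b) = (τ^[n]) a - (τ^[n]) b := by
    intro n a b
    rw [← Module.End.coe_pow]
    exact map_sub _ _ _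
  -- the graded pieces of `P` are generated by `τ`
  have hPgen : ∀ m, m₀ ≤ m → ∀ p ∈ P (m + 2), ∃ a ∈ P (m + 1), ∃ b ∈ P (m + 1), τ a + b = p := by
    intro m hm p hp
    have h1 := Submodule.finrank_sup_add_finrank_inf_eq ((P (m + 1)).map τ) (P (m + 1))
    have h2 : finrank k ((P (m + 1)).map τ) = finrank k (P (m + 1)) := finrank_map_inj τ hτ _
    have h3 : (P (m + 1)).map τ ⊓ P (m + 1) ≤ (P m).map τ := by
      rintro _ ⟨⟨a, ha, rfl⟩, h⟩
      exact ⟨a, hinj m a ha h, rfl⟩
    have h4 := Submodule.finrank_mono h3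
    rw [finrank_map_inj τ hτ] at h4
    have h5 : (P (m + 1)).map τ ⊔ P (m + 1) ≤ P (m + 2) := by
      refine sup_le ?_ (hP (by omega))
      rintro _ ⟨a, ha, rfl⟩
      exact hPτ _ a ha
    have h6 := hdP m hm
    have h7 := hdP (m + 1) (by omega)
    have h8 := hdP (m + 2) (by omega)
    push_cast at h7 h8
    have h9 : (P (m + 1)).map τ ⊔ P (m + 1) = P (m + 2) := by
      apply Submodule.eq_of_le_of_finrank_le h5
      zify
      zify at h1 h2 h4
      linarith
    rw [← h9] at hp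
    obtain ⟨_, ⟨a, ha, rfl⟩, b, hb, h⟩ := Submodule.mem_sup.mp hp
    exact ⟨a, ha, b, hb, h⟩
  obtain ⟨m₂, hm₂⟩ : ∃ m₂, m₂ = m₀ + 1 := ⟨_, rfl⟩
  have hA : ∀ n, ∀ p ∈ P (m₂ + n + 1), ∃ a ∈ P m₂, p - (τ^[n + 1]) a ∈ P (m₂ + n) := by
    intro n
    induction n with
    | zero =>
      intro p hp
      obtain ⟨a, ha, b, hb, hab⟩ := hPgen m₀ le_rfl p (by rw [hm₂] at hp; exact hp)
      refine ⟨a, by rw [hm₂]; exact ha, ?_⟩
      have : p - (τ^[0 + 1]) a = b := by
        rw [← hab]; simp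
      rw [this, hm₂]
      exact hb
    | succ n ih =>
      intro p hp
      obtain ⟨p', hp', p'', hp'', hpp⟩ := hPgen (m₀ + n + 1) (by omega) p (by
        have : m₀ + n + 1 + 2 = m₂ + (n + 1) + 1 := by omega
        rw [this]; exact hp)
      have e1 : m₀ + n + 1 + 1 = m₂ + n + 1 := by omega
      rw [e1] at hp' hp''
      obtain ⟨a, ha, hpa⟩ := ih p' hp'
      refine ⟨a, ha, ?_⟩
      have h1 := hPτ _ _ hpa
      have h2 : p - (τ^[n + 1 + 1]) a = τ (p' - (τ^[n + 1]) a) + p'' := by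
        rw [map_sub, ← hpp, Function.iterate_succ_apply' τ (n + 1)]
        abel
      rw [h2]
      exact (P _).add_mem h1 hp''
  -- uniform `N`
  have hN : ∃ N, ∀ p ∈ P m₂, ∃ r ∈ R (m₂ + N + 1), (τ^[N + 1]) p - r ∈ P (m₂ + N) := by
    let b := Module.finBasis k (P m₂)
    choose n r hr hnr using fun i => hSb m₂ (b i : M) (b i).2
    obtain ⟨N, hN⟩ : ∃ N, ∀ i, n i ≤ N := by
      refine ⟨Finset.univ.sup n, fun i => Finset.le_sup (Finset.mem_univ i)⟩
    have hb : ∀ i, ∃ s ∈ R (m₂ + N + 1), (τ^[N + 1]) (b i : M) - s ∈ P (m₂ + N) := by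
      intro i
      refine ⟨(τ^[N - n i]) (r i), ?_, ?_⟩
      · have := hRit (N - n i) _ _ (hr i)
        have e1 : m₂ + n i + 1 + (N - n i) = m₂ + N + 1 := by have := hN i; omega
        rwa [e1] at this
      · have := hPit (N - n i) _ _ (hnr i)
        have e1 : m₂ + n i + (N - n i) = m₂ + N := by have := hN i; omega
        rw [e1, hitsub, ← Function.iterate_add_apply] at this
        have e2 : N - n i + (n i + 1) = N + 1 := by have := hN i; omega
        rwa [e2] at this
    choose s hs hbs using hb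
    refine ⟨N, fun p hp => ?_⟩
    obtain ⟨c, hc⟩ : ∃ c : Fin (finrank k (P m₂)) → k, p = ∑ i, c i • (b i : M) := by
      refine ⟨fun i => b.repr ⟨p, hp⟩ i, ?_⟩
      have h := congrArg (P m₂).subtype (b.sum_repr ⟨p, hp⟩)
      rw [map_sum] at h
      exact h.symm
    refine ⟨∑ i, c i • s i, Submodule.sum_mem _ fun i _ => Submodule.smul_mem _ _ (hs i), ?_⟩
    have h1 : (τ^[N + 1]) p - ∑ i, c i • s i = ∑ i, c i • ((τ^[N + 1]) (b i : M) - s i) := by
      rw [hc, ← Module.End.coe_pow, map_sum, ← Finset.sum_sub_distrib]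
      refine Finset.sum_congr rfl fun i _ => ?_
      rw [map_smul, smul_sub]
    rw [h1]
    exact Submodule.sum_mem _ fun i _ => Submodule.smul_mem _ _ (hbs i)
  obtain ⟨N, hN⟩ := hN
  have hB : ∀ n, N ≤ n → ∀ p ∈ P (m₂ + n + 1), ∃ r ∈ R (m₂ + n + 1), p - r ∈ P (m₂ + n) := by
    intro n hn p hp
    obtain ⟨a, ha, hpa⟩ := hA n p hp
    obtain ⟨r, hr, har⟩ := hN a ha
    refine ⟨(τ^[n - N]) r, ?_, ?_⟩
    · have := hRit (n - N) _ _ hr
      have e1 : m₂ + N + 1 + (n - N) = m₂ + n + 1 := by omega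
      rwa [e1] at this
    · have := hPit (n - N) _ _ har
      have e1 : m₂ + N + (n - N) = m₂ + n := by omega
      rw [e1, hitsub, ← Function.iterate_add_apply] at this
      have e2 : n - N + (N + 1) = n + 1 := by omega
      rw [e2] at this
      have h3 := (P (m₂ + n)).add_mem hpa this
      have h4 : p - (τ^[n + 1]) a + ((τ^[n + 1]) a - (τ^[n - N]) r) = p - (τ^[n - N]) r := by abel
      rwa [h4] at h3
  have hC : ∀ m, m₂ + N ≤ m → R (m + 1) ⊓ P m ≤ R m := by
    intro m hm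
    have hsup : R (m + 1) ⊔ P m = P (m + 1) := by
      apply le_antisymm (sup_le (hRP _) (hP (by omega)))
      intro p hp
      have e1 : m₂ + (m - m₂) = m := by omega
      obtain ⟨r, hr, hpr⟩ := hB (m - m₂) (by omega) p (by rw [e1]; exact hp)
      rw [e1] at hr hpr
      have : p = r + (p - r) := by abel
      rw [this]
      exact Submodule.add_mem_sup hr hpr
    have h1 := Submodule.finrank_sup_add_finrank_inf_eq (R (m + 1)) (P m)
    rw [hsup] at h1
    have h2 := hdP m (by omega)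
    have h3 := hdP (m + 1) (by omega)
    have h4 := hdR m (by omega)
    have h5 := hdR (m + 1) (by omega)
    push_cast at h3 h5
    have h6 : R m ≤ R (m + 1) ⊓ P m := le_inf (hR (by omega)) (hRP m)
    have h7 : R m = R (m + 1) ⊓ P m := by
      apply Submodule.eq_of_le_of_finrank_le h6
      zify
      zify at h1
      linarith
    exact h7.symm.le
  refine ⟨m₂ + N, by omega, fun m hm m' hm' => ?_⟩
  induction m', hm' using Nat.le_induction with
  | base => exact inf_le_left
  | succ m' hmm' ih =>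
    intro p hp
    refine ih ⟨hC m' (by omega) ⟨hp.1, hP hmm' hp.2⟩, hp.2⟩

end Saturation

end Fermat.Agent.BadRed
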