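import Fermat.Agent.BadRed.InN

/-!
# Frobenius and Atkin-Lehner on normalised torsion classes; counting
-/

set_option autoImplicit false
set_option linter.unusedSectionVars false

noncomputable section

open AlgebraicCurve Module IntermediateField

namespace Fermat.Agent.BadRed

open Fermat.Agent.FunField Fermat.Agent.FunField.PlaceLemmas Fermat.Agent.Deuring

variable {L k F F₁ : Type*} [Field L] [Field k] [Field F] [Field F₁] [Algebra L F] [Algebra k F₁]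
variable {𝔇 : RData L k F (F₁ × F₁)}

/-- a semilinear automorphism exchanging the components -/
structure SwapEl (p : FrobPencil 𝔇) where
  g : SemilinearAut L F
  hO : ∀ f : F, f ∈ 𝔇.O → g • f ∈ 𝔇.O
  hO' : ∀ f : F, g • f ∈ 𝔇.O → f ∈ 𝔇.O
  hres : ∀ f : 𝔇.O, 𝔇.res ⟨g • (f : F), hO f f.2⟩ = ((𝔇.res f).2, (𝔇.res f).1)
  ht : g • (p.t : F) = p.t

namespace SwapEl

variable {p : FrobPencil 𝔇} (γ : SwapEl p)

theorem ord_smul (v : Place L F) (f : F) : v.ord (γ.g • f) = (γ.g⁻¹ • v).ord f := by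
  have := SemilinearAut.ord_smul γ.g (γ.g⁻¹ • v) f
  rwa [smul_inv_smul] at this

theorem smul_E : γ.g • p.E = p.E := by
  ext v
  rw [SemilinearAut.divisor_smul_apply, p.hE, p.hE, ← γ.ord_smul, γ.ht]

theorem mem_rr_smul (D : Divisor L F) (f : F) :
    γ.g • f ∈ riemannRochSpace (γ.g • D) ↔ f ∈ riemannRochSpace D := by
  rcases eq_or_ne f 0 with rfl | hf
  · simp
  have hgf : γ.g • f ≠ 0 := by
    intro h
    apply hf
    exact (smul_eq_zero_iff_eq γ.g).mp h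
  rw [mem_rr_of_ne hf, mem_rr_of_ne hgf]
  constructor
  · intro h v
    have h1 := h (γ.g • v)
    rwa [SemilinearAut.divisor_smul_apply_smul, γ.ord_smul, inv_smul_smul] at h1
  · intro h v
    rw [γ.ord_smul, SemilinearAut.divisor_smul_apply]
    exact h _

/-- action on torsion data -/
def smul {n : ℕ} (τ : Tors 𝔇 n) : Tors 𝔇 n where
  D := γ.g • τ.D
  f := ⟨γ.g • (τ.f : F), γ.hO _ τ.f.2⟩
  res_f := by
    rw [γ.hres, τ.res_f]
    rfl
  hD := fun v => by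
    rw [SemilinearAut.divisor_smul_apply, τ.hD]
    exact (γ.ord_smul v _).symm

@[simp] theorem smul_D {n : ℕ} (τ : Tors 𝔇 n) : (γ.smul τ).D = γ.g • τ.D := rfl

theorem mem_T_smul {n : ℕ} {τ : Tors 𝔇 n} {m : ℕ} {a b : p.OO} (h : (a, b) ∈ p.T τ m) :
    (b, a) ∈ p.T (γ.smul τ) m := by
  obtain ⟨u, hu, hur⟩ := h
  refine ⟨⟨γ.g • (u : F), γ.hO _ u.2⟩, ?_, ?_⟩
  · have h1 : m • p.E + (γ.smul τ).D = γ.g • (m • p.E + τ.D) := by
      have h2 : γ.g • (m • p.E) = m • (γ.g • p.E) :=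
        map_nsmul (DistribSMul.toAddMonoidHom (Divisor L F) γ.g) m p.E
      rw [smul_D, smul_add, h2, γ.smul_E]
    rw [h1]
    exact (γ.mem_rr_smul _ _).mpr hu
  · rw [γ.hres, hur]
    rfl

include γ in
theorem mem_S_swap {a b : p.OO} (h : (a, b) ∈ p.S) : (b, a) ∈ p.S := by
  obtain ⟨m, hm⟩ := h
  have h1 := γ.mem_T_smul hm
  refine ⟨m, ?_⟩
  rw [p.mem_T] at h1 ⊢
  have h2 : (γ.smul (Tors.zero 𝔇 1)).D = (Tors.zero 𝔇 1).D := by
    show γ.g • (0 : Divisor L F) = 0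
    exact smul_zero _
  rw [h2] at h1
  exact h1

/-- the Frobenius translate of a gluing point is a gluing point -/
def frP (x : p.Pt) : p.Pt := ⟨p.frPt x, by
  intro c hc
  have h1 := γ.mem_S_swap hc
  have h2 := (mem_iff_sub_mem (Fr := p.FrO) p.mem_S2 p.mem_S1 c 0).mp h1
  have h3 := x.2 _ h2
  rw [zero_sub, map_neg, neg_eq_zero] at h3
  exact h3⟩

theorem frP_apply (x : p.Pt) (a : p.OO) : (γ.frP x).1 a = x.1 (p.FrO a) := rfl

theorem frP_FrO (x : p.Pt) (a : p.OO) : (γ.frP x).1 (p.FrO a) = x.1 a := by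
  rw [frP_apply, p.pt_FrO_FrO]

end SwapEl

namespace FrobPencil

variable {p : FrobPencil 𝔇}

variable [IsFF k F₁] [HasPrincipalDivisors k F₁] [IsAlgClosed k]

/-- a section with constant second component -/
theorem IsGlue.exists_section' [Finite p.Pt] {n : ℕ} {τ : Tors 𝔇 n} {c : p.Pt → k}
    (hc : p.IsGlue τ c) (hc0 : ∀ x, c x ≠ 0) :
    ∃ (b : p.OO), (∀ x : p.Pt, x.1 (p.FrO b) = (c x)⁻¹) ∧ ∃ m₁ : ℕ, ∀ m, m₁ ≤ m →
      (b, (1 : p.OO)) ∈ p.T τ m := by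
  obtain ⟨b, hb⟩ := eval_surjective (fun x : p.Pt => p.frPt x) p.frPt_injective
    (fun x => (c x)⁻¹)
  obtain ⟨-, m₁, hm₁⟩ := hc
  obtain ⟨m₂, hm₂⟩ := p.exists_mem_P b
  refine ⟨b, hb, max m₁ m₂, fun m hm => ?_⟩
  rw [hm₁ m ((le_max_left _ _).trans hm)]
  refine ⟨p.P_mono ((le_max_right _ _).trans hm) hm₂,
    one_mem_rr (nsmul_nonneg p.Eb_nonneg m), fun x => ?_⟩
  have h1 : x.1 (p.FrO b) = (c x)⁻¹ := hb x
  rw [h1, map_one, mul_inv_cancel₀ (hc0 x)]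

variable [IsFF L F] [HasPrincipalDivisors L F] [IsAlgClosed L] {g g₁ : ℤ}

theorem IsGlue.ne_zero {n : ℕ} (hn : n ≠ 0) {τ : Tors 𝔇 n} {c : p.Pt → k} (hc : p.IsGlue τ c)
    (x : p.Pt) : c x ≠ 0 := by
  intro h0
  have := hc.1 x
  rw [h0, zero_pow hn] at this
  exact zero_ne_one this

/-- **`Φ = - r w` on normalised classes.** -/
theorem Hyp.frob_w (H : Hyp p g g₁) {n : ℕ} (hnk : (n : k) ≠ 0) (τ : Tors 𝔇 n)
    (γ : GalEl p) (hγ : ∀ a, γ.σ a = p.φ a) (w : SwapEl p) :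
    ∃ u : F, u ≠ 0 ∧ ∀ v : Place L F, (γ.g • τ.D + p.r • (w.g • τ.D)) v = v.ord u := by
  have hn : n ≠ 0 := by
    rintro rfl
    exact hnk (by simp)
  have hfin := (p.structure_fibre H.hRR H.hRR₁ H.hpos).1
  have hex : ∀ τ : Tors 𝔇 n, ∃ c, p.IsGlue τ c := fun τ => p.exists_isGlue H.hRR H.hRR₁ H.hpos hn τ
  obtain ⟨c, hc⟩ := hex τ
  obtain ⟨cΦ, hcΦ⟩ := hex (γ.smul τ)
  obtain ⟨cw, hcw⟩ := hex (w.smul τ)
  have h1 : ∀ x, cΦ x = c (w.frP x) ^ p.r := by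
    intro x
    obtain ⟨b, hb, m₁, hm₁⟩ := hc.exists_section
    have h2 := γ.mem_T_smul (hm₁ m₁ le_rfl) (a' := 1) (b' := p.φO b) (by simp)
      (by rw [p.coe_φO, hγ])
    rw [← hcΦ.eq_of_mem h2 x, ← w.frP_FrO, p.FrO_φO, map_pow, hb]
  have h2 : ∀ x, cw x = (c (w.frP x))⁻¹ := by
    intro x
    obtain ⟨b, hb, m₁, hm₁⟩ := hc.exists_section' (fun x => hc.ne_zero hn x)
    have h3 := w.mem_T_smul (hm₁ m₁ le_rfl)
    rw [← hcw.eq_of_mem h3 x, ← w.frP_FrO, hb]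
  obtain ⟨cr, hcr⟩ := hex ((w.smul τ).nsmul p.r)
  have h3 : ∀ x, cr x = cw x ^ p.r := fun x => hcw.nsmul hn hex _ hcr x
  obtain ⟨cs, hcs⟩ := hex ((γ.smul τ).add ((w.smul τ).nsmul p.r))
  have h4 : ∀ x, cs x = 1 := fun x => by
    rw [hcΦ.add hcr hcs rfl x, h1, h3, h2, inv_pow, mul_inv_cancel₀ (pow_ne_zero _ (hc.ne_zero hn _))]
  obtain ⟨u, hu0, hu⟩ := H.principal_of_eq_one hnk hcs h4
  refine ⟨u⁻¹, inv_ne_zero hu0, fun v => ?_⟩
  rw [v.ord_inv, ← hu v]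
  show _ = (γ.g • τ.D + ((w.smul τ).nsmul p.r).D) v
  rw [Tors.nsmul_D]
  rfl

/-- shifting a torsion datum by a unit with residue `(1, ζ)` -/
theorem exists_shift {n : ℕ} (τ : Tors 𝔇 n) {ζ : k} (hζ : ζ ^ n = 1) (hn : n ≠ 0) :
    ∃ (τ' : Tors 𝔇 n) (h h' : 𝔇.O), (h : F) * h' = 1 ∧ 𝔇.res h = (1, algebraMap k F₁ ζ) ∧
      (∀ v : Place L F, τ'.D v = τ.D v + v.ord (h : F)) := by
  have hζ0 : ζ ≠ 0 := by
    rintro rfl
    rw [zero_pow hn] at hζ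
    exact zero_ne_one hζ
  obtain ⟨h, hh⟩ := 𝔇.res_surj (1, algebraMap k F₁ ζ)
  have hu : IsUnit (𝔇.res h) := by
    rw [hh, Prod.isUnit_iff]
    exact ⟨isUnit_one, (isUnit_iff_ne_zero.mpr hζ0).map _⟩
  obtain ⟨h', hh'⟩ := 𝔇.isUnit_of_res hu
  have hh0 : (h : F) ≠ 0 := left_ne_zero_of_mul_eq_one hh'
  refine ⟨⟨τ.D + dv (K := L) (h : F) hh0, τ.f * h ^ n, ?_, fun v => ?_⟩, h, h', hh', hh,
    fun v => ?_⟩
  · rw [map_mul, map_pow, τ.res_f, hh, one_mul]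
    refine Prod.ext (one_pow n) ?_
    show (algebraMap k F₁ ζ) ^ n = 1
    rw [← map_pow, hζ, map_one]
  · rw [Finsupp.add_apply, dv_apply, mul_add, τ.hD]
    push_cast
    rw [v.ord_mul τ.f_ne (pow_ne_zero n hh0), ord_pow]
  · rw [Finsupp.add_apply, dv_apply]

theorem glue_shift {n : ℕ} {τ τ' : Tors 𝔇 n} {ζ : k} {h h' : 𝔇.O}
    (hh' : (h : F) * h' = 1) (hh : 𝔇.res h = (1, algebraMap k F₁ ζ))
    (hD : ∀ v : Place L F, τ'.D v = τ.D v + v.ord (h : F)) {c c' : p.Pt → k}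
    [Finite p.Pt] (hc : p.IsGlue τ c) (hc' : p.IsGlue τ' c') (x : p.Pt) : c x = ζ * c' x := by
  obtain ⟨b, hb, m₁, hm₁⟩ := hc'.exists_section
  have h1 := hm₁ m₁ le_rfl
  obtain ⟨u, hu, hur⟩ := h1
  have hh0 : (h : F) ≠ 0 := left_ne_zero_of_mul_eq_one hh'
  have h2 : ((1 : p.OO), ζ • b) ∈ p.T τ m₁ := by
    refine ⟨h * u, ?_, ?_⟩
    · have h3 : m₁ • p.E + τ'.D = m₁ • p.E + τ.D + dv (K := L) (h : F) hh0 := by
        ext v
        rw [Finsupp.add_apply, hD, Finsupp.add_apply, Finsupp.add_apply, dv_apply]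
        ring
      rw [h3] at hu
      push_cast
      exact (mul_mem_rr_iff hh0 (fun v => dv_apply hh0 v) _).mpr hu
    · rw [map_mul, hur, hh]
      refine Prod.ext ?_ ?_
      · exact one_mul _
      · show algebraMap k F₁ ζ * (b : F₁) = ζ • (b : F₁)
        rw [Algebra.smul_def]
  rw [← hc.eq_of_mem h2 x, map_smul, hb, smul_eq_mul]

/-- constant gluing data are trivial -/
theorem Hyp.principal_of_const (H : Hyp p g g₁) {n : ℕ} (hnk : (n : k) ≠ 0)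
    {τ : Tors 𝔇 n} {c : p.Pt → k} (hc : p.IsGlue τ c) {ζ : k} (hζ : ζ ^ n = 1)
    (h1 : ∀ x, c x = ζ) : ∃ w : F, w ≠ 0 ∧ ∀ v : Place L F, τ.D v = v.ord w := by
  have hn : n ≠ 0 := by
    rintro rfl
    exact hnk (by simp)
  have hfin := (p.structure_fibre H.hRR H.hRR₁ H.hpos).1
  have hζ0 : ζ ≠ 0 := by
    rintro rfl
    rw [zero_pow hn] at hζ
    exact zero_ne_one hζ
  obtain ⟨τ', h, h', hh', hh, hD⟩ := exists_shift τ hζ hn
  obtain ⟨c', hc'⟩ := p.exists_isGlue H.hRR H.hRR₁ H.hpos hn τ'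
  have h2 : ∀ x, c' x = 1 := by
    intro x
    have h3 := glue_shift hh' hh hD hc hc' x
    rw [h1] at h3
    exact mul_left_cancel₀ hζ0 (by rw [mul_one]; exact h3.symm)
  obtain ⟨w, hw0, hw⟩ := H.principal_of_eq_one hnk hc' h2
  have hh0 : (h : F) ≠ 0 := left_ne_zero_of_mul_eq_one hh'
  refine ⟨(w * h)⁻¹, inv_ne_zero (mul_ne_zero hw0 hh0), fun v => ?_⟩
  rw [v.ord_inv, v.ord_mul hw0 hh0]
  have h4 := hD v
  rw [hw v] at h4
  linarith

end FrobPencil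

namespace TwoVal

variable {T : TwoVal L k F F₁}

/-- a semilinear automorphism exchanging the valuations -/
structure SwapV (T : TwoVal L k F F₁) where
  g : SemilinearAut L F
  h₁₂ : ∀ f : F, f ∈ T.V₁.O ↔ g • f ∈ T.V₂.O
  h₂₁ : ∀ f : F, f ∈ T.V₂.O ↔ g • f ∈ T.V₁.O
  r₁₂ : ∀ f : T.V₁.O, T.V₂.r ⟨g • (f : F), (h₁₂ f).mp f.2⟩ = T.V₁.r f
  r₂₁ : ∀ f : T.V₂.O, T.V₁.r ⟨g • (f : F), (h₂₁ f).mp f.2⟩ = T.V₂.r f

/-- the corresponding element for the joint reduction data -/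
def SwapV.toSwapEl (γ : SwapV T) {p : FrobPencil T.toRData} (ht : γ.g • (p.t : F) = p.t) :
    SwapEl p where
  g := γ.g
  hO f hf := ⟨(γ.h₂₁ f).mp hf.2, (γ.h₁₂ f).mp hf.1⟩
  hO' f hf := ⟨(γ.h₁₂ f).mpr hf.2, (γ.h₂₁ f).mpr hf.1⟩
  hres f := Prod.ext (γ.r₂₁ ⟨f, f.2.2⟩) (γ.r₁₂ ⟨f, f.2.1⟩)
  ht := ht

variable [IsFF L F] [HasPrincipalDivisors L F] [IsAlgClosed L] {g g₁ : ℤ}
variable [IsFF k F₁] [HasPrincipalDivisors k F₁] [IsAlgClosed k]

/-- **(i'')** a Frobenius lift acts on `NN` as `- r w`. -/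
theorem frob_w {p : FrobPencil T.toRData} (H : FrobPencil.Hyp p g g₁) {n : ℕ}
    (hnk : (n : k) ≠ 0) (γ : GalV T) (hγ : ∀ a, γ.σ a = p.φ a) (ht : γ.g • (p.t : F) = p.t)
    (w : SwapV T) (hw : w.g • (p.t : F) = p.t) {x : Pic0 L F} (hx : x ∈ T.NN n) :
    γ.g • x + p.r • (w.g • x) = 0 := by
  have hn : n ≠ 0 := by
    rintro rfl
    exact hnk (by simp)
  obtain ⟨τ, hτ, rfl⟩ := exists_tors_of_mem_NN H.harch hn hx
  obtain ⟨u, hu0, hu⟩ := H.frob_w hnk τ (γ.toGalEl ht) hγ (w.toSwapEl hw)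
  rw [SemilinearAut.pic0_smul_mk, SemilinearAut.pic0_smul_mk]
  have h1 : p.r • Pic0.mk (SemilinearAut.degZeroSMulHom w.g
      (⟨τ.D, hτ⟩ : Divisor.degZero (K := L) (F := F))) =
      Pic0.mk (p.r • SemilinearAut.degZeroSMulHom w.g ⟨τ.D, hτ⟩) := rfl
  rw [h1]
  have h2 : Pic0.mk (SemilinearAut.degZeroSMulHom γ.g
      (⟨τ.D, hτ⟩ : Divisor.degZero (K := L) (F := F))) +
      Pic0.mk (p.r • SemilinearAut.degZeroSMulHom w.g ⟨τ.D, hτ⟩) =
      Pic0.mk (SemilinearAut.degZeroSMulHom γ.g ⟨τ.D, hτ⟩ +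
        p.r • SemilinearAut.degZeroSMulHom w.g ⟨τ.D, hτ⟩) := rfl
  rw [h2]
  have h3 : (0 : Pic0 L F) = Pic0.mk (0 : Divisor.degZero (K := L) (F := F)) := rfl
  rw [h3]
  refine Pic0.mk_eq_of_ord hu0 fun v => ?_
  rw [← hu v]
  show (γ.g • τ.D + p.r • (w.g • τ.D)) v = (0 : Divisor L F) v + _
  rw [Finsupp.zero_apply, zero_add]
  rfl

/-- **Counting.** -/
theorem card_NN_le {p : FrobPencil T.toRData} (H : FrobPencil.Hyp p g g₁) {n : ℕ}
    (hnk : (n : k) ≠ 0) :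
    Finite (T.NN n) ∧ Nat.card (T.NN n) ≤ n ^ (Nat.card p.Pt - 1) := by
  classical
  have hn : n ≠ 0 := by
    rintro rfl
    exact hnk (by simp)
  have hfin := (p.structure_fibre H.hRR H.hRR₁ H.hpos).1
  have hft := Fintype.ofFinite p.Pt
  have hex : ∀ τ : Tors T.toRData n, ∃ c, p.IsGlue τ c := fun τ =>
    p.exists_isGlue H.hRR H.hRR₁ H.hpos hn τ
  choose τ hτ hx using fun x : T.NN n => exists_tors_of_mem_NN H.harch hn x.2
  choose c hc using fun x => hex (τ x)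
  -- classes with proportional gluing data are equal
  have key : ∀ x y : T.NN n, (∃ ζ : k, ζ ^ n = 1 ∧ ∀ z, c x z = ζ * c y z) → x = y := by
    rintro x y ⟨ζ, hζ, hxy⟩
    obtain ⟨τn, hτn⟩ := (τ y).exists_neg
    obtain ⟨cn, hcn⟩ := hex τn
    obtain ⟨cz, hcz⟩ := hex ((τ y).nsmul 0)
    have hcz1 : ∀ z, cz z = 1 := fun z => by rw [(hc y).nsmul hn hex 0 hcz z, pow_zero]
    have h2 : ∀ z, c y z * cn z = 1 := fun z => by
      rw [← (hc y).add hcn hcz (by rw [(τ y).nsmul_D, hτn]; simp) z, hcz1]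
    obtain ⟨cs, hcs⟩ := hex ((τ x).add τn)
    have h3 : ∀ z, cs z = ζ := fun z => by
      rw [(hc x).add hcn hcs rfl z, hxy, mul_assoc, h2, mul_one]
    obtain ⟨w, hw0, hw⟩ := H.principal_of_const hnk hcs hζ h3
    apply Subtype.ext
    rw [hx x, hx y]
    refine Pic0.mk_eq_of_ord hw0 fun v => ?_
    rw [← hw v]
    show (τ x).D v = (τ y).D v + ((τ x).D + τn.D) v
    rw [hτn, Finsupp.add_apply, Finsupp.neg_apply]
    ring
  rcases isEmpty_or_nonempty p.Pt with hemp | ⟨⟨x₀⟩⟩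
  · have hsub : Subsingleton (T.NN n) := ⟨fun x y => key x y ⟨1, one_pow n, fun z => hemp.elim z⟩⟩
    refine ⟨inferInstance, ?_⟩
    calc Nat.card (T.NN n) ≤ 1 := Finite.card_le_one_iff_subsingleton.mpr hsub
      _ ≤ n ^ (Nat.card p.Pt - 1) := Nat.one_le_pow _ _ (Nat.pos_of_ne_zero hn)
  · let S : Finset k := Polynomial.nthRootsFinset n (1 : k)
    have hS : ∀ ζ : k, ζ ∈ S ↔ ζ ^ n = 1 := fun ζ =>
      Polynomial.mem_nthRootsFinset (Nat.pos_of_ne_zero hn) 1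
    have hcS : ∀ x z, c x z * (c x x₀)⁻¹ ∈ S := by
      intro x z
      rw [hS, mul_pow, inv_pow, (hc x).1, (hc x).1, inv_one, mul_one]
    let Ψ : T.NN n → ({z : p.Pt // z ≠ x₀} → S) := fun x z => ⟨_, hcS x z⟩
    have hΨ : Function.Injective Ψ := by
      intro x y hxy
      apply key
      refine ⟨c x x₀ * (c y x₀)⁻¹, ?_, fun z => ?_⟩
      · rw [mul_pow, inv_pow, (hc x).1, (hc y).1, inv_one, mul_one]
      · have hx0 := (hc x).ne_zero hn x₀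
        have hy0 := (hc y).ne_zero hn x₀
        by_cases hz : z = x₀
        · subst hz
          field_simp
        · have h1 := congrArg Subtype.val (congrFun hxy ⟨z, hz⟩)
          have h2 : c x z * (c x x₀)⁻¹ = c y z * (c y x₀)⁻¹ := h1
          field_simp at h2 ⊢
          linear_combination h2
    refine ⟨Finite.of_injective Ψ hΨ, ?_⟩
    have h1 := Nat.card_le_card_of_injective Ψ hΨ
    refine h1.trans ?_
    rw [Nat.card_fun, Nat.card_eq_fintype_card, Nat.card_eq_fintype_card,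
      Fintype.card_coe]
    have h2 : Fintype.card {z : p.Pt // z ≠ x₀} = Nat.card p.Pt - 1 := by
      rw [Fintype.card_subtype_compl, Fintype.card_subtype_eq, Nat.card_eq_fintype_card]
    rw [h2]
    apply Nat.pow_le_pow_left
    exact (Polynomial.nthRootsFinset n (1 : k)).card_le_card (le_refl _) |>.trans
      (by
        rw [Polynomial.nthRootsFinset_def]
        exact (Multiset.toFinset_card_le _).trans (Polynomial.card_nthRoots n 1))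

end TwoVal

end Fermat.Agent.BadRed
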