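import Fermat.Agent.BadRed.Glue

/-!
# Gluing data of a torsion class: linear algebra
-/

set_option autoImplicit false

open Module

namespace Fermat.Agent.BadRed

section

variable {k V U : Type*} [Field k] [AddCommGroup V] [Module k V] [AddCommGroup U] [Module k U]

theorem finrank_map_add (f : V →ₗ[k] U) (X : Submodule k V) [FiniteDimensional k X] :
    finrank k (X.map f) + finrank k (X ⊓ LinearMap.ker f : Submodule k V) = finrank k X := by
  have h := LinearMap.finrank_range_add_finrank_ker (f.domRestrict X)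
  have h1 : LinearMap.range (f.domRestrict X) = X.map f := by
    rw [LinearMap.domRestrict, LinearMap.range_comp, Submodule.range_subtype]
  have h2 : (LinearMap.ker (f.domRestrict X)).map X.subtype = X ⊓ LinearMap.ker f := by
    rw [LinearMap.domRestrict, LinearMap.ker_comp, Submodule.map_comap_subtype]
  have h3 := finrank_map_inj X.subtype X.injective_subtype (LinearMap.ker (f.domRestrict X))
  rw [h2] at h3
  rw [h1, ← h3] at h
  exact h

/-- a product of submodules -/
def submoduleProdEquiv (p : Submodule k V) (q : Submodule k U) :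
    (p.prod q : Submodule k (V × U)) ≃ₗ[k] p × q where
  toFun x := (⟨x.1.1, x.2.1⟩, ⟨x.1.2, x.2.2⟩)
  invFun y := ⟨(y.1.1, y.2.1), y.1.2, y.2.2⟩
  map_add' _ _ := rfl
  map_smul' _ _ := rfl
  left_inv _ := rfl
  right_inv _ := rfl

instance finiteDimensional_prod (p : Submodule k V) (q : Submodule k U) [FiniteDimensional k p]
    [FiniteDimensional k q] : FiniteDimensional k (p.prod q : Submodule k (V × U)) :=
  Module.Finite.equiv (submoduleProdEquiv p q).symm

theorem finrank_prod' (p : Submodule k V) (q : Submodule k U) [FiniteDimensional k p]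
    [FiniteDimensional k q] :
    finrank k (p.prod q : Submodule k (V × U)) = finrank k p + finrank k q := by
  rw [(submoduleProdEquiv p q).finrank_eq, Module.finrank_prod]

/-- an exhausting filtration eventually surjects onto a finite dimensional quotient -/
theorem exists_map_eq_top [FiniteDimensional k U] (P : ℕ → Submodule k V) (hP : Monotone P)
    (hex : ∀ v, ∃ m, v ∈ P m) (f : V →ₗ[k] U) (hf : Function.Surjective f) :
    ∃ m₁, ∀ m, m₁ ≤ m → (P m).map f = ⊤ := by
  classical
  let b := Module.finBasis k U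
  choose v hv using fun i => hf (b i)
  choose n hn using fun i => hex (v i)
  refine ⟨Finset.univ.sup n, fun m hm => ?_⟩
  rw [eq_top_iff, ← b.span_eq, Submodule.span_le]
  rintro _ ⟨i, rfl⟩
  exact ⟨v i, hP ((Finset.le_sup (Finset.mem_univ i)).trans hm) (hn i), hv i⟩

/-- a subspace of `k^ι × k^ι` of dimension `#ι` on which `α ^ n = β ^ n` -/
theorem exists_diag {ι : Type*} [Fintype ι] [DecidableEq ι] {n : ℕ} (hn : n ≠ 0)
    (W : Submodule k ((ι → k) × (ι → k)))
    (hW : ∀ p ∈ W, ∀ i, (p.2 i) ^ n = (p.1 i) ^ n) (hdim : Fintype.card ι ≤ finrank k W) :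
    finrank k W = Fintype.card ι ∧ ∃ c : ι → k, (∀ i, c i ^ n = 1) ∧
      ∀ p : (ι → k) × (ι → k), p ∈ W ↔ ∀ i, p.2 i = c i * p.1 i := by
  have hker : ∀ p ∈ W, p.1 = 0 → p = 0 := by
    intro p hp h1
    refine Prod.ext h1 (funext fun i => ?_)
    have := hW p hp i
    rw [h1, Pi.zero_apply, zero_pow hn] at this
    simpa using (pow_eq_zero_iff hn).mp this
  let f : W →ₗ[k] (ι → k) := (LinearMap.fst k _ _).comp W.subtype
  have hfinj : Function.Injective f := by
    rw [injective_iff_map_eq_zero]
    intro p hp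
    apply Subtype.ext
    exact hker p p.2 hp
  have h1 : finrank k W ≤ Fintype.card ι := by
    have := LinearMap.finrank_le_finrank_of_injective hfinj
    rwa [Module.finrank_fintype_fun_eq_card] at this
  have h2 : finrank k W = Fintype.card ι := le_antisymm h1 hdim
  have hfsurj : Function.Surjective f := by
    rw [← LinearMap.injective_iff_surjective_of_finrank_eq_finrank]
    · exact hfinj
    · rw [h2, Module.finrank_fintype_fun_eq_card]
  refine ⟨h2, ?_⟩
  choose w hw using fun i => hfsurj (Pi.single i 1)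
  have hw1 : ∀ i, ((w i : W) : (ι → k) × (ι → k)).1 = Pi.single i 1 := fun i => hw i
  have hw2 : ∀ i j, i ≠ j → ((w i : W) : (ι → k) × (ι → k)).2 j = 0 := by
    intro i j hij
    have := hW _ (w i).2 j
    rw [hw1, Pi.single_eq_of_ne (Ne.symm hij), zero_pow hn] at this
    exact (pow_eq_zero_iff hn).mp this
  refine ⟨fun i => ((w i : W) : (ι → k) × (ι → k)).2 i, fun i => ?_, fun p => ?_⟩
  · have := hW _ (w i).2 i
    rw [hw1, Pi.single_eq_same, one_pow] at this
    exact this
  · have hcomb : ∀ a : ι → k, (∑ i, a i • ((w i : W) : (ι → k) × (ι → k))).1 = a ∧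
        (∑ i, a i • ((w i : W) : (ι → k) × (ι → k))).2 =
          fun i => ((w i : W) : (ι → k) × (ι → k)).2 i * a i := by
      intro a
      constructor
      · rw [Prod.fst_sum]
        funext j
        simp [hw1, Finset.sum_apply, Pi.single_apply]
      · rw [Prod.snd_sum]
        funext j
        rw [Finset.sum_apply, Finset.sum_eq_single j]
        · simp [mul_comm]
        · intro i _ hij
          simp [hw2 i j hij]
        · intro h
          exact absurd (Finset.mem_univ j) h
    constructor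
    · intro hp i
      have h3 : p - ∑ i, p.1 i • ((w i : W) : (ι → k) × (ι → k)) ∈ W :=
        W.sub_mem hp (Submodule.sum_mem _ fun i _ => W.smul_mem _ (w i).2)
      have h4 := hker _ h3 (by rw [Prod.fst_sub, (hcomb p.1).1, sub_self])
      have h5 := congrFun (congrArg Prod.snd (sub_eq_zero.mp h4)) i
      rw [(hcomb p.1).2] at h5
      exact h5
    · intro hp
      have h3 : p = ∑ i, p.1 i • ((w i : W) : (ι → k) × (ι → k)) := by
        refine Prod.ext (hcomb p.1).1.symm ?_
        rw [(hcomb p.1).2]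
        funext i
        exact hp i
      rw [h3]
      exact Submodule.sum_mem _ fun i _ => W.smul_mem _ (w i).2

end

section Main

variable {k 𝒪 : Type*} [Field k] [CommRing 𝒪] [Algebra k 𝒪]

/-- **Gluing data of a torsion class.** -/
theorem gluing_theorem {ι : Type*} [Fintype ι] (x y : ι → (𝒪 →ₐ[k] k))
    (hx : Function.Injective x) (hy : Function.Injective y)
    (P : ℕ → Submodule k 𝒪) [∀ m, FiniteDimensional k (P m)] (hP : Monotone P)
    (hex : ∀ a, ∃ m, a ∈ P m) (T : ℕ → Submodule k (𝒪 × 𝒪)) (hT : Monotone T)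
    (hTP : ∀ m, T m ≤ (P m).prod (P m)) {n : ℕ} (hn : n ≠ 0)
    (hpow : ∀ m, ∀ p ∈ T m, ∀ i, (x i p.2) ^ n = (y i p.1) ^ n)
    {m₀ : ℕ} (hdim : ∀ m, m₀ ≤ m →
      finrank k (T m) + Fintype.card ι = finrank k ((P m).prod (P m) : Submodule k (𝒪 × 𝒪))) :
    ∃ c : ι → k, (∀ i, c i ^ n = 1) ∧ ∃ m₁, ∀ m, m₁ ≤ m →
      ∀ a b : 𝒪, (a, b) ∈ T m ↔ a ∈ P m ∧ b ∈ P m ∧ ∀ i, x i b = c i * y i a := by
  classical
  let ev : 𝒪 × 𝒪 →ₗ[k] (ι → k) × (ι → k) :=
    LinearMap.prodMap (LinearMap.pi fun i => (y i).toLinearMap)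
      (LinearMap.pi fun i => (x i).toLinearMap)
  have hev1 : ∀ p i, (ev p).1 i = y i p.1 := fun p i => rfl
  have hev2 : ∀ p i, (ev p).2 i = x i p.2 := fun p i => rfl
  have hevs : Function.Surjective ev := by
    rintro ⟨α, β⟩
    obtain ⟨a, ha⟩ := eval_surjective y hy α
    obtain ⟨b, hb⟩ := eval_surjective x hx β
    exact ⟨(a, b), Prod.ext (funext ha) (funext hb)⟩
  have hP2 : Monotone fun m => (P m).prod (P m) := fun m m' h => Submodule.prod_mono (hP h) (hP h)
  have hfdT : ∀ m, FiniteDimensional k (T m) := fun m => Submodule.finiteDimensional_of_le (hTP m)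
  obtain ⟨m₁, hm₁⟩ := exists_map_eq_top (fun m => (P m).prod (P m)) hP2 (by
    rintro ⟨a, b⟩
    obtain ⟨m, hm⟩ := hex a
    obtain ⟨m', hm'⟩ := hex b
    exact ⟨max m m', hP (le_max_left _ _) hm, hP (le_max_right _ _) hm'⟩) ev hevs
  have hU : finrank k ((ι → k) × (ι → k)) = 2 * Fintype.card ι := by
    rw [Module.finrank_prod, Module.finrank_fintype_fun_eq_card]; ring
  -- dimension of the image of `T m`
  have hkey : ∀ m, m₀ ≤ m → m₁ ≤ m →
      Fintype.card ι ≤ finrank k ((T m).map ev) ∧
      finrank k ((T m).map ev) + finrank k ((P m).prod (P m) ⊓ LinearMap.ker ev :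
        Submodule k (𝒪 × 𝒪)) ≥ finrank k (T m) := by
    intro m h0 h1
    have h2 := finrank_map_add ev ((P m).prod (P m))
    rw [hm₁ m h1, finrank_top, hU] at h2
    have h3 := finrank_map_add ev (T m)
    have h4 : finrank k (T m ⊓ LinearMap.ker ev : Submodule k (𝒪 × 𝒪)) ≤
        finrank k ((P m).prod (P m) ⊓ LinearMap.ker ev : Submodule k (𝒪 × 𝒪)) := by
      have : FiniteDimensional k ((P m).prod (P m) ⊓ LinearMap.ker ev :
        Submodule k (𝒪 × 𝒪)) := Submodule.finiteDimensional_of_le inf_le_left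
      exact Submodule.finrank_mono (inf_le_inf_right _ (hTP m))
    have h5 := hdim m h0
    constructor <;> omega
  -- stabilisation of the image
  set M := max m₀ m₁ with hM
  have hpowW : ∀ m, ∀ p ∈ (T m).map ev, ∀ i, (p.2 i) ^ n = (p.1 i) ^ n := by
    rintro m _ ⟨p, hp, rfl⟩ i
    exact hpow m p hp i
  obtain ⟨hWM, c, hc1, hc⟩ := exists_diag hn _ (hpowW M)
    (hkey M (le_max_left _ _) (le_max_right _ _)).1
  refine ⟨c, hc1, M, fun m hm => ?_⟩
  have h0 : m₀ ≤ m := (le_max_left _ _).trans hm
  have h1 : m₁ ≤ m := (le_max_right _ _).trans hm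
  have hWm : finrank k ((T m).map ev) = Fintype.card ι :=
    (exists_diag hn _ (hpowW m) (hkey m h0 h1).1).1
  have hWeq : (T M).map ev = (T m).map ev := by
    have hle : (T M).map ev ≤ (T m).map ev := Submodule.map_mono (hT hm)
    exact Submodule.eq_of_le_of_finrank_eq hle (by rw [hWM, hWm])
  -- the full preimage
  have hle : T m ≤ (P m).prod (P m) ⊓ ((T m).map ev).comap ev :=
    le_inf (hTP m) (Submodule.le_comap_map _ _)
  have hfd2 : FiniteDimensional k ((P m).prod (P m) ⊓ ((T m).map ev).comap ev :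
      Submodule k (𝒪 × 𝒪)) := Submodule.finiteDimensional_of_le inf_le_left
  have heq : T m = (P m).prod (P m) ⊓ ((T m).map ev).comap ev := by
    apply Submodule.eq_of_le_of_finrank_le hle
    have h2 := finrank_map_add ev ((P m).prod (P m))
    rw [hm₁ m h1, finrank_top, hU] at h2
    have h3 := finrank_map_add ev ((P m).prod (P m) ⊓ ((T m).map ev).comap ev)
    have h4 : finrank k (((P m).prod (P m) ⊓ ((T m).map ev).comap ev).map ev) ≤
        finrank k ((T m).map ev) := by
      apply Submodule.finrank_mono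
      rintro _ ⟨p, hp, rfl⟩
      exact hp.2
    have h5 : finrank k ((P m).prod (P m) ⊓ ((T m).map ev).comap ev ⊓ LinearMap.ker ev :
        Submodule k (𝒪 × 𝒪)) ≤ finrank k ((P m).prod (P m) ⊓ LinearMap.ker ev :
        Submodule k (𝒪 × 𝒪)) := by
      have : FiniteDimensional k ((P m).prod (P m) ⊓ LinearMap.ker ev :
        Submodule k (𝒪 × 𝒪)) := Submodule.finiteDimensional_of_le inf_le_left
      exact Submodule.finrank_mono (inf_le_inf_right _ inf_le_left)
    have h6 := hdim m h0
    omega
  intro a b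
  constructor
  · intro h
    refine ⟨(hTP m h).1, (hTP m h).2, fun i => ?_⟩
    have h2 : ev (a, b) ∈ (T M).map ev := by rw [hWeq]; exact ⟨_, h, rfl⟩
    exact (hc _).mp h2 i
  · rintro ⟨ha, hb, h⟩
    rw [heq]
    refine ⟨⟨ha, hb⟩, ?_⟩
    rw [← hWeq]
    exact (hc _).mpr h

end Main

end Fermat.Agent.BadRed
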