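import Fermat.Agent.BadRed.TwoVal

/-!
# The subgroup `NN` of normalised torsion classes; inertia and Frobenius
-/

set_option autoImplicit false

noncomputable section

open AlgebraicCurve Module IntermediateField

namespace Fermat.Agent.BadRed

open Fermat.Agent.FunField Fermat.Agent.FunField.PlaceLemmas Fermat.Agent.Deuring

variable {L k : Type*} [Field L] [Field k]
variable {F F₁ : Type*} [Field F] [Field F₁] [Algebra L F] [Algebra k F₁]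

namespace ResVal

variable {A : ValuationSubring L} {π : A →+* k} (V : ResVal A π F F₁)

/-- `f` has residue `a` after scaling by a nonzero constant -/
def HasRes (f : F) (a : F₁) : Prop :=
  ∃ c : L, c ≠ 0 ∧ ∃ h : c • f ∈ V.O, V.r ⟨c • f, h⟩ = a

variable {V}

theorem exists_hasRes {f : F} (hf : f ≠ 0) : ∃ a : F₁, a ≠ 0 ∧ V.HasRes f a := by
  obtain ⟨c, hc, h, hr⟩ := V.scale f hf
  exact ⟨_, hr, c, hc, h, rfl⟩

theorem HasRes.mul {f g : F} {a b : F₁} (hf : V.HasRes f a) (hg : V.HasRes g b) :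
    V.HasRes (f * g) (a * b) := by
  obtain ⟨c, hc, h, rfl⟩ := hf
  obtain ⟨d, hd, h', rfl⟩ := hg
  have h1 : (c * d) • (f * g) = (c • f) * (d • g) := by
    rw [Algebra.smul_def, Algebra.smul_def, Algebra.smul_def, map_mul]
    ring
  have h2 : (c * d) • (f * g) ∈ V.O := by rw [h1]; exact mul_mem h h'
  refine ⟨c * d, mul_ne_zero hc hd, h2, ?_⟩
  rw [← map_mul]
  congr 1
  exact Subtype.ext h1

theorem hasRes_one : V.HasRes (1 : F) (1 : F₁) := by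
  have h2 : (1 : L) • (1 : F) ∈ V.O := by rw [one_smul]; exact one_mem _
  refine ⟨1, one_ne_zero, h2, ?_⟩
  rw [← map_one V.r]
  congr 1
  exact Subtype.ext (one_smul _ _)

theorem HasRes.pow {f : F} {a : F₁} (hf : V.HasRes f a) (n : ℕ) :
    V.HasRes (f ^ n) (a ^ n) := by
  induction n with
  | zero => simpa using hasRes_one
  | succ n ih => rw [pow_succ, pow_succ]; exact ih.mul hf

theorem HasRes.inv {f : F} {a : F₁} (hf : V.HasRes f a) (ha : a ≠ 0) :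
    V.HasRes f⁻¹ a⁻¹ := by
  obtain ⟨c, hc, h, rfl⟩ := hf
  obtain ⟨h', e'⟩ := V.inv_mem ha
  have h1 : c⁻¹ • f⁻¹ = (c • f)⁻¹ := by
    rw [Algebra.smul_def, Algebra.smul_def, mul_inv, map_inv₀]
  have h2 : c⁻¹ • f⁻¹ ∈ V.O := by rw [h1]; exact h'
  refine ⟨c⁻¹, inv_ne_zero hc, h2, ?_⟩
  rw [← e']
  congr 1
  exact Subtype.ext h1

theorem HasRes.smul {f : F} {a : F₁} (hf : V.HasRes f a) {d : L} (hd : d ≠ 0) :
    V.HasRes (d • f) a := by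
  obtain ⟨c, hc, h, rfl⟩ := hf
  have h1 : (c * d⁻¹) • d • f = c • f := by
    rw [smul_smul, mul_assoc, inv_mul_cancel₀ hd, mul_one]
  have h2 : (c * d⁻¹) • d • f ∈ V.O := by rw [h1]; exact h
  refine ⟨c * d⁻¹, mul_ne_zero hc (inv_ne_zero hd), h2, ?_⟩
  congr 1
  exact Subtype.ext h1

theorem HasRes.ne_zero {f : F} {a : F₁} (hf : V.HasRes f a) (ha : a ≠ 0) : f ≠ 0 := by
  rintro rfl
  obtain ⟨c, hc, h, rfl⟩ := hf
  apply ha
  have : (⟨c • (0 : F), h⟩ : V.O) = 0 := Subtype.ext (smul_zero c)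
  rw [this, map_zero]

theorem HasRes.unique_aux {f : F} {c c' : L} (hc : c ≠ 0)
    (h : c • f ∈ V.O) (h' : c' • f ∈ V.O) (ha : V.r ⟨c' • f, h'⟩ ≠ 0)
    (hcc : c' / c ∈ A) : ∃ κ : k, κ ≠ 0 ∧ V.r ⟨c' • f, h'⟩ = κ • V.r ⟨c • f, h⟩ := by
  have h1 : (⟨c' • f, h'⟩ : V.O) = V.cst ⟨c' / c, hcc⟩ * ⟨c • f, h⟩ := by
    apply Subtype.ext
    show c' • f = algebraMap L F (c' / c) * (c • f)
    rw [Algebra.smul_def, Algebra.smul_def, ← mul_assoc, ← map_mul, div_mul_cancel₀ _ hc]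
  have h2 : V.r ⟨c' • f, h'⟩ = π ⟨c' / c, hcc⟩ • V.r ⟨c • f, h⟩ := by
    rw [h1, map_mul, V.r_cst]
    exact (Algebra.smul_def _ _).symm
  refine ⟨_, ?_, h2⟩
  intro h3
  apply ha
  rw [h2, h3, zero_smul]

theorem HasRes.unique {f : F} {a b : F₁}
    (ha : V.HasRes f a) (hb : V.HasRes f b) (ha0 : a ≠ 0) (hb0 : b ≠ 0) :
    ∃ κ : k, κ ≠ 0 ∧ b = κ • a := by
  obtain ⟨c, hc, h, rfl⟩ := ha
  obtain ⟨c', hc', h', rfl⟩ := hb
  rcases A.mem_or_inv_mem (c' / c) with h1 | h1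
  · exact unique_aux hc h h' hb0 h1
  · rw [inv_div] at h1
    obtain ⟨κ, hκ, e⟩ := unique_aux hc' h' h ha0 h1
    exact ⟨κ⁻¹, inv_ne_zero hκ, by rw [e, smul_smul, inv_mul_cancel₀ hκ, one_smul]⟩

end ResVal

namespace TwoVal

variable (T : TwoVal L k F F₁)

/-- `D` is an `n`-torsion divisor whose function has residues `n`-th powers -/
def InN (n : ℕ) (D : Divisor L F) : Prop :=
  ∃ f : F, f ≠ 0 ∧ (∀ v : Place L F, (n : ℤ) * D v = v.ord f) ∧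
    (∃ a : F₁, a ≠ 0 ∧ T.V₁.HasRes f (a ^ n)) ∧ (∃ a : F₁, a ≠ 0 ∧ T.V₂.HasRes f (a ^ n))

variable {T}

theorem InN.zero (n : ℕ) : T.InN n 0 :=
  ⟨1, one_ne_zero, fun v => by simp, ⟨1, one_ne_zero, by rw [one_pow]; exact ResVal.hasRes_one⟩,
    ⟨1, one_ne_zero, by rw [one_pow]; exact ResVal.hasRes_one⟩⟩

theorem InN.add {n : ℕ} {D E : Divisor L F} (hD : T.InN n D) (hE : T.InN n E) :
    T.InN n (D + E) := by
  obtain ⟨f, hf, hfD, ⟨a, ha, har⟩, ⟨a', ha', har'⟩⟩ := hD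
  obtain ⟨g, hg, hgE, ⟨b, hb, hbr⟩, ⟨b', hb', hbr'⟩⟩ := hE
  refine ⟨f * g, mul_ne_zero hf hg, fun v => ?_, ⟨a * b, mul_ne_zero ha hb, ?_⟩,
    ⟨a' * b', mul_ne_zero ha' hb', ?_⟩⟩
  · rw [Finsupp.add_apply, mul_add, hfD, hgE, v.ord_mul hf hg]
  · rw [mul_pow]; exact har.mul hbr
  · rw [mul_pow]; exact har'.mul hbr'

theorem InN.neg {n : ℕ} {D : Divisor L F} (hD : T.InN n D) : T.InN n (-D) := by
  obtain ⟨f, hf, hfD, ⟨a, ha, har⟩, ⟨a', ha', har'⟩⟩ := hD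
  refine ⟨f⁻¹, inv_ne_zero hf, fun v => ?_, ⟨a⁻¹, inv_ne_zero ha, ?_⟩,
    ⟨a'⁻¹, inv_ne_zero ha', ?_⟩⟩
  · rw [Finsupp.neg_apply, mul_neg, hfD, v.ord_inv]
  · rw [inv_pow]; exact har.inv (pow_ne_zero _ ha)
  · rw [inv_pow]; exact har'.inv (pow_ne_zero _ ha')

/-- every `InN`-divisor is linearly equivalent to a normalised one. -/
theorem InN.exists_tors [IsAlgClosed L] [HasPrincipalDivisors L F] (harch : T.Arch) {n : ℕ}
    (hn : n ≠ 0) {D : Divisor L F} (hD : T.InN n D) :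
    ∃ (τ : Tors T.toRData n) (h : F), h ≠ 0 ∧ ∀ v : Place L F, D v = τ.D v + v.ord h := by
  obtain ⟨f, hf, hfD, ⟨a, ha, c, hc, hO, har⟩, ⟨a', ha', c', hc', hO', har'⟩⟩ := hD
  obtain ⟨d, hd⟩ := IsAlgClosed.exists_pow_nat_eq c (Nat.pos_of_ne_zero hn)
  obtain ⟨d', hd'⟩ := IsAlgClosed.exists_pow_nat_eq c' (Nat.pos_of_ne_zero hn)
  have hd0 : d ≠ 0 := by
    rintro rfl
    rw [zero_pow hn] at hd
    exact hc hd.symm
  have hd0' : d' ≠ 0 := by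
    rintro rfl
    rw [zero_pow hn] at hd'
    exact hc' hd'.symm
  obtain ⟨h, ⟨h₁, e₁⟩, ⟨h₂, e₂⟩⟩ := T.approx harch hd0 hd0' a a'
  have hh : h ≠ 0 := by
    rintro rfl
    have h3 : (⟨d • (0 : F), h₁⟩ : T.V₁.O) = 0 := Subtype.ext (smul_zero d)
    rw [h3, map_zero] at e₁
    exact ha e₁.symm
  have key : ∀ (V : ResVal T.A T.π F F₁) (c d : L) (a : F₁), a ≠ 0 → c ≠ 0 → d ^ n = c →
      ∀ (hO : c • f ∈ V.O), V.r ⟨c • f, hO⟩ = a ^ n → ∀ (h₁ : d • h ∈ V.O),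
      V.r ⟨d • h, h₁⟩ = a → ∃ hm : f * (h ^ n)⁻¹ ∈ V.O, V.r ⟨_, hm⟩ = 1 := by
    intro V c d a ha hc hd hO har h₁ e₁
    have h4 : V.r (⟨d • h, h₁⟩ ^ n) ≠ 0 := by
      rw [map_pow, e₁]; exact pow_ne_zero _ ha
    obtain ⟨hinv, einv⟩ := V.inv_mem h4
    have h5 : f * (h ^ n)⁻¹ = (c • f) * (((⟨d • h, h₁⟩ : V.O) ^ n : V.O) : F)⁻¹ := by
      push_cast
      rw [smul_pow, hd, Algebra.smul_def, Algebra.smul_def, mul_inv]
      have : algebraMap L F c ≠ 0 := by rwa [Ne, map_eq_zero]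
      field_simp
    have h6 : f * (h ^ n)⁻¹ ∈ V.O := by rw [h5]; exact mul_mem hO hinv
    refine ⟨h6, ?_⟩
    have h7 : (⟨_, h6⟩ : V.O) = ⟨c • f, hO⟩ * ⟨_, hinv⟩ := Subtype.ext h5
    rw [h7, map_mul, har, einv, map_pow, e₁, mul_inv_cancel₀ (pow_ne_zero _ ha)]
  obtain ⟨hm₁, em₁⟩ := key T.V₁ c d a ha hc hd hO har h₁ e₁
  obtain ⟨hm₂, em₂⟩ := key T.V₂ c' d' a' ha' hc' hd' hO' har' h₂ e₂
  refine ⟨⟨D - dv (K := L) h hh, ⟨f * (h ^ n)⁻¹, hm₁, hm₂⟩, Prod.ext em₁ em₂, fun v => ?_⟩, h, hh,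
    fun v => ?_⟩
  · rw [Finsupp.sub_apply, dv_apply, mul_sub, hfD]
    show _ = v.ord (f * (h ^ n)⁻¹)
    rw [v.ord_mul hf (inv_ne_zero (pow_ne_zero _ hh)), v.ord_inv, ord_pow v h n]
    ring
  · show D v = (D - dv (K := L) h hh) v + v.ord h
    rw [Finsupp.sub_apply, dv_apply]
    ring

/-- the subgroup of normalised classes -/
def NN [HasPrincipalDivisors L F] (T : TwoVal L k F F₁) (n : ℕ) : AddSubgroup (Pic0 L F) where
  carrier := {x | ∃ D : Divisor.degZero (K := L) (F := F), Pic0.mk D = x ∧ T.InN n (D : Divisor L F)}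
  zero_mem' := ⟨0, rfl, InN.zero n⟩
  add_mem' := by
    rintro x y ⟨D, rfl, hD⟩ ⟨E, rfl, hE⟩
    exact ⟨D + E, rfl, hD.add hE⟩
  neg_mem' := by
    rintro x ⟨D, rfl, hD⟩
    exact ⟨-D, rfl, hD.neg⟩

theorem mem_NN [HasPrincipalDivisors L F] {n : ℕ} {x : Pic0 L F} :
    x ∈ T.NN n ↔ ∃ D : Divisor.degZero (K := L) (F := F), Pic0.mk D = x ∧
      T.InN n (D : Divisor L F) := Iff.rfl

theorem NN_le_torsion [HasPrincipalDivisors L F] {n : ℕ} {x : Pic0 L F} (hx : x ∈ T.NN n) :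
    x ∈ Pic0.torsion L F n := by
  obtain ⟨D, rfl, f, hf, hfD, -⟩ := hx
  rw [Pic0.mem_torsion]
  show Pic0.mk ((n : ℤ) • D) = 0
  apply (QuotientAddGroup.eq_zero_iff _).mpr
  rw [AddSubgroup.mem_addSubgroupOf]
  refine ⟨f, hf, fun v => ?_⟩
  rw [← hfD v]
  rfl

/-- a semilinear automorphism compatible with both valuations -/
structure GalV (T : TwoVal L k F F₁) where
  g : SemilinearAut L F
  σ : F₁ ≃+* F₁
  h₁ : ∀ f : F, f ∈ T.V₁.O ↔ g • f ∈ T.V₁.O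
  h₂ : ∀ f : F, f ∈ T.V₂.O ↔ g • f ∈ T.V₂.O
  r₁ : ∀ f : T.V₁.O, T.V₁.r ⟨g • (f : F), (h₁ f).mp f.2⟩ = σ (T.V₁.r f)
  r₂ : ∀ f : T.V₂.O, T.V₂.r ⟨g • (f : F), (h₂ f).mp f.2⟩ = σ (T.V₂.r f)

namespace GalV

variable (γ : GalV T)

theorem smul_const_smul (c : L) (f : F) : γ.g • (c • f) = SemilinearAut.baseAut γ.g c • (γ.g • f) := by
  rw [Algebra.smul_def, smul_mul', SemilinearAut.smul_algebraMap, ← Algebra.smul_def]

theorem baseAut_ne {c : L} (hc : c ≠ 0) : SemilinearAut.baseAut γ.g c ≠ 0 := by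
  intro h
  exact hc ((map_eq_zero _).mp h)

theorem hasRes₁ {f : F} {a : F₁} (h : T.V₁.HasRes f a) : T.V₁.HasRes (γ.g • f) (γ.σ a) := by
  obtain ⟨c, hc, hO, rfl⟩ := h
  have h1 : SemilinearAut.baseAut γ.g c • (γ.g • f) ∈ T.V₁.O := by
    rw [← γ.smul_const_smul]; exact (γ.h₁ _).mp hO
  refine ⟨SemilinearAut.baseAut γ.g c, γ.baseAut_ne hc, h1, ?_⟩
  rw [← γ.r₁]
  congr 1
  exact Subtype.ext (γ.smul_const_smul c f).symm

theorem hasRes₂ {f : F} {a : F₁} (h : T.V₂.HasRes f a) : T.V₂.HasRes (γ.g • f) (γ.σ a) := by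
  obtain ⟨c, hc, hO, rfl⟩ := h
  have h1 : SemilinearAut.baseAut γ.g c • (γ.g • f) ∈ T.V₂.O := by
    rw [← γ.smul_const_smul]; exact (γ.h₂ _).mp hO
  refine ⟨SemilinearAut.baseAut γ.g c, γ.baseAut_ne hc, h1, ?_⟩
  rw [← γ.r₂]
  congr 1
  exact Subtype.ext (γ.smul_const_smul c f).symm

theorem ord_smul (v : Place L F) (f : F) : v.ord (γ.g • f) = (γ.g⁻¹ • v).ord f := by
  have := SemilinearAut.ord_smul γ.g (γ.g⁻¹ • v) f
  rwa [smul_inv_smul] at this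

/-- **Claim 1**: inertia acts on `J[n]/N` trivially. -/
theorem inN_sub (hγ : ∀ a, γ.σ a = a) {n : ℕ} {D : Divisor L F} {f : F} (hf : f ≠ 0)
    (hD : ∀ v : Place L F, (n : ℤ) * D v = v.ord f) : T.InN n (γ.g • D - D) := by
  have hgf : γ.g • f ≠ 0 := by
    intro h
    exact hf ((smul_eq_zero_iff_eq γ.g).mp h)
  obtain ⟨a, ha, har⟩ := ResVal.exists_hasRes (V := T.V₁) hf
  obtain ⟨b, hb, hbr⟩ := ResVal.exists_hasRes (V := T.V₂) hf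
  refine ⟨γ.g • f * f⁻¹, mul_ne_zero hgf (inv_ne_zero hf), fun v => ?_, ⟨1, one_ne_zero, ?_⟩,
    ⟨1, one_ne_zero, ?_⟩⟩
  · rw [Finsupp.sub_apply, mul_sub, SemilinearAut.divisor_smul_apply, hD, hD,
      v.ord_mul hgf (inv_ne_zero hf), v.ord_inv, γ.ord_smul, sub_eq_add_neg]
  · have := (γ.hasRes₁ har).mul (har.inv ha)
    rw [hγ, mul_inv_cancel₀ ha] at this
    rwa [one_pow]
  · have := (γ.hasRes₂ hbr).mul (hbr.inv hb)
    rw [hγ, mul_inv_cancel₀ hb] at this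
    rwa [one_pow]

/-- the corresponding element for the joint reduction data -/
def toGalEl {p : FrobPencil T.toRData} (ht : γ.g • (p.t : F) = p.t) : GalEl p where
  g := γ.g
  σ := γ.σ
  hO f hf := ⟨(γ.h₁ f).mp hf.1, (γ.h₂ f).mp hf.2⟩
  hO' f hf := ⟨(γ.h₁ f).mpr hf.1, (γ.h₂ f).mpr hf.2⟩
  hres f := Prod.ext (γ.r₁ ⟨f, f.2.1⟩) (γ.r₂ ⟨f, f.2.2⟩)
  ht := ht

theorem smul_mem_NN [HasPrincipalDivisors L F] {n : ℕ} {x : Pic0 L F} (hx : x ∈ T.NN n) :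
    γ.g • x ∈ T.NN n := by
  obtain ⟨D, rfl, f, hf, hfD, ⟨a, ha, har⟩, ⟨b, hb, hbr⟩⟩ := hx
  refine ⟨SemilinearAut.degZeroSMulHom γ.g D, rfl, γ.g • f, ?_, fun v => ?_,
    ⟨γ.σ a, ?_, ?_⟩, ⟨γ.σ b, ?_, ?_⟩⟩
  · intro h
    exact hf ((smul_eq_zero_iff_eq γ.g).mp h)
  · rw [SemilinearAut.coe_degZeroSMulHom, SemilinearAut.divisor_smul_apply, hfD, γ.ord_smul]
  · rwa [Ne, map_eq_zero]
  · rw [← map_pow]; exact γ.hasRes₁ har
  · rwa [Ne, map_eq_zero]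
  · rw [← map_pow]; exact γ.hasRes₂ hbr

/-- **(ii)** for `x` an `n`-torsion class and `σ` in inertia: `σ x - x ∈ NN`. -/
theorem smul_sub_mem_NN [HasPrincipalDivisors L F] (hγ : ∀ a, γ.σ a = a) {n : ℕ}
    {x : Pic0 L F} (hx : x ∈ Pic0.torsion L F n) : γ.g • x - x ∈ T.NN n := by
  obtain ⟨D, rfl⟩ := Pic0.mk_surjective x
  rw [Pic0.mem_torsion] at hx
  have h1 : Pic0.mk ((n : ℤ) • D) = 0 := hx
  have h2 := (QuotientAddGroup.eq_zero_iff _).mp h1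
  rw [AddSubgroup.mem_addSubgroupOf] at h2
  obtain ⟨f, hf, hfD⟩ := h2
  refine ⟨SemilinearAut.degZeroSMulHom γ.g D - D, rfl, ?_⟩
  exact γ.inN_sub hγ hf (fun v => by rw [← hfD v]; rfl)

theorem _root_.AlgebraicCurve.Pic0.mk_eq_of_ord [HasPrincipalDivisors L F]
    {D E : Divisor.degZero (K := L) (F := F)} {w : F} (hw0 : w ≠ 0)
    (hw : ∀ v : Place L F, (D : Divisor L F) v = (E : Divisor L F) v + v.ord w) :
    Pic0.mk D = Pic0.mk E := by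
  rw [← sub_eq_zero]
  show Pic0.mk (D - E) = 0
  apply (QuotientAddGroup.eq_zero_iff _).mpr
  rw [AddSubgroup.mem_addSubgroupOf]
  refine ⟨w, hw0, fun v => ?_⟩
  show (D : Divisor L F) v - (E : Divisor L F) v = _
  rw [hw v]
  ring

end GalV

section Main

variable [IsFF L F] [HasPrincipalDivisors L F] [IsAlgClosed L] {g g₁ : ℤ}
variable [IsFF k F₁] [HasPrincipalDivisors k F₁] [IsAlgClosed k]

theorem exists_tors_of_mem_NN (harch : T.Arch) {n : ℕ} (hn : n ≠ 0) {x : Pic0 L F}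
    (hx : x ∈ T.NN n) : ∃ (τ : Tors T.toRData n) (hτ : Divisor.degree τ.D = 0),
      x = Pic0.mk ⟨τ.D, hτ⟩ := by
  obtain ⟨D, rfl, hD⟩ := hx
  obtain ⟨τ, h, hh, hD'⟩ := hD.exists_tors harch hn
  exact ⟨τ, τ.degree_eq_zero hn, Pic0.mk_eq_of_ord hh hD'⟩

/-- **(i)** inertia acts trivially on `NN`. -/
theorem inertia_fix {p : FrobPencil T.toRData} (H : FrobPencil.Hyp p g g₁) {n : ℕ} (hnk : (n : k) ≠ 0)
    (γ : GalV T) (hγ : ∀ a, γ.σ a = a) (ht : γ.g • (p.t : F) = p.t) {x : Pic0 L F}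
    (hx : x ∈ T.NN n) : γ.g • x = x := by
  have hn : n ≠ 0 := by
    rintro rfl
    exact hnk (by simp)
  obtain ⟨τ, hτ, rfl⟩ := exists_tors_of_mem_NN H.harch hn hx
  obtain ⟨w, hw0, hw⟩ := H.inertia_fix hnk τ (γ.toGalEl ht) hγ
  rw [SemilinearAut.pic0_smul_mk]
  refine Pic0.mk_eq_of_ord hw0 fun v => ?_
  rw [← hw v]
  show (γ.g • τ.D) v = τ.D v + (γ.g • τ.D - τ.D) v
  rw [Finsupp.sub_apply]
  ring

/-- **(i')** the square of a Frobenius lift acts on `NN` as `r ^ 2`. -/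
theorem frob_sq {p : FrobPencil T.toRData} (H : FrobPencil.Hyp p g g₁) {n : ℕ} (hnk : (n : k) ≠ 0)
    (γ : GalV T) (hγ : ∀ a, γ.σ a = p.φ a) (ht : γ.g • (p.t : F) = p.t) {x : Pic0 L F}
    (hx : x ∈ T.NN n) : γ.g • γ.g • x = (p.r * p.r) • x := by
  have hn : n ≠ 0 := by
    rintro rfl
    exact hnk (by simp)
  obtain ⟨τ, hτ, rfl⟩ := exists_tors_of_mem_NN H.harch hn hx
  obtain ⟨w, hw0, hw⟩ := H.frob_sq hnk τ (γ.toGalEl ht) hγ
  rw [SemilinearAut.pic0_smul_mk, SemilinearAut.pic0_smul_mk]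
  have h1 : (p.r * p.r) • Pic0.mk (⟨τ.D, hτ⟩ : Divisor.degZero (K := L) (F := F)) =
      Pic0.mk ((p.r * p.r) • ⟨τ.D, hτ⟩) := rfl
  rw [h1]
  refine Pic0.mk_eq_of_ord hw0 fun v => ?_
  rw [← hw v]
  show (γ.g • γ.g • τ.D) v = ((p.r * p.r) • τ.D) v +
    (γ.g • (γ.g • τ.D) - (p.r * p.r) • τ.D) v
  rw [Finsupp.sub_apply]
  ring

end Main

end TwoVal

end Fermat.Agent.BadRed
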