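import Fermat.Agent.BadRed.KLat3
import Fermat.Agent.BadRed.InN

/-!
# Slopes of rational torsion classes
-/

set_option autoImplicit false
set_option linter.unusedSectionVars false

noncomputable section

open AlgebraicCurve Module IntermediateField

namespace Fermat.Agent.BadRed

open Fermat.Agent.FunField Fermat.Agent.FunField.PlaceLemmas Fermat.Agent.Deuring

variable {L k : Type*} [Field L] [Field k]
variable {F F₁ : Type*} [Field F] [Field F₁] [Algebra L F] [Algebra k F₁]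

namespace ResVal

variable {A : ValuationSubring L} {π : A →+* k} (V : ResVal A π F F₁)

/-- `f` has (exact) residue `a` -/
def ER (f : F) (a : F₁) : Prop := ∃ h : f ∈ V.O, V.r ⟨f, h⟩ = a

variable {V}

theorem ER.mul {f g : F} {a b : F₁} (hf : V.ER f a) (hg : V.ER g b) : V.ER (f * g) (a * b) := by
  obtain ⟨h, rfl⟩ := hf
  obtain ⟨h', rfl⟩ := hg
  exact ⟨mul_mem h h', by rw [← map_mul]; rfl⟩

theorem ER.add {f g : F} {a b : F₁} (hf : V.ER f a) (hg : V.ER g b) : V.ER (f + g) (a + b) := by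
  obtain ⟨h, rfl⟩ := hf
  obtain ⟨h', rfl⟩ := hg
  exact ⟨add_mem h h', by rw [← map_add]; rfl⟩

theorem ER.one : V.ER (1 : F) (1 : F₁) := ⟨one_mem _, by
  rw [← map_one V.r]; rfl⟩

theorem ER.inv {f : F} {a : F₁} (hf : V.ER f a) (ha : a ≠ 0) : V.ER f⁻¹ a⁻¹ := by
  obtain ⟨h, rfl⟩ := hf
  exact V.inv_mem ha

theorem ER.pow {f : F} {a : F₁} (hf : V.ER f a) (n : ℕ) : V.ER (f ^ n) (a ^ n) := by
  induction n with
  | zero => simpa using ER.one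
  | succ n ih => rw [pow_succ, pow_succ]; exact ih.mul hf

theorem ER.zpow {f : F} {a : F₁} (hf : V.ER f a) (ha : a ≠ 0) (n : ℤ) :
    V.ER (f ^ n) (a ^ n) := by
  cases n with
  | ofNat n => simpa using hf.pow n
  | negSucc n =>
    rw [zpow_negSucc, zpow_negSucc]
    exact (hf.pow _).inv (pow_ne_zero _ ha)

theorem ER.ne_zero {f : F} {a : F₁} (hf : V.ER f a) (ha : a ≠ 0) : f ≠ 0 := by
  rintro rfl
  obtain ⟨h, rfl⟩ := hf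
  apply ha
  have : (⟨0, h⟩ : V.O) = 0 := rfl
  rw [this, map_zero]

theorem ER.unique {f : F} {a b : F₁} (hf : V.ER f a) (hf' : V.ER f b) : a = b := by
  obtain ⟨h, rfl⟩ := hf
  obtain ⟨h', rfl⟩ := hf'
  rfl

theorem ER.hasRes {f : F} {a : F₁} {c : L} (hc : c ≠ 0) (hf : V.ER (c • f) a) : V.HasRes f a :=
  ⟨c, hc, hf⟩

theorem ER.of_mem {f : F} (h : f ∈ V.O) : V.ER f (V.r ⟨f, h⟩) := ⟨h, rfl⟩

theorem ER.cst (a : A) : V.ER (algebraMap L F (a : L)) (algebraMap k F₁ (π a)) :=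
  ⟨(V.mem_iff _).mpr a.2, V.r_algebraMap a⟩

end ResVal

namespace TwoVal

variable (T : TwoVal L k F F₁)

theorem ER_of_O (h : T.toRData.O) :
    T.V₁.ER (h : F) (T.toRData.res h).1 ∧ T.V₂.ER (h : F) (T.toRData.res h).2 :=
  ⟨⟨h.2.1, rfl⟩, ⟨h.2.2, rfl⟩⟩

theorem exists_O {f : F} {a b : F₁} (h₁ : T.V₁.ER f a) (h₂ : T.V₂.ER f b) :
    ∃ h : T.toRData.O, (h : F) = f ∧ T.toRData.res h = (a, b) := by
  obtain ⟨m₁, rfl⟩ := h₁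
  obtain ⟨m₂, rfl⟩ := h₂
  exact ⟨⟨f, m₁, m₂⟩, rfl, rfl⟩

/-- `f` has valuation `v₂ - v₁ = s` and residues `x₁`, `x₂` -/
def SlopeAt (ϖ : L) (f : F) (s : ℤ) (x₁ x₂ : F₁) : Prop :=
  x₁ ≠ 0 ∧ x₂ ≠ 0 ∧ ∃ c : L, c ≠ 0 ∧ T.V₁.ER (c • f) x₁ ∧ T.V₂.ER ((c * (ϖ ^ s)⁻¹) • f) x₂

namespace SlopeAt

variable {T} {ϖ : L} {f f' : F} {s s' : ℤ} {x₁ x₂ x₁' x₂' : F₁}

theorem ne_zero (h : T.SlopeAt ϖ f s x₁ x₂) : f ≠ 0 := by
  rintro rfl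
  obtain ⟨h1, -, c, -, h3, -⟩ := h
  exact h3.ne_zero h1 (smul_zero c)

theorem mul (h : T.SlopeAt ϖ f s x₁ x₂) (h' : T.SlopeAt ϖ f' s' x₁' x₂') (hϖ : ϖ ≠ 0) :
    T.SlopeAt ϖ (f * f') (s + s') (x₁ * x₁') (x₂ * x₂') := by
  obtain ⟨h1, h2, c, hc, h3, h4⟩ := h
  obtain ⟨h1', h2', c', hc', h3', h4'⟩ := h'
  refine ⟨mul_ne_zero h1 h1', mul_ne_zero h2 h2', c * c', mul_ne_zero hc hc', ?_, ?_⟩
  · have := h3.mul h3'
    rwa [smul_mul_smul_comm] at this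
  · have := h4.mul h4'
    rw [smul_mul_smul_comm] at this
    convert this using 2
    rw [zpow_add₀ hϖ, mul_inv]
    ring

theorem one : T.SlopeAt ϖ (1 : F) 0 1 1 := by
  refine ⟨one_ne_zero, one_ne_zero, 1, one_ne_zero, ?_, ?_⟩
  · rw [one_smul]; exact ResVal.ER.one
  · rw [zpow_zero, inv_one, mul_one, one_smul]; exact ResVal.ER.one

theorem inv (h : T.SlopeAt ϖ f s x₁ x₂) : T.SlopeAt ϖ f⁻¹ (-s) x₁⁻¹ x₂⁻¹ := by
  obtain ⟨h1, h2, c, hc, h3, h4⟩ := h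
  refine ⟨inv_ne_zero h1, inv_ne_zero h2, c⁻¹, inv_ne_zero hc, ?_, ?_⟩
  · have := h3.inv h1
    rwa [Algebra.smul_def, mul_inv, ← map_inv₀, ← Algebra.smul_def] at this
  · have := h4.inv h2
    rw [Algebra.smul_def, mul_inv, ← map_inv₀, ← Algebra.smul_def] at this
    convert this using 2
    rw [mul_inv, inv_inv, zpow_neg, inv_inv]

theorem pow (h : T.SlopeAt ϖ f s x₁ x₂) (hϖ : ϖ ≠ 0) (n : ℕ) :
    T.SlopeAt ϖ (f ^ n) (n * s) (x₁ ^ n) (x₂ ^ n) := by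
  induction n with
  | zero => simpa using one
  | succ n ih =>
    have := ih.mul h hϖ
    rw [pow_succ, pow_succ, pow_succ]
    convert this using 1
    push_cast
    ring

theorem smul (h : T.SlopeAt ϖ f s x₁ x₂) {d : L} (hd : d ≠ 0) : T.SlopeAt ϖ (d • f) s x₁ x₂ := by
  obtain ⟨h1, h2, c, hc, h3, h4⟩ := h
  refine ⟨h1, h2, c * d⁻¹, mul_ne_zero hc (inv_ne_zero hd), ?_, ?_⟩
  · rwa [smul_smul, mul_assoc, inv_mul_cancel₀ hd, mul_one]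
  · rw [smul_smul]
    convert h4 using 2
    field_simp

theorem hasRes₁ (h : T.SlopeAt ϖ f s x₁ x₂) : T.V₁.HasRes f x₁ := by
  obtain ⟨h1, h2, c, hc, h3, h4⟩ := h
  exact h3.hasRes hc

theorem hasRes₂ (h : T.SlopeAt ϖ f s x₁ x₂) (hϖ : ϖ ≠ 0) : T.V₂.HasRes f x₂ := by
  obtain ⟨h1, h2, c, hc, h3, h4⟩ := h
  exact h4.hasRes (mul_ne_zero hc (inv_ne_zero (zpow_ne_zero _ hϖ)))

end SlopeAt

/-- rational structure with uniformizer -/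
structure RatDat [HasPrincipalDivisors L F] (p : Pencil T.toRData) where
  FK : Subfield F
  𝒟 : AddSubgroup (Divisor L F)
  div_mem : ∀ (f : F) (hf : f ≠ 0), f ∈ FK → dv (K := L) f hf ∈ 𝒟
  rat : p.Rat FK.toSubring 𝒟
  ϖ : T.A
  ne : (ϖ : L) ≠ 0
  res : T.π ϖ = 0
  mem : algebraMap L F ϖ ∈ FK
  scale₁ : ∀ f ∈ FK, f ≠ 0 → ∃ (n : ℤ) (a : F₁), a ≠ 0 ∧ T.V₁.ER (((ϖ : L) ^ n) • f) a
  scale₂ : ∀ f ∈ FK, f ≠ 0 → ∃ (n : ℤ) (a : F₁), a ≠ 0 ∧ T.V₂.ER (((ϖ : L) ^ n) • f) a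

end TwoVal

/-- division by the uniformizer -/
theorem ResVal.dvd_of_scale {A : ValuationSubring L} {π : A →+* k} (V : ResVal A π F F₁) {ϖ : A}
    (hne : (ϖ : L) ≠ 0) {f : F}
    (hs : f ≠ 0 → ∃ (n : ℤ) (a : F₁), a ≠ 0 ∧ V.ER (((ϖ : L) ^ n) • f) a) (hf : V.ER f 0) :
    ((ϖ : L)⁻¹ • f) ∈ V.O := by
  rcases eq_or_ne f 0 with rfl | hf0
  · rw [smul_zero]; exact zero_mem _
  obtain ⟨n, a, ha, h⟩ := hs hf0
  have hn : n < 0 := by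
    by_contra hn
    push Not at hn
    obtain ⟨m, rfl⟩ := Int.eq_ofNat_of_zero_le hn
    have h1 := ((ResVal.ER.cst (V := V) ϖ).pow m).mul hf
    rw [mul_zero, ← map_pow, ← Algebra.smul_def] at h1
    rw [zpow_natCast] at h
    exact ha (h.unique h1)
  obtain ⟨m, hm⟩ : ∃ m : ℕ, -n = m + 1 := ⟨(-n - 1).toNat, by omega⟩
  have h1 := ((ResVal.ER.cst (V := V) ϖ).pow m).mul h
  obtain ⟨h2, -⟩ := h1
  have h3 : (ϖ : L)⁻¹ • f = algebraMap L F ϖ ^ m * ((ϖ : L) ^ n • f) := by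
    rw [← map_pow, ← Algebra.smul_def, smul_smul, ← zpow_natCast, ← zpow_add₀ hne,
      ← zpow_neg_one]
    congr 2
    omega
  rw [h3]
  exact h2

namespace TwoVal

variable {T : TwoVal L k F F₁} [HasPrincipalDivisors L F] {p : Pencil T.toRData}

namespace RatDat

variable (R : T.RatDat p)

/-- a rational function with `v₁ = 0`, `v₂ = 1` -/
theorem exists_omega (h₁ : ∃ m, ∃ q ∈ p.Tr 0 m, q.2 = 0 ∧ q.1 ≠ 0)
    (h₂ : ∃ m, ∃ q ∈ p.Tr 0 m, q.1 = 0 ∧ q.2 ≠ 0) :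
    ∃ ω ∈ R.FK, ∃ a b : F₁, a ≠ 0 ∧ b ≠ 0 ∧ T.V₁.ER ω a ∧ T.V₂.ER ((R.ϖ : L)⁻¹ • ω) b := by
  obtain ⟨m, q, hq, hq2, hq1⟩ := h₁
  obtain ⟨m', q', hq', hq1', hq2'⟩ := h₂
  obtain ⟨h, hK, -, rfl⟩ := R.rat.rat 0 R.𝒟.zero_mem m q hq
  obtain ⟨h', hK', -, rfl⟩ := R.rat.rat 0 R.𝒟.zero_mem m' q' hq'
  obtain ⟨e1, e2⟩ := T.ER_of_O h
  obtain ⟨e1', e2'⟩ := T.ER_of_O h'
  rw [hq2] at e2
  rw [hq1'] at e1'
  have hd := T.V₂.dvd_of_scale R.ne (R.scale₂ _ hK) e2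
  refine ⟨(h : F) * h + algebraMap L F R.ϖ * h', R.FK.add_mem (R.FK.mul_mem hK hK)
    (R.FK.mul_mem R.mem hK'), (T.toRData.res h).1 * (T.toRData.res h).1, (T.toRData.res h').2,
    mul_ne_zero hq1 hq1, hq2', ?_, ?_⟩
  · have := (e1.mul e1).add ((ResVal.ER.cst (V := T.V₁) R.ϖ).mul e1')
    rwa [mul_zero, add_zero] at this
  · have h3 : ((R.ϖ : L)⁻¹ • ((h : F) * h + algebraMap L F R.ϖ * h')) =
        ((R.ϖ : L)⁻¹ • (h : F)) * h + h' := by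
      rw [smul_add, ← Algebra.smul_def, smul_smul, inv_mul_cancel₀ R.ne, one_smul,
        smul_mul_assoc]
    rw [h3]
    have h4 := ((ResVal.ER.of_mem hd).mul e2).add e2'
    rwa [mul_zero, zero_add] at h4

/-- the two functions `ω₁`, `ω₂` with `ω₁ ω₂ = ϖ` -/
theorem exists_omegas (h₁ : ∃ m, ∃ q ∈ p.Tr 0 m, q.2 = 0 ∧ q.1 ≠ 0)
    (h₂ : ∃ m, ∃ q ∈ p.Tr 0 m, q.1 = 0 ∧ q.2 ≠ 0) :
    ∃ (Ω₁ : Omega T.toRData R.FK.toSubring false) (Ω₂ : Omega T.toRData R.FK.toSubring true),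
      (Ω₁.ω : F) * Ω₂.ω = algebraMap L F (R.ϖ : L) := by
  obtain ⟨ω, hK, a, b, ha, hb, hω1, hω2⟩ := R.exists_omega h₁ h₂
  have hω0 : ω ≠ 0 := hω1.ne_zero ha
  have hϖF : algebraMap L F (R.ϖ : L) ≠ 0 := by
    rw [Ne, map_eq_zero]; exact R.ne
  have c1 := ResVal.ER.cst (V := T.V₁) R.ϖ
  have c2 := ResVal.ER.cst (V := T.V₂) R.ϖ
  rw [R.res, map_zero] at c1 c2
  have hω2' : T.V₂.ER ω 0 := by
    have := c2.mul hω2
    rwa [zero_mul, ← Algebra.smul_def, smul_smul, mul_inv_cancel₀ R.ne, one_smul] at this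
  -- `ϖ / ω`
  have i1 := hω1.inv ha
  have i2 := hω2.inv hb
  have e2 : T.V₂.ER (algebraMap L F R.ϖ * ω⁻¹) b⁻¹ := by
    convert i2 using 1
    rw [Algebra.smul_def, mul_inv, map_inv₀, inv_inv]
  have e1 : T.V₁.ER (algebraMap L F R.ϖ * ω⁻¹) 0 := by
    have := c1.mul i1
    rwa [zero_mul] at this
  obtain ⟨o₁, ho₁, hr₁⟩ := T.exists_O hω1 hω2'
  obtain ⟨o₂, ho₂, hr₂⟩ := T.exists_O e1 e2
  have hdvd₁ : ∀ h : T.toRData.O, (h : F) ∈ R.FK → (T.toRData.res h).2 = 0 →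
      ∃ h' : T.toRData.O, (h' : F) ∈ R.FK ∧ h = o₁ * h' := by
    intro h hh hr
    obtain ⟨f1, f2⟩ := T.ER_of_O h
    rw [hr] at f2
    have hd := T.V₂.dvd_of_scale R.ne (R.scale₂ _ hh) f2
    have g1 := i1.mul f1
    have g2 := e2.mul (ResVal.ER.of_mem hd)
    have h3 : algebraMap L F R.ϖ * ω⁻¹ * ((R.ϖ : L)⁻¹ • (h : F)) = ω⁻¹ * h := by
      rw [Algebra.smul_def, map_inv₀]
      field_simp
    rw [h3] at g2
    obtain ⟨l, hl, -⟩ := T.exists_O g1 g2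
    refine ⟨l, by rw [hl]; exact R.FK.mul_mem (R.FK.inv_mem hK) hh, ?_⟩
    apply Subtype.ext
    push_cast
    rw [ho₁, hl, mul_inv_cancel_left₀ hω0]
  have hdvd₂ : ∀ h : T.toRData.O, (h : F) ∈ R.FK → (T.toRData.res h).1 = 0 →
      ∃ h' : T.toRData.O, (h' : F) ∈ R.FK ∧ h = o₂ * h' := by
    intro h hh hr
    obtain ⟨f1, f2⟩ := T.ER_of_O h
    rw [hr] at f1
    have hd := T.V₁.dvd_of_scale R.ne (R.scale₁ _ hh) f1
    have g1 := hω1.mul (ResVal.ER.of_mem hd)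
    have g2 := hω2.mul f2
    have h3 : ω * ((R.ϖ : L)⁻¹ • (h : F)) = (algebraMap L F R.ϖ * ω⁻¹)⁻¹ * h := by
      rw [Algebra.smul_def, map_inv₀, mul_inv, inv_inv]
      ring
    have h4 : (R.ϖ : L)⁻¹ • ω * (h : F) = (algebraMap L F R.ϖ * ω⁻¹)⁻¹ * h := by
      rw [Algebra.smul_def, map_inv₀, mul_inv, inv_inv]
    rw [h3] at g1
    rw [h4] at g2
    obtain ⟨l, hl, -⟩ := T.exists_O g1 g2
    refine ⟨l, by
      rw [hl]
      exact R.FK.mul_mem (R.FK.inv_mem (R.FK.mul_mem R.mem (R.FK.inv_mem hK))) hh, ?_⟩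
    apply Subtype.ext
    push_cast
    rw [ho₂, hl, mul_inv_cancel_left₀ (mul_ne_zero hϖF (inv_ne_zero hω0))]
  refine ⟨⟨o₁, by rw [ho₁]; exact hK, ?_, hdvd₁⟩, ⟨o₂, by
    rw [ho₂]; exact R.FK.mul_mem R.mem (R.FK.inv_mem hK), ?_, hdvd₂⟩, ?_⟩
  · rw [hr₁]; exact ha
  · rw [hr₂]; exact inv_ne_zero hb
  · show (o₁ : F) * o₂ = _
    rw [ho₁, ho₂, mul_comm (algebraMap L F _), mul_inv_cancel_left₀ hω0]

/-- conclusion of the lattice theory -/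
structure KL {ι : Type*} [Fintype ι] [HasPrincipalDivisors k F₁] (Z : p.NodeDat ι) : Prop where
  add : ∀ b, ∀ D ∈ R.𝒟, ∀ D' ∈ R.𝒟, p.J b (D + D') = p.J b D + p.J b D'
  deg : ∀ D ∈ R.𝒟, Divisor.degree D = Divisor.degree (p.J false D) + Divisor.degree (p.J true D)
  slope : ∀ D ∈ R.𝒟, ∀ (n : ℤ) (f : F) (s : ℤ) (x₁ x₂ : F₁), T.SlopeAt (R.ϖ : L) f s x₁ x₂ →
    (∀ v : Place L F, n * D v = v.ord f) →
    (∀ x, n * p.J false D x = x.ord x₁ - s * Z.δ false x) ∧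
    (∀ x, n * p.J true D x = x.ord x₂ + s * Z.δ true x)

variable [IsFF L F] [IsFF k F₁] [HasPrincipalDivisors k F₁]
  [IsAlgClosed k] {g g₁ : ℤ} (hRR : RRLarge L F g) (hpos : 0 < Divisor.degree p.Eb)

variable {R} in
/-- decomposition of a function with slope -/
theorem exists_eta (Ω₁ : Omega T.toRData R.FK.toSubring false)
    (Ω₂ : Omega T.toRData R.FK.toSubring true)
    (h12 : (Ω₁.ω : F) * Ω₂.ω = algebraMap L F (R.ϖ : L)) {f : F} {s : ℤ} {x₁ x₂ : F₁}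
    (hf : T.SlopeAt (R.ϖ : L) f s x₁ x₂) :
    ∃ (c : L) (_ : c ≠ 0) (η η' : T.toRData.O), (η : F) * η' = 1 ∧
      c • f = (η : F) * (Ω₁.ω : F) ^ s ∧ (T.toRData.res η).1 = x₁ * (Ω₁.ω₁ ^ s)⁻¹ ∧
      (T.toRData.res η).2 = x₂ * Ω₂.ω₁ ^ s := by
  obtain ⟨h1, h2, c, hc, h3, h4⟩ := hf
  have e1 : T.V₁.ER (Ω₁.ω : F) Ω₁.ω₁ := (T.ER_of_O Ω₁.ω).1
  have e2 : T.V₂.ER (Ω₂.ω : F) Ω₂.ω₁ := (T.ER_of_O Ω₂.ω).2
  have hω1 := Ω₁.ω_ne
  have hω2 := Ω₂.ω_ne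
  have g1 := h3.mul ((e1.zpow Ω₁.ω₁_ne s).inv (zpow_ne_zero _ Ω₁.ω₁_ne))
  have g2 := h4.mul (e2.zpow Ω₂.ω₁_ne s)
  have hϖF : algebraMap L F (R.ϖ : L) ≠ 0 := by
    rw [Ne, map_eq_zero]; exact R.ne
  have heq : (c * ((R.ϖ : L) ^ s)⁻¹) • f * (Ω₂.ω : F) ^ s = c • f * ((Ω₁.ω : F) ^ s)⁻¹ := by
    rw [Algebra.smul_def, Algebra.smul_def, map_mul, map_inv₀, map_zpow₀, ← h12, mul_zpow]
    have := zpow_ne_zero s hω1
    have := zpow_ne_zero s hω2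
    field_simp
  rw [heq] at g2
  have hx1 : x₁ * (Ω₁.ω₁ ^ s)⁻¹ ≠ 0 := mul_ne_zero h1 (inv_ne_zero (zpow_ne_zero _ Ω₁.ω₁_ne))
  have hx2 : x₂ * Ω₂.ω₁ ^ s ≠ 0 := mul_ne_zero h2 (zpow_ne_zero _ Ω₂.ω₁_ne)
  obtain ⟨η, hη, hηr⟩ := T.exists_O g1 g2
  obtain ⟨η', hη', -⟩ := T.exists_O (g1.inv hx1) (g2.inv hx2)
  refine ⟨c, hc, η, η', ?_, ?_, ?_, ?_⟩
  · rw [hη, hη', mul_inv_cancel₀ (g1.ne_zero hx1)]
  · rw [hη, inv_mul_cancel_right₀ (zpow_ne_zero _ hω1)]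
  · rw [hηr]
  · rw [hηr]

include hRR hpos in
/-- **Main theorem on slopes.** -/
theorem exists_KL {ι : Type*} [Fintype ι] (Z : p.NodeDat ι)
    (hRR₁ : RRLarge k F₁ g₁) (hg : g = 2 * g₁ + Fintype.card ι - 1)
    {u : F} {N : ℕ} (hN : N ≠ 0) {y₁ y₂ : F₁} (hu : T.SlopeAt (R.ϖ : L) u N y₁ y₂) {c : ℕ}
    (hu1 : u ∈ riemannRochSpace (c • p.E)) (hu2 : u⁻¹ ∈ riemannRochSpace (c • p.E))
    (hdeg : ∃ P : Divisor k F₁, (∀ x, p.Eb x ≠ 0 → x.ord y₁ = -P x) ∧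
      (∀ x, p.Eb x = 0 → P x = 0) ∧ Divisor.degree P = N * Fintype.card ι) :
    R.KL Z := by
  obtain ⟨x₀, hx₀⟩ := p.exists_Eb_pos hpos
  have hb : ∀ b : Bool, ∃ m, ∃ q ∈ p.Tr 0 m, pr k F₁ (!b) q = 0 ∧ pr k F₁ b q ≠ 0 := by
    intro b
    obtain ⟨m, q, hq, h1, h2, -⟩ := Z.exists_delta b x₀
    exact ⟨m, q, hq, h1, h2⟩
  obtain ⟨Ω₁, Ω₂, h12⟩ := R.exists_omegas (hb false) (hb true)
  have hG₁ : Ω₁.G ∈ R.𝒟 := R.div_mem _ _ Ω₁.mem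
  obtain ⟨d, hd, η, η', hηη', hdu, hr1, hr2⟩ := exists_eta Ω₁ Ω₂ h12 hu
  have hdF : algebraMap L F d ≠ 0 := by rwa [Ne, map_eq_zero]
  rw [zpow_natCast] at hdu hr1
  let U : p.UnitDat Ω₁ N :=
    { η := η
      η' := η'
      mul_eq := hηη'
      c := c
      mem := by rw [← hdu]; exact Submodule.smul_mem _ _ hu1
      mem' := by
        rw [← hdu, Algebra.smul_def, mul_inv, ← map_inv₀, ← Algebra.smul_def]
        exact Submodule.smul_mem _ _ hu2 }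
  have hU : U.u₁ = y₁ := by
    show (T.toRData.res η).1 * Ω₁.ω₁ ^ N = y₁
    rw [hr1, inv_mul_cancel_right₀ (pow_ne_zero _ Ω₁.ω₁_ne)]
  have hK := p.kLat hRR hpos R.rat Z Ω₁ Ω₂ h12 hG₁ U hN hRR₁ hg (by rw [hU]; exact hdeg)
  refine ⟨hK.add, hK.deg, ?_⟩
  intro D hD n f s x₁ x₂ hf hnD
  -- `J b` as a homomorphism
  let JH : Bool → R.𝒟 →+ Divisor k F₁ := fun b =>
    AddMonoidHom.mk' (fun D => p.J b D) (fun D D' => hK.add b D D.2 D' D'.2)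
  have hJH : ∀ b (D : R.𝒟), JH b D = p.J b D := fun _ _ => rfl
  obtain ⟨d', hd', ζ, ζ', hζζ', hdf, hs1, hs2⟩ := exists_eta Ω₁ Ω₂ h12 hf
  have hζ0 : (ζ : F) ≠ 0 := left_ne_zero_of_mul_eq_one hζζ'
  have hdv : ∀ v, (n • D - s • Ω₁.G) v = v.ord (ζ : F) := by
    intro v
    have h1 := congrArg v.ord hdf
    have h2 : v.ord ((Ω₁.ω : F) ^ s) = s * v.ord (Ω₁.ω : F) := v.ord_zpow _ _
    rw [ord_smul_of_ne_zero v hd', v.ord_mul hζ0 (zpow_ne_zero _ Ω₁.ω_ne), h2] at h1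
    rw [Finsupp.sub_apply, Finsupp.smul_apply, Finsupp.smul_apply, smul_eq_mul, smul_eq_mul,
      hnD, h1, Ω₁.G_apply]
    ring
  have key : ∀ b x, n * p.J b D x = s * p.J b Ω₁.G x + x.ord (pr k F₁ b (T.toRData.res ζ)) := by
    intro b x
    have h1 := p.J_add_dv hRR hpos b hζζ' hdv (s • Ω₁.G) x
    rw [add_sub_cancel] at h1
    have h2 : p.J b (n • D) = n • p.J b D := by
      have := map_zsmul (JH b) n ⟨D, hD⟩
      rw [hJH, hJH] at this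
      exact this
    have h3 : p.J b (s • Ω₁.G) = s • p.J b Ω₁.G := by
      have := map_zsmul (JH b) s ⟨Ω₁.G, hG₁⟩
      rw [hJH, hJH] at this
      exact this
    rw [h2, h3, Finsupp.smul_apply, Finsupp.smul_apply, smul_eq_mul, smul_eq_mul] at h1
    exact h1
  have hJ2 : ∀ x, p.J true Ω₁.G x = Z.δ true x - x.ord Ω₂.ω₁ := by
    intro x
    have hG : Ω₂.G = -Ω₁.G := by
      ext v
      rw [Finsupp.neg_apply, Ω₁.G_apply, Ω₂.G_apply]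
      have h := congrArg v.ord h12
      rw [v.ord_mul Ω₁.ω_ne Ω₂.ω_ne, ord_algebraMap] at h
      omega
    have h1 := hK.J₂ x
    have h2 : p.J true (-Ω₁.G) = -p.J true Ω₁.G := by
      have := map_neg (JH true) ⟨Ω₁.G, hG₁⟩
      rw [hJH] at this
      exact this
    rw [hG, h2, Finsupp.neg_apply] at h1
    linarith
  refine ⟨fun x => ?_, fun x => ?_⟩
  · rw [key, hK.J₁]
    show _ + x.ord (T.toRData.res ζ).1 = _
    rw [hs1, x.ord_mul hf.1 (inv_ne_zero (zpow_ne_zero _ Ω₁.ω₁_ne)), x.ord_inv, x.ord_zpow]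
    ring
  · rw [key, hJ2]
    show _ + x.ord (T.toRData.res ζ).2 = _
    rw [hs2, x.ord_mul hf.2.1 (zpow_ne_zero _ Ω₂.ω₁_ne), x.ord_zpow]
    ring

end RatDat

end TwoVal

end Fermat.Agent.BadRed
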