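import Fermat.Agent.BadRed.Conc4
import Fermat.Agent.BadRed.GlueCount
import Fermat.Agent.BadRed.KLat4
import Fermat.Agent.LLu.HRes
import Fermat.Agent.Degen.Modular

/-!
# Compatibility of exact residues on `X₀(N r)` with Hecke and Atkin-Lehner operators
-/

set_option autoImplicit false
set_option linter.unusedSectionVars false

noncomputable section

open HahnSeries ModularCurve Module Polynomial AlgebraicCurve IntermediateField

namespace Fermat.Agent.BadRed

open Fermat.Agent.Igusa Fermat.Agent.AtkinLehner Fermat.Agent.HeckeRed Fermat.Agent.FunField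

section General

/-- norms are equivariant -/
theorem normAlong_equiv' {K F F' : Type*} [Field K] [Field F] [Field F'] [Algebra K F]
    [Algebra K F'] (ψ : F →ₐ[K] F') (e : F ≃ₐ[K] F) (e' : F' ≃ₐ[K] F')
    (h : ∀ x, e' (ψ x) = ψ (e x)) (y : F') : normAlong ψ (e' y) = e (normAlong ψ y) := by
  letI := algebraAlong ψ
  have h1 := Algebra.norm_eq_of_equiv_equiv (e.toRingEquiv : F ≃+* F) (e'.toRingEquiv : F' ≃+* F')
    (by ext x; exact (h x).symm) y
  have h2 : e (Algebra.norm F y) = Algebra.norm F (e' y) := by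
    rw [h1]
    exact e.apply_symm_apply _
  exact h2.symm

variable {K : Type*} [Field K] [IsAlgClosed K] {N p : ℕ} [hp : Fact p.Prime]
  (hNK : (N : K) ≠ 0) (hpK : (p : K) ≠ 0) (hpN : ¬ p ∣ N)
  {E : IntermediateField K (LaurentSeries K)} (hE : E = modularFunctionFieldFullC K (N * p))

/-- Atkin-Lehner involution on a field equal to `F_{Np}`. -/
def wE : E ≃ₐ[K] E :=
  (IntermediateField.equivOfEq hE).trans
    ((w hNK hpK hpN).trans (IntermediateField.equivOfEq hE.symm))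

theorem coe_wE (x : E) :
    (wE hNK hpK hpN hE x : LaurentSeries K) =
      (w hNK hpK hpN ⟨(x : LaurentSeries K), hE ▸ x.2⟩ : LaurentSeries K) := by
  subst hE
  rfl

theorem coe_wE' (x : E) {y : LaurentSeries K} (hxy : (x : LaurentSeries K) = y)
    (hy : y ∈ modularFunctionFieldFullC K (N * p)) :
    (wE hNK hpK hpN hE x : LaurentSeries K) =
      (w hNK hpK hpN ⟨y, hy⟩ : LaurentSeries K) := by
  subst hE hxy
  rfl

theorem wE_wE (x : E) : wE hNK hpK hpN hE (wE hNK hpK hpN hE x) = x := by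
  subst hE
  exact w_w hNK hpK hpN x

end General

section Conc

variable {L : Type*} [Field L] [IsAlgClosed L] [CharZero L] (A : ValuationSubring L)
  {κ : Type*} [Field κ] (π : A →+* κ) [IsLocalHom π] (hπ : Function.Surjective π)
  (harch : ArchA π)
  (N r : ℕ) [hr : Fact r.Prime] [hN : NeZero N] [CharP κ r] (hrN : ¬ r ∣ N)

/-- **(S3c)** -/
theorem er₂_iff {f : modularFunctionFieldFullC L (N * r)} {y : modularFunctionFieldFullC κ N} :
    (twoVal A π hπ harch N r hrN).V₂.ER f y ↔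
      (twoVal A π hπ harch N r hrN).V₁.ER (ww L N r hrN f) y := by
  constructor
  · rintro ⟨h, e⟩
    have h1 : ww L N r hrN f ∈ O₁ A π N r := h
    refine ⟨h1, ?_⟩
    rw [← e]
    exact Subtype.ext (res₁_ww A π N r hrN h h1)
  · rintro ⟨h, e⟩
    have h1 : f ∈ O₂ A π N r hrN := h
    refine ⟨h1, ?_⟩
    rw [← e]
    exact Subtype.ext (res₂_eq A π N r hrN h1 h)

/-- **(S3c)** -/
theorem er₁_iff {f : modularFunctionFieldFullC L (N * r)} {y : modularFunctionFieldFullC κ N} :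
    (twoVal A π hπ harch N r hrN).V₁.ER f y ↔
      (twoVal A π hπ harch N r hrN).V₂.ER (ww L N r hrN f) y := by
  rw [er₂_iff, ww_ww]

theorem er₁_gauss {f : modularFunctionFieldFullC L (N * r)} {y : modularFunctionFieldFullC κ N} :
    (twoVal A π hπ harch N r hrN).V₁.ER f y ↔
      ∃ h : (f : LaurentSeries L) ∈ gaussRing A π,
        gaussRes A π ⟨(f : LaurentSeries L), h⟩ = (y : LaurentSeries κ) := by
  constructor
  · rintro ⟨h, e⟩
    exact ⟨h, congrArg Subtype.val e⟩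
  · rintro ⟨h, e⟩
    exact ⟨h, Subtype.ext e⟩

/-- the swap of the two valuations -/
def swapTwoVal : TwoVal.SwapV (twoVal A π hπ harch N r hrN) where
  g := SemilinearAut.ofAlgAut (ww L N r hrN)
  h₁₂ _ := (ww_mem_O₂ A π N r hrN).symm
  h₂₁ _ := mem_O₂ A π N r hrN
  r₁₂ f := Subtype.ext (res₂_ww A π N r hrN f.2 _)
  r₂₁ f := Subtype.ext (res₁_ww A π N r hrN f.2 _)

section Hecke

variable {l : ℕ} [hl : Fact l.Prime] (hlr : l ≠ r)
  {E' : IntermediateField L (LaurentSeries L)} {E₁' : IntermediateField κ (LaurentSeries κ)}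
  (hE' : E' = modularFunctionFieldFullC L (N * r * l)) (hE₁' : E₁' = modularFunctionFieldFullC κ (N * l))
  (α β : modularFunctionFieldFullC L (N * r) →ₐ[L] E')
  (α₁ β₁ : modularFunctionFieldFullC κ N →ₐ[κ] E₁')
  (hα : ∀ x, (α x : LaurentSeries L) = x)
  (hβ : ∀ x, (β x : LaurentSeries L) = qExpand L l (x : LaurentSeries L))
  (hα₁ : ∀ x, (α₁ x : LaurentSeries κ) = x)
  (hβ₁ : ∀ x, (β₁ x : LaurentSeries κ) = qExpand κ l (x : LaurentSeries κ))

include hlr hE' hE₁' hα hβ hα₁ hβ₁ in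
/-- **(S3a)**, first valuation. -/
theorem hecke_er₁ [IsAlgClosed κ] {f : modularFunctionFieldFullC L (N * r)}
    {y : modularFunctionFieldFullC κ N} (h : (twoVal A π hπ harch N r hrN).V₁.ER f y) :
    (twoVal A π hπ harch N r hrN).V₁.ER (normAlong α (β f)) (normAlong α₁ (β₁ y)) := by
  have hN0 : N ≠ 0 := hN.out
  have hr0 : r ≠ 0 := hr.out.ne_zero
  have hl0 : l ≠ 0 := hl.out.ne_zero
  haveI : NeZero (N * l) := ⟨mul_ne_zero hN0 hl0⟩
  haveI : NeZero (N * r) := ⟨mul_ne_zero hN0 hr0⟩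
  haveI : NeZero (N * r * l) := ⟨mul_ne_zero (mul_ne_zero hN0 hr0) hl0⟩
  have h3 : ¬ r ∣ N * l := by
    rw [hr.out.dvd_mul]
    rintro (h | h)
    · exact hrN h
    · exact hlr ((Nat.prime_dvd_prime_iff_eq hr.out hl.out).mp h).symm
  have hlκ : ((N * l : ℕ) : κ) ≠ 0 := by
    rw [Ne, CharP.cast_eq_zero_iff κ r]
    exact h3
  subst hE' hE₁'
  obtain ⟨𝔇', -, hG'⟩ := LLu.exists_isGauss A π hπ harch (N * l) r h3
    (E := modularFunctionFieldFullC L (N * r * l)) (by rw [show N * r * l = N * l * r by ring]) rfl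
  have hfin : FiniteAlong L α := finiteAlong_of_isFF α
  have hfin₁ : FiniteAlong κ α₁ := finiteAlong_of_isFF α₁
  obtain ⟨hf, hy⟩ := h
  obtain ⟨g, hg, hgres⟩ := IsGauss.norm_compat (LLu.isGauss_badData A π hπ harch N r hrN) hG'
    hα hα₁ hβ hβ₁ hfin hfin₁
    (LLu.finrank_ratio N r hlr hrN rfl rfl rfl rfl hlκ α α₁ hα hα₁) ⟨f, hf⟩
  rw [← hy, ← hg]
  exact ⟨g.2, hgres⟩

include hlr hE' hE₁' hα hβ hα₁ hβ₁ in
/-- `T_l` commutes with `w_r`. -/
theorem norm_ww (f : modularFunctionFieldFullC L (N * r)) :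
    normAlong α (β (ww L N r hrN f)) = ww L N r hrN (normAlong α (β f)) := by
  have hN0 : N ≠ 0 := hN.out
  have hr0 : r ≠ 0 := hr.out.ne_zero
  have hl0 : l ≠ 0 := hl.out.ne_zero
  haveI : NeZero l := ⟨hl0⟩
  haveI : NeZero (N * l) := ⟨mul_ne_zero hN0 hl0⟩
  have h3 : ¬ r ∣ N * l := by
    rw [hr.out.dvd_mul]
    rintro (h | h)
    · exact hrN h
    · exact hlr ((Nat.prime_dvd_prime_iff_eq hr.out hl.out).mp h).symm
  have hE'2 : E' = modularFunctionFieldFullC L (N * l * r) := by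
    rw [hE', show N * r * l = N * l * r by ring]
  have hw : ∀ (d : ℕ) [NeZero d] (hd : N * d ∣ N * l) (δ : modularFunctionFieldFullC L (N * r) →ₐ[L] E')
      (_ : ∀ x, (δ x : LaurentSeries L) = qExpand L d (x : LaurentSeries L))
      (x : modularFunctionFieldFullC L (N * r)),
      wE (cast_ne_zero_L L (N * l)) (cast_ne_zero_Lr L r) h3 hE'2 (δ x) =
        δ (ww L N r hrN x) := by
    intro d _ hd δ hδ x
    apply Subtype.ext
    have hmem : qExpand L d (x : LaurentSeries L) ∈ modularFunctionFieldFullC L (N * l * r) := by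
      rw [← hδ, ← hE'2]
      exact (δ x).2
    rw [coe_wE' _ _ _ _ _ (hδ x) hmem, hδ]
    exact Degen.w_dg (cast_ne_zero_L L (N * l)) (cast_ne_zero_Lr L r) h3 hd
      (cast_ne_zero_L L N) hrN x hmem
  have h1 : ∀ x, wE (cast_ne_zero_L L (N * l)) (cast_ne_zero_Lr L r) h3 hE'2 (α x) =
      α (ww L N r hrN x) := by
    refine hw 1 (by rw [mul_one]; exact Dvd.intro l rfl) α (fun x => ?_)
    rw [hα, qExpand_one_apply]
  have h2 : ∀ x, wE (cast_ne_zero_L L (N * l)) (cast_ne_zero_Lr L r) h3 hE'2 (β x) =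
      β (ww L N r hrN x) := hw l dvd_rfl β hβ
  rw [← h2]
  exact normAlong_equiv' α (ww L N r hrN) _ h1 (β f)

include hlr hE' hE₁' hα hβ hα₁ hβ₁ in
/-- **(S3a)**, second valuation. -/
theorem hecke_er₂ [IsAlgClosed κ] {f : modularFunctionFieldFullC L (N * r)}
    {y : modularFunctionFieldFullC κ N} (h : (twoVal A π hπ harch N r hrN).V₂.ER f y) :
    (twoVal A π hπ harch N r hrN).V₂.ER (normAlong α (β f)) (normAlong α₁ (β₁ y)) := by
  rw [er₂_iff] at h ⊢
  have h1 := hecke_er₁ A π hπ harch N r hrN hlr hE' hE₁' α β α₁ β₁ hα hβ hα₁ hβ₁ h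
  rwa [norm_ww N r hrN hlr hE' hE₁' α β α₁ β₁ hα hβ hα₁ hβ₁] at h1

end Hecke

end Conc

end Fermat.Agent.BadRed
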