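import Fermat.Agent.BadRed.HeckeER

/-!
# Compatibility of exact residues with the Atkin-Lehner involutions `w_p`, `p ∣ N`
-/

set_option autoImplicit false
set_option linter.unusedSectionVars false

noncomputable section

open HahnSeries ModularCurve Module Polynomial AlgebraicCurve IntermediateField

namespace Fermat.Agent.BadRed

open Fermat.Agent.Igusa Fermat.Agent.AtkinLehner Fermat.Agent.HeckeRed Fermat.Agent.FunField
  Fermat.Agent.Deuring Fermat.Agent.ModDeg

section Int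

variable {L k F F₁ M M₁ : Type*} [Field L] [Field k] [Field F] [Field F₁] [Field M] [Field M₁]
  [Algebra L F] [Algebra k F₁] [Algebra L M] [Algebra k M₁]

section

variable [Algebra F M] [Algebra F₁ M₁]

/-- If the degrees agree then the valuation ring upstairs is integral. -/
theorem Tower.exists_monic {DF : Data L k F F₁} {DM : Data L k M M₁} (T : Tower DF DM)
    [FiniteDimensional F M] [FiniteDimensional F₁ M₁]
    (hd : finrank F M = finrank F₁ M₁) (c : DM.O) :
    ∃ P : Polynomial DF.O, P.Monic ∧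
      P.eval₂ ((algebraMap F M).comp DF.O.subtype) (c : M) = 0 := by
  classical
  let b₁ := Module.finBasis F₁ M₁
  choose e he using fun i => DM.res_surj (b₁ i)
  have hli₁ : LinearIndependent F₁ (fun i => DM.res (e i)) := by
    have : (fun i => DM.res (e i)) = b₁ := funext he
    rw [this]
    exact b₁.linearIndependent
  have hli := T.linearIndependent_of_res e hli₁
  have : Nonempty (Fin (finrank F₁ M₁)) := ⟨⟨0, Module.finrank_pos⟩⟩
  let b : Basis (Fin (finrank F₁ M₁)) F M :=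
    basisOfLinearIndependentOfCardEqFinrank hli (by rw [Fintype.card_fin, hd])
  have hb : ∀ i, b i = ((e i : DM.O) : M) := fun i => by
    simp [b, coe_basisOfLinearIndependentOfCardEqFinrank]
  -- coordinates
  have hcoord : ∀ x : DM.O, ∀ i, b.repr (x : M) i ∈ DF.O := by
    intro x
    apply T.coord_mem e hli₁
    have : ∑ i, b.repr (x : M) i • ((e i : DM.O) : M) = x := by
      conv_rhs => rw [← b.sum_repr (x : M)]
      exact Finset.sum_congr rfl fun i _ => by rw [hb]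
    rw [this]
    exact x.2
  let A : Matrix (Fin (finrank F₁ M₁)) (Fin (finrank F₁ M₁)) DF.O := fun i j =>
    ⟨b.repr (((c * e j : DM.O)) : M) i, hcoord (c * e j) i⟩
  have hA : A.map (DF.O.subtype) = Algebra.leftMulMatrix b (c : M) := by
    ext i j
    rw [Matrix.map_apply, Algebra.leftMulMatrix_eq_repr_mul, hb]
    rfl
  refine ⟨A.charpoly, A.charpoly_monic, ?_⟩
  rw [← Polynomial.eval₂_map, ← Matrix.charpoly_map, hA]
  have h1 : Polynomial.aeval (Algebra.leftMulMatrix b (c : M))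
      (Algebra.leftMulMatrix b (c : M)).charpoly = 0 := Matrix.aeval_self_charpoly _
  have h2 : Algebra.leftMulMatrix b (Polynomial.aeval (c : M)
      (Algebra.leftMulMatrix b (c : M)).charpoly) = 0 := by
    rw [← h1]
    exact (Polynomial.aeval_algHom_apply (Algebra.leftMulMatrix b) (c : M) _).symm
  exact (map_eq_zero_iff _ (Algebra.leftMulMatrix_injective b)).mp h2

end

/-- integrality along homomorphisms -/
theorem exists_monic_along (DF : Data L k F F₁) (DM : Data L k M M₁) (ψ : F →ₐ[L] M)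
    (ψ₁ : F₁ →ₐ[k] M₁) (hfin : FiniteAlong L ψ) (hfin₁ : FiniteAlong k ψ₁)
    (hmem : ∀ f : F, ψ f ∈ DM.O ↔ f ∈ DF.O)
    (hres : ∀ f : DF.O, DM.res ⟨ψ f, (hmem _).mpr f.2⟩ = ψ₁ (DF.res f))
    (hd : finrankAlong L ψ = finrankAlong k ψ₁) (c : DM.O) :
    ∃ P : Polynomial DF.O, P.Monic ∧
      P.eval₂ ((ψ : F →+* M).comp DF.O.subtype) (c : M) = 0 := by
  let _ := algebraAlong ψ
  let _ := algebraAlong ψ₁
  have i1 : FiniteDimensional F M := hfin
  have i2 : FiniteDimensional F₁ M₁ := hfin₁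
  have T : Tower DF DM := { mem := hmem, res := hres }
  exact Tower.exists_monic T hd c

/-- A homomorphism sending the small ring into a valuation ring sends the big ring into it. -/
theorem mem_of_monic {DF : Data L k F F₁} {ψ : F →+* M} {Ω : Type*} [Field Ω]
    (V : ValuationSubring Ω) (W : M →+* Ω) (hW : ∀ x ∈ DF.O, W (ψ x) ∈ V) {c : M}
    {P : Polynomial DF.O} (hP : P.Monic) (h0 : P.eval₂ (ψ.comp DF.O.subtype) c = 0) : W c ∈ V := by
  let φ : DF.O →+* V := (W.comp (ψ.comp DF.O.subtype)).codRestrict V (fun x => hW x x.2)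
  have h1 : (P.map φ).eval₂ V.subtype (W c) = 0 := by
    rw [Polynomial.eval₂_map]
    have h2 : V.subtype.comp φ = W.comp (ψ.comp DF.O.subtype) := rfl
    rw [h2, ← Polynomial.hom_eval₂, h0, map_zero]
  have h3 : IsIntegral V (W c) := ⟨P.map φ, hP.map _, h1⟩
  obtain ⟨y, hy⟩ := (IsIntegrallyClosed.isIntegral_iff (R := V) (K := Ω)).mp h3
  rw [← hy]
  exact y.2

/-- an involution preserving the valuation ring induces an automorphism of the residue field -/
theorem exists_induced (𝔇 : Data L k F F₁) (W : F →ₐ[L] F) (hW : ∀ x ∈ 𝔇.O, W x ∈ 𝔇.O)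
    (hWW : ∀ x, W (W x) = x) :
    ∃ φ : F₁ →+* F₁, (∀ x : 𝔇.O, φ (𝔇.res x) = 𝔇.res ⟨W x, hW x x.2⟩) ∧
      ∀ c, φ (algebraMap k F₁ c) = algebraMap k F₁ c := by
  let Φ₀ : 𝔇.O →+* 𝔇.O :=
    (((W : F →+* F)).comp 𝔇.O.subtype).codRestrict 𝔇.O (fun x => hW x x.2)
  let Φ : 𝔇.O →+* F₁ := 𝔇.res.comp Φ₀
  have hΦ : ∀ x : 𝔇.O, Φ x = 𝔇.res ⟨W x, hW x x.2⟩ := fun x => rfl
  have hker : RingHom.ker 𝔇.res ≤ RingHom.ker Φ := by
    intro x hx
    rw [RingHom.mem_ker] at hx ⊢
    rw [hΦ, 𝔇.res_ker]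
    rw [𝔇.res_ker] at hx
    intro hu
    apply hx
    obtain ⟨y, hy⟩ := hu.exists_right_inv
    have h1 : W x * (y : F) = 1 := congrArg Subtype.val hy
    have h2 : (x : F) * W y = 1 := by rw [← map_one W, ← h1, map_mul, hWW]
    exact IsUnit.of_mul_eq_one ⟨W y, hW y y.2⟩ (Subtype.ext h2)
  let φ : F₁ →+* F₁ := RingHom.liftOfSurjective 𝔇.res 𝔇.res_surj ⟨Φ, hker⟩
  have hφ : ∀ x : 𝔇.O, φ (𝔇.res x) = Φ x := fun x =>
    RingHom.liftOfRightInverse_comp_apply _ _ _ ⟨Φ, hker⟩ x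
  refine ⟨φ, fun x => (hφ x).trans (hΦ x), fun c => ?_⟩
  obtain ⟨a, rfl⟩ := 𝔇.π_surj c
  have h1 : 𝔇.res (𝔇.cst a) = algebraMap k _ (𝔇.π a) := Deuring.Data.res_cst 𝔇 a
  have h2 : (⟨W (𝔇.cst a : 𝔇.O), hW _ (𝔇.cst a).2⟩ : 𝔇.O) = 𝔇.cst a := Subtype.ext (by
    show W ((𝔇.cst a : 𝔇.O) : F) = ((𝔇.cst a : 𝔇.O) : F)
    rw [Data.coe_cst]
    exact W.commutes _)
  rw [← h1, hφ, hΦ, h2]

end Int

section GJ

variable {L : Type*} [Field L] {A : ValuationSubring L} {κ : Type*} [Field κ] {π : A →+* κ}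

theorem gauss_vj {d : ℕ} (hd : d ≠ 0) : ∃ h : vj L d ∈ gaussRing A π,
    gaussRes A π ⟨vj L d, h⟩ = vj κ d := by
  haveI : NeZero d := ⟨hd⟩
  obtain ⟨h, e⟩ := gauss_jq (A := A) (π := π)
  obtain ⟨h', e'⟩ := qExpand_mem_gauss (A := A) (π := π) d h
  rw [e] at e'
  refine ⟨by rw [vj_eq]; exact h', ?_⟩
  rw [vj_eq κ d, ← e']
  exact gaussRes_congr (vj_eq L d)

/-- the residue is determined by the value -/
theorem gaussRes_eq_of {x : LaurentSeries L} {y : LaurentSeries κ} (hx : x ∈ gaussRing A π)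
    (h : ∃ h : x ∈ gaussRing A π, gaussRes A π ⟨x, h⟩ = y) : gaussRes A π ⟨x, hx⟩ = y := h.2

end GJ

section AL

variable {L : Type*} [Field L] [IsAlgClosed L] [CharZero L] (A : ValuationSubring L)
  {κ : Type*} [Field κ] [IsAlgClosed κ] (π : A →+* κ) [IsLocalHom π]
  (hπ : Function.Surjective π) (harch : ArchA π)
  (M p r : ℕ) [hr : Fact r.Prime] [hp : Fact p.Prime] [hM : NeZero M] [CharP κ r]
  (hpM : ¬ p ∣ M) (hrM : ¬ r ∣ M * p)


include hr hM in
theorem cast_ne_zero_L' : ((M * r : ℕ) : L) ≠ 0 :=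
  Nat.cast_ne_zero.mpr (mul_ne_zero hM.out hr.out.ne_zero)

include hpM hrM in
theorem not_dvd_mul' : ¬ p ∣ M * r := by
  rw [hp.out.dvd_mul]
  rintro (h | h)
  · exact hpM h
  · have h1 : p = r := (Nat.prime_dvd_prime_iff_eq hp.out hr.out).mp h
    exact hrM (h1 ▸ Dvd.intro_left M rfl)

include hrM in
theorem cast_M_ne_zero : (M : κ) ≠ 0 := by
  rw [Ne, CharP.cast_eq_zero_iff κ r]
  exact fun h => hrM (h.mul_right p)

include hrM in
theorem cast_p_ne_zero : (p : κ) ≠ 0 := by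
  rw [Ne, CharP.cast_eq_zero_iff κ r]
  exact fun h => hrM (h.mul_left M)

theorem full_eq' : modularFunctionFieldFullC L (M * p * r) =
    modularFunctionFieldFullC L (M * r * p) := by rw [mul_right_comm]

/-- `w_p` on `F_{Mpr}` -/
def wL : modularFunctionFieldFullC L (M * p * r) ≃ₐ[L] modularFunctionFieldFullC L (M * p * r) :=
  wE (cast_ne_zero_L' (L := L) M r) (cast_ne_zero_Lr L p) (not_dvd_mul' M p r hpM hrM)
    (full_eq' (L := L) M p r)

/-- `w_p` on `F_{Mp}` over `κ` -/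
def wκ : modularFunctionFieldFullC κ (M * p) ≃ₐ[κ] modularFunctionFieldFullC κ (M * p) :=
  w (cast_M_ne_zero (κ := κ) M p r hrM) (cast_p_ne_zero (κ := κ) M p r hrM) hpM

include hπ harch in
/-- `w_p` preserves the Gauss valuation. -/
theorem wL_mem {f : modularFunctionFieldFullC L (M * p * r)}
    (hf : (f : LaurentSeries L) ∈ gaussRing A π) :
    (wL (L := L) M p r hpM hrM f : LaurentSeries L) ∈ gaussRing A π := by
  have hM0 : M ≠ 0 := hM.out
  have hr0 : r ≠ 0 := hr.out.ne_zero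
  have hp0 : p ≠ 0 := hp.out.ne_zero
  haveI : NeZero p := ⟨hp0⟩
  haveI : NeZero (M * r) := ⟨mul_ne_zero hM0 hr0⟩
  haveI : NeZero (M * p) := ⟨mul_ne_zero hM0 hp0⟩
  haveI : NeZero (M * p * r) := ⟨mul_ne_zero (mul_ne_zero hM0 hp0) hr0⟩
  have hrM' : ¬ r ∣ M := fun h => hrM (h.mul_right p)
  have hle : modularFunctionFieldFullC L (M * r) ≤ modularFunctionFieldFullC L (M * p * r) :=
    full_degeneracyC_le L (Nat.mul_dvd_mul_right (Dvd.intro p rfl) r)
  have hle₁ : modularFunctionFieldFullC κ M ≤ modularFunctionFieldFullC κ (M * p) :=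
    full_degeneracyC_le κ (Dvd.intro p rfl)
  let α : modularFunctionFieldFullC L (M * r) →ₐ[L] modularFunctionFieldFullC L (M * p * r) :=
    IntermediateField.inclusion hle
  let α₁ : modularFunctionFieldFullC κ M →ₐ[κ] modularFunctionFieldFullC κ (M * p) :=
    IntermediateField.inclusion hle₁
  have hα : ∀ x, (α x : LaurentSeries L) = x := fun x => rfl
  have hα₁ : ∀ x, (α₁ x : LaurentSeries κ) = x := fun x => rfl
  obtain ⟨𝔇, hG⟩ : ∃ 𝔇 : Data L κ (modularFunctionFieldFullC L (M * r))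
      (modularFunctionFieldFullC κ M), IsGauss π 𝔇 :=
    ⟨_, LLu.isGauss_badData A π hπ harch M r hrM'⟩
  obtain ⟨𝔇', hG'⟩ : ∃ 𝔇 : Data L κ (modularFunctionFieldFullC L (M * p * r))
      (modularFunctionFieldFullC κ (M * p)), IsGauss π 𝔇 :=
    ⟨_, LLu.isGauss_badData A π hπ harch (M * p) r hrM⟩
  have hd1 := finrankAlong_alpha_eq (cast_ne_zero_L' (L := L) M r) (cast_ne_zero_Lr L p)
    (not_dvd_mul' M p r hpM hrM) rfl (full_eq' (L := L) M p r) α hα
  have hd2 := finrankAlong_alpha_eq (cast_M_ne_zero (κ := κ) M p r hrM)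
    (cast_p_ne_zero (κ := κ) M p r hrM) hpM rfl rfl α₁ hα₁
  obtain ⟨P, hP, h0⟩ := exists_monic_along 𝔇 𝔇' α α₁ (finiteAlong_of_isFF α)
    (finiteAlong_of_isFF α₁) (IsGauss.alpha_mem hG hG' hα) (IsGauss.alpha_res hG hG' hα hα₁)
    (hd1.trans hd2.symm) ⟨f, (hG'.mem _).mpr hf⟩
  refine mem_of_monic (O₁ A π (M * p) r)
    ((wL (L := L) M p r hpM hrM).toAlgHom.toRingHom) (fun x hx => ?_) hP h0
  have hx' : (x : LaurentSeries L) ∈ gaussRing A π := (hG.mem _).mp hx
  show (wL (L := L) M p r hpM hrM (α x) : LaurentSeries L) ∈ gaussRing A π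
  rw [wL, coe_wE' _ _ _ _ _ (hα x) (full_degeneracyC_le L (Dvd.intro p rfl) x.2),
    w_apply_of_mem _ _ _ x.2]
  exact (qExpand_mem_gauss p hx').1


include hpM hrM in
theorem wL_wL (f : modularFunctionFieldFullC L (M * p * r)) :
    wL (L := L) M p r hpM hrM (wL (L := L) M p r hpM hrM f) = f := wE_wE _ _ _ _ f

theorem coe_wL_vj {d : ℕ} (hd : d ∣ M * r) (h : vj L d ∈ modularFunctionFieldFullC L (M * p * r)) :
    (wL (L := L) M p r hpM hrM ⟨vj L d, h⟩ : LaurentSeries L) = vj L (d * p) := by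
  have h2 : vj L d ∈ modularFunctionFieldFullC L (M * r * p) := by
    rw [← full_eq' (L := L) M p r]; exact h
  rw [wL, coe_wE' _ _ _ _ _ rfl h2]
  exact w_vj _ _ _ hd h2

theorem coe_wL_vj_mul {d : ℕ} (hd : d ∣ M * r)
    (h : vj L (d * p) ∈ modularFunctionFieldFullC L (M * p * r)) :
    (wL (L := L) M p r hpM hrM ⟨vj L (d * p), h⟩ : LaurentSeries L) = vj L d := by
  have h2 : vj L (d * p) ∈ modularFunctionFieldFullC L (M * r * p) := by
    rw [← full_eq' (L := L) M p r]; exact h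
  rw [wL, coe_wE' _ _ _ _ _ rfl h2]
  exact w_vj_mul _ _ _ hd h2

include hπ harch in
/-- `w_p` commutes with the residue map of the Gauss valuation. -/
theorem wL_res {f : modularFunctionFieldFullC L (M * p * r)}
    (hf : (f : LaurentSeries L) ∈ gaussRing A π) (y : modularFunctionFieldFullC κ (M * p))
    (hy : gaussRes A π ⟨(f : LaurentSeries L), hf⟩ = y) :
    gaussRes A π ⟨(wL (L := L) M p r hpM hrM f : LaurentSeries L),
      wL_mem A π hπ harch M p r hpM hrM hf⟩ = (wκ (κ := κ) M p r hpM hrM y : LaurentSeries κ) := by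
  have hM0 : M ≠ 0 := hM.out
  have hr0 : r ≠ 0 := hr.out.ne_zero
  have hp0 : p ≠ 0 := hp.out.ne_zero
  haveI : NeZero p := ⟨hp0⟩
  haveI : NeZero (M * p) := ⟨mul_ne_zero hM0 hp0⟩
  haveI : NeZero (M * p * r) := ⟨mul_ne_zero (mul_ne_zero hM0 hp0) hr0⟩
  obtain ⟨𝔇, hG⟩ : ∃ 𝔇 : Data L κ (modularFunctionFieldFullC L (M * p * r))
      (modularFunctionFieldFullC κ (M * p)), IsGauss π 𝔇 :=
    ⟨_, LLu.isGauss_badData A π hπ harch (M * p) r hrM⟩
  have hWO : ∀ x ∈ 𝔇.O, wL (L := L) M p r hpM hrM x ∈ 𝔇.O := fun x hx =>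
    (hG.mem _).mpr (wL_mem A π hπ harch M p r hpM hrM ((hG.mem _).mp hx))
  obtain ⟨φ, hφ, hφc⟩ := exists_induced 𝔇 (wL (L := L) M p r hpM hrM).toAlgHom hWO
    (wL_wL M p r hpM hrM)
  have hφw : φ = (wκ (κ := κ) M p r hpM hrM).toAlgHom.toRingHom := by
    refine ringHom_ext φ _ (fun c => ?_) (fun d hd hd0 => ?_)
    · rw [hφc]
      exact ((wκ (κ := κ) M p r hpM hrM).commutes c).symm
    · obtain ⟨h, e⟩ := gauss_vj (A := A) (π := π) hd0
      have hdd : vj L d ∈ modularFunctionFieldFullC L (M * p * r) :=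
        vj_mem_full L hd0 (hd.mul_right r)
      have h1 : 𝔇.res ⟨⟨vj L d, hdd⟩, (hG.mem _).mpr h⟩ = ⟨vj κ d, vj_mem_full κ hd0 hd⟩ :=
        Subtype.ext ((hG.res _).trans e)
      rw [← h1, hφ, h1]
      apply Subtype.ext
      rw [hG.res]
      show _ = (wκ (κ := κ) M p r hpM hrM _ : LaurentSeries κ)
      rcases dvd_mul_prime_cases hp.out hd with hd1 | ⟨d', he, rfl⟩
      · have e1 := coe_wL_vj (L := L) M p r hpM hrM (hd1.mul_right r) hdd
        rw [wκ, w_vj _ _ _ hd1]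
        obtain ⟨h', e'⟩ := gauss_vj (A := A) (π := π) (mul_ne_zero hd0 hp0)
        rw [← e']
        exact gaussRes_congr e1
      · have he0 : d' ≠ 0 := left_ne_zero_of_mul hd0
        have e1 := coe_wL_vj_mul (L := L) M p r hpM hrM (he.mul_right r) hdd
        rw [wκ, w_vj_mul _ _ _ he]
        obtain ⟨h', e'⟩ := gauss_vj (A := A) (π := π) he0
        rw [← e']
        exact gaussRes_congr e1
  have h1 : 𝔇.res ⟨f, (hG.mem _).mpr hf⟩ = y := Subtype.ext ((hG.res _).trans hy)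
  have h2 := hφ ⟨f, (hG.mem _).mpr hf⟩
  rw [h1, hφw] at h2
  have h3 := congrArg Subtype.val h2
  rw [hG.res] at h3
  exact h3.symm

theorem wL_val {x : modularFunctionFieldFullC L (M * p * r)} {d : ℕ} (hd : d ∣ M * r)
    (hx : (x : LaurentSeries L) = vj L d) :
    (wL (L := L) M p r hpM hrM x : LaurentSeries L) = vj L (d * p) := by
  have h : vj L d ∈ modularFunctionFieldFullC L (M * p * r) := hx ▸ x.2
  have h1 : x = ⟨vj L d, h⟩ := Subtype.ext hx
  rw [h1]
  exact coe_wL_vj M p r hpM hrM hd h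

theorem wL_val_mul {x : modularFunctionFieldFullC L (M * p * r)} {d : ℕ} (hd : d ∣ M * r)
    (hx : (x : LaurentSeries L) = vj L (d * p)) :
    (wL (L := L) M p r hpM hrM x : LaurentSeries L) = vj L d := by
  have h : vj L (d * p) ∈ modularFunctionFieldFullC L (M * p * r) := hx ▸ x.2
  have h1 : x = ⟨vj L (d * p), h⟩ := Subtype.ext hx
  rw [h1]
  exact coe_wL_vj_mul M p r hpM hrM hd h

theorem ww_val {N : ℕ} [NeZero N] (hrN : ¬ r ∣ N) {x : modularFunctionFieldFullC L (N * r)} {d : ℕ}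
    (hd : d ∣ N) (hx : (x : LaurentSeries L) = vj L d) :
    (ww L N r hrN x : LaurentSeries L) = vj L (d * r) := by
  have h : vj L d ∈ modularFunctionFieldFullC L (N * r) := hx ▸ x.2
  have h1 : x = ⟨vj L d, h⟩ := Subtype.ext hx
  rw [h1]
  exact w_vj _ _ _ hd h

theorem ww_val_mul {N : ℕ} [NeZero N] (hrN : ¬ r ∣ N) {x : modularFunctionFieldFullC L (N * r)}
    {d : ℕ} (hd : d ∣ N) (hx : (x : LaurentSeries L) = vj L (d * r)) :
    (ww L N r hrN x : LaurentSeries L) = vj L d := by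
  have h : vj L (d * r) ∈ modularFunctionFieldFullC L (N * r) := hx ▸ x.2
  have h1 : x = ⟨vj L (d * r), h⟩ := Subtype.ext hx
  rw [h1]
  exact w_vj_mul _ _ _ hd h

/-- `w_p` and `w_r` commute. -/
theorem wL_ww [NeZero (M * p)] (x : modularFunctionFieldFullC L (M * p * r)) :
    wL (L := L) M p r hpM hrM (ww L (M * p) r hrM x) =
      ww L (M * p) r hrM (wL (L := L) M p r hpM hrM x) := by
  let f : modularFunctionFieldFullC L (M * p * r) →+* modularFunctionFieldFullC L (M * p * r) :=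
    (wL (L := L) M p r hpM hrM).toAlgHom.toRingHom.comp
      (ww L (M * p) r hrM).toAlgHom.toRingHom
  let g : modularFunctionFieldFullC L (M * p * r) →+* modularFunctionFieldFullC L (M * p * r) :=
    (ww L (M * p) r hrM).toAlgHom.toRingHom.comp
      (wL (L := L) M p r hpM hrM).toAlgHom.toRingHom
  have hfg : f = g := by
    refine ringHom_ext f g (fun c => ?_) (fun d hd hd0 => ?_)
    · show wL (L := L) M p r hpM hrM (ww L (M * p) r hrM (algebraMap L _ c)) =
        ww L (M * p) r hrM (wL (L := L) M p r hpM hrM (algebraMap L _ c))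
      rw [AlgEquiv.commutes, AlgEquiv.commutes, AlgEquiv.commutes]
    · apply Subtype.ext
      show (wL (L := L) M p r hpM hrM (ww L (M * p) r hrM _) : LaurentSeries L) =
        (ww L (M * p) r hrM (wL (L := L) M p r hpM hrM _) : LaurentSeries L)
      generalize hx : (⟨vj L d, vj_mem_full L hd0 hd⟩ :
        modularFunctionFieldFullC L (M * p * r)) = x
      have hx' : (x : LaurentSeries L) = vj L d := by rw [← hx]
      rcases dvd_mul_prime_cases hr.out hd with hd1 | ⟨e, he, rfl⟩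
      · rcases dvd_mul_prime_cases hp.out hd1 with hd2 | ⟨a, ha, rfl⟩
        · rw [wL_val M p r hpM hrM (Nat.mul_dvd_mul_right hd2 r) (ww_val r hrM hd1 hx'),
            ww_val r hrM (Nat.mul_dvd_mul_right hd2 p)
              (wL_val M p r hpM hrM (hd2.mul_right r) hx'), mul_right_comm]
        · rw [wL_val_mul M p r hpM hrM (Nat.mul_dvd_mul_right ha r)
              ((ww_val r hrM hd1 hx').trans (by rw [mul_right_comm])),
            ww_val r hrM (ha.mul_right p) (wL_val_mul M p r hpM hrM (ha.mul_right r) hx')]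
      · rcases dvd_mul_prime_cases hp.out he with hd2 | ⟨a, ha, rfl⟩
        · rw [wL_val M p r hpM hrM (hd2.mul_right r) (ww_val_mul r hrM he hx'),
            ww_val_mul r hrM (Nat.mul_dvd_mul_right hd2 p)
              ((wL_val M p r hpM hrM (Nat.mul_dvd_mul_right hd2 r) hx').trans
                (by rw [mul_right_comm]))]
        · rw [wL_val_mul M p r hpM hrM (ha.mul_right r) (ww_val_mul r hrM he hx'),
            ww_val_mul r hrM (ha.mul_right p)
              (wL_val_mul M p r hpM hrM (Nat.mul_dvd_mul_right ha r)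
                (hx'.trans (by rw [mul_right_comm])))]
  exact DFunLike.congr_fun hfg x

/-- **(S3b)**, first valuation. -/
theorem al_er₁ [NeZero (M * p)] {f : modularFunctionFieldFullC L (M * p * r)}
    {y : modularFunctionFieldFullC κ (M * p)}
    (h : (twoVal A π hπ harch (M * p) r hrM).V₁.ER f y) :
    (twoVal A π hπ harch (M * p) r hrM).V₁.ER (wL (L := L) M p r hpM hrM f)
      (wκ (κ := κ) M p r hpM hrM y) := by
  rw [er₁_gauss] at h ⊢
  obtain ⟨h, e⟩ := h
  exact ⟨_, wL_res A π hπ harch M p r hpM hrM h y e⟩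

/-- **(S3b)**, second valuation. -/
theorem al_er₂ [NeZero (M * p)] {f : modularFunctionFieldFullC L (M * p * r)}
    {y : modularFunctionFieldFullC κ (M * p)}
    (h : (twoVal A π hπ harch (M * p) r hrM).V₂.ER f y) :
    (twoVal A π hπ harch (M * p) r hrM).V₂.ER (wL (L := L) M p r hpM hrM f)
      (wκ (κ := κ) M p r hpM hrM y) := by
  rw [er₂_iff] at h ⊢
  have h1 := al_er₁ A π hπ harch M p r hpM hrM h
  rwa [wL_ww] at h1

end AL

end Fermat.Agent.BadRed
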