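import Fermat.Agent.BadRed.KLat4
import Fermat.Agent.Deuring.GenusDescent

/-!
# The specialisation map on the part with vanishing slope
-/

set_option autoImplicit false
set_option linter.unusedSectionVars false

noncomputable section

open AlgebraicCurve Module IntermediateField

namespace Fermat.Agent.BadRed

open Fermat.Agent.FunField Fermat.Agent.FunField.PlaceLemmas Fermat.Agent.Deuring

variable {L k : Type*} [Field L] [Field k]
variable {F F₁ : Type*} [Field F] [Field F₁] [Algebra L F] [Algebra k F₁]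

section Principal

variable {K E : Type*} [Field K] [Field E] [Algebra K E] [HasPrincipalDivisors K E]

theorem mk_eq_zero_iff (D : Divisor.degZero (K := K) (F := E)) :
    Pic0.mk D = 0 ↔ ∃ f : E, f ≠ 0 ∧ ∀ v : Place K E, (D : Divisor K E) v = v.ord f := by
  constructor
  · intro h
    have h2 := (QuotientAddGroup.eq_zero_iff _).mp h
    rw [AddSubgroup.mem_addSubgroupOf] at h2
    obtain ⟨f, hf, hfD⟩ := h2
    exact ⟨f, hf, hfD⟩
  · rintro ⟨f, hf, hfD⟩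
    apply (QuotientAddGroup.eq_zero_iff _).mpr
    rw [AddSubgroup.mem_addSubgroupOf]
    exact ⟨f, hf, hfD⟩

theorem degree_of_smul {n : ℕ} (hn : n ≠ 0) {D : Divisor K E} {f : E} (hf : f ≠ 0)
    (h : ∀ v : Place K E, (n : ℤ) * D v = v.ord f) : Divisor.degree D = 0 := by
  have h1 : n • D = dv (K := K) f hf := by
    ext v
    rw [Finsupp.smul_apply, nsmul_eq_mul, h, dv_apply]
  have h2 : Divisor.degree (n • D) = 0 := by rw [h1, degree_dv]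
  rw [map_nsmul, nsmul_eq_mul] at h2
  have hn' : (n : ℤ) ≠ 0 := by exact_mod_cast hn
  exact (mul_eq_zero.mp h2).resolve_left hn'

/-- functions without zeros and poles are constant -/
theorem exists_const_of_ord [IsFF K E] [IsAlgClosed K] {f : E} (hf : f ≠ 0)
    (h : ∀ v : Place K E, v.ord f = 0) : ∃ c : K, c ≠ 0 ∧ f = algebraMap K E c := by
  obtain ⟨v⟩ := Deuring.exists_place (K := K) (F := E)
  have h0 : f ∈ geSub v 0 := mem_geSub.mpr (Or.inr (h v).ge)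
  obtain ⟨c, hc⟩ := exists_const_sub v h0
  by_contra hcon
  push Not at hcon
  have hc0 : c ≠ 0 := by
    rintro rfl
    rw [map_zero, sub_zero] at hc
    rcases mem_geSub.mp hc with h1 | h1
    · exact hf h1
    · rw [h v] at h1; omega
  have hne : f - algebraMap K E c ≠ 0 := sub_ne_zero.mpr (hcon c hc0)
  have h1 := (mem_geSub.mp hc).resolve_left hne
  -- `f - c` has a zero and no poles
  have h2 : ∀ w : Place K E, 0 ≤ w.ord (f - algebraMap K E c) := by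
    intro w
    have h3 : f ∈ geSub w 0 := mem_geSub.mpr (Or.inr (h w).ge)
    have h4 : algebraMap K E c ∈ geSub w 0 := algebraMap_mem_geSub_zero w c
    exact (mem_geSub.mp ((geSub w 0).sub_mem h3 h4)).resolve_left hne
  have h3 := degree_dv (K := K) hne
  have h4 : 0 ≤ dv (K := K) _ hne - Finsupp.single v 1 := by
    rw [Finsupp.le_def]
    intro w
    rw [Finsupp.sub_apply, Finsupp.zero_apply, dv_apply]
    by_cases hw : w = v
    · subst hw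
      rw [Finsupp.single_eq_same]; omega
    · rw [Finsupp.single_eq_of_ne hw]
      have := h2 w
      omega
  have h5 := Deuring.degree_nonneg h4
  rw [map_sub, h3, Divisor.degree_single, deg_eq_one v] at h5
  norm_num at h5

end Principal

namespace TwoVal

variable (T : TwoVal L k F F₁)

/-- `B₁`, `B₂` are the reductions of the torsion divisor `D` -/
def IsSp (n : ℕ) (D : Divisor L F) (B₁ B₂ : Divisor k F₁) : Prop :=
  ∃ f : F, f ≠ 0 ∧ (∀ v : Place L F, (n : ℤ) * D v = v.ord f) ∧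
    ∃ x₁ x₂ : F₁, x₁ ≠ 0 ∧ x₂ ≠ 0 ∧ T.V₁.HasRes f x₁ ∧ T.V₂.HasRes f x₂ ∧
      (∀ x : Place k F₁, (n : ℤ) * B₁ x = x.ord x₁) ∧ (∀ x : Place k F₁, (n : ℤ) * B₂ x = x.ord x₂)

variable {T} {n : ℕ} {D D' : Divisor L F} {B₁ B₂ B₁' B₂' : Divisor k F₁}

theorem IsSp.zero : T.IsSp n 0 0 0 :=
  ⟨1, one_ne_zero, fun v => by simp, 1, 1, one_ne_zero, one_ne_zero, ResVal.hasRes_one,
    ResVal.hasRes_one, fun x => by simp, fun x => by simp⟩

theorem IsSp.add (h : T.IsSp n D B₁ B₂) (h' : T.IsSp n D' B₁' B₂') :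
    T.IsSp n (D + D') (B₁ + B₁') (B₂ + B₂') := by
  obtain ⟨f, hf, hD, x₁, x₂, h1, h2, h3, h4, h5, h6⟩ := h
  obtain ⟨f', hf', hD', x₁', x₂', h1', h2', h3', h4', h5', h6'⟩ := h'
  refine ⟨f * f', mul_ne_zero hf hf', fun v => ?_, x₁ * x₁', x₂ * x₂', mul_ne_zero h1 h1',
    mul_ne_zero h2 h2', h3.mul h3', h4.mul h4', fun x => ?_, fun x => ?_⟩
  · rw [Finsupp.add_apply, mul_add, hD, hD', v.ord_mul hf hf']
  · rw [Finsupp.add_apply, mul_add, h5, h5', x.ord_mul h1 h1']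
  · rw [Finsupp.add_apply, mul_add, h6, h6', x.ord_mul h2 h2']

theorem IsSp.neg (h : T.IsSp n D B₁ B₂) : T.IsSp n (-D) (-B₁) (-B₂) := by
  obtain ⟨f, hf, hD, x₁, x₂, h1, h2, h3, h4, h5, h6⟩ := h
  refine ⟨f⁻¹, inv_ne_zero hf, fun v => ?_, x₁⁻¹, x₂⁻¹, inv_ne_zero h1, inv_ne_zero h2,
    h3.inv h1, h4.inv h2, fun x => ?_, fun x => ?_⟩
  · rw [Finsupp.neg_apply, mul_neg, hD, v.ord_inv]
  · rw [Finsupp.neg_apply, mul_neg, h5, x.ord_inv]
  · rw [Finsupp.neg_apply, mul_neg, h6, x.ord_inv]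

theorem IsSp.sub (h : T.IsSp n D B₁ B₂) (h' : T.IsSp n D' B₁' B₂') :
    T.IsSp n (D - D') (B₁ - B₁') (B₂ - B₂') := by
  rw [sub_eq_add_neg, sub_eq_add_neg, sub_eq_add_neg]
  exact h.add h'.neg

variable [HasPrincipalDivisors L F] [HasPrincipalDivisors k F₁]

theorem IsSp.degree (hn : n ≠ 0) (h : T.IsSp n D B₁ B₂) :
    Divisor.degree D = 0 ∧ Divisor.degree B₁ = 0 ∧ Divisor.degree B₂ = 0 := by
  obtain ⟨f, hf, hD, x₁, x₂, h1, h2, h3, h4, h5, h6⟩ := h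
  exact ⟨degree_of_smul hn hf hD, degree_of_smul hn h1 h5, degree_of_smul hn h2 h6⟩

variable [IsFF L F] [IsAlgClosed L] [IsFF k F₁] [IsAlgClosed k]

/-- reductions of principal divisors are principal -/
theorem IsSp.principal (hn : n ≠ 0) (h : T.IsSp n D B₁ B₂) {g : F} (hg : g ≠ 0)
    (hDg : ∀ v : Place L F, D v = v.ord g) :
    (∃ y : F₁, y ≠ 0 ∧ ∀ x : Place k F₁, B₁ x = x.ord y) ∧
      ∃ y : F₁, y ≠ 0 ∧ ∀ x : Place k F₁, B₂ x = x.ord y := by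
  obtain ⟨f, hf, hD, x₁, x₂, h1, h2, h3, h4, h5, h6⟩ := h
  have hgn : g ^ n ≠ 0 := pow_ne_zero n hg
  obtain ⟨c, hc, hfc⟩ := exists_const_of_ord (K := L) (f := f * (g ^ n)⁻¹)
    (mul_ne_zero hf (inv_ne_zero hgn)) (fun v => by
      rw [v.ord_mul hf (inv_ne_zero hgn), v.ord_inv, ord_pow, ← hD, hDg]; ring)
  have hfg : f = c • g ^ n := by
    rw [Algebra.smul_def, ← hfc, inv_mul_cancel_right₀ hgn]
  have hn' : (n : ℤ) ≠ 0 := by exact_mod_cast hn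
  have key : ∀ (V : ResVal T.A T.π F F₁) (x₁ : F₁) (_ : x₁ ≠ 0) (B₁ : Divisor k F₁),
      V.HasRes f x₁ → (∀ x : Place k F₁, (n : ℤ) * B₁ x = x.ord x₁) →
      ∃ y : F₁, y ≠ 0 ∧ ∀ x : Place k F₁, B₁ x = x.ord y := by
    intro V x₁ h1 B₁ h3 h5
    obtain ⟨y, hy, hgy⟩ := ResVal.exists_hasRes (V := V) hg
    have h6 := (hgy.pow n).smul hc
    rw [← hfg] at h6
    obtain ⟨κ, hκ, hκy⟩ := h3.unique h6 h1 (pow_ne_zero n hy)
    refine ⟨y, hy, fun x => ?_⟩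
    have h7 : x.ord (y ^ n) = x.ord x₁ := by rw [hκy, ord_smul_of_ne_zero x hκ]
    rw [ord_pow, ← h5] at h7
    exact (mul_left_cancel₀ hn' h7).symm
  exact ⟨key T.V₁ x₁ h1 B₁ h3 h5, key T.V₂ x₂ h2 B₂ h4 h6⟩

variable (T) in
/-- classes with divisible reductions -/
def Zn (n : ℕ) : AddSubgroup (Pic0 L F) where
  carrier := {x | ∃ D : Divisor.degZero (K := L) (F := F), Pic0.mk D = x ∧
    ∃ B₁ B₂ : Divisor.degZero (K := k) (F := F₁), T.IsSp n (D : Divisor L F) B₁ B₂}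
  zero_mem' := ⟨0, rfl, 0, 0, IsSp.zero⟩
  add_mem' := by
    rintro x y ⟨D, rfl, B₁, B₂, hD⟩ ⟨E, rfl, C₁, C₂, hE⟩
    exact ⟨D + E, rfl, B₁ + C₁, B₂ + C₂, hD.add hE⟩
  neg_mem' := by
    rintro x ⟨D, rfl, B₁, B₂, hD⟩
    exact ⟨-D, rfl, -B₁, -B₂, hD.neg⟩

theorem mem_Zn {x : Pic0 L F} : x ∈ T.Zn n ↔
    ∃ D : Divisor.degZero (K := L) (F := F), Pic0.mk D = x ∧
      ∃ B₁ B₂ : Divisor.degZero (K := k) (F := F₁), T.IsSp n (D : Divisor L F) B₁ B₂ := Iff.rfl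

theorem mem_Zn_of_isSp (hn : n ≠ 0) (h : T.IsSp n D B₁ B₂) :
    Pic0.mk ⟨D, (h.degree hn).1⟩ ∈ T.Zn n :=
  ⟨⟨D, (h.degree hn).1⟩, rfl, ⟨B₁, (h.degree hn).2.1⟩, ⟨B₂, (h.degree hn).2.2⟩, h⟩

theorem Zn_le_torsion {x : Pic0 L F} (hx : x ∈ T.Zn n) : x ∈ Pic0.torsion L F n := by
  obtain ⟨D, rfl, B₁, B₂, f, hf, hfD, -⟩ := hx
  rw [Pic0.mem_torsion]
  show Pic0.mk ((n : ℤ) • D) = 0
  exact (mk_eq_zero_iff ((n : ℤ) • D)).mpr ⟨f, hf, fun v => by rw [← hfD v]; rfl⟩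

theorem isSp_unique (hn : n ≠ 0) {D D' : Divisor.degZero (K := L) (F := F)}
    {B₁ B₂ B₁' B₂' : Divisor.degZero (K := k) (F := F₁)}
    (h : T.IsSp n (D : Divisor L F) B₁ B₂) (h' : T.IsSp n (D' : Divisor L F) B₁' B₂')
    (hDD' : Pic0.mk D = Pic0.mk D') : Pic0.mk B₁ = Pic0.mk B₁' ∧ Pic0.mk B₂ = Pic0.mk B₂' := by
  have h1 : Pic0.mk (D - D') = 0 := by
    show Pic0.mk D - Pic0.mk D' = 0
    rw [hDD', sub_self]
  obtain ⟨g, hg, hgD⟩ := (mk_eq_zero_iff _).mp h1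
  obtain ⟨h2, h3⟩ := (h.sub h').principal hn hg hgD
  refine ⟨?_, ?_⟩
  · rw [← sub_eq_zero]
    exact (mk_eq_zero_iff (B₁ - B₁')).mpr h2
  · rw [← sub_eq_zero]
    exact (mk_eq_zero_iff (B₂ - B₂')).mpr h3

/-- representative -/
def repD (x : T.Zn n) : Divisor.degZero (K := L) (F := F) := (mem_Zn.mp x.2).choose

theorem mk_repD (x : T.Zn n) : Pic0.mk (repD x) = x := (mem_Zn.mp x.2).choose_spec.1

/-- first reduction -/
def repB₁ (x : T.Zn n) : Divisor.degZero (K := k) (F := F₁) :=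
  (mem_Zn.mp x.2).choose_spec.2.choose

/-- second reduction -/
def repB₂ (x : T.Zn n) : Divisor.degZero (K := k) (F := F₁) :=
  (mem_Zn.mp x.2).choose_spec.2.choose_spec.choose

theorem isSp_rep (x : T.Zn n) : T.IsSp n (repD x : Divisor L F) (repB₁ x) (repB₂ x) :=
  (mem_Zn.mp x.2).choose_spec.2.choose_spec.choose_spec

/-- **The specialisation map.** -/
def sp (hn : n ≠ 0) : T.Zn n →+ Pic0 k F₁ × Pic0 k F₁ :=
  AddMonoidHom.mk' (fun x => (Pic0.mk (repB₁ x), Pic0.mk (repB₂ x))) (by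
      intro x y
      have h := isSp_unique hn (D := repD (x + y)) (D' := repD x + repD y)
        (B₁' := repB₁ x + repB₁ y) (B₂' := repB₂ x + repB₂ y) (isSp_rep (x + y))
        ((isSp_rep x).add (isSp_rep y)) (by
          rw [mk_repD]
          show (x : Pic0 L F) + y = Pic0.mk (repD x) + Pic0.mk (repD y)
          rw [mk_repD, mk_repD])
      exact Prod.ext h.1 h.2)

theorem sp_apply (hn : n ≠ 0) {D : Divisor.degZero (K := L) (F := F)}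
    {B₁ B₂ : Divisor.degZero (K := k) (F := F₁)} (h : T.IsSp n (D : Divisor L F) B₁ B₂)
    {x : T.Zn n} (hx : Pic0.mk D = x) : sp hn x = (Pic0.mk B₁, Pic0.mk B₂) := by
  have h2 := isSp_unique hn (isSp_rep x) h ((mk_repD x).trans hx.symm)
  exact Prod.ext h2.1 h2.2

/-- **kernel of the specialisation map** -/
theorem mem_NN_of_sp_eq_zero (hn : n ≠ 0) {x : T.Zn n} (hx : sp hn x = 0) :
    (x : Pic0 L F) ∈ T.NN n := by
  obtain ⟨D, hDx, B₁, B₂, hB⟩ := mem_Zn.mp x.2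
  rw [sp_apply hn hB hDx] at hx
  obtain ⟨y₁, hy₁, h₁⟩ := (mk_eq_zero_iff _).mp (congrArg Prod.fst hx)
  obtain ⟨y₂, hy₂, h₂⟩ := (mk_eq_zero_iff _).mp (congrArg Prod.snd hx)
  obtain ⟨f, hf, hD, x₁, x₂, h1, h2, h3, h4, h5, h6⟩ := hB
  have key : ∀ (V : ResVal T.A T.π F F₁) (x₁ y₁ : F₁) (_ : x₁ ≠ 0) (_ : y₁ ≠ 0)
      (B₁ : Divisor k F₁), V.HasRes f x₁ → (∀ x : Place k F₁, (n : ℤ) * B₁ x = x.ord x₁) →
      (∀ x : Place k F₁, B₁ x = x.ord y₁) → ∃ a : F₁, a ≠ 0 ∧ V.HasRes f (a ^ n) := by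
    intro V x₁ y₁ h1 hy₁ B₁ h3 h5 hB
    obtain ⟨c, hc, hcx⟩ := exists_const_of_ord (K := k) (f := x₁ * (y₁ ^ n)⁻¹)
      (mul_ne_zero h1 (inv_ne_zero (pow_ne_zero n hy₁))) (fun v => by
        rw [v.ord_mul h1 (inv_ne_zero (pow_ne_zero n hy₁)), v.ord_inv, ord_pow, ← h5, hB]; ring)
    obtain ⟨d, hd⟩ := IsAlgClosed.exists_pow_nat_eq c (Nat.pos_of_ne_zero hn)
    have hd0 : d ≠ 0 := by
      rintro rfl
      rw [zero_pow hn] at hd
      exact hc hd.symm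
    refine ⟨algebraMap k F₁ d * y₁, mul_ne_zero (by rwa [Ne, map_eq_zero]) hy₁, ?_⟩
    have h6 : (algebraMap k F₁ d * y₁) ^ n = x₁ := by
      rw [mul_pow, ← map_pow, hd, ← hcx, inv_mul_cancel_right₀ (pow_ne_zero n hy₁)]
    rw [h6]
    exact h3
  exact ⟨D, hDx, f, hf, hD, key T.V₁ x₁ y₁ h1 hy₁ B₁ h3 h5 h₁, key T.V₂ x₂ y₂ h2 hy₂ B₂ h4 h6 h₂⟩

/-- **equivariance principle** -/
theorem sp_equivariant (hn : n ≠ 0) (t : Divisor.degZero (K := L) (F := F) →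
      Divisor.degZero (K := L) (F := F))
    (t₁ t₂ : Divisor.degZero (K := k) (F := F₁) → Divisor.degZero (K := k) (F := F₁))
    (h : ∀ (D : Divisor.degZero (K := L) (F := F)) (B₁ B₂ : Divisor.degZero (K := k) (F := F₁)),
      T.IsSp n (D : Divisor L F) (B₁ : Divisor k F₁) (B₂ : Divisor k F₁) →
      T.IsSp n (t D : Divisor L F) (t₁ B₁ : Divisor k F₁) (t₂ B₂ : Divisor k F₁))
    (τ : Pic0 L F →+ Pic0 L F) (τ₁ τ₂ : Pic0 k F₁ →+ Pic0 k F₁)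
    (hτ : ∀ D, τ (Pic0.mk D) = Pic0.mk (t D)) (hτ₁ : ∀ D, τ₁ (Pic0.mk D) = Pic0.mk (t₁ D))
    (hτ₂ : ∀ D, τ₂ (Pic0.mk D) = Pic0.mk (t₂ D)) {x : Pic0 L F} (hx : x ∈ T.Zn n) :
    ∃ h : τ x ∈ T.Zn n, sp hn ⟨τ x, h⟩ = (τ₁ (sp hn ⟨x, hx⟩).1, τ₂ (sp hn ⟨x, hx⟩).2) := by
  obtain ⟨D, hDx, B₁, B₂, hB⟩ := mem_Zn.mp hx
  have h1 := h D B₁ B₂ hB
  have h0 : Pic0.mk (t D) = τ x := by rw [← hDx]; exact (hτ D).symm
  have h2 : τ x ∈ T.Zn n := ⟨t D, h0, t₁ B₁, t₂ B₂, h1⟩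
  refine ⟨h2, ?_⟩
  have e1 := sp_apply hn (x := ⟨x, hx⟩) hB hDx
  have e2 := sp_apply hn (x := ⟨τ x, h2⟩) h1 h0
  rw [e1, e2]
  exact Prod.ext (hτ₁ B₁).symm (hτ₂ B₂).symm

end TwoVal

end Fermat.Agent.BadRed
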