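import Fermat.Agent.BadRed.HeckeER
import Fermat.Agent.BadRed.SpMap

/-!
# Hecke equivariance of the specialisation map of `X₀(N r)` at `r`
-/

set_option autoImplicit false
set_option linter.unusedSectionVars false

noncomputable section

open HahnSeries ModularCurve Module Polynomial AlgebraicCurve IntermediateField

namespace Fermat.Agent.BadRed

open Fermat.Agent.Igusa Fermat.Agent.AtkinLehner Fermat.Agent.HeckeRed Fermat.Agent.FunField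

section General

variable {K F F' : Type*} [Field K] [Field F] [Field F'] [Algebra K F] [Algebra K F']

/-- norm of a constant -/
theorem normAlong_cst (ψ : F →ₐ[K] F') (c : K) :
    normAlong ψ (algebraMap K F' c) = algebraMap K F (c ^ finrankAlong K ψ) := by
  letI := algebraAlong ψ
  have h1 : algebraMap K F' c = algebraMap F F' (algebraMap K F c) := (ψ.commutes c).symm
  show Algebra.norm F (algebraMap K F' c) = _
  rw [h1, Algebra.norm_algebraMap, map_pow]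
  rfl

theorem normAlong_cst_smul (ψ : F →ₐ[K] F') (φ : F →ₐ[K] F') (c : K) (f : F) :
    normAlong ψ (φ (c • f)) = (c ^ finrankAlong K ψ) • normAlong ψ (φ f) := by
  rw [map_smul, Algebra.smul_def, normAlong_mul, normAlong_cst, Algebra.smul_def]

theorem mul_corr_apply [IsAlgClosed K] [IsFF K F] [IsFF K F'] (φ ψ : F →ₐ[K] F')
    (hφ : φ.toRingHom.IsIntegral) (hψ : ψ.toRingHom.IsIntegral) (hψf : FiniteAlong K ψ) {f : F}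
    (hf : f ≠ 0) {n : ℕ} {D : Divisor K F} (hD : ∀ v : Place K F, (n : ℤ) * D v = v.ord f)
    (v : Place K F) :
    (n : ℤ) * Divisor.correspondence φ ψ hφ hψ D v = v.ord (normAlong ψ (φ f)) := by
  have h1 : n • D = divOf f := by
    ext v
    rw [Finsupp.smul_apply, nsmul_eq_mul, hD, divOf_apply]
  have h2 := correspondence_divOf φ ψ hφ hψ hψf hf
  rw [← h1, map_nsmul] at h2
  rw [← divOf_apply, ← h2, Finsupp.smul_apply, nsmul_eq_mul]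

end General

section Abs

variable {L k F F₁ : Type*} [Field L] [Field k] [Field F] [Field F₁] [Algebra L F] [Algebra k F₁]
  {F' F₁' : Type*} [Field F'] [Field F₁'] [Algebra L F'] [Algebra k F₁']
  {A : ValuationSubring L} {π : A →+* k} {V : ResVal A π F F₁}

theorem hasRes_normAlong (φ ψ : F →ₐ[L] F') (φ₁ ψ₁ : F₁ →ₐ[k] F₁')
    (h : ∀ {f : F} {y : F₁}, V.ER f y → V.ER (normAlong ψ (φ f)) (normAlong ψ₁ (φ₁ y)))
    {f : F} {y : F₁} (hf : V.HasRes f y) :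
    V.HasRes (normAlong ψ (φ f)) (normAlong ψ₁ (φ₁ y)) := by
  obtain ⟨c, hc, hcf⟩ := hf
  have h1 := h hcf
  rw [normAlong_cst_smul] at h1
  exact ResVal.ER.hasRes (pow_ne_zero _ hc) h1

variable {T : TwoVal L k F F₁} [IsAlgClosed L] [IsAlgClosed k] [IsFF L F] [IsFF L F'] [IsFF k F₁]
  [IsFF k F₁']

theorem isSp_correspondence {φ ψ : F →ₐ[L] F'} {φ₁ ψ₁ : F₁ →ₐ[k] F₁'}
    (hφ : φ.toRingHom.IsIntegral) (hψ : ψ.toRingHom.IsIntegral) (hψf : FiniteAlong L ψ)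
    (hφ₁ : φ₁.toRingHom.IsIntegral) (hψ₁ : ψ₁.toRingHom.IsIntegral) (hψf₁ : FiniteAlong k ψ₁)
    (h₁ : ∀ {f : F} {y : F₁}, T.V₁.ER f y → T.V₁.ER (normAlong ψ (φ f)) (normAlong ψ₁ (φ₁ y)))
    (h₂ : ∀ {f : F} {y : F₁}, T.V₂.ER f y → T.V₂.ER (normAlong ψ (φ f)) (normAlong ψ₁ (φ₁ y)))
    {n : ℕ} {D : Divisor L F} {B₁ B₂ : Divisor k F₁} (h : T.IsSp n D B₁ B₂) :
    T.IsSp n (Divisor.correspondence φ ψ hφ hψ D) (Divisor.correspondence φ₁ ψ₁ hφ₁ hψ₁ B₁)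
      (Divisor.correspondence φ₁ ψ₁ hφ₁ hψ₁ B₂) := by
  obtain ⟨f, hf, hD, x₁, x₂, hx₁, hx₂, hr₁, hr₂, hB₁, hB₂⟩ := h
  refine ⟨normAlong ψ (φ f), normAlong_ne_zero ψ hψf (by rwa [Ne, map_eq_zero]),
    mul_corr_apply φ ψ hφ hψ hψf hf hD, normAlong ψ₁ (φ₁ x₁), normAlong ψ₁ (φ₁ x₂),
    normAlong_ne_zero ψ₁ hψf₁ (by rwa [Ne, map_eq_zero]),
    normAlong_ne_zero ψ₁ hψf₁ (by rwa [Ne, map_eq_zero]), hasRes_normAlong φ ψ φ₁ ψ₁ h₁ hr₁,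
    hasRes_normAlong φ ψ φ₁ ψ₁ h₂ hr₂, mul_corr_apply φ₁ ψ₁ hφ₁ hψ₁ hψf₁ hx₁ hB₁,
    mul_corr_apply φ₁ ψ₁ hφ₁ hψ₁ hψf₁ hx₂ hB₂⟩

/-- `sp` commutes with correspondences compatible with the residues -/
theorem sp_correspondence {φ ψ : F →ₐ[L] F'} {φ₁ ψ₁ : F₁ →ₐ[k] F₁'}
    (hφ : φ.toRingHom.IsIntegral) (hψ : ψ.toRingHom.IsIntegral) (hψf : FiniteAlong L ψ)
    (hFI : FundamentalIdentityAlong L φ hφ) (hN : NormFormulaAlong L ψ hψf)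
    (hφ₁ : φ₁.toRingHom.IsIntegral) (hψ₁ : ψ₁.toRingHom.IsIntegral) (hψf₁ : FiniteAlong k ψ₁)
    (hFI₁ : FundamentalIdentityAlong k φ₁ hφ₁) (hN₁ : NormFormulaAlong k ψ₁ hψf₁)
    (h₁ : ∀ {f : F} {y : F₁}, T.V₁.ER f y → T.V₁.ER (normAlong ψ (φ f)) (normAlong ψ₁ (φ₁ y)))
    (h₂ : ∀ {f : F} {y : F₁}, T.V₂.ER f y → T.V₂.ER (normAlong ψ (φ f)) (normAlong ψ₁ (φ₁ y)))
    {n : ℕ} (hn : n ≠ 0) {x : Pic0 L F} (hx : x ∈ T.Zn n) :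
    ∃ h : Pic0.correspondence φ ψ hφ hψ hFI hψf hN x ∈ T.Zn n,
      TwoVal.sp hn ⟨_, h⟩ =
        (Pic0.correspondence φ₁ ψ₁ hφ₁ hψ₁ hFI₁ hψf₁ hN₁ (TwoVal.sp hn ⟨x, hx⟩).1,
          Pic0.correspondence φ₁ ψ₁ hφ₁ hψ₁ hFI₁ hψf₁ hN₁ (TwoVal.sp hn ⟨x, hx⟩).2) := by
  refine TwoVal.sp_equivariant hn (Pic0.degZeroCorrespondence φ ψ hφ hψ hFI)
    (Pic0.degZeroCorrespondence φ₁ ψ₁ hφ₁ hψ₁ hFI₁)
    (Pic0.degZeroCorrespondence φ₁ ψ₁ hφ₁ hψ₁ hFI₁) (fun D B₁ B₂ h => ?_) _ _ _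
    (fun D => Pic0.correspondence_mk φ ψ hφ hψ hFI hψf hN D)
    (fun D => Pic0.correspondence_mk φ₁ ψ₁ hφ₁ hψ₁ hFI₁ hψf₁ hN₁ D)
    (fun D => Pic0.correspondence_mk φ₁ ψ₁ hφ₁ hψ₁ hFI₁ hψf₁ hN₁ D) hx
  exact isSp_correspondence hφ hψ hψf hφ₁ hψ₁ hψf₁ h₁ h₂ h

end Abs

end Fermat.Agent.BadRed
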