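import Fermat.Agent.BadRed.Multi
import Fermat.Agent.BadRed.FrobLaurent
import Fermat.Agent.AtkinLehner.Basic

/-!
# Joint independence for two valuations; powers of `j` over series in `q ^ p`
-/

set_option autoImplicit false

noncomputable section

open HahnSeries ModularCurve Module Polynomial

namespace Fermat.Agent.BadRed

open Fermat.Agent.Igusa

section Joint

variable {F : Type*} [Field F] {O₁ O₂ : ValuationSubring F} {k₁ k₂ : Type*} [Field k₁] [Field k₂]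
  {r₁ : O₁ →+* k₁} {r₂ : O₂ →+* k₂} {F₀ : Subfield F}

/-- joint residual independence implies linear independence. -/
theorem joint_linearIndependent (h12 : ∀ x ∈ F₀, x ∈ O₁ ↔ x ∈ O₂)
    {ι ι' : Type*} [Fintype ι] [Fintype ι'] (b : ι → F) (hb₁ : ∀ i, b i ∈ O₁)
    (hb₂ : ∀ i, b i ∈ O₂) (hb0 : ∀ i, r₂ ⟨b i, hb₂ i⟩ = 0)
    (hbI : ResIndep O₁ r₁ F₀ (fun i => ⟨b i, hb₁ i⟩))
    (c : ι' → F) (hc₁ : ∀ i, c i ∈ O₁)
    (hc₂ : ∀ i, c i ∈ O₂) (hc0 : ∀ i, r₁ ⟨c i, hc₁ i⟩ = 0)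
    (hcI : ResIndep O₂ r₂ F₀ (fun i => ⟨c i, hc₂ i⟩)) :
    LinearIndependent F₀ (Sum.elim b c) := by
  classical
  rw [Fintype.linearIndependent_iff]
  intro g hg
  by_contra hcon
  push Not at hcon
  obtain ⟨i₀', hi₀'⟩ := hcon
  obtain ⟨i₀, hi₀, hdiv⟩ := exists_dividing O₁ (fun i => (g i : F))
    ⟨i₀', fun h => hi₀' (Subtype.ext h)⟩
  have hdiv₂ : ∀ i, (g i : F) / (g i₀ : F) ∈ O₂ := fun i =>
    (h12 _ (F₀.div_mem (g i).2 (g i₀).2)).mp (hdiv i)
  rw [Fintype.sum_sum_type] at hg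
  simp only [Sum.elim_inl, Sum.elim_inr, Subfield.smul_def, smul_eq_mul] at hg
  have hg' : ∑ i, (g (Sum.inl i) : F) / (g i₀ : F) * b i +
      ∑ i, (g (Sum.inr i) : F) / (g i₀ : F) * c i = 0 := by
    have h1 := congrArg (fun x => x / (g i₀ : F)) hg
    simp only [zero_div, add_div, Finset.sum_div] at h1
    rw [← h1]
    congr 1
    · exact Finset.sum_congr rfl fun i _ => by ring
    · exact Finset.sum_congr rfl fun i _ => by ring
  have h₁ : ∀ i, r₁ ⟨_, hdiv (Sum.inl i)⟩ = 0 := by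
    apply hbI (fun i => ⟨_, hdiv (Sum.inl i)⟩) (fun i => F₀.div_mem (g _).2 (g i₀).2)
    have h2 : (∑ i, (⟨_, hdiv (Sum.inl i)⟩ : O₁) * ⟨b i, hb₁ i⟩) +
        ∑ i, (⟨_, hdiv (Sum.inr i)⟩ : O₁) * ⟨c i, hc₁ i⟩ = 0 := by
      apply Subtype.ext
      push_cast
      exact hg'
    have h3 := congrArg r₁ h2
    rw [map_add, map_sum, map_sum, map_zero] at h3
    have h4 : ∑ i, r₁ ((⟨_, hdiv (Sum.inr i)⟩ : O₁) * ⟨c i, hc₁ i⟩) = 0 :=
      Finset.sum_eq_zero fun i _ => by rw [map_mul, hc0, mul_zero]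
    rw [h4, add_zero] at h3
    rw [← h3]
    exact Finset.sum_congr rfl fun i _ => (map_mul _ _ _).symm
  have h₂ : ∀ i, r₂ ⟨_, hdiv₂ (Sum.inr i)⟩ = 0 := by
    apply hcI (fun i => ⟨_, hdiv₂ (Sum.inr i)⟩) (fun i => F₀.div_mem (g _).2 (g i₀).2)
    have h2 : (∑ i, (⟨_, hdiv₂ (Sum.inl i)⟩ : O₂) * ⟨b i, hb₂ i⟩) +
        ∑ i, (⟨_, hdiv₂ (Sum.inr i)⟩ : O₂) * ⟨c i, hc₂ i⟩ = 0 := by
      apply Subtype.ext
      push_cast
      exact hg'
    have h3 := congrArg r₂ h2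
    rw [map_add, map_sum, map_sum, map_zero] at h3
    have h4 : ∑ i, r₂ ((⟨_, hdiv₂ (Sum.inl i)⟩ : O₂) * ⟨b i, hb₂ i⟩) = 0 :=
      Finset.sum_eq_zero fun i _ => by rw [map_mul, hb0, mul_zero]
    rw [h4, zero_add] at h3
    rw [← h3]
    exact Finset.sum_congr rfl fun i _ => (map_mul _ _ _).symm
  rcases i₀ with i | i
  · have h3 := h₁ i
    have h4 : (⟨_, hdiv (Sum.inl i)⟩ : O₁) = 1 := Subtype.ext (div_self hi₀)
    rw [h4, map_one] at h3
    exact one_ne_zero h3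
  · have h3 := h₂ i
    have h4 : (⟨_, hdiv₂ (Sum.inr i)⟩ : O₂) = 1 := Subtype.ext (div_self hi₀)
    rw [h4, map_one] at h3
    exact one_ne_zero h3

end Joint

section Powers

theorem pow_indep_abstract {E : Type*} [Field E] {p : ℕ} (hp : p.Prime) [CharP E p]
    (K' : Subfield E) {x : E} (hx : x ∉ K') (hxp : x ^ p ∈ K') (a : Fin p → E)
    (ha : ∀ i, a i ∈ K') (h : ∑ i, a i * x ^ (i : ℕ) = 0) : ∀ i, a i = 0 := by
  have : Fact p.Prime := ⟨hp⟩
  have hirr : Irreducible ((X : K'[X]) ^ p - Polynomial.C (⟨_, hxp⟩ : K')) := by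
    apply X_pow_sub_C_irreducible_of_prime hp
    intro b hb
    apply hx
    have h1 : (b : E) ^ p = x ^ p := congrArg Subtype.val hb
    have h2 : (b : E) = x := frobenius_inj E p h1
    rw [← h2]
    exact b.2
  have hmon : ((X : K'[X]) ^ p - Polynomial.C (⟨_, hxp⟩ : K')).Monic :=
    monic_X_pow_sub_C _ hp.ne_zero
  have hmin : minpoly K' x = (X : K'[X]) ^ p - Polynomial.C (⟨_, hxp⟩ : K') := by
    refine (minpoly.eq_of_irreducible_of_monic hirr ?_ hmon).symm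
    rw [map_sub, map_pow, aeval_X, aeval_C]
    exact sub_self _
  have hdeg : (minpoly K' x).natDegree = p := by
    rw [hmin, natDegree_X_pow_sub_C]
  have hli := linearIndependent_pow (K := K') x
  rw [Fintype.linearIndependent_iff] at hli
  intro i
  have h1 := hli (fun i => ⟨a (Fin.cast hdeg i), ha _⟩) (by
    rw [← h]
    refine Fintype.sum_equiv (finCongr hdeg) _ _ fun i => ?_
    rw [Subfield.smul_def, smul_eq_mul]
    rfl) (Fin.cast hdeg.symm i)
  exact congrArg Subtype.val h1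

variable (κ : Type*) [Field κ] (p : ℕ) [hp : Fact p.Prime]

theorem coeff_jq_neg_one : (jqModC κ).coeff (-1) = 1 := by
  simpa using coeff_jqModC_neg_one κ

theorem jq_notMem_range : jqModC κ ∉ (qExpand κ p).fieldRange := by
  rintro ⟨y, hy⟩
  have h1 := coeff_jq_neg_one κ
  rw [← hy, qExpand_coeff_of_not_dvd] at h1
  · exact zero_ne_one h1
  · intro h
    have h2 := Int.isUnit_iff.mp (isUnit_of_dvd_unit h (by norm_num : IsUnit (-1 : ℤ)))
    have h3 := hp.out.two_le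
    omega

theorem charP_laurent [CharP κ p] : CharP (LaurentSeries κ) p := by
  refine (CharP.charP_iff_prime_eq_zero hp.out).mpr ?_
  have h1 : (p : LaurentSeries κ) = (HahnSeries.C : κ →+* LaurentSeries κ) ((p : ℕ) : κ) := by
    rw [map_natCast]
  rw [h1, CharP.cast_eq_zero, map_zero]

/-- `1, j, …, j^(p-1)` are linearly independent over `κ((q^p))`. -/
theorem powers_indep [CharP κ p] (α : Fin p → LaurentSeries κ)
    (h : ∑ i, qExpand κ p (α i) * (jqModC κ) ^ (i : ℕ) = 0) : ∀ i, α i = 0 := by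
  have := charP_laurent κ p
  intro i
  have h1 := pow_indep_abstract hp.out (qExpand κ p).fieldRange (jq_notMem_range κ p)
    ⟨jqModC κ, (jq_pow κ p).symm⟩ (fun i => qExpand κ p (α i)) (fun i => ⟨_, rfl⟩) h i
  exact qExpand_injective p (h1.trans (map_zero _).symm)

end Powers

end Fermat.Agent.BadRed
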