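import Fermat.Agent.BadRed.KLat3
import Fermat.Agent.BadRed.FrobPencil
import Fermat.Agent.Deuring.GenusDescent

/-!
# The nodes of a Frobenius pencil as places
-/

set_option autoImplicit false
set_option linter.unusedSectionVars false

noncomputable section

open AlgebraicCurve Module IntermediateField

namespace Fermat.Agent.BadRed

open Fermat.Agent.FunField Fermat.Agent.FunField.PlaceLemmas Fermat.Agent.Deuring

variable {L k F F₁ : Type*} [Field L] [Field k] [Field F] [Field F₁] [Algebra L F] [Algebra k F₁]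
  {𝔇 : RData L k F (F₁ × F₁)}

namespace Pencil

variable (p : Pencil 𝔇)

theorem mem_OO_of_ord {a : F₁} (ha : a ≠ 0) (h : ∀ v : Place k F₁, p.Eb v = 0 → 0 ≤ v.ord a) :
    a ∈ p.OO := by
  classical
  refine ⟨∑ v ∈ p.Eb.support, (-(v.ord a)).toNat, ?_⟩
  rw [mem_rr_of_ne ha]
  intro v
  rw [Finsupp.smul_apply, nsmul_eq_mul]
  rcases eq_or_ne (p.Eb v) 0 with h0 | h0
  · rw [h0, mul_zero, neg_zero]
    exact h v h0
  · have h1 : 1 ≤ p.Eb v := by
      have := Finsupp.le_def.mp p.Eb_nonneg v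
      rw [Finsupp.zero_apply] at this
      omega
    have h2 : (-(v.ord a)).toNat ≤ ∑ v ∈ p.Eb.support, (-(v.ord a)).toNat :=
      Finset.single_le_sum (f := fun v : Place k F₁ => (-(v.ord a)).toNat)
        (fun _ _ => Nat.zero_le _) (Finsupp.mem_support_iff.mpr h0)
    have h3 := Int.self_le_toNat (-(v.ord a))
    have h4 : ((-(v.ord a)).toNat : ℤ) ≤ ((∑ v ∈ p.Eb.support, (-(v.ord a)).toNat : ℕ) : ℤ) := by
      exact_mod_cast h2
    have h5 : (0 : ℤ) ≤ ((∑ v ∈ p.Eb.support, (-(v.ord a)).toNat : ℕ) : ℤ) := Int.natCast_nonneg _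
    nlinarith

theorem ord_of_mem_OO {a : F₁} (ha : a ≠ 0) (h : a ∈ p.OO) {v : Place k F₁} (hv : p.Eb v = 0) :
    0 ≤ v.ord a := by
  obtain ⟨m, hm⟩ := h
  have := (mem_rr_of_ne ha).mp hm v
  rwa [Finsupp.smul_apply, hv, smul_zero, neg_zero] at this

variable [IsFF k F₁] [HasPrincipalDivisors k F₁] [IsAlgClosed k] {g g₁ : ℤ}
  (hpos : 0 < Divisor.degree p.Eb)

/-- points of the affine ring are places -/
theorem exists_place_of_algHom (htr : Transcendental k p.tb) (φ : p.OO →ₐ[k] k) :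
    ∃ v : Place k F₁, p.Eb v = 0 ∧ ∀ a : p.OO, φ a = 0 ↔ ((a : F₁) = 0 ∨ 1 ≤ v.ord (a : F₁)) := by
  classical
  let tO : p.OO := ⟨p.tb, 1, by rw [one_smul]; exact p.tb_mem⟩
  set a₀ : p.OO := tO - algebraMap k p.OO (φ tO) with ha₀
  have hφa₀ : φ a₀ = 0 := by
    rw [ha₀, map_sub, AlgHom.commutes]
    simp
  have ha₀0 : (a₀ : F₁) ≠ 0 := by
    intro h
    have h1 : p.tb = algebraMap k F₁ (φ tO) := by
      have : (a₀ : F₁) = p.tb - algebraMap k F₁ (φ tO) := rfl
      rw [this, sub_eq_zero] at h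
      exact h
    exact htr (by rw [h1]; exact isAlgebraic_algebraMap _)
  -- the places where `a₀` vanishes
  have key : ∃ v : Place k F₁, p.Eb v = 0 ∧ ∀ b : p.OO, 1 ≤ v.ord (b : F₁) → φ b = 0 := by
    by_contra hcon
    push Not at hcon
    choose! β hβ1 hβ2 using hcon
    let S : Finset (Place k F₁) := (dv (K := k) (a₀ : F₁) ha₀0).support.filter
      fun v => p.Eb v = 0
    let B : p.OO := ∏ v ∈ S, β v ^ (v.ord (a₀ : F₁)).toNat
    have hβ0 : ∀ v ∈ S, ((β v : p.OO) : F₁) ≠ 0 := by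
      intro v hv h
      have h0 : β v = 0 := Subtype.ext h
      have := hβ2 v (Finset.mem_filter.mp hv).2
      rw [h0, map_zero] at this
      exact this rfl
    have hφB : φ B ≠ 0 := by
      rw [map_prod]
      refine Finset.prod_ne_zero_iff.mpr fun v hv => ?_
      rw [map_pow]
      exact pow_ne_zero _ (hβ2 v (Finset.mem_filter.mp hv).2)
    have hB0 : (B : F₁) ≠ 0 := by
      intro h
      have h0 : B = 0 := Subtype.ext h
      rw [h0, map_zero] at hφB
      exact hφB rfl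
    have hcoe : (B : F₁) = ∏ v ∈ S, ((β v : p.OO) : F₁) ^ (v.ord (a₀ : F₁)).toNat := by
      simp [B]
    have hquot : (B : F₁) * (a₀ : F₁)⁻¹ ∈ p.OO := by
      apply p.mem_OO_of_ord (mul_ne_zero hB0 (inv_ne_zero ha₀0))
      intro v hv
      rw [v.ord_mul hB0 (inv_ne_zero ha₀0), v.ord_inv]
      have h1 : 0 ≤ v.ord (a₀ : F₁) := p.ord_of_mem_OO ha₀0 a₀.2 hv
      rcases eq_or_ne (v.ord (a₀ : F₁)) 0 with h2 | h2
      · rw [h2]
        have := p.ord_of_mem_OO hB0 B.2 hv
        omega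
      · have hvS : v ∈ S := by
          refine Finset.mem_filter.mpr ⟨?_, hv⟩
          rw [Finsupp.mem_support_iff, dv_apply]
          exact h2
        have h3 : v.ord (B : F₁) = ∑ w ∈ S, (w.ord (a₀ : F₁)).toNat * v.ord ((β w : p.OO) : F₁) := by
          rw [hcoe, ord_prod v S _ (fun w hw => pow_ne_zero _ (hβ0 w hw))]
          exact Finset.sum_congr rfl fun w _ => ord_pow _ _ _
        have h4 : ((v.ord (a₀ : F₁)).toNat : ℤ) * v.ord ((β v : p.OO) : F₁) ≤ v.ord (B : F₁) := by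
          rw [h3]
          refine Finset.single_le_sum (f := fun w : Place k F₁ =>
            ((w.ord (a₀ : F₁)).toNat : ℤ) * v.ord ((β w : p.OO) : F₁)) (fun w hw => ?_) hvS
          exact mul_nonneg (Int.natCast_nonneg _) (p.ord_of_mem_OO (hβ0 w hw) (β w).2 hv)
        have h5 := hβ1 v hv
        have h6 : ((v.ord (a₀ : F₁)).toNat : ℤ) = v.ord (a₀ : F₁) := Int.toNat_of_nonneg h1
        rw [h6] at h4
        nlinarith
    have hBa : B = a₀ * ⟨_, hquot⟩ := by
      apply Subtype.ext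
      show (B : F₁) = (a₀ : F₁) * ((B : F₁) * (a₀ : F₁)⁻¹)
      field_simp
    apply hφB
    rw [hBa, map_mul, hφa₀, zero_mul]
  obtain ⟨v, hv, hφ⟩ := key
  have hφ' : ∀ b : p.OO, ((b : F₁) = 0 ∨ 1 ≤ v.ord (b : F₁)) → φ b = 0 := by
    rintro b (h | h)
    · have h0 : b = 0 := Subtype.ext h
      rw [h0, map_zero]
    · exact hφ b h
  refine ⟨v, hv, fun a => ⟨fun ha => ?_, hφ' a⟩⟩
  rcases eq_or_ne (a : F₁) 0 with h0 | h0
  · exact Or.inl h0
  have h1 : (a : F₁) ∈ geSub v 0 := mem_geSub.mpr (Or.inr (p.ord_of_mem_OO h0 a.2 hv))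
  obtain ⟨α, hα⟩ := exists_const_sub v h1
  have h2 : φ (a - algebraMap k p.OO α) = 0 := hφ' _ (mem_geSub.mp hα)
  rw [map_sub, ha, AlgHom.commutes, zero_sub, neg_eq_zero] at h2
  have h3 : α = 0 := h2
  rw [h3, map_zero, sub_zero] at hα
  exact mem_geSub.mp hα

end Pencil

namespace FrobPencil

variable (p : FrobPencil 𝔇)
variable [IsFF L F] [IsFF k F₁] [HasPrincipalDivisors L F] [HasPrincipalDivisors k F₁]
  [IsAlgClosed k] {g g₁ : ℤ} (hRR : RRLarge L F g) (hRR₁ : RRLarge k F₁ g₁)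
  (hpos : 0 < Divisor.degree p.Eb)

/-- the point of the component `b` attached to a gluing point -/
def ptHom (b : Bool) (x : p.Pt) : p.OO →ₐ[k] k :=
  match b with
  | false => p.frPt x
  | true => x.1

theorem ptHom_injective (b : Bool) : Function.Injective (p.ptHom b) := by
  cases b
  · exact p.frPt_injective
  · exact Subtype.val_injective

include hpos in
theorem exists_ptPlace (b : Bool) (x : p.Pt) : ∃ v : Place k F₁, p.Eb v = 0 ∧
    ∀ a : p.OO, p.ptHom b x a = 0 ↔ ((a : F₁) = 0 ∨ 1 ≤ v.ord (a : F₁)) :=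
  p.toPencil.exists_place_of_algHom (p.toPencil.transcendental_tb hpos) _

include hRR hRR₁ hpos in
/-- **The nodes.** -/
theorem exists_nodeDat : ∃ (_ : Fintype p.Pt) (Z : p.toPencil.NodeDat p.Pt),
    (∀ b x (a : p.OO), p.ptHom b x a = 0 ↔ ((a : F₁) = 0 ∨ 1 ≤ (Z.z b x).ord (a : F₁))) ∧
      g = 2 * g₁ + Fintype.card p.Pt - 1 := by
  classical
  obtain ⟨hfin, hcard, hS⟩ := p.structure_fibre hRR hRR₁ hpos
  have hF := Fintype.ofFinite p.Pt
  rw [Nat.card_eq_fintype_card] at hcard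
  obtain ⟨m₁, hm₁⟩ := p.exists_saturated hRR hRR₁ hpos
  choose z hz1 hz2 using p.exists_ptPlace hpos
  have hinj : ∀ b, Function.Injective (z b) := by
    intro b x y hxy
    apply p.ptHom_injective b
    ext a
    have h1 : p.ptHom b x (a - algebraMap k p.OO (p.ptHom b x a)) = 0 := by
      rw [map_sub, AlgHom.commutes]; simp
    rw [hz2, hxy, ← hz2, map_sub, AlgHom.commutes, sub_eq_zero] at h1
    exact h1.symm
  have hkey : ∀ (b : Bool) (x : Place k F₁), ∃ m, ∃ q ∈ p.toPencil.Tr 0 m,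
      pr k F₁ (!b) q = 0 ∧ pr k F₁ b q ≠ 0 ∧
      x.ord (pr k F₁ b q) = (if ∃ i, x = z b i then 1 else 0) - m * p.Eb x := by
    intro b x
    obtain ⟨c, hc⟩ := exists_isPoleDiv_rr hRR₁
    set Z : Divisor k F₁ := ∑ i, Finsupp.single (z b i) 1 with hZ
    have hZapp : ∀ v, Z v = if ∃ i, v = z b i then 1 else 0 := by
      intro v
      rw [hZ, Finsupp.finsetSum_apply]
      split_ifs with h
      · obtain ⟨i, rfl⟩ := h
        rw [Finset.sum_eq_single i]
        · rw [Finsupp.single_eq_same]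
        · intro j _ hj
          rw [Finsupp.single_eq_of_ne]
          exact fun h => hj (hinj b h).symm
        · intro h
          exact absurd (Finset.mem_univ i) h
      · apply Finset.sum_eq_zero
        intro i _
        rw [Finsupp.single_eq_of_ne]
        rintro rfl
        exact h ⟨i, rfl⟩
    obtain ⟨m, hm, hm'⟩ : ∃ m : ℕ, m₁ ≤ m ∧ c ≤ Divisor.degree (m • p.Eb - Z) := by
      refine ⟨m₁ + (c + Divisor.degree Z).toNat, by omega, ?_⟩
      rw [map_sub, map_nsmul, nsmul_eq_mul]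
      have h1 := Int.self_le_toNat (c + Divisor.degree Z)
      push_cast
      nlinarith [Int.natCast_nonneg m₁, Int.natCast_nonneg (c + Divisor.degree Z).toNat]
    obtain ⟨a, ha, ha0, hx⟩ := (hc _ hm').attained x
    have haP : a ∈ riemannRochSpace (m • p.Eb) := by
      refine Deuring.rr_mono (sub_le_self _ ?_) ha
      rw [Finsupp.le_def]
      intro v
      rw [hZapp, Finsupp.zero_apply]
      split_ifs <;> norm_num
    let aO : p.OO := ⟨a, m, haP⟩
    have hvan : ∀ i, p.ptHom b i aO = 0 := by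
      intro i
      rw [hz2]
      right
      have h1 := (mem_rr_of_ne ha0).mp ha (z b i)
      rw [Finsupp.sub_apply, Finsupp.smul_apply, hz1, smul_zero, hZapp, if_pos ⟨i, rfl⟩] at h1
      show 1 ≤ (z b i).ord a
      omega
    have hord : x.ord a = (if ∃ i, x = z b i then 1 else 0) - m * p.Eb x := by
      rw [hx, Finsupp.sub_apply, Finsupp.smul_apply, nsmul_eq_mul, hZapp]
      ring
    cases b
    · refine ⟨m, (a, 0), ?_, rfl, ha0, hord⟩
      have h1 : ((aO, 0) : p.OO × p.OO) ∈ p.S := by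
        rw [hS]
        intro y
        rw [map_zero]
        exact (hvan y).symm
      have h2 : ((aO, 0) : p.OO × p.OO) ∈ p.T (Tors.zero 𝔇 1) m := by
        rw [hm₁ m hm]
        exact ⟨h1, haP, Submodule.zero_mem _⟩
      have h3 := p.T_zero_iff.mp h2
      rw [Pencil.Tr, add_zero]
      exact h3
    · refine ⟨m, (0, a), ?_, rfl, ha0, hord⟩
      have h1 : ((0, aO) : p.OO × p.OO) ∈ p.S := by
        rw [hS]
        intro y
        rw [map_zero, map_zero]
        exact hvan y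
      have h2 : ((0, aO) : p.OO × p.OO) ∈ p.T (Tors.zero 𝔇 1) m := by
        rw [hm₁ m hm]
        exact ⟨h1, Submodule.zero_mem _, haP⟩
      have h3 := p.T_zero_iff.mp h2
      rw [Pencil.Tr, add_zero]
      exact h3
  refine ⟨hF, ⟨z, hinj, hz1, ?_, ?_⟩, hz2, by linarith⟩
  · intro b i
    obtain ⟨m, q, hq, h1, h2, h3⟩ := hkey b (z b i)
    rw [if_pos ⟨i, rfl⟩] at h3
    exact ⟨m, q, hq, h1, h2, h3⟩
  · intro b x hx
    obtain ⟨m, q, hq, h1, h2, h3⟩ := hkey b x
    rw [if_neg (by push Not; exact hx)] at h3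
    exact ⟨m, q, hq, h1, h2, h3⟩

end FrobPencil

end Fermat.Agent.BadRed
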