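import Fermat.Agent.BadRed.KLat7
import Fermat.Agent.BadRed.SpMap
import Fermat.Agent.KField.Basic

/-!
# The fixed field of inertia; rational functions have slopes
-/

set_option autoImplicit false
set_option linter.unusedSectionVars false

noncomputable section

open Module AlgebraicCurve

namespace Fermat.Agent.BadRed

open Fermat.Agent.FunField Fermat.Agent.FunField.PlaceLemmas Fermat.Agent.Deuring

section Inertia

attribute [-instance] DivisionRing.toRatAlgebra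

variable {Ω : Type*} [Field Ω] [Algebra ℚ Ω] (A : ValuationSubring Ω)

/-- inertia as ring automorphisms -/
def inertΓ : Set (Ω ≃+* Ω) := {σ | ∃ s ∈ A.inertiaSubgroupIn ℚ, σ = (s : Ω ≃ₐ[ℚ] Ω).toRingEquiv}

theorem mem_fix₀_inertΓ {a : Ω} : a ∈ fix₀ (inertΓ A) ↔ ∀ s ∈ A.inertiaSubgroupIn ℚ, s a = a := by
  constructor
  · intro h s hs
    exact h _ ⟨s, hs, rfl⟩
  · rintro h _ ⟨s, hs, rfl⟩
    exact h s hs

variable {κ : Type*} [Field κ] (π : A →+* κ) [IsLocalHom π]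

theorem pi_eq_zero_iff (a : A) : π a = 0 ↔ A.valuation (a : Ω) < 1 := by
  rw [pi_ker, ← A.valuation_lt_one_iff]
  exact (IsLocalRing.mem_maximalIdeal a).symm

/-- **The constants fixed by inertia.** -/
def constForm [IsAlgClosed Ω] [IsGalois ℚ Ω] (hπ : Function.Surjective π) {r : ℕ} (hr : r.Prime)
    (hA : A.LiesOverPrime r) [CharP κ r] : ConstForm π (inertΓ A) where
  ϖ := (r : A)
  ne := by
    have hcharΩ : CharZero Ω := charZero_of_injective_algebraMap (algebraMap ℚ Ω).injective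
    push_cast
    exact Nat.cast_ne_zero.mpr hr.ne_zero
  res := by rw [map_natCast, CharP.cast_eq_zero]
  mem := by
    rintro _ ⟨s, hs, rfl⟩
    push_cast
    exact map_natCast _ _
  unif := by
    intro c hc hc0
    have hcharΩ : CharZero Ω := charZero_of_injective_algebraMap (algebraMap ℚ Ω).injective
    have hr0 : (r : Ω) ≠ 0 := Nat.cast_ne_zero.mpr hr.ne_zero
    obtain ⟨n, hn⟩ := SEL.exists_valuation_zpow_of_inertia A hr hA hc0
      ((mem_fix₀_inertΓ A).mp hc)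
    have hv : A.valuation ((r : Ω) ^ (-n) * c) = 1 := by
      rw [map_mul, map_zpow₀, hn, ← zpow_add₀ ((Valuation.ne_zero_iff _).mpr hr0)]
      simp
    have hmem : (r : Ω) ^ (-n) * c ∈ A := (A.valuation_le_one_iff _).mp hv.le
    refine ⟨n, ⟨_, hmem⟩, ?_, ?_⟩
    · intro h0
      have := (pi_eq_zero_iff A π _).mp h0
      exact absurd this (by
        show ¬ A.valuation ((r : Ω) ^ (-n) * c) < 1
        rw [hv]; exact lt_irrefl _)
    · push_cast
      rw [← mul_assoc, ← zpow_add₀ hr0]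
      simp
  lift := by
    intro x
    obtain ⟨a, rfl⟩ := hπ x
    obtain ⟨b, hb, hfix, hab⟩ := KField.exists_fixed_residue hr hA
      ((A.valuation_le_one_iff _).mpr a.2)
    refine ⟨⟨b, (A.valuation_le_one_iff _).mp hb⟩, (mem_fix₀_inertΓ A).mpr hfix, ?_⟩
    have h1 : π (a - ⟨b, (A.valuation_le_one_iff _).mp hb⟩) = 0 := by
      rw [pi_eq_zero_iff]
      exact hab
    rw [map_sub, sub_eq_zero] at h1
    exact h1.symm

end Inertia

namespace TwoVal.RatDat

variable {L k : Type*} [Field L] [Field k]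
variable {F F₁ : Type*} [Field F] [Field F₁] [Algebra L F] [Algebra k F₁]
variable {T : TwoVal L k F F₁} [HasPrincipalDivisors L F] {p : Pencil T.toRData}
  (R : T.RatDat p)

/-- rational functions have slopes -/
theorem exists_slopeAt {f : F} (hf : f ∈ R.FK) (hf0 : f ≠ 0) :
    ∃ (s : ℤ) (x₁ x₂ : F₁), T.SlopeAt (R.ϖ : L) f s x₁ x₂ := by
  obtain ⟨a, x₁, hx₁, h₁⟩ := R.scale₁ f hf hf0
  obtain ⟨b, x₂, hx₂, h₂⟩ := R.scale₂ f hf hf0
  refine ⟨a - b, x₁, x₂, hx₁, hx₂, (R.ϖ : L) ^ a, zpow_ne_zero _ R.ne, h₁, ?_⟩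
  rw [← zpow_neg, ← zpow_add₀ R.ne]
  convert h₂ using 3
  ring

variable [HasPrincipalDivisors k F₁] [IsFF L F] [IsFF k F₁] [IsAlgClosed k]

/-- **vanishing slope implies divisible reductions** -/
theorem KL.isSp {ι : Type*} [Fintype ι] {Z : p.NodeDat ι} (H : R.KL Z) {n : ℕ}
    {D : Divisor L F} (hD : D ∈ R.𝒟) {f : F} {s : ℤ} {x₁ x₂ : F₁}
    (hf : T.SlopeAt (R.ϖ : L) f s x₁ x₂) (hnD : ∀ v : Place L F, (n : ℤ) * D v = v.ord f)
    (hs : (n : ℤ) ∣ s) : ∃ B₁ B₂ : Divisor k F₁, T.IsSp n D B₁ B₂ := by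
  obtain ⟨s', rfl⟩ := hs
  obtain ⟨h1, h2⟩ := H.slope D hD n f _ x₁ x₂ hf hnD
  refine ⟨p.J false D + s' • Z.div false, p.J true D - s' • Z.div true, f, hf.ne_zero, hnD, x₁, x₂,
    hf.1, hf.2.1, hf.hasRes₁, hf.hasRes₂ R.ne, fun x => ?_, fun x => ?_⟩
  · rw [Finsupp.add_apply, Finsupp.smul_apply, smul_eq_mul, Z.div_apply, mul_add, h1]
    ring
  · rw [Finsupp.sub_apply, Finsupp.smul_apply, smul_eq_mul, Z.div_apply, mul_sub, h2]
    ring

end TwoVal.RatDat

end Fermat.Agent.BadRed
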