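import Fermat.Agent.BadRed.LocalPkgQb
import Fermat.Agent.BadRed.KLat5
import Fermat.Agent.BadRed.KLat8
import Fermat.Agent.BadRed.HeckeER
import Fermat.Agent.NodeCount.Main
import Fermat.Agent.LLu.UnitRes

/-!
# The lattice theorem for `X₀(N r)` over the fixed field of inertia
-/

set_option autoImplicit false
set_option linter.unusedSectionVars false

noncomputable section

open AlgebraicCurve Module IntermediateField ModularCurve HahnSeries

namespace Fermat.Agent.BadRed

open Fermat.Agent.FunField Fermat.Agent.FunField.PlaceLemmas Fermat.Agent.Igusa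
  Fermat.Agent.Deuring Fermat.Agent.AtkinLehner Fermat.Agent.HeckeRed Fermat.Agent.Degen

section Unit

variable {L : Type*} [Field L] [Algebra ℚ L] [IsAlgClosed L] (ι : L →+* ℂ)
  (A : ValuationSubring L)
  {κ : Type*} [Field κ] [IsAlgClosed κ] (π : A →+* κ) [IsLocalHom π]
  (hπ : Function.Surjective π) (harch : ArchA π)
  (N r : ℕ) [hr : Fact r.Prime] [hN : NeZero N] [CharP κ r] (hrN : ¬ r ∣ N)

include ι in
theorem uL_ne_zero' : (LLu.u0 ι N r : modularFunctionFieldFullC L (N * r)) ≠ 0 := by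
  intro h
  have h1 := congrArg (fun x : modularFunctionFieldFullC L (N * r) => (x : LaurentSeries L)) h
  rw [LLu.coe_u0] at h1
  exact MzCusp.uL_ne_zero r L h1

/-- the residue of the unit -/
def ubr : modularFunctionFieldFullC κ N :=
  ⟨MzCusp.uL κ r, LLu.uL_mem_full_res ι A π hπ harch N r hrN⟩

/-- **the modular unit has slope `12`** -/
theorem slope_u0 [CharZero L] (ϖ : A) (hϖ : (ϖ : L) = (r : L)) :
    (twoVal A π hπ harch N r hrN).SlopeAt (ϖ : L) (LLu.u0 ι N r) (12 : ℕ)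
      (ubr ι A π hπ harch N r hrN) (ubr ι A π hπ harch N r hrN)⁻¹ := by
  have h0 : ubr ι A π hπ harch N r hrN ≠ 0 := by
    intro h
    exact MzCusp.uL_ne_zero r κ (congrArg Subtype.val h)
  have hu0 := uL_ne_zero' ι N r
  have hrL : (r : L) ≠ 0 := cast_ne_zero_Lr L r
  have e1 : (twoVal A π hπ harch N r hrN).V₁.ER (LLu.u0 ι N r) (ubr ι A π hπ harch N r hrN) := by
    rw [er₁_gauss]
    have h1 : (LLu.u0 ι N r : LaurentSeries L) ∈ gaussRing A π := by
      rw [LLu.coe_u0]
      exact LLu.uL_mem_gauss A π r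
    refine ⟨h1, ?_⟩
    have h2 : (ubr ι A π hπ harch N r hrN : LaurentSeries κ) = MzCusp.uL κ r := rfl
    rw [h2, ← LLu.gaussRes_uL A π r (LLu.uL_mem_gauss A π r)]
    exact gaussRes_congr (LLu.coe_u0 ι N r)
  refine ⟨h0, inv_ne_zero h0, 1, one_ne_zero, ?_, ?_⟩
  · rw [one_smul]
    exact e1
  · rw [er₂_iff]
    have h3 : ww L N r hrN (LLu.u0 ι N r) * LLu.u0 ι N r =
        algebraMap L (modularFunctionFieldFullC L (N * r)) ((r : L) ^ 12) :=
      LLu.w_u0 ι N r (cast_ne_zero_L L N) (cast_ne_zero_Lr L r) hrN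
    have h4 : ww L N r hrN ((1 * ((ϖ : L) ^ ((12 : ℕ) : ℤ))⁻¹) • LLu.u0 ι N r) =
        (LLu.u0 ι N r)⁻¹ := by
      apply eq_inv_of_mul_eq_one_left
      rw [one_mul, Algebra.smul_def, map_mul, AlgEquiv.commutes, mul_assoc, h3, hϖ,
        ← map_mul, zpow_natCast, inv_mul_cancel₀ (pow_ne_zero _ hrL), map_one]
    rw [h4]
    exact e1.inv h0

theorem u0_mem [CharZero L] {p : FrobPencil (twoVal A π hπ harch N r hrN).toRData}
    [IsFF L (modularFunctionFieldFullC L (N * r))]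
    (hp : (p.t : modularFunctionFieldFullC L (N * r)) = jF L (N * r) * CP.jrF L N r) :
    ∃ c : ℕ, LLu.u0 ι N r ∈ riemannRochSpace (c • p.E) ∧
      (LLu.u0 ι N r)⁻¹ ∈ riemannRochSpace (c • p.E) := by
  have hu0 := uL_ne_zero' ι N r
  have : NeZero (N * r) := ⟨mul_ne_zero (NeZero.ne N) hr.out.ne_zero⟩
  have hE : p.E = poleDiv (p.t : modularFunctionFieldFullC L (N * r)) := by
    ext v
    rw [p.hE, poleDiv_apply, max_comm]
  have hj : ∀ v : Place L (modularFunctionFieldFullC L (N * r)),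
      0 ≤ v.ord (p.t : modularFunctionFieldFullC L (N * r)) → 0 ≤ v.ord (jF L (N * r)) := by
    intro v hv
    by_contra hcon
    push Not at hcon
    have hwj : ww L N r hrN (jF L (N * r)) = CP.jrF L N r := CP.w_jF
    have h1 := (CP.pole_iff_of_involution (ww L N r hrN) (fun f => ww_ww L N r hrN f)
      (jF L (N * r)) (fun v hv => by
        rw [hwj]
        exact CP.jF_pole_reg v hv) v).mp hcon
    rw [hwj] at h1
    have hj0 : jF L (N * r) ≠ 0 := by
      intro h; rw [h] at hcon; simp at hcon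
    have hj1 : CP.jrF L N r ≠ 0 := by
      intro h; rw [h] at h1; simp at h1
    rw [hp, v.ord_mul hj0 hj1] at hv
    omega
  have hord : ∀ v : Place L (modularFunctionFieldFullC L (N * r)),
      0 ≤ v.ord (p.t : modularFunctionFieldFullC L (N * r)) → v.ord (LLu.u0 ι N r) = 0 :=
    fun v hv => LLu.ord_u0 ι N r rfl _ (jF L (N * r)) (LLu.coe_u0 ι N r) rfl v (hj v hv)
  obtain ⟨c₁, h₁⟩ := LLu.exists_mem_rr_poleDiv (K := L)
    (t := (p.t : modularFunctionFieldFullC L (N * r))) hu0 (fun v hv => (hord v hv).ge)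
  obtain ⟨c₂, h₂⟩ := LLu.exists_mem_rr_poleDiv (K := L)
    (t := (p.t : modularFunctionFieldFullC L (N * r))) (inv_ne_zero hu0) (fun v hv => by
    rw [v.ord_inv, hord v hv, neg_zero])
  exact ⟨max c₁ c₂, hE ▸ h₁ _ (le_max_left _ _), hE ▸ h₂ _ (le_max_right _ _)⟩

end Unit

section OverQb

local notation "Qb" => AlgebraicClosure ℚ

variable {A : ValuationSubring Qb}
  {κ : Type*} [Field κ] [IsAlgClosed κ] (π : A →+* κ) [IsLocalHom π]
  (hπ : Function.Surjective π) (harch : ArchA π)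
  (N r : ℕ) [hr : Fact r.Prime] [hN : NeZero N] [CharP κ r] (hrN : ¬ r ∣ N)
  (hA : A.LiesOverPrime r)
  (hg : genusFF κ (modularFunctionFieldFullC κ N) =
    genusFF Qb (modularFunctionFieldFullC Qb N))
  (d : CP.DecAut A π) (hd : CP.IsFrob d r)

/-- inertia as semilinear automorphisms -/
abbrev IΓ (A : ValuationSubring Qb) (M : ℕ) :
    Set (SemilinearAut Qb (modularFunctionFieldFullC Qb M)) := coefΓ Qb M (inertΓ A)

/-- the rational structure of `X₀(N r)` over the fixed field of inertia -/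
def RQ : (twoVal A π hπ harch N r hrN).RatDat
    (CP.pen A π hπ harch N r hrN hg d hd).toPencil :=
  haveI : NeZero (N * r) := ⟨mul_ne_zero (NeZero.ne N) hr.out.ne_zero⟩
  haveI : IsGalois ℚ Qb := {}
  ratDatX A π hπ harch N r hrN (constForm A π hπ hr.out hA)
    (CP.pen A π hπ harch N r hrN hg d hd).toPencil
    TorsInj.rrLarge_genusFF harch (mem_fixF_coefΓ.mp (by
      rintro g ⟨σ, hσ, hgc⟩
      exact CP.smul_pen_t A π hπ harch N r hrN hg d hd hgc))

theorem RQ_FK : (RQ π hπ harch N r hrN hA hg d hd).FK = fixF (IΓ A (N * r)) := rfl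

theorem RQ_𝒟 : (RQ π hπ harch N r hrN hA hg d hd).𝒟 = fixD (IΓ A (N * r)) := rfl

theorem RQ_ϖ : (RQ π hπ harch N r hrN hA hg d hd).ϖ = (r : A) := rfl

theorem Eb_iff (v : Place κ (modularFunctionFieldFullC κ N)) :
    (CP.pen A π hπ harch N r hrN hg d hd).Eb v ≠ 0 ↔ v.ord (jF κ N) < 0 := by
  rw [(CP.pen A π hπ harch N r hrN hg d hd).hEb, CP.pen_tb, ord_pow]
  have h1 : (0 : ℤ) < ((1 + r : ℕ) : ℤ) := by positivity
  constructor
  · intro h
    by_contra hcon
    push Not at hcon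
    apply h
    rw [max_eq_left]
    have := mul_nonneg h1.le hcon
    linarith
  · intro h h0
    have h2 := mul_neg_of_pos_of_neg h1 h
    rw [max_eq_right (by linarith)] at h0
    linarith

/-- **The lattice theorem for `X₀(N r)`.** -/
theorem exists_KLQ (ι : Qb →+* ℂ) (hE : NodeCount.NoEll N r) :
    haveI : NeZero (N * r) := ⟨mul_ne_zero (NeZero.ne N) hr.out.ne_zero⟩
    ∃ (_ : Fintype (CP.pen A π hπ harch N r hrN hg d hd).Pt)
      (Z : (CP.pen A π hπ harch N r hrN hg d hd).toPencil.NodeDat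
        (CP.pen A π hπ harch N r hrN hg d hd).Pt),
      (RQ π hπ harch N r hrN hA hg d hd).KL Z ∧
      (∀ b x (a : (CP.pen A π hπ harch N r hrN hg d hd).OO),
        (CP.pen A π hπ harch N r hrN hg d hd).ptHom b x a = 0 ↔
          ((a : modularFunctionFieldFullC κ N) = 0 ∨
            1 ≤ (Z.z b x).ord (a : modularFunctionFieldFullC κ N))) ∧
      (genusFF Qb (modularFunctionFieldFullC Qb (N * r)) : ℤ) =
        2 * genusFF κ (modularFunctionFieldFullC κ N) +
          Fintype.card (CP.pen A π hπ harch N r hrN hg d hd).Pt - 1 := by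
  have : NeZero (N * r) := ⟨mul_ne_zero (NeZero.ne N) hr.out.ne_zero⟩
  have H := CP.pen_hyp A π hπ harch N r hrN hg d hd
  obtain ⟨hfin, Z, hZ, hcard⟩ := (CP.pen A π hπ harch N r hrN hg d hd).exists_nodeDat H.hRR H.hRR₁
    H.hpos
  refine ⟨hfin, Z, ?_, hZ, hcard⟩
  obtain ⟨c, hc1, hc2⟩ := u0_mem ι A π hπ harch N r hrN
    (p := CP.pen A π hπ harch N r hrN hg d hd) (CP.pen_t A π hπ harch N r hrN hg d hd)
  have hu := slope_u0 ι A π hπ harch N r hrN
    (RQ π hπ harch N r hrN hA hg d hd).ϖ (by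
      rw [RQ_ϖ]
      push_cast
      rfl)
  have hdeg := NodeCount.exists_hdeg ι (κ := κ) hrN hE
    (c := Fintype.card (CP.pen A π hπ harch N r hrN hg d hd).Pt) H.hRR H.hRR₁ hg (by
      rw [hcard]; ring) (Eb := (CP.pen A π hπ harch N r hrN hg d hd).Eb)
    (Eb_iff π hπ harch N r hrN hg d hd)
    (y := ubr ι A π hπ harch N r hrN) rfl
  exact (RQ π hπ harch N r hrN hA hg d hd).exists_KL H.hRR H.hpos Z H.hRR₁ hcard
    (by norm_num : (12 : ℕ) ≠ 0) hu hc1 hc2 (by exact_mod_cast hdeg)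

end OverQb

end Fermat.Agent.BadRed
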