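import Fermat.Agent.BadRed.PencilO

/-!
# Reductions of divisors: the divisors `J b D`
-/

set_option autoImplicit false

noncomputable section

open AlgebraicCurve Module IntermediateField

namespace Fermat.Agent.BadRed

open Fermat.Agent.FunField Fermat.Agent.FunField.PlaceLemmas Fermat.Agent.Deuring

section DivLattice

variable {k F₁ : Type*} [Field k] [Field F₁] [Algebra k F₁]

theorem inf_mem_rr {A B : Divisor k F₁} {f : F₁} (hA : f ∈ riemannRochSpace A)
    (hB : f ∈ riemannRochSpace B) : f ∈ riemannRochSpace (A ⊓ B) := by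
  rcases eq_or_ne f 0 with rfl | hf
  · exact Submodule.zero_mem _
  rw [mem_rr_of_ne hf] at *
  intro v
  have h1 := hA v
  have h2 := hB v
  rw [Finsupp.inf_apply]
  rcases le_total (A v) (B v) with h | h
  · rw [inf_eq_left.mpr h]; exact h1
  · rw [inf_eq_right.mpr h]; exact h2

/-- a nonempty set of divisors closed under `⊓` and bounded below has a least element. -/
theorem exists_isLeast_div [IsFF k F₁] (S : Set (Divisor k F₁)) (hne : S.Nonempty)
    (hinf : ∀ A ∈ S, ∀ B ∈ S, A ⊓ B ∈ S) {B₀ : Divisor k F₁} (hB₀ : ∀ B ∈ S, B₀ ≤ B) :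
    ∃ B, IsLeast S B := by
  classical
  obtain ⟨B, hB, hmin⟩ : ∃ B ∈ S, ∀ B' ∈ S, Divisor.degree B ≤ Divisor.degree B' := by
    obtain ⟨C, hC⟩ := hne
    let P : ℤ → Prop := fun n => ∃ B ∈ S, Divisor.degree B = n
    have hbd : ∃ b : ℤ, ∀ z, P z → b ≤ z := ⟨Divisor.degree B₀, by
      rintro z ⟨B, hB, rfl⟩
      exact degree_mono (hB₀ B hB)⟩
    obtain ⟨n, ⟨B, hB, hn⟩, h2⟩ := Int.exists_least_of_bdd hbd ⟨_, C, hC, rfl⟩
    exact ⟨B, hB, fun B' hB' => by rw [hn]; exact h2 _ ⟨B', hB', rfl⟩⟩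
  refine ⟨B, hB, fun B' hB' => ?_⟩
  have h1 := hmin _ (hinf B hB B' hB')
  have h2 := eq_of_le_of_degree_le (inf_le_left : B ⊓ B' ≤ B) h1
  rw [← h2]
  exact inf_le_right

end DivLattice

variable {L k F F₁ : Type*} [Field L] [Field k] [Field F] [Field F₁] [Algebra L F] [Algebra k F₁]
  {𝔇 : RData L k F (F₁ × F₁)}

/-- the projections -/
def pr (k F₁ : Type*) [Field k] [Field F₁] [Algebra k F₁] (b : Bool) : F₁ × F₁ →ₐ[k] F₁ :=
  match b with
  | false => AlgHom.fst k F₁ F₁
  | true => AlgHom.snd k F₁ F₁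

@[simp] theorem pr_false (q : F₁ × F₁) : pr k F₁ false q = q.1 := rfl
@[simp] theorem pr_true (q : F₁ × F₁) : pr k F₁ true q = q.2 := rfl

@[simp] theorem pr_diag (b : Bool) (a : F₁) : pr k F₁ b (a, a) = a := by
  cases b <;> rfl

theorem eq_of_pr {q : F₁ × F₁} {b : Bool} (h : pr k F₁ b q = 0) (h' : pr k F₁ (!b) q = 0) :
    q = 0 := by
  cases b
  · exact Prod.ext h h'
  · exact Prod.ext h' h

namespace Pencil

variable (p : Pencil 𝔇)

/-- traces on the special fibre -/
def Tr (D : Divisor L F) (m : ℕ) : Submodule k (F₁ × F₁) := 𝔇.red (riemannRochSpace (m • p.E + D))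

theorem mem_Tr {D : Divisor L F} {m : ℕ} {q : F₁ × F₁} : q ∈ p.Tr D m ↔
    ∃ h : 𝔇.O, (h : F) ∈ riemannRochSpace (m • p.E + D) ∧ 𝔇.res h = q := Iff.rfl

theorem Tr_mul {D D' : Divisor L F} {m m' : ℕ} {q q' : F₁ × F₁} (hq : q ∈ p.Tr D m)
    (hq' : q' ∈ p.Tr D' m') : q * q' ∈ p.Tr (D + D') (m + m') := by
  obtain ⟨h, hh, rfl⟩ := hq
  obtain ⟨h', hh', rfl⟩ := hq'
  refine ⟨h * h', ?_, map_mul _ _ _⟩
  have := mul_mem_rr hh hh'
  have e : (m + m') • p.E + (D + D') = m • p.E + D + (m' • p.E + D') := by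
    rw [add_smul]; abel
  rw [e]
  push_cast
  exact this

theorem Tr_mono {D D' : Divisor L F} (h : D ≤ D') {m m' : ℕ} (hm : m ≤ m') :
    p.Tr D m ≤ p.Tr D' m' :=
  𝔇.red_mono (rr_mono (add_le_add (nsmul_le_nsmul_left p.E_nonneg hm) h))

theorem one_mem_Tr : (1 : F₁ × F₁) ∈ p.Tr 0 0 :=
  ⟨1, by
    have := one_mem_rr (K := L) (F := F) (D := 0 • p.E + 0) (by simp)
    simpa using this, map_one _⟩

variable [IsFF L F] [IsFF k F₁] [HasPrincipalDivisors L F] [HasPrincipalDivisors k F₁]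
  [IsAlgClosed k] {g g₁ : ℤ} (hRR : RRLarge L F g) (hpos : 0 < Divisor.degree p.Eb)

include hpos in
theorem exists_Eb_pos : ∃ x, 0 < p.Eb x := by
  by_contra hcon
  push Not at hcon
  have h0 : p.Eb = 0 := by
    ext v
    have h1 := Finsupp.le_def.mp p.Eb_nonneg v
    rw [Finsupp.zero_apply] at h1 ⊢
    exact le_antisymm (hcon v) h1
  rw [h0, map_zero] at hpos
  exact lt_irrefl _ hpos

include hpos in
theorem transcendental_tb : Transcendental k p.tb := by
  obtain ⟨x, hx⟩ := p.exists_Eb_pos hpos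
  apply transcendental_of_ord_ne_zero x
  rw [p.hEb x] at hx
  intro h
  rw [h] at hx
  simp at hx

include hRR hpos in
/-- a function in `L(cE - D)` reducing to the same nonzero function on both components -/
theorem exists_common (D : Divisor L F) : ∃ (c : ℕ) (h : 𝔇.O) (a : F₁), a ≠ 0 ∧
    𝔇.res h = (a, a) ∧ (h : F) ∈ riemannRochSpace (c • p.E - D) := by
  classical
  have htr := p.transcendental_tb hpos
  have hli₁ : LinearIndependent k (fun i : ℕ => p.tb ^ i) :=
    linearIndependent_pow_of_transcendental htr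
  set D' : Divisor L F := D ⊔ 0 with hD'
  have hD'0 : 0 ≤ D' := le_sup_right
  have hDD' : D ≤ D' := le_sup_left
  have hRR' := hRR
  obtain ⟨c₀, hc₀⟩ := hRR'
  have hdE : 1 ≤ Divisor.degree p.E := by rw [p.deg_eq]; omega
  have hdD' := degree_nonneg hD'0
  obtain ⟨c, hc1⟩ : ∃ c : ℕ, c = (max c₀ 0 + Divisor.degree D').toNat := ⟨_, rfl⟩
  have hc2 : max c₀ 0 + Divisor.degree D' ≤ c := by rw [hc1]; exact Int.self_le_toNat _
  have hm1 := le_max_left c₀ 0
  have hm2 := le_max_right c₀ 0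
  have hcE : (c : ℤ) ≤ c * Divisor.degree p.E := by nlinarith [Int.natCast_nonneg c]
  have hA1 : c₀ ≤ Divisor.degree (c • p.E) := by
    rw [map_nsmul, nsmul_eq_mul]; linarith
  have hA2 : c₀ ≤ Divisor.degree (c • p.E - D') := by
    rw [map_sub, map_nsmul, nsmul_eq_mul]; linarith
  obtain ⟨hfd1, hrk1⟩ := hc₀ _ hA1
  obtain ⟨hfd2, hrk2⟩ := hc₀ _ hA2
  -- the span of the powers of `t`
  let w : Fin (c + 1) → F := fun i => (p.t : F) ^ (i : ℕ)
  have hres : LinearIndependent k (fun i : Fin (c + 1) => 𝔇.res (p.t ^ (i : ℕ))) := by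
    have h1 : LinearIndependent k (fun i : Fin (c + 1) => p.tb ^ (i : ℕ)) :=
      hli₁.comp (fun i : Fin (c + 1) => (i : ℕ)) Fin.val_injective
    apply LinearIndependent.of_comp (LinearMap.fst k F₁ F₁)
    convert h1 using 1
    funext i
    simp only [Function.comp_apply, map_pow, p.res_t, LinearMap.fst_apply]
    rfl
  have hliw : LinearIndependent L w := by
    have := 𝔇.linearIndependent_of_res _ hres
    simpa [w] using this
  set W : Submodule L F := Submodule.span L (Set.range w) with hW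
  have hWE : W ≤ riemannRochSpace (c • p.E) := by
    rw [hW, Submodule.span_le]
    rintro _ ⟨i, rfl⟩
    exact rr_mono (nsmul_le_nsmul_left p.E_nonneg (by have := i.2; omega))
      (pow_mem_rr p.t_mem i)
  have hWdim : finrank L W = c + 1 := by
    rw [hW, finrank_span_eq_card hliw, Fintype.card_fin]
  have hfdW : FiniteDimensional L W := FiniteDimensional.span_of_finite L (Set.finite_range _)
  have hVE : riemannRochSpace (c • p.E - D') ≤ riemannRochSpace (c • p.E) :=
    rr_mono (sub_le_self _ hD'0)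
  have h1 := Submodule.finrank_sup_add_finrank_inf_eq W (riemannRochSpace (c • p.E - D'))
  have h2 := Submodule.finrank_mono (sup_le hWE hVE)
  have hpos' : 0 < finrank L (W ⊓ riemannRochSpace (c • p.E - D') : Submodule L F) := by
    rw [map_nsmul, nsmul_eq_mul] at hrk1
    rw [map_sub, map_nsmul, nsmul_eq_mul] at hrk2
    zify at h1 h2 ⊢
    rw [hWdim] at h1
    push_cast at h1
    linarith
  obtain ⟨⟨x, hxW, hxD⟩, hx0⟩ := Module.finrank_pos_iff_exists_ne_zero.mp hpos'
  have hx0' : x ≠ 0 := fun h => hx0 (Subtype.ext h)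
  obtain ⟨e, he⟩ := (Submodule.mem_span_range_iff_exists_fun L).mp hxW
  have hene : e ≠ 0 := by
    rintro rfl
    apply hx0'
    rw [← he]; simp
  obtain ⟨j, hj0, hj⟩ := 𝔇.exists_scale e hene
  let d : Fin (c + 1) → 𝔇.A := fun i => ⟨e i / e j, hj i⟩
  refine ⟨c, ∑ i, 𝔇.cst (d i) * p.t ^ (i : ℕ), ∑ i, 𝔇.π (d i) • p.tb ^ (i : ℕ), ?_, ?_, ?_⟩
  · intro h0
    have h1 : LinearIndependent k (fun i : Fin (c + 1) => p.tb ^ (i : ℕ)) :=
      hli₁.comp (fun i : Fin (c + 1) => (i : ℕ)) Fin.val_injective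
    have h2 := Fintype.linearIndependent_iff.mp h1 _ h0 j
    have h3 : d j = 1 := Subtype.ext (div_self hj0)
    rw [h3, map_one] at h2
    exact one_ne_zero h2
  · rw [map_sum]
    have h3 : ∀ i, 𝔇.res (𝔇.cst (d i) * p.t ^ (i : ℕ))
        = (𝔇.π (d i) • p.tb ^ (i : ℕ), 𝔇.π (d i) • p.tb ^ (i : ℕ)) := by
      intro i
      rw [map_mul, map_pow, 𝔇.res_cst, p.res_t, Algebra.smul_def]
      rfl
    simp only [h3]
    refine Prod.ext ?_ ?_
    · rw [Prod.fst_sum]
    · rw [Prod.snd_sum]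
  · have h4 : ((∑ i, 𝔇.cst (d i) * p.t ^ (i : ℕ) : 𝔇.O) : F) = (e j)⁻¹ • x := by
      rw [← he, Finset.smul_sum]
      push_cast
      refine Finset.sum_congr rfl fun i _ => ?_
      rw [𝔇.coe_cst, smul_smul, Algebra.smul_def]
      show algebraMap L F (e i / e j) * _ = _
      rw [div_eq_inv_mul]
    rw [h4]
    exact Submodule.smul_mem _ _ (rr_mono (sub_le_sub_left hDD' _) hxD)

/-- admissible bounds -/
def BB (b : Bool) (D : Divisor L F) : Set (Divisor k F₁) :=
  {B | ∀ m, ∀ q ∈ p.Tr D m, pr k F₁ b q ∈ riemannRochSpace (m • p.Eb + B)}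

include hRR in
theorem pr_mem_of_Tr_zero (b : Bool) {m : ℕ} {q : F₁ × F₁} (hq : q ∈ p.Tr 0 m) :
    pr k F₁ b q ∈ riemannRochSpace (m • p.Eb) := by
  have h1 : q ∈ 𝔇.red (riemannRochSpace (m • p.E)) := by
    have := hq
    rw [Tr, add_zero] at this
    exact this
  have h2 := p.red_le hRR m h1
  cases b
  · exact h2.1
  · exact h2.2

include hRR hpos in
theorem exists_isLeast (b : Bool) (D : Divisor L F) : ∃ B, IsLeast (p.BB b D) B := by
  obtain ⟨c, h, a, ha, hha, hc⟩ := p.exists_common hRR hpos D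
  obtain ⟨c', h', a', ha', hha', hc'⟩ := p.exists_common hRR hpos (-D)
  refine exists_isLeast_div _ ⟨c • p.Eb + dv (K := k) a ha, ?_⟩ ?_
    (B₀ := -dv (K := k) a' ha' - c' • p.Eb) ?_
  · intro m q hq
    have h1 : q * (a, a) ∈ p.Tr 0 (m + c) := by
      have h2 := p.Tr_mul hq (D' := -D) (m' := c) ⟨h, by rw [← sub_eq_add_neg]; exact hc, hha⟩
      rwa [add_neg_cancel] at h2
    have h2 := p.pr_mem_of_Tr_zero hRR b h1
    rw [map_mul, pr_diag] at h2
    rw [mul_comm, mul_mem_rr_iff ha (G := dv (K := k) a ha) (fun v => dv_apply ha v)] at h2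
    have e : m • p.Eb + (c • p.Eb + dv (K := k) a ha) = (m + c) • p.Eb + dv (K := k) a ha := by
      rw [add_smul]; abel
    rw [e]
    exact h2
  · intro A hA B hB m q hq
    have h1 := inf_mem_rr (hA m q hq) (hB m q hq)
    have e : (m • p.Eb + A) ⊓ (m • p.Eb + B) = m • p.Eb + A ⊓ B := by
      ext v
      simp only [Finsupp.inf_apply, Finsupp.add_apply]
      exact (add_min _ _ _).symm
    rwa [e] at h1
  · intro B hB
    have h1 : (a', a') ∈ p.Tr D c' := ⟨h', by rw [sub_neg_eq_add] at hc'; exact hc', hha'⟩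
    have h2 := hB c' _ h1
    rw [pr_diag, mem_rr_of_ne ha'] at h2
    rw [Finsupp.le_def]
    intro v
    have h3 := h2 v
    rw [Finsupp.add_apply] at h3
    rw [Finsupp.sub_apply, Finsupp.neg_apply, dv_apply]
    omega

open Classical in
/-- the reduction of the divisor `D` on the component `b` -/
def J (b : Bool) (D : Divisor L F) : Divisor k F₁ :=
  if h : ∃ B, IsLeast (p.BB b D) B then h.choose else 0

include hRR hpos in
theorem isLeast_J (b : Bool) (D : Divisor L F) : IsLeast (p.BB b D) (p.J b D) := by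
  have h := p.exists_isLeast hRR hpos b D
  rw [J, dif_pos h]
  exact h.choose_spec

include hRR hpos in
theorem mem_J (b : Bool) {D : Divisor L F} {m : ℕ} {q : F₁ × F₁} (hq : q ∈ p.Tr D m) :
    pr k F₁ b q ∈ riemannRochSpace (m • p.Eb + p.J b D) :=
  (p.isLeast_J hRR hpos b D).1 m q hq

include hRR hpos in
theorem ord_ge (b : Bool) {D : Divisor L F} {m : ℕ} {q : F₁ × F₁} (hq : q ∈ p.Tr D m)
    (h0 : pr k F₁ b q ≠ 0) (x : Place k F₁) :
    -(m * p.Eb x + p.J b D x) ≤ x.ord (pr k F₁ b q) := by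
  have h1 := (mem_rr_of_ne h0).mp (p.mem_J hRR hpos b hq) x
  rwa [Finsupp.add_apply, Finsupp.smul_apply, nsmul_eq_mul] at h1

include hRR hpos in
theorem J_le (b : Bool) {D : Divisor L F} {B : Divisor k F₁}
    (h : ∀ m, ∀ q ∈ p.Tr D m, pr k F₁ b q ∈ riemannRochSpace (m • p.Eb + B)) : p.J b D ≤ B :=
  (p.isLeast_J hRR hpos b D).2 h

include hRR hpos in
theorem attained (b : Bool) (D : Divisor L F) (x : Place k F₁) : ∃ m, ∃ q ∈ p.Tr D m,
    pr k F₁ b q ≠ 0 ∧ x.ord (pr k F₁ b q) = -(m * p.Eb x + p.J b D x) := by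
  by_contra hcon
  push Not at hcon
  have h1 : p.J b D ≤ p.J b D - Finsupp.single x 1 := by
    apply p.J_le hRR hpos b
    intro m q hq
    rcases eq_or_ne (pr k F₁ b q) 0 with h0 | h0
    · rw [h0]; exact Submodule.zero_mem _
    rw [mem_rr_of_ne h0]
    intro v
    have h2 := p.ord_ge hRR hpos b hq h0 v
    rw [Finsupp.add_apply, Finsupp.smul_apply, nsmul_eq_mul, Finsupp.sub_apply]
    by_cases hv : v = x
    · subst hv
      have h3 := hcon m q hq h0
      rw [Finsupp.single_eq_same]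
      omega
    · rw [Finsupp.single_eq_of_ne hv]
      omega
  have h2 := Finsupp.le_def.mp h1 x
  rw [Finsupp.sub_apply, Finsupp.single_eq_same] at h2
  omega

end Pencil

end Fermat.Agent.BadRed
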