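import Fermat.Agent.BadRed.KLat1

/-!
# Reductions of divisors: additivity from the nonsplit property
-/

set_option autoImplicit false
set_option linter.unusedSectionVars false

noncomputable section

open AlgebraicCurve Module IntermediateField

namespace Fermat.Agent.BadRed

open Fermat.Agent.FunField Fermat.Agent.FunField.PlaceLemmas Fermat.Agent.Deuring

variable {L k F F₁ : Type*} [Field L] [Field k] [Field F] [Field F₁] [Algebra L F] [Algebra k F₁]
  {𝔇 : RData L k F (F₁ × F₁)}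

namespace Pencil

variable (p : Pencil 𝔇)
variable [IsFF L F] [IsFF k F₁] [HasPrincipalDivisors L F] [HasPrincipalDivisors k F₁]
  [IsAlgClosed k] {g g₁ : ℤ} (hRR : RRLarge L F g) (hpos : 0 < Divisor.degree p.Eb)

include hRR hpos in
theorem J_add_le (b : Bool) (D D' : Divisor L F) : p.J b D + p.J b D' ≤ p.J b (D + D') := by
  rw [Finsupp.le_def]
  intro x
  obtain ⟨m, q, hq, hq0, hx⟩ := p.attained hRR hpos b D x
  obtain ⟨m', q', hq', hq0', hx'⟩ := p.attained hRR hpos b D' x
  have h1 := p.Tr_mul hq hq'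
  have h0 : pr k F₁ b (q * q') ≠ 0 := by rw [map_mul]; exact mul_ne_zero hq0 hq0'
  have h2 := p.ord_ge hRR hpos b h1 h0 x
  rw [map_mul, x.ord_mul hq0 hq0', hx, hx'] at h2
  rw [Finsupp.add_apply]
  push_cast at h2
  linarith

include hRR hpos in
theorem J_mono (b : Bool) {D D' : Divisor L F} (h : D ≤ D') : p.J b D ≤ p.J b D' := by
  apply p.J_le hRR hpos b
  intro m q hq
  exact p.mem_J hRR hpos b (p.Tr_mono h le_rfl hq)

include hRR hpos in
theorem J_zero (b : Bool) : p.J b 0 = 0 := by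
  apply le_antisymm
  · apply p.J_le hRR hpos b
    intro m q hq
    rw [add_zero]
    exact p.pr_mem_of_Tr_zero hRR b hq
  · rw [Finsupp.le_def]
    intro x
    have h0 : pr k F₁ b (1 : F₁ × F₁) ≠ 0 := by rw [map_one]; exact one_ne_zero
    have h1 := p.ord_ge hRR hpos b p.one_mem_Tr h0 x
    rw [map_one, x.ord_one] at h1
    rw [Finsupp.zero_apply]
    simp at h1
    exact h1

/-- multiplication by a unit of the pencil -/
theorem Tr_dv {η η' : 𝔇.O} (hηη' : (η : F) * η' = 1) {G : Divisor L F}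
    (hG : ∀ v, G v = v.ord (η : F)) {D : Divisor L F} {m : ℕ} {q : F₁ × F₁}
    (hq : q ∈ p.Tr D m) : q * 𝔇.res η' ∈ p.Tr (D + G) m := by
  obtain ⟨h, hh, rfl⟩ := hq
  have hη0 : (η : F) ≠ 0 := left_ne_zero_of_mul_eq_one hηη'
  refine ⟨h * η', ?_, map_mul _ _ _⟩
  rw [← add_assoc, ← mul_mem_rr_iff hη0 hG]
  have e : (η : F) * ((h * η' : 𝔇.O) : F) = h := by
    push_cast
    calc (η : F) * (h * η') = h * (η * η') := by ring
      _ = h := by rw [hηη', mul_one]
  rw [e]
  exact hh

theorem J_dv_aux (b : Bool) {η η' : 𝔇.O} (hηη' : (η : F) * η' = 1) :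
    pr k F₁ b (𝔇.res η) * pr k F₁ b (𝔇.res η') = 1 := by
  have h : η * η' = 1 := Subtype.ext hηη'
  rw [← map_mul, ← map_mul, h, map_one, map_one]

include hRR hpos in
/-- change of `D` by the divisor of a unit -/
theorem J_add_dv (b : Bool) {η η' : 𝔇.O} (hηη' : (η : F) * η' = 1) {G : Divisor L F}
    (hG : ∀ v, G v = v.ord (η : F)) (D : Divisor L F) (x : Place k F₁) :
    p.J b (D + G) x = p.J b D x + x.ord (pr k F₁ b (𝔇.res η)) := by
  have hu := J_dv_aux (𝔇 := 𝔇) b hηη'
  have hr0 : pr k F₁ b (𝔇.res η) ≠ 0 := left_ne_zero_of_mul_eq_one hu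
  have hr0' : pr k F₁ b (𝔇.res η') ≠ 0 := right_ne_zero_of_mul_eq_one hu
  have hη0 : (η : F) ≠ 0 := left_ne_zero_of_mul_eq_one hηη'
  have hη0' : (η' : F) ≠ 0 := right_ne_zero_of_mul_eq_one hηη'
  have hord : x.ord (pr k F₁ b (𝔇.res η)) + x.ord (pr k F₁ b (𝔇.res η')) = 0 := by
    rw [← x.ord_mul hr0 hr0', hu, x.ord_one]
  have hG' : ∀ v, (-G) v = v.ord (η' : F) := by
    intro v
    have h1 : v.ord (η : F) + v.ord (η' : F) = 0 := by
      rw [← v.ord_mul hη0 hη0', hηη', v.ord_one]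
    rw [Finsupp.neg_apply, hG]
    omega
  apply le_antisymm
  · obtain ⟨m, q, hq, hq0, hx⟩ := p.attained hRR hpos b (D + G) x
    have h1 := p.Tr_dv (η := η') (η' := η) (by rw [mul_comm]; exact hηη') hG' hq
    rw [add_neg_cancel_right] at h1
    have h0 : pr k F₁ b (q * 𝔇.res η) ≠ 0 := by rw [map_mul]; exact mul_ne_zero hq0 hr0
    have h2 := p.ord_ge hRR hpos b h1 h0 x
    rw [map_mul, x.ord_mul hq0 hr0, hx] at h2
    linarith
  · obtain ⟨m, q, hq, hq0, hx⟩ := p.attained hRR hpos b D x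
    have h1 := p.Tr_dv hηη' hG hq
    have h0 : pr k F₁ b (q * 𝔇.res η') ≠ 0 := by rw [map_mul]; exact mul_ne_zero hq0 hr0'
    have h2 := p.ord_ge hRR hpos b h1 h0 x
    rw [map_mul, x.ord_mul hq0 hr0', hx] at h2
    linarith

include hRR hpos in
theorem J_dv (b : Bool) {η η' : 𝔇.O} (hηη' : (η : F) * η' = 1) {G : Divisor L F}
    (hG : ∀ v, G v = v.ord (η : F)) (x : Place k F₁) :
    p.J b G x = x.ord (pr k F₁ b (𝔇.res η)) := by
  have h := p.J_add_dv hRR hpos b hηη' hG 0 x
  rwa [zero_add, p.J_zero hRR hpos, Finsupp.zero_apply, zero_add] at h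

/-! ### The nonsplit property -/

variable {ι : Type*} [Fintype ι] (z : ι → Place k F₁)

/-- no element of the trace vanishes on the second component and has minimal order at `z i` -/
def Nonsplit (D : Divisor L F) : Prop := ∀ m, ∀ q ∈ p.Tr D m, q.2 = 0 → q.1 ≠ 0 → ∀ i,
  -p.J false D (z i) + 1 ≤ (z i).ord q.1

include hRR hpos in
/-- the degree inequality -/
theorem degree_le_of_nonsplit (hRR₁ : RRLarge k F₁ g₁) (hz : Function.Injective z)
    (hzE : ∀ i, p.Eb (z i) = 0) (hg : g = 2 * g₁ + Fintype.card ι - 1) {D : Divisor L F}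
    (hD : p.Nonsplit z D) :
    Divisor.degree D ≤ Divisor.degree (p.J false D) + Divisor.degree (p.J true D) := by
  classical
  -- the divisor of the nodes
  set Z : Divisor k F₁ := ∑ i, Finsupp.single (z i) 1 with hZ
  have hZdeg : Divisor.degree Z = Fintype.card ι := by
    rw [hZ, map_sum]
    simp [deg_eq_one]
  have hZapp : ∀ v, Z v = if v ∈ Set.range z then 1 else 0 := by
    intro v
    rw [hZ, Finsupp.finsetSum_apply]
    split_ifs with hv
    · obtain ⟨i, rfl⟩ := hv
      rw [Finset.sum_eq_single i]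
      · rw [Finsupp.single_eq_same]
      · intro j _ hj
        rw [Finsupp.single_eq_of_ne]
        exact fun h => hj (hz h).symm
      · intro h
        exact absurd (Finset.mem_univ i) h
    · apply Finset.sum_eq_zero
      intro i _
      rw [Finsupp.single_eq_of_ne]
      rintro rfl
      exact hv ⟨i, rfl⟩
  obtain ⟨c, hc⟩ := hRR
  have hRR : RRLarge L F g := ⟨c, hc⟩
  obtain ⟨c₁, hc₁⟩ := hRR₁
  have hdE : 0 < Divisor.degree p.E := by rw [p.deg_eq]; omega
  obtain ⟨m, hm1, hm2, hm3⟩ : ∃ m : ℕ, c ≤ Divisor.degree (m • p.E + D) ∧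
      c₁ ≤ Divisor.degree (m • p.Eb + p.J true D) ∧
      c₁ ≤ Divisor.degree (m • p.Eb + (p.J false D - Z)) := by
    refine ⟨((c - Divisor.degree D).toNat + (c₁ - Divisor.degree (p.J true D)).toNat +
      (c₁ - Divisor.degree (p.J false D - Z)).toNat), ?_, ?_, ?_⟩
    all_goals
      rw [map_add, map_nsmul, nsmul_eq_mul]
      have h1 := Int.self_le_toNat (c - Divisor.degree D)
      have h2 := Int.self_le_toNat (c₁ - Divisor.degree (p.J true D))
      have h3 := Int.self_le_toNat (c₁ - Divisor.degree (p.J false D - Z))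
      have h4 := Int.natCast_nonneg (c - Divisor.degree D).toNat
      have h5 := Int.natCast_nonneg (c₁ - Divisor.degree (p.J true D)).toNat
      have h6 := Int.natCast_nonneg (c₁ - Divisor.degree (p.J false D - Z)).toNat
      push_cast
      nlinarith
  obtain ⟨hfd, hrk⟩ := hc _ hm1
  obtain ⟨hfd1, hrk1⟩ := hc₁ _ hm2
  obtain ⟨hfd2, hrk2⟩ := hc₁ _ hm3
  have hfdT : FiniteDimensional k (p.Tr D m) := 𝔇.finiteDimensional_red _
  have hdimT : finrank k (p.Tr D m) = finrank L (riemannRochSpace (m • p.E + D)) :=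
    𝔇.finrank_red _
  -- rank-nullity for the second projection
  have h1 := finrank_map_add (LinearMap.snd k F₁ F₁) (p.Tr D m)
  have h2 : (p.Tr D m).map (LinearMap.snd k F₁ F₁) ≤
      riemannRochSpace (m • p.Eb + p.J true D) := by
    rintro _ ⟨q, hq, rfl⟩
    exact p.mem_J hRR hpos true hq
  have h3 := Submodule.finrank_mono h2
  have h4 : (p.Tr D m ⊓ LinearMap.ker (LinearMap.snd k F₁ F₁) : Submodule k (F₁ × F₁)).map
      (LinearMap.fst k F₁ F₁) ≤ riemannRochSpace (m • p.Eb + (p.J false D - Z)) := by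
    rintro _ ⟨q, ⟨hq, hq2⟩, rfl⟩
    rcases eq_or_ne q.1 0 with h0 | h0
    · rw [LinearMap.fst_apply, h0]; exact Submodule.zero_mem _
    rw [LinearMap.fst_apply, mem_rr_of_ne h0]
    intro v
    have h5 := p.ord_ge hRR hpos false hq h0 v
    rw [pr_false] at h5
    rw [Finsupp.add_apply, Finsupp.smul_apply, nsmul_eq_mul, Finsupp.sub_apply, hZapp]
    split_ifs with hv
    · obtain ⟨i, rfl⟩ := hv
      have h6 := hD m q hq hq2 h0 i
      rw [hzE i] at h5 ⊢
      omega
    · omega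
  have h5 := Submodule.finrank_mono h4
  have h6 : finrank k ((p.Tr D m ⊓ LinearMap.ker (LinearMap.snd k F₁ F₁) :
      Submodule k (F₁ × F₁)).map (LinearMap.fst k F₁ F₁)) =
      finrank k (p.Tr D m ⊓ LinearMap.ker (LinearMap.snd k F₁ F₁) : Submodule k (F₁ × F₁)) := by
    have h7 := finrank_map_add (LinearMap.fst k F₁ F₁)
      (p.Tr D m ⊓ LinearMap.ker (LinearMap.snd k F₁ F₁) : Submodule k (F₁ × F₁))
    have h8 : (p.Tr D m ⊓ LinearMap.ker (LinearMap.snd k F₁ F₁)) ⊓
        LinearMap.ker (LinearMap.fst k F₁ F₁) = ⊥ := by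
      rw [eq_bot_iff]
      rintro q ⟨⟨_, hq2⟩, hq1⟩
      exact (Submodule.mem_bot k).mpr (Prod.ext hq1 hq2)
    rw [h8, finrank_bot, add_zero] at h7
    exact h7
  rw [h6] at h5
  rw [map_add, map_nsmul, nsmul_eq_mul] at hrk hrk1
  rw [map_add, map_nsmul, nsmul_eq_mul, map_sub, hZdeg] at hrk2
  rw [p.deg_eq] at hrk
  rw [← h1] at hdimT
  zify at hdimT h3 h5
  linarith

include hRR hpos in
/-- **Additivity**, and the degree formula. -/
theorem degree_eq_of_nonsplit (hRR₁ : RRLarge k F₁ g₁) (hz : Function.Injective z)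
    (hzE : ∀ i, p.Eb (z i) = 0) (hg : g = 2 * g₁ + Fintype.card ι - 1)
    {D : Divisor L F} (hN : p.Nonsplit z D) (hN' : p.Nonsplit z (-D)) :
    (∀ b, p.J b (-D) = -p.J b D) ∧
      Divisor.degree D = Divisor.degree (p.J false D) + Divisor.degree (p.J true D) := by
  have h1 := p.degree_le_of_nonsplit hRR hpos z hRR₁ hz hzE hg hN
  have h2 := p.degree_le_of_nonsplit hRR hpos z hRR₁ hz hzE hg hN'
  have h3 : ∀ b, p.J b D + p.J b (-D) ≤ 0 := by
    intro b
    have := p.J_add_le hRR hpos b D (-D)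
    rwa [add_neg_cancel, p.J_zero hRR hpos] at this
  have h4 := degree_mono (h3 false)
  have h5 := degree_mono (h3 true)
  rw [map_add, map_zero] at h4 h5
  rw [map_neg] at h2
  refine ⟨?_, by linarith⟩
  have key : ∀ b, Divisor.degree (p.J b D) + Divisor.degree (p.J b (-D)) = 0 := by
    rintro (_ | _) <;> linarith
  intro b
  have h6 : p.J b D + p.J b (-D) = 0 := by
    apply (eq_of_le_of_degree_le (h3 b) _)
    rw [map_add, map_zero]
    exact (key b).ge
  exact (neg_eq_of_add_eq_zero_right h6).symm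

include hRR hpos in
theorem J_add_of_neg (b : Bool) (D : Divisor L F) {D' : Divisor L F}
    (h : p.J b (-D') = -p.J b D') : p.J b (D + D') = p.J b D + p.J b D' := by
  apply le_antisymm _ (p.J_add_le hRR hpos b D D')
  have h1 := p.J_add_le hRR hpos b (D + D') (-D')
  rw [add_neg_cancel_right, h, ← sub_eq_add_neg] at h1
  exact sub_le_iff_le_add.mp h1

end Pencil

end Fermat.Agent.BadRed
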