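import Fermat.Agent.BadRed.KLat2

/-!
# Reductions of divisors: the chain argument and the slope theorem
-/

set_option autoImplicit false
set_option linter.unusedSectionVars false

noncomputable section

open AlgebraicCurve Module IntermediateField

namespace Fermat.Agent.BadRed

open Fermat.Agent.FunField Fermat.Agent.FunField.PlaceLemmas Fermat.Agent.Deuring

variable {L k F F₁ : Type*} [Field L] [Field k] [Field F] [Field F₁] [Algebra L F] [Algebra k F₁]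
  {𝔇 : RData L k F (F₁ × F₁)}

/-- a rational function of order exactly one along the component `!b` and zero along `b` -/
structure Omega (𝔇 : RData L k F (F₁ × F₁)) (FK : Subring F) (b : Bool) where
  ω : 𝔇.O
  mem : (ω : F) ∈ FK
  ne : pr k F₁ b (𝔇.res ω) ≠ 0
  dvd : ∀ h : 𝔇.O, (h : F) ∈ FK → pr k F₁ (!b) (𝔇.res h) = 0 →
    ∃ h' : 𝔇.O, (h' : F) ∈ FK ∧ h = ω * h'

/-- the divisors in `𝒟` are rational: the reductions are given by rational functions -/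
structure Pencil.Rat (p : Pencil 𝔇) (FK : Subring F) (𝒟 : AddSubgroup (Divisor L F)) : Prop where
  rat : ∀ D ∈ 𝒟, ∀ m, ∀ q ∈ p.Tr D m, ∃ h : 𝔇.O, (h : F) ∈ FK ∧
    (h : F) ∈ riemannRochSpace (m • p.E + D) ∧ 𝔇.res h = q

variable {FK : Subring F} {𝒟 : AddSubgroup (Divisor L F)}

namespace Omega

variable {b : Bool} (Ω : Omega 𝔇 FK b)

/-- the residue -/
def ω₁ : F₁ := pr k F₁ b (𝔇.res Ω.ω)

theorem ω₁_ne : Ω.ω₁ ≠ 0 := Ω.ne

theorem ω_ne : (Ω.ω : F) ≠ 0 := 𝔇.coe_ne_zero (by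
  intro h
  apply Ω.ne
  rw [h, map_zero])

variable [HasPrincipalDivisors L F]

/-- its divisor -/
def G : Divisor L F := dv (K := L) (Ω.ω : F) Ω.ω_ne

theorem G_apply (v : Place L F) : Ω.G v = v.ord (Ω.ω : F) := dv_apply _ _

end Omega

namespace Pencil

variable (p : Pencil 𝔇)
variable [IsFF L F] [IsFF k F₁] [HasPrincipalDivisors L F] [HasPrincipalDivisors k F₁]
  [IsAlgClosed k] {g g₁ : ℤ} (hRR : RRLarge L F g) (hpos : 0 < Divisor.degree p.Eb)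
  {b : Bool} (Ω : Omega 𝔇 FK b) (hr : p.Rat FK 𝒟)

include hRR hpos in
theorem step_le (D : Divisor L F) (x : Place k F₁) :
    p.J b (D + Ω.G) x ≤ p.J b D x + x.ord Ω.ω₁ := by
  obtain ⟨m, q, ⟨h, hh, rfl⟩, hq0, hx⟩ := p.attained hRR hpos b (D + Ω.G) x
  have h1 : 𝔇.res (Ω.ω * h) ∈ p.Tr D m := by
    refine ⟨Ω.ω * h, ?_, rfl⟩
    push_cast
    rw [mul_mem_rr_iff Ω.ω_ne (G := Ω.G) Ω.G_apply, add_assoc]
    exact hh
  have h0 : pr k F₁ b (𝔇.res (Ω.ω * h)) ≠ 0 := by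
    rw [map_mul, map_mul]; exact mul_ne_zero Ω.ne hq0
  have h2 := p.ord_ge hRR hpos b h1 h0 x
  rw [map_mul, map_mul, x.ord_mul Ω.ne hq0, hx] at h2
  have h3 : x.ord Ω.ω₁ = x.ord (pr k F₁ b (𝔇.res Ω.ω)) := rfl
  rw [h3]
  linarith

include hRR hpos hr in
theorem step_ge {D : Divisor L F} (hD : D ∈ 𝒟) (x : Place k F₁) {e : ℤ}
    (he : ∃ m, ∃ q ∈ p.Tr 0 m,
    pr k F₁ (!b) q = 0 ∧ pr k F₁ b q ≠ 0 ∧ x.ord (pr k F₁ b q) = e - m * p.Eb x) :
    p.J b D x + x.ord Ω.ω₁ - e ≤ p.J b (D + Ω.G) x := by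
  obtain ⟨m', q', hqT', hq'', hq0', hx'⟩ := he
  obtain ⟨h', hK', hh', rfl⟩ := hr.rat 0 𝒟.zero_mem m' q' hqT'
  obtain ⟨m, q, hqT, hq0, hx⟩ := p.attained hRR hpos b D x
  obtain ⟨h, hK, hh, rfl⟩ := hr.rat D hD m q hqT
  obtain ⟨l, -, hl⟩ := Ω.dvd (h * h') (FK.mul_mem hK hK') (by rw [map_mul, map_mul, hq'', mul_zero])
  have hl' : (Ω.ω : F) * l = h * h' := by
    have := congrArg Subtype.val hl
    push_cast at this
    exact this.symm
  have h1 : 𝔇.res l ∈ p.Tr (D + Ω.G) (m + m') := by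
    refine ⟨l, ?_, rfl⟩
    rw [← add_assoc, ← mul_mem_rr_iff Ω.ω_ne (G := Ω.G) Ω.G_apply, hl']
    have h2 := mul_mem_rr hh hh'
    have e1 : (m + m') • p.E + D = m • p.E + D + (m' • p.E + 0) := by
      rw [add_smul, add_zero]; abel
    rw [e1]
    exact h2
  have h2 : pr k F₁ b (𝔇.res h) * pr k F₁ b (𝔇.res h') = Ω.ω₁ * pr k F₁ b (𝔇.res l) := by
    rw [← map_mul, ← map_mul, hl, map_mul, map_mul]
    rfl
  have h0 : pr k F₁ b (𝔇.res l) ≠ 0 := by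
    intro h0
    rw [h0, mul_zero] at h2
    exact mul_ne_zero hq0 hq0' h2
  have h3 := p.ord_ge hRR hpos b h1 h0 x
  have h4 := congrArg x.ord h2
  rw [x.ord_mul hq0 hq0', x.ord_mul Ω.ω₁_ne h0, hx, hx'] at h4
  push_cast at h3
  linarith

/-- a function `u = η ω ^ n` which is a unit on the affine part -/
structure UnitDat (Ω : Omega 𝔇 FK b) (n : ℕ) where
  η : 𝔇.O
  η' : 𝔇.O
  mul_eq : (η : F) * η' = 1
  c : ℕ
  mem : (η : F) * (Ω.ω : F) ^ n ∈ riemannRochSpace (c • p.E)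
  mem' : ((η : F) * (Ω.ω : F) ^ n)⁻¹ ∈ riemannRochSpace (c • p.E)

namespace UnitDat

variable {p Ω} {n : ℕ} (U : p.UnitDat Ω n)

/-- the residue of `u` -/
def u₁ : F₁ := pr k F₁ b (𝔇.res U.η) * Ω.ω₁ ^ n

theorem η₁_ne : pr k F₁ b (𝔇.res U.η) ≠ 0 :=
  left_ne_zero_of_mul_eq_one (J_dv_aux (𝔇 := 𝔇) b U.mul_eq)

theorem η₁'_ne : pr k F₁ b (𝔇.res U.η') ≠ 0 :=
  right_ne_zero_of_mul_eq_one (J_dv_aux (𝔇 := 𝔇) b U.mul_eq)

theorem u₁_ne : U.u₁ ≠ 0 := mul_ne_zero U.η₁_ne (pow_ne_zero _ Ω.ω₁_ne)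

theorem ord_η' (x : Place k F₁) :
    x.ord (pr k F₁ b (𝔇.res U.η')) = -x.ord (pr k F₁ b (𝔇.res U.η)) := by
  have h := congrArg x.ord (J_dv_aux (𝔇 := 𝔇) b U.mul_eq)
  rw [x.ord_mul U.η₁_ne U.η₁'_ne, x.ord_one] at h
  omega

theorem ord_u₁ (x : Place k F₁) :
    x.ord U.u₁ = x.ord (pr k F₁ b (𝔇.res U.η)) + n * x.ord Ω.ω₁ := by
  rw [u₁, x.ord_mul U.η₁_ne (pow_ne_zero _ Ω.ω₁_ne), ord_pow]

include hRR hpos in
theorem J_shift (D : Divisor L F) {x : Place k F₁} (hx : p.Eb x = 0) :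
    p.J b (D + n • Ω.G) x = p.J b D x - x.ord (pr k F₁ b (𝔇.res U.η)) := by
  have hη0 : (U.η : F) ≠ 0 := left_ne_zero_of_mul_eq_one U.mul_eq
  have hη0' : (U.η' : F) ≠ 0 := right_ne_zero_of_mul_eq_one U.mul_eq
  have hGn : ∀ v, (n • Ω.G) v = v.ord ((Ω.ω : F) ^ n) := by
    intro v
    rw [Finsupp.smul_apply, nsmul_eq_mul, ord_pow, Ω.G_apply]
  have hωn : (Ω.ω : F) ^ n ≠ 0 := pow_ne_zero _ Ω.ω_ne
  have hinv : ((U.η : F) * (Ω.ω : F) ^ n)⁻¹ = (U.η' : F) * ((Ω.ω : F) ^ n)⁻¹ := by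
    rw [mul_inv]
    congr 1
    exact inv_eq_of_mul_eq_one_right U.mul_eq
  apply le_antisymm
  · obtain ⟨m, q, ⟨h, hh, rfl⟩, hq0, hx'⟩ := p.attained hRR hpos b (D + n • Ω.G) x
    have h1 : 𝔇.res (h * U.η') ∈ p.Tr D (m + U.c) := by
      refine ⟨h * U.η', ?_, rfl⟩
      rw [← add_assoc, ← mul_mem_rr_iff hωn hGn] at hh
      have h2 := mul_mem_rr hh U.mem'
      have e1 : m • p.E + D + U.c • p.E = (m + U.c) • p.E + D := by rw [add_smul]; abel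
      rw [e1, hinv] at h2
      have e2 : (Ω.ω : F) ^ n * (h : F) * ((U.η' : F) * ((Ω.ω : F) ^ n)⁻¹) = h * U.η' := by
        field_simp
      rw [e2] at h2
      push_cast
      exact h2
    have h0 : pr k F₁ b (𝔇.res (h * U.η')) ≠ 0 := by
      rw [map_mul, map_mul]; exact mul_ne_zero hq0 U.η₁'_ne
    have h2 := p.ord_ge hRR hpos b h1 h0 x
    rw [map_mul, map_mul, x.ord_mul hq0 U.η₁'_ne, U.ord_η', hx', hx] at h2
    linarith
  · obtain ⟨m, q, ⟨h, hh, rfl⟩, hq0, hx'⟩ := p.attained hRR hpos b D x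
    have h1 : 𝔇.res (h * U.η) ∈ p.Tr (D + n • Ω.G) (m + U.c) := by
      refine ⟨h * U.η, ?_, rfl⟩
      rw [← add_assoc, ← mul_mem_rr_iff hωn hGn]
      have h2 := mul_mem_rr hh U.mem
      have e1 : m • p.E + D + U.c • p.E = (m + U.c) • p.E + D := by rw [add_smul]; abel
      rw [e1] at h2
      have e2 : (h : F) * ((U.η : F) * (Ω.ω : F) ^ n) = (Ω.ω : F) ^ n * (h * U.η) := by ring
      rw [e2] at h2
      push_cast
      exact h2
    have h0 : pr k F₁ b (𝔇.res (h * U.η)) ≠ 0 := by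
      rw [map_mul, map_mul]; exact mul_ne_zero hq0 U.η₁_ne
    have h2 := p.ord_ge hRR hpos b h1 h0 x
    rw [map_mul, map_mul, x.ord_mul hq0 U.η₁_ne, hx', hx] at h2
    linarith

include hRR hpos hr in
/-- the chain: upper bound for `i` steps -/
theorem chain (hG : Ω.G ∈ 𝒟) {D : Divisor L F} (hD : D ∈ 𝒟) {x : Place k F₁} {e : ℤ}
    (he : ∃ m, ∃ q ∈ p.Tr 0 m,
    pr k F₁ (!b) q = 0 ∧ pr k F₁ b q ≠ 0 ∧ x.ord (pr k F₁ b q) = e - m * p.Eb x) (i : ℕ) :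
    p.J b D x + i * (x.ord Ω.ω₁ - e) ≤ p.J b (D + i • Ω.G) x := by
  induction i with
  | zero => simp
  | succ i ih =>
    have h := p.step_ge hRR hpos Ω hr (𝒟.add_mem hD (𝒟.nsmul_mem hG i)) x he
    rw [add_assoc, ← succ_nsmul] at h
    push_cast
    linarith

include hRR hpos hr in
theorem ord_u₁_le (hG : Ω.G ∈ 𝒟) {x : Place k F₁} (hx : p.Eb x = 0) {e : ℤ} (he : ∃ m, ∃ q ∈ p.Tr 0 m,
    pr k F₁ (!b) q = 0 ∧ pr k F₁ b q ≠ 0 ∧ x.ord (pr k F₁ b q) = e - m * p.Eb x) :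
    x.ord U.u₁ ≤ n * e := by
  have h1 := chain hRR hpos hr hG 𝒟.zero_mem he n
  have h2 := U.J_shift hRR hpos 0 hx
  rw [U.ord_u₁]
  linarith

include hRR hpos in
theorem ord_u₁_nonneg {x : Place k F₁} (hx : p.Eb x = 0) : 0 ≤ x.ord U.u₁ := by
  have h1 : ∀ i : ℕ, p.J b (0 + i • Ω.G) x ≤ p.J b 0 x + i * x.ord Ω.ω₁ := by
    intro i
    induction i with
    | zero => simp
    | succ i ih =>
      have h := p.step_le hRR hpos Ω (0 + i • Ω.G) x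
      rw [add_assoc, ← succ_nsmul] at h
      push_cast
      linarith
  have h2 := U.J_shift hRR hpos 0 hx
  have h3 := h1 n
  rw [U.ord_u₁]
  linarith

include hRR hpos hr in
/-- if `u` has the maximal order at `x`, every step has size one. -/
theorem step_eq (hG : Ω.G ∈ 𝒟) (hn : n ≠ 0) {x : Place k F₁} (hx : p.Eb x = 0) {e : ℤ} (he : ∃ m, ∃ q ∈ p.Tr 0 m,
    pr k F₁ (!b) q = 0 ∧ pr k F₁ b q ≠ 0 ∧ x.ord (pr k F₁ b q) = e - m * p.Eb x)
    (hu : x.ord U.u₁ = n * e) {D : Divisor L F} (hD : D ∈ 𝒟) :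
    p.J b (D + Ω.G) x = p.J b D x + x.ord Ω.ω₁ - e := by
  apply le_antisymm _ (p.step_ge hRR hpos Ω hr hD x he)
  obtain ⟨n', hn'⟩ := Nat.exists_eq_succ_of_ne_zero hn
  have h1 := chain hRR hpos hr hG (𝒟.add_mem hD hG) he n'
  rw [add_assoc, ← succ_nsmul', ← Nat.succ_eq_add_one, ← hn'] at h1
  have h2 := U.J_shift hRR hpos D hx
  rw [U.ord_u₁] at hu
  have h3 : (n : ℤ) = n' + 1 := by rw [hn']; push_cast; rfl
  rw [h2] at h1
  rw [h3] at hu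
  linarith

end UnitDat

/-- the nodes -/
structure NodeDat (ι : Type*) [Fintype ι] where
  z : Bool → ι → Place k F₁
  inj : ∀ b, Function.Injective (z b)
  Eb_z : ∀ b i, p.Eb (z b i) = 0
  near : ∀ b i, ∃ m, ∃ q ∈ p.Tr 0 m, pr k F₁ (!b) q = 0 ∧ pr k F₁ b q ≠ 0 ∧
    (z b i).ord (pr k F₁ b q) = 1 - m * p.Eb (z b i)
  far : ∀ b x, (∀ i, x ≠ z b i) → ∃ m, ∃ q ∈ p.Tr 0 m, pr k F₁ (!b) q = 0 ∧ pr k F₁ b q ≠ 0 ∧
    x.ord (pr k F₁ b q) = 0 - m * p.Eb x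

namespace NodeDat

variable {p} {ι : Type*} [Fintype ι] (Z : p.NodeDat ι)

open Classical in
/-- indicator of the nodes -/
def δ (b : Bool) (x : Place k F₁) : ℤ := if ∃ i, x = Z.z b i then 1 else 0

open Classical in
/-- the divisor of the nodes -/
def div (b : Bool) : Divisor k F₁ := ∑ i, Finsupp.single (Z.z b i) 1

theorem div_apply (b : Bool) (x : Place k F₁) : Z.div b x = Z.δ b x := by
  classical
  rw [div, δ, Finsupp.finsetSum_apply]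
  split_ifs with h
  · obtain ⟨i, rfl⟩ := h
    rw [Finset.sum_eq_single i]
    · rw [Finsupp.single_eq_same]
    · intro j _ hj
      rw [Finsupp.single_eq_of_ne]
      exact fun h => hj (Z.inj b h).symm
    · intro h
      exact absurd (Finset.mem_univ i) h
  · apply Finset.sum_eq_zero
    intro i _
    rw [Finsupp.single_eq_of_ne]
    rintro rfl
    exact h ⟨i, rfl⟩

theorem degree_div (b : Bool) : Divisor.degree (Z.div b) = Fintype.card ι := by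
  rw [div, map_sum]
  simp [deg_eq_one]

theorem exists_delta (b : Bool) (x : Place k F₁) : ∃ m, ∃ q ∈ p.Tr 0 m, pr k F₁ (!b) q = 0 ∧
    pr k F₁ b q ≠ 0 ∧ x.ord (pr k F₁ b q) = Z.δ b x - m * p.Eb x := by
  classical
  rw [δ]
  split_ifs with h
  · obtain ⟨i, rfl⟩ := h
    exact Z.near b i
  · push Not at h
    exact Z.far b x h

theorem δ_z (b : Bool) (i : ι) : Z.δ b (Z.z b i) = 1 := by
  rw [δ, if_pos ⟨i, rfl⟩]

end NodeDat

section Main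

variable {ι : Type*} [Fintype ι] (Z : p.NodeDat ι) (Ω₁ : Omega 𝔇 FK false) {n : ℕ}
  (U : p.UnitDat Ω₁ n)

include hRR hpos hr in
/-- the order of `u` at all nodes is maximal if this is so for the total degree. -/
theorem ord_u₁_eq (hG : Ω₁.G ∈ 𝒟) (hdeg : ∃ P : Divisor k F₁, (∀ x, p.Eb x ≠ 0 → x.ord U.u₁ = -P x) ∧
    (∀ x, p.Eb x = 0 → P x = 0) ∧ Divisor.degree P = n * Fintype.card ι) (i : ι) :
    (Z.z false i).ord U.u₁ = n * 1 := by
  classical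
  obtain ⟨P, hP1, hP2, hP3⟩ := hdeg
  have h1 : dv (K := k) U.u₁ U.u₁_ne ≤ n • Z.div false - P := by
    rw [Finsupp.le_def]
    intro x
    rw [dv_apply, Finsupp.sub_apply, Finsupp.smul_apply, nsmul_eq_mul, Z.div_apply]
    rcases eq_or_ne (p.Eb x) 0 with h0 | h0
    · have h2 := U.ord_u₁_le hRR hpos hr hG h0 (Z.exists_delta false x)
      rw [hP2 x h0]
      linarith
    · have hd : Z.δ false x = 0 := by
        rw [NodeDat.δ, if_neg]
        rintro ⟨i, rfl⟩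
        exact h0 (Z.Eb_z false i)
      rw [hP1 x h0, hd]
      linarith
  have h2 : dv (K := k) U.u₁ U.u₁_ne = n • Z.div false - P := by
    apply eq_of_le_of_degree_le h1
    rw [degree_dv, map_sub, map_nsmul, Z.degree_div, hP3, nsmul_eq_mul]
    simp
  have h3 := DFunLike.congr_fun h2 (Z.z false i)
  rw [dv_apply, Finsupp.sub_apply, Finsupp.smul_apply, nsmul_eq_mul, Z.div_apply,
    hP2 _ (Z.Eb_z false i), sub_zero, Z.δ_z] at h3
  exact h3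

include hRR hpos hr in
theorem nonsplit_of_unit (hG : Ω₁.G ∈ 𝒟) (hn : n ≠ 0) (hu : ∀ i, (Z.z false i).ord U.u₁ = n * 1)
    {D : Divisor L F} (hD : D ∈ 𝒟) : p.Nonsplit (Z.z false) D := by
  intro m q hqT hq2 hq1 i
  obtain ⟨h, hK, hh, rfl⟩ := hr.rat D hD m q hqT
  obtain ⟨l, -, hl⟩ := Ω₁.dvd h hK hq2
  have hl' : (Ω₁.ω : F) * l = h := by
    have := congrArg Subtype.val hl
    push_cast at this
    exact this.symm
  have h1 : 𝔇.res l ∈ p.Tr (D + Ω₁.G) m := by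
    refine ⟨l, ?_, rfl⟩
    rw [← add_assoc, ← mul_mem_rr_iff Ω₁.ω_ne (G := Ω₁.G) Ω₁.G_apply, hl']
    exact hh
  have h2 : (𝔇.res h).1 = Ω₁.ω₁ * (𝔇.res l).1 := by
    rw [hl, map_mul]
    rfl
  have h0 : (𝔇.res l).1 ≠ 0 := by
    intro h0
    rw [h0, mul_zero] at h2
    exact hq1 h2
  have h3 := p.ord_ge hRR hpos false h1 h0 (Z.z false i)
  rw [Z.Eb_z, mul_zero, zero_add] at h3
  have h4 := U.step_eq hRR hpos hr hG hn (Z.Eb_z false i) (Z.near false i) (hu i) hD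
  rw [h2, (Z.z false i).ord_mul Ω₁.ω₁_ne h0]
  have h5 : (Z.z false i).ord (𝔇.res l).1 = (Z.z false i).ord (pr k F₁ false (𝔇.res l)) := rfl
  rw [h5]
  linarith

end Main

/-- conclusion of the lattice theory -/
structure KLat {ι : Type*} [Fintype ι] (Z : p.NodeDat ι) (𝒟 : AddSubgroup (Divisor L F))
    (Ω₁ : Omega 𝔇 FK false) (Ω₂ : Omega 𝔇 FK true) : Prop where
  add : ∀ b, ∀ D ∈ 𝒟, ∀ D' ∈ 𝒟, p.J b (D + D') = p.J b D + p.J b D'
  deg : ∀ D ∈ 𝒟, Divisor.degree D = Divisor.degree (p.J false D) + Divisor.degree (p.J true D)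
  J₁ : ∀ x, p.J false Ω₁.G x = x.ord Ω₁.ω₁ - Z.δ false x
  J₂ : ∀ x, p.J true Ω₂.G x = x.ord Ω₂.ω₁ - Z.δ true x

include hRR hpos hr in
theorem kLat {ι : Type*} [Fintype ι] (Z : p.NodeDat ι) (Ω₁ : Omega 𝔇 FK false)
    (Ω₂ : Omega 𝔇 FK true) {ϖ : 𝔇.A} (hϖ : (Ω₁.ω : F) * Ω₂.ω = algebraMap L F ϖ)
    (hG₁ : Ω₁.G ∈ 𝒟) {n : ℕ} (U : p.UnitDat Ω₁ n) (hn : n ≠ 0)
    (hRR₁ : RRLarge k F₁ g₁) (hg : g = 2 * g₁ + Fintype.card ι - 1)
    (hdeg : ∃ P : Divisor k F₁, (∀ x, p.Eb x ≠ 0 → x.ord U.u₁ = -P x) ∧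
      (∀ x, p.Eb x = 0 → P x = 0) ∧ Divisor.degree P = n * Fintype.card ι) :
    p.KLat Z 𝒟 Ω₁ Ω₂ := by
  have hu := p.ord_u₁_eq hRR hpos hr Z Ω₁ U hG₁ hdeg
  have hN : ∀ D ∈ 𝒟, p.Nonsplit (Z.z false) D := fun D hD =>
    p.nonsplit_of_unit hRR hpos hr Z Ω₁ U hG₁ hn hu hD
  have hdn := fun D (hD : D ∈ 𝒟) => p.degree_eq_of_nonsplit hRR hpos (Z.z false) hRR₁ (Z.inj false)
    (Z.Eb_z false) hg (hN D hD) (hN (-D) (𝒟.neg_mem hD))
  have hneg : ∀ b, ∀ D ∈ 𝒟, p.J b (-D) = -p.J b D := fun b D hD => (hdn D hD).1 b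
  have hJ₁ : ∀ x, p.J false Ω₁.G x = x.ord Ω₁.ω₁ - Z.δ false x := by
    intro x
    apply le_antisymm
    · by_cases hx : ∃ i, x = Z.z false i
      · obtain ⟨i, rfl⟩ := hx
        have h4 := U.step_eq hRR hpos hr hG₁ hn (Z.Eb_z false i) (Z.near false i) (hu i)
          𝒟.zero_mem
        rw [zero_add, p.J_zero hRR hpos, Finsupp.zero_apply] at h4
        rw [h4, Z.δ_z]
        linarith
      · have h4 := p.step_le hRR hpos Ω₁ 0 x
        rw [zero_add, p.J_zero hRR hpos, Finsupp.zero_apply] at h4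
        rw [NodeDat.δ, if_neg hx]
        linarith
    · have h4 := p.step_ge hRR hpos Ω₁ hr 𝒟.zero_mem x (Z.exists_delta false x)
      rw [zero_add, p.J_zero hRR hpos, Finsupp.zero_apply] at h4
      linarith
  refine ⟨fun b D _ D' hD' => p.J_add_of_neg hRR hpos b D (hneg b D' hD'),
    fun D hD => (hdn D hD).2, hJ₁, ?_⟩
  have hω₁ : (Ω₁.ω : F) ≠ 0 := Ω₁.ω_ne
  have hG : Ω₂.G = -Ω₁.G := by
    ext v
    rw [Finsupp.neg_apply, Ω₁.G_apply, Ω₂.G_apply]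
    have h := congrArg v.ord hϖ
    rw [v.ord_mul Ω₁.ω_ne Ω₂.ω_ne, ord_algebraMap] at h
    omega
  have hle : dv (K := k) Ω₂.ω₁ Ω₂.ω₁_ne - Z.div true ≤ p.J true Ω₂.G := by
    rw [Finsupp.le_def]
    intro x
    have h4 := p.step_ge hRR hpos Ω₂ hr 𝒟.zero_mem x (Z.exists_delta true x)
    rw [zero_add, p.J_zero hRR hpos, Finsupp.zero_apply] at h4
    rw [Finsupp.sub_apply, dv_apply, Z.div_apply]
    linarith
  have hdeg1 : p.J false Ω₂.G = Z.div false - dv (K := k) Ω₁.ω₁ Ω₁.ω₁_ne := by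
    ext x
    rw [hG, hneg _ _ hG₁, Finsupp.neg_apply, hJ₁, Finsupp.sub_apply, dv_apply, Z.div_apply]
    ring
  have hdeg2 := (hdn Ω₂.G (by rw [hG]; exact 𝒟.neg_mem hG₁)).2
  rw [hdeg1, Omega.G, degree_dv, map_sub, degree_dv, Z.degree_div] at hdeg2
  have heq : dv (K := k) Ω₂.ω₁ Ω₂.ω₁_ne - Z.div true = p.J true Ω₂.G := by
    apply eq_of_le_of_degree_le hle
    rw [map_sub, degree_dv, Z.degree_div]
    have : Divisor.degree (p.J true Ω₂.G) = Divisor.degree (p.J true (dv (K := L) (Ω₂.ω : F) Ω₂.ω_ne)) :=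
      rfl
    linarith
  intro x
  rw [← heq, Finsupp.sub_apply, dv_apply, Z.div_apply]

end Pencil

end Fermat.Agent.BadRed
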