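import Fermat.Agent.BadRed.KLat4

/-!
# Rational orthonormal bases of Galois stable spaces
-/

set_option autoImplicit false
set_option linter.unusedSectionVars false

noncomputable section

open AlgebraicCurve Module IntermediateField

namespace Fermat.Agent.BadRed

open Fermat.Agent.FunField Fermat.Agent.FunField.PlaceLemmas Fermat.Agent.Deuring

variable {L k : Type*} [Field L] [Field k]
variable {F F₁ : Type*} [Field F] [Field F₁] [Algebra L F] [Algebra k F₁]

/-- functions fixed by `Γ` -/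
def fixF (Γ : Set (SemilinearAut L F)) : Subfield F where
  carrier := {f | ∀ g ∈ Γ, g • f = f}
  mul_mem' := by
    intro a b ha hb g hg
    rw [smul_mul', ha g hg, hb g hg]
  one_mem' := fun g _ => smul_one g
  add_mem' := by
    intro a b ha hb g hg
    rw [smul_add, ha g hg, hb g hg]
  zero_mem' := fun g _ => smul_zero g
  neg_mem' := by
    intro a ha g hg
    rw [smul_neg, ha g hg]
  inv_mem' := by
    intro a ha g hg
    have h1 : g • a⁻¹ = (g • a)⁻¹ := map_inv₀ (MulSemiringAction.toRingHom _ F g) a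
    rw [h1, ha g hg]

/-- constants fixed by `Γ` -/
def fixL (Γ : Set (SemilinearAut L F)) : Subfield L where
  carrier := {a | ∀ g ∈ Γ, SemilinearAut.baseAut g a = a}
  mul_mem' := by
    intro a b ha hb g hg
    rw [map_mul, ha g hg, hb g hg]
  one_mem' := fun g _ => map_one _
  add_mem' := by
    intro a b ha hb g hg
    rw [map_add, ha g hg, hb g hg]
  zero_mem' := fun g _ => map_zero _
  neg_mem' := by
    intro a ha g hg
    rw [map_neg, ha g hg]
  inv_mem' := by
    intro a ha g hg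
    rw [map_inv₀, ha g hg]

theorem mem_fixF {Γ : Set (SemilinearAut L F)} {f : F} :
    f ∈ fixF Γ ↔ ∀ g ∈ Γ, g • f = f := Iff.rfl

theorem mem_fixL {Γ : Set (SemilinearAut L F)} {a : L} :
    a ∈ fixL Γ ↔ ∀ g ∈ Γ, SemilinearAut.baseAut g a = a := Iff.rfl

theorem algebraMap_mem_fixF {Γ : Set (SemilinearAut L F)} {a : L} (ha : a ∈ fixL Γ) :
    algebraMap L F a ∈ fixF Γ := by
  intro g hg
  rw [SemilinearAut.smul_algebraMap, ha g hg]

theorem smul_mem_fixF {Γ : Set (SemilinearAut L F)} {a : L} (ha : a ∈ fixL Γ) {f : F}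
    (hf : f ∈ fixF Γ) : a • f ∈ fixF Γ := by
  rw [Algebra.smul_def]
  exact (fixF Γ).mul_mem (algebraMap_mem_fixF ha) hf

/-- divisors fixed by `Γ` -/
def fixD (Γ : Set (SemilinearAut L F)) : AddSubgroup (Divisor L F) where
  carrier := {D | ∀ g ∈ Γ, g • D = D}
  add_mem' := by
    intro a b ha hb g hg
    rw [smul_add, ha g hg, hb g hg]
  zero_mem' := fun g _ => smul_zero g
  neg_mem' := by
    intro a ha g hg
    rw [smul_neg, ha g hg]

theorem mem_fixD {Γ : Set (SemilinearAut L F)} {D : Divisor L F} :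
    D ∈ fixD Γ ↔ ∀ g ∈ Γ, g • D = D := Iff.rfl

theorem ord_semi (g : SemilinearAut L F) (v : Place L F) (f : F) :
    v.ord (g • f) = (g⁻¹ • v).ord f := by
  have := SemilinearAut.ord_smul g (g⁻¹ • v) f
  rwa [smul_inv_smul] at this

theorem dv_mem_fixD [HasPrincipalDivisors L F] {Γ : Set (SemilinearAut L F)} {f : F} (hf : f ≠ 0)
    (h : f ∈ fixF Γ) : dv (K := L) f hf ∈ fixD Γ := by
  intro g hg
  ext v
  rw [SemilinearAut.divisor_smul_apply, dv_apply, dv_apply, ← ord_semi, h g hg]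

/-- coordinates -/
theorem exists_coords (V : Submodule L F) [FiniteDimensional L V] (cf : ℤ → F →ₗ[L] L)
    (hinj : ∀ f, (∀ n, cf n f = 0) → f = 0) :
    ∃ (a : Fin (finrank L V) → ℤ) (f : Fin (finrank L V) → F), (∀ i, f i ∈ V) ∧
      (∀ i j, cf (a j) (f i) = if i = j then 1 else 0) ∧
      (∀ h ∈ V, h = ∑ i, cf (a i) h • f i) := by
  classical
  let φ : ℤ → Dual L V := fun n => (cf n).comp V.subtype
  obtain ⟨κ, a, ha, hsp, hli⟩ := exists_linearIndependent' L φ
  have hfin : Finite κ := hli.finite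
  have hκ := Fintype.ofFinite κ
  -- the coordinate map
  let Φ : V →ₗ[L] (κ → L) := LinearMap.pi fun i => φ (a i)
  have hΦinj : Function.Injective Φ := by
    rw [injective_iff_map_eq_zero]
    intro v hv
    have h1 : ∀ ψ ∈ Submodule.span L (Set.range (φ ∘ a)), ψ v = 0 := by
      intro ψ hψ
      induction hψ using Submodule.span_induction with
      | mem x hx =>
        obtain ⟨i, rfl⟩ := hx
        exact congrFun hv i
      | zero => rfl
      | add x y _ _ hx hy => rw [LinearMap.add_apply, hx, hy, add_zero]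
      | smul c x _ hx => rw [LinearMap.smul_apply, hx, smul_zero]
    apply Subtype.ext
    apply hinj
    intro n
    exact h1 (φ n) (by rw [hsp]; exact Submodule.subset_span ⟨n, rfl⟩)
  have hcard : Fintype.card κ = finrank L V := by
    apply le_antisymm
    · have := hli.fintype_card_le_finrank
      rwa [Subspace.dual_finrank_eq] at this
    · have := LinearMap.finrank_le_finrank_of_injective hΦinj
      rwa [Module.finrank_fintype_fun_eq_card] at this
  have hΦsurj : Function.Surjective Φ := by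
    rw [← LinearMap.range_eq_top]
    apply Submodule.eq_top_of_finrank_eq
    rw [LinearMap.finrank_range_of_inj hΦinj, Module.finrank_fintype_fun_eq_card, hcard]
  let e : κ ≃ Fin (finrank L V) := Fintype.equivFinOfCardEq hcard
  choose f hf using fun i : κ => hΦsurj (Pi.single i 1)
  have hf' : ∀ i j, φ (a j) (f i) = if i = j then 1 else 0 := by
    intro i j
    have := congrFun (hf i) j
    rw [Pi.single_apply] at this
    rw [show φ (a j) (f i) = Φ (f i) j from rfl, this]
    by_cases hij : j = i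
    · rw [if_pos hij, if_pos hij.symm]
    · rw [if_neg hij, if_neg (fun h => hij h.symm)]
  refine ⟨fun i => a (e.symm i), fun i => (f (e.symm i) : F), fun i => (f _).2, ?_, ?_⟩
  · intro i j
    have h1 : cf (a (e.symm j)) (f (e.symm i) : F) = φ (a (e.symm j)) (f (e.symm i)) := rfl
    rw [h1, hf']
    by_cases hij : i = j
    · subst hij; simp
    · rw [if_neg hij, if_neg (fun h => hij (e.symm.injective h))]
  · intro h hh
    have h1 : (⟨h, hh⟩ : V) = ∑ i, φ (a (e.symm i)) ⟨h, hh⟩ • f (e.symm i) := by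
      apply hΦinj
      funext j
      rw [map_sum, Finset.sum_apply]
      have h2 : ∀ i, Φ (φ (a (e.symm i)) ⟨h, hh⟩ • f (e.symm i)) j =
          φ (a (e.symm i)) ⟨h, hh⟩ * (if e.symm i = j then 1 else 0) := by
        intro i
        rw [map_smul, Pi.smul_apply, smul_eq_mul]
        rw [show Φ (f (e.symm i)) j = φ (a j) (f (e.symm i)) from rfl, hf']
      rw [Finset.sum_congr rfl fun i _ => h2 i, Finset.sum_eq_single (e j)]
      · rw [e.symm_apply_apply, if_pos rfl, mul_one]; rfl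
      · intro i _ hij
        rw [if_neg, mul_zero]
        intro h3
        apply hij
        rw [← h3, e.apply_symm_apply]
      · intro h3
        exact absurd (Finset.mem_univ _) h3
    have h2 := congrArg V.subtype h1
    rw [map_sum] at h2
    exact h2

variable {T : TwoVal L k F F₁}

theorem TwoVal.res_cst_mul (T : TwoVal L k F F₁) (c : T.A) (h : T.toRData.O) :
    T.toRData.res (T.toRData.cst c * h) = T.π c • T.toRData.res h := by
  rw [map_mul, Algebra.smul_def]
  congr 1
  exact T.toRData.res_cst c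

/-- A discretely valued field of constants. -/
structure KForm (T : TwoVal L k F F₁) (Γ : Set (SemilinearAut L F)) where
  ϖ : T.A
  ne : (ϖ : L) ≠ 0
  res : T.π ϖ = 0
  mem : (ϖ : L) ∈ fixL Γ
  unif : ∀ c ∈ fixL Γ, c ≠ 0 → ∃ (n : ℤ) (u : T.A), T.π u ≠ 0 ∧ c = (ϖ : L) ^ n * u
  lift : ∀ x : k, ∃ a : T.A, (a : L) ∈ fixL Γ ∧ T.π a = x
  scale₁ : ∀ f ∈ fixF Γ, f ≠ 0 → ∃ (n : ℤ) (a : F₁), a ≠ 0 ∧ T.V₁.ER (((ϖ : L) ^ n) • f) a
  scale₂ : ∀ f ∈ fixF Γ, f ≠ 0 → ∃ (n : ℤ) (a : F₁), a ≠ 0 ∧ T.V₂.ER (((ϖ : L) ^ n) • f) a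

namespace KForm

variable {Γ : Set (SemilinearAut L F)} (Q : KForm T Γ)

/-- the uniformizer does not divide units -/
theorem not_mem_of_neg {n : ℤ} (hn : n < 0) {u : T.A} (hu : T.π u ≠ 0) :
    (Q.ϖ : L) ^ n * u ∉ T.A := by
  intro h
  obtain ⟨m, hm⟩ : ∃ m : ℕ, -n = m + 1 := ⟨(-n - 1).toNat, by omega⟩
  apply hu
  have h1 : u = Q.ϖ ^ (m + 1) * ⟨_, h⟩ := by
    apply Subtype.ext
    push_cast
    rw [← zpow_natCast, ← mul_assoc, ← zpow_add₀ Q.ne]
    have : ((m + 1 : ℕ) : ℤ) + n = 0 := by push_cast; omega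
    rw [this, zpow_zero, one_mul]
  rw [h1, map_mul, map_pow, Q.res, zero_pow (Nat.succ_ne_zero _), zero_mul]

theorem bound (harch : T.Arch) {ι : Type*} [Finite ι] (c : ι → L) :
    ∃ e : ℕ, ∀ i, (Q.ϖ : L) ^ e * c i ∈ T.A := by
  classical
  have := Fintype.ofFinite ι
  have h1 : ∀ i, ∃ e : ℕ, (Q.ϖ : L) ^ e * c i ∈ T.A := by
    intro i
    by_cases hc : c i = 0
    · exact ⟨0, by rw [hc, mul_zero]; exact zero_mem _⟩
    · obtain ⟨m, b, hb, -⟩ := T.exists_small harch Q.ne Q.res hc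
      exact ⟨m, by rw [mul_comm, ← hb]; exact b.2⟩
  choose e he using h1
  refine ⟨∑ i, e i, fun i => ?_⟩
  have h2 : e i ≤ ∑ i, e i := Finset.single_le_sum (fun _ _ => Nat.zero_le _) (Finset.mem_univ i)
  obtain ⟨d, hd⟩ := Nat.exists_eq_add_of_le h2
  rw [hd, pow_add, mul_comm ((Q.ϖ : L) ^ e i), mul_assoc]
  exact mul_mem (pow_mem Q.ϖ.2 d) (he i)

/-- division of rational functions with vanishing residues -/
theorem dvd {h : T.toRData.O} (hh : (h : F) ∈ fixF Γ) (hr : T.toRData.res h = 0) :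
    ∃ h' : T.toRData.O, (h' : F) ∈ fixF Γ ∧ (h' : F) = (Q.ϖ : L)⁻¹ • (h : F) := by
  obtain ⟨e1, e2⟩ := T.ER_of_O h
  rw [hr] at e1 e2
  have h1 := T.V₁.dvd_of_scale Q.ne (Q.scale₁ _ hh) e1
  have h2 := T.V₂.dvd_of_scale Q.ne (Q.scale₂ _ hh) e2
  exact ⟨⟨_, h1, h2⟩, smul_mem_fixF ((fixL Γ).inv_mem Q.mem) hh, rfl⟩

/-- scaling into the unit ball -/
theorem exists_scale_mem (harch : T.Arch) {f : F} : ∃ e : ℕ, ((Q.ϖ : L) ^ e) • f ∈ T.toRData.O := by
  rcases eq_or_ne f 0 with rfl | hf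
  · exact ⟨0, by rw [smul_zero]; exact zero_mem _⟩
  obtain ⟨c, hc, hO, -⟩ := T.toRData.exists_smul_res_ne_zero hf
  obtain ⟨e, he⟩ := Q.bound harch (fun _ : Unit => c⁻¹)
  refine ⟨e, ?_⟩
  have h1 : ((Q.ϖ : L) ^ e) • f = algebraMap L F ((Q.ϖ : L) ^ e * c⁻¹) * (c • f) := by
    rw [← Algebra.smul_def, smul_smul, mul_assoc, inv_mul_cancel₀ hc, mul_one]
  rw [h1]
  exact mul_mem ((T.toRData.mem_iff _).mpr (he ())) hO

include Q in
/-- **Rational orthonormal bases.** -/
theorem exists_rat (harch : T.Arch) (cf : ℤ → F →ₗ[L] L) (hinj : ∀ f, (∀ n, cf n f = 0) → f = 0)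
    (hcf : ∀ g ∈ Γ, ∀ n f, cf n (g • f) = SemilinearAut.baseAut g (cf n f))
    (V : Submodule L F) [FiniteDimensional L V] (hV : ∀ g ∈ Γ, ∀ f ∈ V, g • f ∈ V) :
    ∀ q ∈ T.toRData.red V, ∃ h : T.toRData.O, (h : F) ∈ fixF Γ ∧ (h : F) ∈ V ∧
      T.toRData.res h = q := by
  classical
  obtain ⟨a, f, hfV, hdual, hrep⟩ := exists_coords V cf hinj
  -- the basis is rational
  have hfK : ∀ i, f i ∈ fixF Γ := by
    intro i g hg
    have h1 : ∀ j, cf (a j) (g • f i) = if i = j then 1 else 0 := by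
      intro j
      rw [hcf g hg, hdual]
      split_ifs
      · exact map_one _
      · exact map_zero _
    rw [hrep _ (hV g hg _ (hfV i))]
    rw [Finset.sum_eq_single i]
    · rw [h1, if_pos rfl, one_smul]
    · intro j _ hj
      rw [h1, if_neg (Ne.symm hj), zero_smul]
    · intro h; exact absurd (Finset.mem_univ i) h
  have hcK : ∀ h ∈ fixF Γ, ∀ n, cf n h ∈ fixL Γ := by
    intro h hh n g hg
    rw [← hcf g hg, hh g hg]
  -- boundedness of the coordinates
  obtain ⟨b, hbV, hbli, hbrep, hbred⟩ := T.toRData.exists_orthonormal V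
  obtain ⟨e, he⟩ := Q.bound harch (fun p : Fin (finrank L V) × Fin (finrank L V) => cf (a p.1) ((b p.2 : T.toRData.O) : F))
  have hbd : ∀ h ∈ V, h ∈ T.toRData.O → ∀ i, (Q.ϖ : L) ^ e * cf (a i) h ∈ T.A := by
    intro h hh hO i
    obtain ⟨c, hc⟩ := hbrep h hh
    have hcA := T.toRData.coeff_mem b hbli c (by rw [← hc]; exact hO)
    rw [hc, map_sum, Finset.mul_sum]
    refine sum_mem fun j _ => ?_
    rw [map_smul, smul_eq_mul, mul_left_comm]
    exact mul_mem (hcA j) (he (i, j))
  -- minimal leading coefficients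
  let P : Fin (finrank L V) → ℤ → Prop := fun i n => ∃ h : T.toRData.O, (h : F) ∈ fixF Γ ∧ (h : F) ∈ V ∧
    (∀ j, i < j → cf (a j) h = 0) ∧ ∃ u : T.A, T.π u ≠ 0 ∧ cf (a i) h = (Q.ϖ : L) ^ n * u
  have hPbd : ∀ i, ∀ n, P i n → -(e : ℤ) ≤ n := by
    rintro i n ⟨h, hK, hhV, -, u, hu, hcu⟩
    by_contra hlt
    push Not at hlt
    have h1 := hbd h hhV h.2 i
    rw [hcu, ← mul_assoc, ← zpow_natCast, ← zpow_add₀ Q.ne] at h1
    exact Q.not_mem_of_neg (by omega) hu h1
  have hPex : ∀ i, ∃ n, P i n := by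
    intro i
    obtain ⟨e', he'⟩ := Q.exists_scale_mem harch (f := f i)
    refine ⟨e', ⟨_, he'⟩, smul_mem_fixF ((fixL Γ).pow_mem Q.mem e') (hfK i),
      V.smul_mem _ (hfV i), ?_, 1, by rw [map_one]; exact one_ne_zero, ?_⟩
    · intro j hj
      rw [map_smul, hdual, if_neg hj.ne, smul_zero]
    · rw [map_smul, hdual, if_pos rfl, smul_eq_mul, zpow_natCast]
      push_cast
      rfl
  have hmin : ∀ i, ∃ n, P i n ∧ ∀ m, P i m → n ≤ m := fun i =>
    Int.exists_least_of_bdd ⟨_, hPbd i⟩ (hPex i)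
  choose n hn hnmin using hmin
  choose h hK hhV hlow u hu hcu using hn
  -- the residues are linearly independent
  have hli : LinearIndependent k (fun i => T.toRData.res (h i)) := by
    rw [Fintype.linearIndependent_iff]
    intro α hα
    by_contra hne
    push Not at hne
    obtain ⟨i₁, hi₁⟩ := hne
    obtain ⟨i₀, hi₀, hmax⟩ := Finset.exists_max_image (Finset.univ.filter fun i => α i ≠ 0) id
      ⟨i₁, Finset.mem_filter.mpr ⟨Finset.mem_univ _, hi₁⟩⟩
    have hα₀ : α i₀ ≠ 0 := (Finset.mem_filter.mp hi₀).2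
    have hα' : ∀ j, i₀ < j → α j = 0 := by
      intro j hj
      by_contra hcon
      have := hmax j (Finset.mem_filter.mpr ⟨Finset.mem_univ _, hcon⟩)
      exact absurd hj (not_lt.mpr this)
    -- lifts
    have hlift : ∀ i, ∃ c : T.A, (c : L) ∈ fixL Γ ∧ T.π c = α i ∧ (α i = 0 → c = 0) := by
      intro i
      by_cases hi : α i = 0
      · exact ⟨0, (fixL Γ).zero_mem, by rw [map_zero, hi], fun _ => rfl⟩
      · obtain ⟨c, hc1, hc2⟩ := Q.lift (α i)
        exact ⟨c, hc1, hc2, fun h => absurd h hi⟩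
    choose c hcK' hcα hc0 using hlift
    let s : T.toRData.O := ∑ i, T.toRData.cst (c i) * h i
    have hs : (s : F) = ∑ i, (c i : L) • (h i : F) := by
      simp only [s]
      push_cast
      refine Finset.sum_congr rfl fun i _ => ?_
      rw [Algebra.smul_def]
      rfl
    have hsK : (s : F) ∈ fixF Γ := by
      rw [hs]
      exact sum_mem fun i _ => smul_mem_fixF (hcK' i) (hK i)
    have hsV : (s : F) ∈ V := by
      rw [hs]
      exact sum_mem fun i _ => V.smul_mem _ (hhV i)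
    have hsr : T.toRData.res s = 0 := by
      simp only [s]
      rw [map_sum, ← hα]
      refine Finset.sum_congr rfl fun i _ => ?_
      rw [T.res_cst_mul, hcα]
    obtain ⟨h', hK', hh'⟩ := Q.dvd hsK hsr
    -- leading coefficient of `s`
    have hlead : ∀ j, i₀ < j → cf (a j) (s : F) = 0 := by
      intro j hj
      rw [hs, map_sum]
      refine Finset.sum_eq_zero fun i _ => ?_
      rw [map_smul]
      rcases lt_or_ge i₀ i with hi | hi
      · rw [hc0 i (hα' i hi)]
        simp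
      · rw [hlow i j (lt_of_le_of_lt hi hj), smul_zero]
    have hlead0 : cf (a i₀) (s : F) = (c i₀ : L) * ((Q.ϖ : L) ^ n i₀ * u i₀) := by
      rw [hs, map_sum, Finset.sum_eq_single i₀]
      · rw [map_smul, hcu, smul_eq_mul]
      · intro i _ hi
        rw [map_smul]
        rcases lt_or_ge i₀ i with hi' | hi'
        · rw [hc0 i (hα' i hi')]
          simp
        · rw [hlow i i₀ (lt_of_le_of_ne hi' hi), smul_zero]
      · intro h; exact absurd (Finset.mem_univ _) h
    have hP' : P i₀ (n i₀ - 1) := by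
      refine ⟨h', hK', ?_, ?_, c i₀ * u i₀, ?_, ?_⟩
      · rw [hh']; exact V.smul_mem _ hsV
      · intro j hj
        rw [hh', map_smul, hlead j hj, smul_zero]
      · rw [map_mul, hcα]; exact mul_ne_zero hα₀ (hu i₀)
      · rw [hh', map_smul, hlead0, smul_eq_mul, zpow_sub_one₀ Q.ne]
        push_cast
        ring
    have := hnmin i₀ _ hP'
    omega
  -- conclusion
  have hspan : T.toRData.red V = Submodule.span k (Set.range fun i => T.toRData.res (h i)) := by
    symm
    apply Submodule.eq_of_le_of_finrank_le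
    · rw [Submodule.span_le]
      rintro _ ⟨i, rfl⟩
      exact ⟨h i, hhV i, rfl⟩
    · rw [T.toRData.finrank_red, finrank_span_eq_card hli, Fintype.card_fin]
  intro q hq
  rw [hspan] at hq
  obtain ⟨α, hα⟩ := (Submodule.mem_span_range_iff_exists_fun k).mp hq
  choose c hcK' hcα using fun i => Q.lift (α i)
  refine ⟨∑ i, T.toRData.cst (c i) * h i, ?_, ?_, ?_⟩
  · have hs : ((∑ i, T.toRData.cst (c i) * h i : T.toRData.O) : F)
        = ∑ i, (c i : L) • (h i : F) := by
      push_cast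
      refine Finset.sum_congr rfl fun i _ => ?_
      rw [Algebra.smul_def]
      rfl
    rw [hs]
    exact sum_mem fun i _ => smul_mem_fixF (hcK' i) (hK i)
  · have hs : ((∑ i, T.toRData.cst (c i) * h i : T.toRData.O) : F)
        = ∑ i, (c i : L) • (h i : F) := by
      push_cast
      refine Finset.sum_congr rfl fun i _ => ?_
      rw [Algebra.smul_def]
      rfl
    rw [hs]
    exact sum_mem fun i _ => V.smul_mem _ (hhV i)
  · rw [map_sum, ← hα]
    refine Finset.sum_congr rfl fun i _ => ?_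
    rw [T.res_cst_mul, hcα]

variable [IsFF L F] [HasPrincipalDivisors L F] {p : Pencil T.toRData} {g₀ : ℤ}

/-- the space `L(D)` of a rational divisor is stable -/
theorem smul_mem_rr {D : Divisor L F} (hD : D ∈ fixD Γ) {g : SemilinearAut L F} (hg : g ∈ Γ)
    {f : F} (hf : f ∈ riemannRochSpace D) : g • f ∈ riemannRochSpace D := by
  rcases eq_or_ne f 0 with rfl | hf0
  · rw [smul_zero]; exact Submodule.zero_mem _
  have hgf : g • f ≠ 0 := by
    intro h
    exact hf0 ((smul_eq_zero_iff_eq g).mp h)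
  rw [mem_rr_of_ne hf0] at hf
  rw [mem_rr_of_ne hgf]
  intro v
  have h1 := hf (g⁻¹ • v)
  rw [← ord_semi] at h1
  have h2 := DFunLike.congr_fun (hD g hg) v
  rw [SemilinearAut.divisor_smul_apply] at h2
  rwa [h2] at h1

/-- the divisor of poles of a rational function is rational -/
theorem E_mem (ht : (p.t : F) ∈ fixF Γ) : p.E ∈ fixD Γ := by
  intro g hg
  ext v
  rw [SemilinearAut.divisor_smul_apply, p.hE, p.hE, ← ord_semi, ht g hg]

/-- **The rational structure.** -/
def ratDat (hRR : RRLarge L F g₀) (harch : T.Arch) (cf : ℤ → F →ₗ[L] L)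
    (hinj : ∀ f, (∀ n, cf n f = 0) → f = 0)
    (hcf : ∀ g ∈ Γ, ∀ n f, cf n (g • f) = SemilinearAut.baseAut g (cf n f))
    (ht : (p.t : F) ∈ fixF Γ) : T.RatDat p where
  FK := fixF Γ
  𝒟 := fixD Γ
  div_mem _ hf h := dv_mem_fixD hf h
  rat := ⟨fun D hD m q hq => by
    have hfd := finiteDimensional_rr hRR (m • p.E + D)
    have hmem : m • p.E + D ∈ fixD Γ :=
      (fixD Γ).add_mem ((fixD Γ).nsmul_mem (E_mem ht) m) hD
    exact Q.exists_rat harch cf hinj hcf (riemannRochSpace (m • p.E + D))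
      (fun g hg f hf => smul_mem_rr hmem hg hf) q hq⟩
  ϖ := Q.ϖ
  ne := Q.ne
  res := Q.res
  mem := algebraMap_mem_fixF Q.mem
  scale₁ := Q.scale₁
  scale₂ := Q.scale₂

end KForm

end Fermat.Agent.BadRed
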