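import Fermat.Agent.BadRed.KLat6
import Fermat.Agent.BadRed.Conc5
import Fermat.Agent.MzCusp.Descend

/-!
# The rational structure of `X₀(N r)` over the fixed field of inertia
-/

set_option autoImplicit false
set_option linter.unusedSectionVars false

noncomputable section

open HahnSeries ModularCurve Module AlgebraicCurve

namespace Fermat.Agent.BadRed

open Fermat.Agent.Igusa Fermat.Agent.AtkinLehner

section ConstForm

variable {L : Type*} [Field L] {A : ValuationSubring L} {κ : Type*} [Field κ]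

/-- the fixed field of a set of automorphisms -/
def fix₀ (Γ₀ : Set (L ≃+* L)) : Subfield L where
  carrier := {a | ∀ σ ∈ Γ₀, σ a = a}
  mul_mem' := by
    intro a b ha hb σ hσ
    rw [map_mul, ha σ hσ, hb σ hσ]
  one_mem' := fun σ _ => map_one _
  add_mem' := by
    intro a b ha hb σ hσ
    rw [map_add, ha σ hσ, hb σ hσ]
  zero_mem' := fun σ _ => map_zero _
  neg_mem' := by
    intro a ha σ hσ
    rw [map_neg, ha σ hσ]
  inv_mem' := by
    intro a ha σ hσ
    rw [map_inv₀, ha σ hσ]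

/-- discretely valued field of constants with full residue field -/
structure ConstForm (π : A →+* κ) (Γ₀ : Set (L ≃+* L)) where
  ϖ : A
  ne : (ϖ : L) ≠ 0
  res : π ϖ = 0
  mem : (ϖ : L) ∈ fix₀ Γ₀
  unif : ∀ c ∈ fix₀ Γ₀, c ≠ 0 → ∃ (n : ℤ) (u : A), π u ≠ 0 ∧ c = (ϖ : L) ^ n * u
  lift : ∀ x : κ, ∃ a : A, (a : L) ∈ fix₀ Γ₀ ∧ π a = x

end ConstForm

section Descent

variable {L : Type*} [Field L] {A : ValuationSubring L} {κ : Type*} [Field κ] {π : A →+* κ}
  {Γ₀ : Set (L ≃+* L)}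

/-- the valuation ring of the fixed field -/
def A₀ (A : ValuationSubring L) (Γ₀ : Set (L ≃+* L)) : ValuationSubring (fix₀ Γ₀) :=
  A.comap (fix₀ Γ₀).subtype

/-- inclusion -/
def iA (A : ValuationSubring L) (Γ₀ : Set (L ≃+* L)) : A₀ A Γ₀ →+* A where
  toFun x := ⟨(x : fix₀ Γ₀), x.2⟩
  map_one' := rfl
  map_mul' _ _ := rfl
  map_zero' := rfl
  map_add' _ _ := rfl

theorem coeffMap_iA (P : LaurentSeries (A₀ A Γ₀)) :
    coeffMap (fix₀ Γ₀).subtype (coeffMap (A₀ A Γ₀).subtype P) =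
      coeffMap A.subtype (coeffMap (iA A Γ₀) P) := by
  ext n
  rfl

theorem coeffMap_π_iA (P : LaurentSeries (A₀ A Γ₀)) :
    coeffMap (π.comp (iA A Γ₀)) P = coeffMap π (coeffMap (iA A Γ₀) P) := by
  ext n
  rfl

/-- base change of the Gauss ring -/
theorem gauss_base {y : LaurentSeries (fix₀ Γ₀)}
    (h : y ∈ gaussRing (A₀ A Γ₀) (π.comp (iA A Γ₀))) :
    ∃ h' : coeffMap (fix₀ Γ₀).subtype y ∈ gaussRing A π,
      gaussRes A π ⟨_, h'⟩ = gaussRes (A₀ A Γ₀) (π.comp (iA A Γ₀)) ⟨y, h⟩ := by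
  obtain ⟨P, Q, hQ, hPQ⟩ := mem_gaussRing_iff.mp h
  have h1 : coeffMap (fix₀ Γ₀).subtype y * coeffMap A.subtype (coeffMap (iA A Γ₀) Q) =
      coeffMap A.subtype (coeffMap (iA A Γ₀) P) := by
    rw [← coeffMap_iA, ← coeffMap_iA, ← map_mul, hPQ]
  have hQ' : coeffMap π (coeffMap (iA A Γ₀) Q) ≠ 0 := by
    rw [← coeffMap_π_iA]; exact hQ
  have h' : coeffMap (fix₀ Γ₀).subtype y ∈ gaussRing A π := mem_gaussRing_iff.mpr ⟨_, _, hQ', h1⟩
  refine ⟨h', ?_⟩
  rw [gaussRes_eq (⟨_, h'⟩ : gaussRing A π) hQ' h1,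
    gaussRes_eq (⟨y, h⟩ : gaussRing (A₀ A Γ₀) (π.comp (iA A Γ₀))) hQ hPQ,
    ← coeffMap_π_iA, ← coeffMap_π_iA]

/-- a series with fixed coefficients comes from the fixed field -/
theorem exists_descend_coeff {x : LaurentSeries L} (h : ∀ n, x.coeff n ∈ fix₀ Γ₀) :
    ∃ y : LaurentSeries (fix₀ Γ₀), coeffMap (fix₀ Γ₀).subtype y = x := by
  refine ⟨⟨fun n => ⟨x.coeff n, h n⟩, ?_⟩, ?_⟩
  · have h1 : (Function.support fun n => (⟨x.coeff n, h n⟩ : fix₀ Γ₀)) ⊆
        Function.support x.coeff := by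
      intro n hn h0
      exact hn (Subtype.ext h0)
    exact x.isPWO_support.mono h1
  · ext n
    rfl

/-- scaling of rational functions by rational constants -/
theorem exists_scale_rat (M : ℕ) {x : LaurentSeries L} (hx : x ∈ modularFunctionFieldFullC L M)
    (hx0 : x ≠ 0) (h : ∀ n, x.coeff n ∈ fix₀ Γ₀) :
    ∃ c ∈ fix₀ Γ₀, c ≠ 0 ∧ ∃ h : algebraMap L (LaurentSeries L) c * x ∈ gaussRing A π,
      gaussRes A π ⟨_, h⟩ ≠ 0 := by
  obtain ⟨y, rfl⟩ := exists_descend_coeff h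
  have hy := MzCusp.mem_full_of_coeffMap (fix₀ Γ₀).subtype M hx
  have hy0 : (⟨y, hy⟩ : modularFunctionFieldFullC (fix₀ Γ₀) M) ≠ 0 := by
    intro h0
    apply hx0
    rw [show y = 0 from congrArg Subtype.val h0, map_zero]
  obtain ⟨c, hc, hg, hr⟩ := exists_scale_gauss (A₀ A Γ₀) (π.comp (iA A Γ₀))
    (isTameHom_val (isTameField_full (L := fix₀ Γ₀) M)) hy0
  obtain ⟨h', e'⟩ := gauss_base hg
  have h1 : coeffMap (fix₀ Γ₀).subtype ((modularFunctionFieldFullC (fix₀ Γ₀) M).val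
      (c • (⟨y, hy⟩ : modularFunctionFieldFullC (fix₀ Γ₀) M))) =
      algebraMap L (LaurentSeries L) (c : L) * coeffMap (fix₀ Γ₀).subtype y := by
    have h2 := psi_smul (modularFunctionFieldFullC (fix₀ Γ₀) M).val c ⟨y, hy⟩
    ext m
    have h3 := congrArg (fun z : LaurentSeries (fix₀ Γ₀) => ((z.coeff m : fix₀ Γ₀) : L)) h2
    simp only [Igusa.coeff_algebraMap_mul] at h3
    rw [coeffMap_coeff, Igusa.coeff_algebraMap_mul, coeffMap_coeff]
    exact h3
  refine ⟨c, c.2, fun h0 => hc (Subtype.ext h0), by rw [← h1]; exact h', ?_⟩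
  intro h0
  apply hr
  rw [← e', ← h0]
  exact gaussRes_congr h1

end Descent

variable {L : Type*} [Field L] [IsAlgClosed L] [CharZero L] (A : ValuationSubring L)
  {κ : Type*} [Field κ] (π : A →+* κ) [IsLocalHom π] (hπ : Function.Surjective π)
  (harch : ArchA π)
  (N r : ℕ) [hr : Fact r.Prime] [hN : NeZero N] [CharP κ r] (hrN : ¬ r ∣ N)

/-- the coefficientwise semilinear automorphisms -/
def coefΓ (L : Type*) [Field L] (M : ℕ) (Γ₀ : Set (L ≃+* L)) :
    Set (SemilinearAut L (modularFunctionFieldFullC L M)) :=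
  {g | ∃ σ ∈ Γ₀, ∀ x : modularFunctionFieldFullC L M,
    ((g • x : modularFunctionFieldFullC L M) : LaurentSeries L) =
      coeffMap (σ : L →+* L) (x : LaurentSeries L)}

theorem baseAut_of_coef {M : ℕ} {σ : L ≃+* L}
    {g : SemilinearAut L (modularFunctionFieldFullC L M)}
    (hg : ∀ x : modularFunctionFieldFullC L M,
      ((g • x : modularFunctionFieldFullC L M) : LaurentSeries L) =
        coeffMap (σ : L →+* L) (x : LaurentSeries L)) (a : L) :
    SemilinearAut.baseAut g a = σ a := by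
  have h1 := hg (algebraMap L _ a)
  rw [SemilinearAut.smul_algebraMap] at h1
  have h2 : coeffMap (σ : L →+* L) (algebraMap L (LaurentSeries L) a) =
      algebraMap L (LaurentSeries L) (σ a) := coeffMap_algebraMap _ _
  have h3 : algebraMap L (LaurentSeries L) (SemilinearAut.baseAut g a) =
      algebraMap L (LaurentSeries L) (σ a) := h1.trans h2
  exact (algebraMap L (LaurentSeries L)).injective h3

variable {Γ₀ : Set (L ≃+* L)}

/-- existence of coefficientwise automorphisms -/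
theorem exists_coefAut (L : Type*) [Field L] (M : ℕ) (σ : L ≃+* L) :
    ∃ g : SemilinearAut L (modularFunctionFieldFullC L M), ∀ x : modularFunctionFieldFullC L M,
      ((g • x : modularFunctionFieldFullC L M) : LaurentSeries L) =
        coeffMap (σ : L →+* L) (x : LaurentSeries L) :=
  ⟨⟨(coeffEquiv σ M, σ), fun a => Subtype.ext (coeffMap_algebraMap (σ : L →+* L) a)⟩, fun _ => rfl⟩

theorem mem_fixL_coefΓ {M : ℕ} {a : L} : a ∈ fixL (coefΓ L M Γ₀) ↔ a ∈ fix₀ Γ₀ := by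
  constructor
  · intro h σ hσ
    obtain ⟨g, hg⟩ := exists_coefAut L M σ
    rw [← baseAut_of_coef hg]
    exact h g ⟨σ, hσ, hg⟩
  · rintro h g ⟨σ, hσ, hg⟩
    rw [baseAut_of_coef hg]
    exact h σ hσ

theorem mem_fixF_coefΓ {M : ℕ} {f : modularFunctionFieldFullC L M} :
    f ∈ fixF (coefΓ L M Γ₀) ↔ ∀ n, (f : LaurentSeries L).coeff n ∈ fix₀ Γ₀ := by
  constructor
  · intro h n σ hσ
    obtain ⟨g, hg⟩ := exists_coefAut L M σ
    have h1 := h g ⟨σ, hσ, hg⟩
    have h2 := congrArg (fun z : LaurentSeries L => z.coeff n) (hg f)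
    simp only [coeffMap_coeff] at h2
    rw [h1] at h2
    exact h2.symm
  · rintro h g ⟨σ, hσ, hg⟩
    apply Subtype.ext
    rw [hg]
    ext n
    rw [coeffMap_coeff]
    exact h n σ hσ

theorem ww_mem_fixF {f : modularFunctionFieldFullC L (N * r)}
    (hf : f ∈ fixF (coefΓ L (N * r) Γ₀)) : ww L N r hrN f ∈ fixF (coefΓ L (N * r) Γ₀) := by
  rintro g ⟨σ, hσ, hg⟩
  rw [← ww_smul N r hrN hg, hf g ⟨σ, hσ, hg⟩]

theorem coe_ne_zero_of_ne {M : ℕ} {f : modularFunctionFieldFullC L M} (hf : f ≠ 0) :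
    (f : LaurentSeries L) ≠ 0 := fun h => hf (Subtype.ext h)

/-- coefficients -/
def cfM (L : Type*) [Field L] (M : ℕ) (n : ℤ) : modularFunctionFieldFullC L M →ₗ[L] L :=
  (coeffLin L n).comp (modularFunctionFieldFullC L M).val.toLinearMap

theorem cfM_apply (L : Type*) [Field L] (M : ℕ) (n : ℤ) (f : modularFunctionFieldFullC L M) :
    cfM L M n f = (f : LaurentSeries L).coeff n := rfl

variable {A π}

theorem scale_unit (C : ConstForm π Γ₀) {F F₁ : Type*} [Field F] [Field F₁] [Algebra L F]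
    [Algebra κ F₁] (V : ResVal A π F F₁) {f : F} {c : L} (hc : c ∈ fix₀ Γ₀) (hc0 : c ≠ 0)
    (h : c • f ∈ V.O) (hr : V.r ⟨c • f, h⟩ ≠ 0) :
    ∃ (n : ℤ) (a : F₁), a ≠ 0 ∧ V.ER (((C.ϖ : L) ^ n) • f) a := by
  obtain ⟨n, u, hu, rfl⟩ := C.unif c hc hc0
  have h1 : V.ER (algebraMap L F (u : L)) (algebraMap κ F₁ (π u)) := ResVal.ER.cst u
  have hu' : algebraMap κ F₁ (π u) ≠ 0 := by rwa [Ne, map_eq_zero]
  have hu0 : (u : L) ≠ 0 := by
    intro h0
    rw [h0, mul_zero] at hc0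
    exact hc0 rfl
  refine ⟨n, _, mul_ne_zero (inv_ne_zero hu') hr, ?_⟩
  have h2 := (h1.inv hu').mul (ResVal.ER.of_mem h)
  convert h2 using 1
  rw [← map_inv₀, ← Algebra.smul_def, smul_smul]
  congr 1
  field_simp

variable (A π)

/-- **The discretely valued constants.** -/
def kForm (C : ConstForm π Γ₀) :
    KForm (twoVal A π hπ harch N r hrN) (coefΓ L (N * r) Γ₀) where
  ϖ := C.ϖ
  ne := C.ne
  res := C.res
  mem := mem_fixL_coefΓ.mpr C.mem
  unif c hc hc0 := C.unif c (mem_fixL_coefΓ.mp hc) hc0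
  lift x := by
    obtain ⟨a, ha, hx⟩ := C.lift x
    exact ⟨a, mem_fixL_coefΓ.mpr ha, hx⟩
  scale₁ f hf hf0 := by
    obtain ⟨c, hc, hc0, h, hr⟩ := exists_scale_rat (A := A) (π := π) (N * r) f.2
      (coe_ne_zero_of_ne hf0) (mem_fixF_coefΓ.mp hf)
    have h1 : ((c • f : modularFunctionFieldFullC L (N * r)) : LaurentSeries L) =
        algebraMap L (LaurentSeries L) c * f := psi_smul (psi₁ L N r) c f
    have h2 : c • f ∈ (VV₁ A π hπ harch N r hrN).O := by
      show ((c • f : modularFunctionFieldFullC L (N * r)) : LaurentSeries L) ∈ gaussRing A π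
      rw [h1]
      exact h
    refine scale_unit C (VV₁ A π hπ harch N r hrN) hc hc0 h2 ?_
    intro h0
    apply hr
    have h3 : gaussRes A π ⟨((c • f : modularFunctionFieldFullC L (N * r)) : LaurentSeries L), h2⟩
        = 0 := congrArg Subtype.val h0
    exact (gaussRes_congr h1.symm).trans h3
  scale₂ f hf hf0 := by
    have hw0 : ww L N r hrN f ≠ 0 := by rwa [Ne, map_eq_zero]
    obtain ⟨c, hc, hc0, h, hr⟩ := exists_scale_rat (A := A) (π := π) (N * r)
      (ww L N r hrN f).2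
      (coe_ne_zero_of_ne hw0) (mem_fixF_coefΓ.mp (ww_mem_fixF N r hrN hf))
    have h1 : (psi₂ L N r hrN (c • f)) =
        algebraMap L (LaurentSeries L) c * (ww L N r hrN f : LaurentSeries L) :=
      psi_smul (psi₂ L N r hrN) c f
    have h2 : c • f ∈ (VV₂ A π hπ harch N r hrN).O := by
      show psi₂ L N r hrN (c • f) ∈ gaussRing A π
      rw [h1]
      exact h
    refine scale_unit C (VV₂ A π hπ harch N r hrN) hc hc0 h2 ?_
    intro h0
    apply hr
    have h3 : gaussRes A π ⟨psi₂ L N r hrN (c • f), h2⟩ = 0 := congrArg Subtype.val h0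
    exact (gaussRes_congr h1.symm).trans h3

/-- **The rational structure of `X₀(N r)`.** -/
def ratDatX (C : ConstForm π Γ₀) {g₀ : ℤ}
    (p : Pencil (twoVal A π hπ harch N r hrN).toRData)
    [Fermat.Agent.FunField.IsFF L (modularFunctionFieldFullC L (N * r))]
    [HasPrincipalDivisors L (modularFunctionFieldFullC L (N * r))]
    (hRR : Fermat.Agent.Deuring.RRLarge L (modularFunctionFieldFullC L (N * r)) g₀)
    (hArch : (twoVal A π hπ harch N r hrN).Arch)
    (ht : ∀ n, ((p.t : modularFunctionFieldFullC L (N * r)) : LaurentSeries L).coeff n ∈ fix₀ Γ₀) :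
    (twoVal A π hπ harch N r hrN).RatDat p :=
  (kForm A π hπ harch N r hrN C).ratDat hRR hArch (cfM L (N * r))
    (fun f hf => Subtype.ext (by
      ext n
      exact hf n))
    (by
      rintro g ⟨σ, hσ, hg⟩ n f
      rw [cfM_apply, hg, coeffMap_coeff, baseAut_of_coef hg, cfM_apply]
      rfl)
    (mem_fixF_coefΓ.mpr ht)

end Fermat.Agent.BadRed
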