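import Fermat.Agent.BadRed.NormConc

/-!
# The norm data of `X₀(N r) → X₀(N)` at `r`, conclusion
-/

set_option autoImplicit false
set_option linter.unusedSectionVars false

noncomputable section

open HahnSeries ModularCurve Module Polynomial AlgebraicCurve

namespace Fermat.Agent.BadRed

open Fermat.Agent.Igusa Fermat.Agent.AtkinLehner Fermat.Agent.ModPoly Fermat.Agent.HeckeRed

variable {L : Type*} [Field L] [IsAlgClosed L] [CharZero L] (A : ValuationSubring L)
  {κ : Type*} [Field κ] (π : A →+* κ) [IsLocalHom π] (hπ : Function.Surjective π)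
  (harch : ArchA π)
  (N r : ℕ) [hr : Fact r.Prime] [hN : NeZero N] [CharP κ r] (hrN : ¬ r ∣ N)

/-- the Gauss valuation of `F_N` -/
def VV₀ : ResVal A π (modularFunctionFieldFullC L N) (modularFunctionFieldFullC κ N) :=
  mkResVal A π (isTameHom_val (isTameField_full (L := L) N)) (modularFunctionFieldFullC κ N)
    (fun x => gaussValRes_mem_full A π N hπ (d := dedekindPsi N)
      (ModDeg.psi_pos (NeZero.ne N))
      (ModDeg.relfinrank_full L N (cast_ne_zero_L L N))
      (ModDeg.relfinrank_full κ N (cast_ne_zero_κ N r hrN κ)) x)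

theorem mem_VV₀ {x : modularFunctionFieldFullC L N} :
    x ∈ (VV₀ A π hπ N r hrN).O ↔ (x : LaurentSeries L) ∈ gaussRing A π := Iff.rfl

theorem coe_VV₀_r {x : modularFunctionFieldFullC L N}
    (hx : x ∈ (VV₀ A π hπ N r hrN).O) (hx' : (x : LaurentSeries L) ∈ gaussRing A π) :
    (((VV₀ A π hπ N r hrN).r ⟨x, hx⟩ : modularFunctionFieldFullC κ N) : LaurentSeries κ) =
      gaussRes A π ⟨(x : LaurentSeries L), hx'⟩ := rfl

/-- an element of `F_N` whose transform `z(q^r)` is in the Gauss ring is in the Gauss ring -/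
theorem mem_gauss_of_qExpand (hrN : ¬ r ∣ N) {z : LaurentSeries L}
    (hzN : z ∈ modularFunctionFieldFullC L N)
    (hz : qExpand L r z ∈ gaussRing A π) :
    ∃ h : z ∈ gaussRing A π,
      qExpand κ r (gaussRes A π ⟨z, h⟩) = gaussRes A π ⟨_, hz⟩ := by
  have hz' : z ∈ modularFunctionFieldFullC L (N * r) := full_le_mul' L N r hzN
  have h0 : (⟨z, hz'⟩ : modularFunctionFieldFullC L (N * r)) ∈ F₀ L N r := hzN
  have h2 : (⟨z, hz'⟩ : modularFunctionFieldFullC L (N * r)) ∈ O₂ A π N r hrN := by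
    rw [mem_gaussAlong, psi₂_of_mem L N r hrN h0]
    exact hz
  have h1 : (⟨z, hz'⟩ : modularFunctionFieldFullC L (N * r)) ∈ O₁ A π N r :=
    (mem_O₁_iff_of_F₀ A π N r hrN _ h0).mpr h2
  have h5 : z ∈ gaussRing A π := h1
  obtain ⟨h3, h4⟩ := qExpand_mem_gauss (A := A) (π := π) r (x := z) h5
  exact ⟨h5, h4.symm⟩

theorem hasRes₁_iff {f : modularFunctionFieldFullC L (N * r)}
    {a : modularFunctionFieldFullC κ N} :
    (twoVal A π hπ harch N r hrN).V₁.HasRes f a ↔ ∃ c : L, c ≠ 0 ∧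
      ∃ h : ((c • f : modularFunctionFieldFullC L (N * r)) : LaurentSeries L) ∈ gaussRing A π,
        gaussRes A π ⟨_, h⟩ = (a : LaurentSeries κ) := by
  constructor
  · rintro ⟨c, hc, h, e⟩
    exact ⟨c, hc, h, congrArg Subtype.val e⟩
  · rintro ⟨c, hc, h, e⟩
    exact ⟨c, hc, h, Subtype.ext e⟩

theorem hasRes₂_iff {f : modularFunctionFieldFullC L (N * r)}
    {a : modularFunctionFieldFullC κ N} :
    (twoVal A π hπ harch N r hrN).V₂.HasRes f a ↔ ∃ c : L, c ≠ 0 ∧
      ∃ h : (ww L N r hrN (c • f) : LaurentSeries L) ∈ gaussRing A π,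
        gaussRes A π ⟨_, h⟩ = (a : LaurentSeries κ) := by
  constructor
  · rintro ⟨c, hc, h, e⟩
    exact ⟨c, hc, h, congrArg Subtype.val e⟩
  · rintro ⟨c, hc, h, e⟩
    exact ⟨c, hc, h, Subtype.ext e⟩

/-- **The residue of the norm.** -/
theorem hasRes_norm {s : κ ≃+* κ} (hs : ∀ a, s a = a ^ r)
    (f : modularFunctionFieldFullC L (N * r)) (a b : modularFunctionFieldFullC κ N)
    (ha : (twoVal A π hπ harch N r hrN).V₁.HasRes f a)
    (hb : (twoVal A π hπ harch N r hrN).V₂.HasRes f b) :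
    (VV₀ A π hπ N r hrN).HasRes (normNr L N r f) (a * coeffEquiv s N b) := by
  rw [hasRes₁_iff] at ha
  rw [hasRes₂_iff] at hb
  obtain ⟨c₁, hc₁, h₁, e₁⟩ := ha
  obtain ⟨c₂, hc₂, h₂, e₂⟩ := hb
  obtain ⟨v, hv⟩ := ModDeg.exists_primitiveRoot_unit (K := L) hr.out (cast_ne_zero_Lr L r)
  obtain ⟨g, e⟩ := gauss_norm (A := A) (π := π) hv.pow_eq_one h₁ h₂
    (normNr_formula hrN hv c₁ c₂ f)
  obtain ⟨h9, h10⟩ := mem_gauss_of_qExpand A π N r hrN
    ((c₁ * c₂ ^ r) • normNr L N r f : modularFunctionFieldFullC L N).2 g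
  refine ⟨c₁ * c₂ ^ r, mul_ne_zero hc₁ (pow_ne_zero _ hc₂), h9, ?_⟩
  apply Subtype.ext
  show gaussRes A π ⟨_, h9⟩ = (a : LaurentSeries κ) * coeffMap (s : κ →+* κ) (b : LaurentSeries κ)
  apply qExpand_injective r
  have h8 : (s : κ →+* κ) = frobenius κ r := RingHom.ext fun x => hs x
  rw [h10, e, e₁, e₂, map_mul, h8, qExpand_frobenius]

theorem hasRes₁_w {f : modularFunctionFieldFullC L (N * r)} {b : modularFunctionFieldFullC κ N}
    (h : (twoVal A π hπ harch N r hrN).V₂.HasRes f b) :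
    (twoVal A π hπ harch N r hrN).V₁.HasRes (ww L N r hrN f) b := by
  rw [hasRes₂_iff] at h
  rw [hasRes₁_iff]
  obtain ⟨c, hc, h, e⟩ := h
  have e1 : c • ww L N r hrN f = ww L N r hrN (c • f) := by
    rw [Algebra.smul_def, Algebra.smul_def, map_mul, AlgEquiv.commutes]
  have e2 : ((c • ww L N r hrN f : modularFunctionFieldFullC L (N * r)) : LaurentSeries L) =
    (ww L N r hrN (c • f) : LaurentSeries L) := by rw [e1]
  have h' := h
  rw [← e2] at h'
  refine ⟨c, hc, h', ?_⟩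
  rw [← e]
  exact gaussRes_congr e2

theorem hasRes₂_w {f : modularFunctionFieldFullC L (N * r)} {b : modularFunctionFieldFullC κ N}
    (h : (twoVal A π hπ harch N r hrN).V₁.HasRes f b) :
    (twoVal A π hπ harch N r hrN).V₂.HasRes (ww L N r hrN f) b := by
  rw [hasRes₁_iff] at h
  rw [hasRes₂_iff]
  obtain ⟨c, hc, h, e⟩ := h
  have e1 : ww L N r hrN (c • ww L N r hrN f) = c • f := by
    rw [Algebra.smul_def, map_mul, AlgEquiv.commutes, ww_ww, Algebra.smul_def]
  have e2 : (ww L N r hrN (c • ww L N r hrN f) : LaurentSeries L) =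
    ((c • f : modularFunctionFieldFullC L (N * r)) : LaurentSeries L) := by rw [e1]
  have h' := h
  rw [← e2] at h'
  refine ⟨c, hc, h', ?_⟩
  rw [← e]
  exact gaussRes_congr e2

/-- **The norm data of `X₀(N r) → X₀(N)` at `r`.** -/
def normDat {s : κ ≃+* κ} (hs : ∀ a, s a = a ^ r) :
    TwoVal.NormDat (twoVal A π hπ harch N r hrN) (modularFunctionFieldFullC L N)
      (coeffEquiv s N) where
  V₀ := VV₀ A π hπ N r hrN
  Nα := normNr L N r
  Nβ := (normNr L N r).comp (ww L N r hrN : _ →* _)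
  hα f a b _ _ h1 h2 := hasRes_norm A π hπ harch N r hrN hs f a b h1 h2
  hβ f a b _ _ h1 h2 := hasRes_norm A π hπ harch N r hrN hs (ww L N r hrN f) b a
    (hasRes₁_w A π hπ harch N r hrN h2) (hasRes₂_w A π hπ harch N r hrN h1)

end Fermat.Agent.BadRed
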