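import Fermat.Agent.BadRed.NormDat
import Fermat.Agent.Degen.Pic

/-!
# Classes killed by the push-forwards and the subgroup `NN`
-/

set_option autoImplicit false
set_option linter.unusedSectionVars false

noncomputable section

open AlgebraicCurve Module

namespace Fermat.Agent.BadRed

open Fermat.Agent.FunField Fermat.Agent.FunField.PlaceLemmas Fermat.Agent.Degen
  Fermat.Agent.HeckeRed

section General

variable {L F F₀ : Type*} [Field L] [IsAlgClosed L] [Field F] [Field F₀] [Algebra L F]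
  [Algebra L F₀] [IsFF L F] [IsFF L F₀]

theorem exists_of_mk_eq_zero {D : Divisor.degZero (K := L) (F := F)} (h : Pic0.mk D = 0) :
    ∃ f : F, f ≠ 0 ∧ ∀ v : Place L F, (D : Divisor L F) v = v.ord f := by
  have h2 := (QuotientAddGroup.eq_zero_iff _).mp h
  rw [AddSubgroup.mem_addSubgroupOf] at h2
  exact h2

theorem exists_of_mem_torsion {n : ℕ} {D : Divisor.degZero (K := L) (F := F)}
    (h : Pic0.mk D ∈ Pic0.torsion L F n) :
    ∃ f : F, f ≠ 0 ∧ ∀ v : Place L F, (n : ℤ) * (D : Divisor L F) v = v.ord f := by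
  rw [Pic0.mem_torsion] at h
  have h1 : Pic0.mk ((n : ℤ) • D) = 0 := h
  obtain ⟨f, hf, hfD⟩ := exists_of_mk_eq_zero h1
  exact ⟨f, hf, fun v => by rw [← hfD v]; rfl⟩

/-- If `n D = div f` and `α_* [D] = 0` then `N_α f` is an `n`-th power up to a constant. -/
theorem exists_normAlong_eq (α : F₀ →ₐ[L] F) {n : ℕ} {D : Divisor.degZero (K := L) (F := F)}
    {f : F} (hf : f ≠ 0) (hD : ∀ v : Place L F, (n : ℤ) * (D : Divisor L F) v = v.ord f)
    (hα : pushPic α (Pic0.mk D) = 0) :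
    ∃ (c : L) (h : F₀), c ≠ 0 ∧ h ≠ 0 ∧ normAlong α f = c • h ^ n := by
  rw [pushPic_mk] at hα
  obtain ⟨h, hh, hhD⟩ := exists_of_mk_eq_zero hα
  have h1 : (n : ℤ) • (D : Divisor L F) = divOf f := by
    ext v
    rw [divOf_apply, ← hD v]
    rfl
  have h2 : (n : ℤ) • push α (D : Divisor L F) = divOf (normAlong α f) := by
    rw [← push_divOf α hf, ← h1, map_zsmul]
  have hN : normAlong α f ≠ 0 := normAlong_ne_zero α (finiteAlong_of_isFF α) hf
  have hhn : h ^ n ≠ 0 := pow_ne_zero _ hh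
  have h3 : ∀ v : Place L F₀, 0 ≤ v.ord (normAlong α f / h ^ n) := by
    intro v
    have h4 : (n : ℤ) * (push α (D : Divisor L F)) v = v.ord (normAlong α f) := by
      have := congrArg (fun E : Divisor L F₀ => E v) h2
      simp only [divOf_apply] at this
      rw [← this]
      rfl
    have h5 : (push α (D : Divisor L F)) v = v.ord h := hhD v
    rw [div_eq_mul_inv, v.ord_mul hN (inv_ne_zero hhn), v.ord_inv, ord_pow, ← h4, h5]
    simp
  obtain ⟨c, hc⟩ := exists_eq_algebraMap_of_forall_ord_nonneg h3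
  refine ⟨c, h, ?_, hh, ?_⟩
  · rintro rfl
    rw [map_zero] at hc
    exact div_ne_zero hN hhn hc.symm
  · rw [Algebra.smul_def, hc, div_mul_cancel₀ _ hhn]

end General

namespace TwoVal

variable {L k : Type*} [Field L] [Field k] [IsAlgClosed L] [IsAlgClosed k]
variable {F F₀ F₁ : Type*} [Field F] [Field F₀] [Field F₁] [Algebra L F] [Algebra L F₀]
  [Algebra k F₁] [IsFF L F] [IsFF L F₀]
  {T : TwoVal L k F F₁} {φ : F₁ ≃+* F₁} (ND : NormDat T F₀ φ) (α β : F₀ →ₐ[L] F)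
  (hNα : ∀ f, ND.Nα f = normAlong α f) (hNβ : ∀ f, ND.Nβ f = normAlong β f)

include hNα hNβ

/-- **(iii)** the square of Frobenius on classes killed by both push-forwards. -/
theorem smul_smul_sub_mem_NN (γ : GalV T) (hγ : ∀ a, γ.σ a = φ a) {n : ℕ} (hn : n ≠ 0)
    {x : Pic0 L F} (hx : x ∈ Pic0.torsion L F n) (hα : pushPic α x = 0)
    (hβ : pushPic β x = 0) : γ.g • γ.g • x - x ∈ T.NN n := by
  obtain ⟨D, rfl⟩ := Pic0.mk_surjective x
  obtain ⟨f, hf, hD⟩ := exists_of_mem_torsion hx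
  refine ⟨SemilinearAut.degZeroSMulHom γ.g (SemilinearAut.degZeroSMulHom γ.g D) - D, rfl, ?_⟩
  exact ND.inN_sub hn γ hγ hf hD
    (by rw [hNα]; exact exists_normAlong_eq α hf hD hα)
    (by rw [hNβ]; exact exists_normAlong_eq β hf hD hβ)

omit [IsAlgClosed L] [IsFF L F] [IsFF L F₀] hNα hNβ in
/-- Frobenius plus the Atkin–Lehner involution, divisors -/
theorem NormDat.inN_add (w : F ≃ₐ[L] F)
    (hw₁ : ∀ f b, T.V₂.HasRes f b → T.V₁.HasRes (w f) b)
    (hw₂ : ∀ f b, T.V₁.HasRes f b → T.V₂.HasRes (w f) b) {n : ℕ} (hn : n ≠ 0) (γ : GalV T)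
    (hγ : ∀ a, γ.σ a = φ a) {D : Divisor L F} {f : F} (hf : f ≠ 0)
    (hD : ∀ v : Place L F, (n : ℤ) * D v = v.ord f)
    (hα : ∃ (c : L) (h : F₀), c ≠ 0 ∧ h ≠ 0 ∧ ND.Nα f = c • h ^ n)
    (hβ : ∃ (c : L) (h : F₀), c ≠ 0 ∧ h ≠ 0 ∧ ND.Nβ f = c • h ^ n) :
    T.InN n (γ.g • D + SemilinearAut.ofAlgAut w • D) := by
  obtain ⟨a, ha, har⟩ := ResVal.exists_hasRes (V := T.V₁) hf
  obtain ⟨b, hb, hbr⟩ := ResVal.exists_hasRes (V := T.V₂) hf
  have hφ : ∀ {x : F₁}, x ≠ 0 → φ x ≠ 0 := fun {x} hx => by rwa [Ne, map_eq_zero]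
  have key : ∀ (N : F₀) (c : L) (h : F₀) (x : F₁), c ≠ 0 → h ≠ 0 → N = c • h ^ n →
      x ≠ 0 → ND.V₀.HasRes N x → ∃ e : F₁, e ≠ 0 ∧ x = e ^ n := by
    intro N c h x hc hh hN hx hNx
    obtain ⟨e, he, her⟩ := ResVal.exists_hasRes (V := ND.V₀) hh
    have h1 := (her.pow n).smul hc
    rw [← hN] at h1
    obtain ⟨κ, hκ, hxe⟩ := h1.unique hNx (pow_ne_zero _ he) hx
    obtain ⟨κ', hκ'⟩ := IsAlgClosed.exists_pow_nat_eq κ (Nat.pos_of_ne_zero hn)
    have hκ0 : κ' ≠ 0 := by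
      rintro rfl
      rw [zero_pow hn] at hκ'
      exact hκ hκ'.symm
    refine ⟨κ' • e, smul_ne_zero hκ0 he, ?_⟩
    rw [hxe, smul_pow, hκ']
  obtain ⟨c, h, hc, hh, hNα⟩ := hα
  obtain ⟨c', h', hc', hh', hNβ⟩ := hβ
  obtain ⟨e, he, hea⟩ := key _ c h _ hc hh hNα (mul_ne_zero ha (hφ hb)) (ND.hα f a b ha hb har hbr)
  obtain ⟨e', he', heb⟩ := key _ c' h' _ hc' hh' hNβ (mul_ne_zero hb (hφ ha))
    (ND.hβ f a b ha hb har hbr)
  have hg : γ.g • f ≠ 0 := fun h => hf ((smul_eq_zero_iff_eq γ.g).mp h)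
  have hwf : w f ≠ 0 := by rwa [Ne, map_eq_zero]
  refine ⟨(γ.g • f) * w f, mul_ne_zero hg hwf, fun v => ?_, ⟨e', he', ?_⟩, ⟨e, he, ?_⟩⟩
  · rw [Finsupp.add_apply, mul_add, SemilinearAut.divisor_smul_apply,
      SemilinearAut.divisor_smul_apply, hD, hD, v.ord_mul hg hwf, γ.ord_smul]
    congr 1
    have h1 := SemilinearAut.ord_smul (SemilinearAut.ofAlgAut w)
      ((SemilinearAut.ofAlgAut w)⁻¹ • v) f
    rw [smul_inv_smul] at h1
    exact h1.symm
  · have h1 := (γ.hasRes₁ har).mul (hw₁ f b hbr)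
    rw [hγ, mul_comm (φ a) b, heb] at h1
    exact h1
  · have h1 := (γ.hasRes₂ hbr).mul (hw₂ f a har)
    rw [hγ, mul_comm (φ b) a, hea] at h1
    exact h1

/-- **(iv)** Frobenius plus the Atkin–Lehner involution on classes killed by both
push-forwards. -/
theorem smul_add_mem_NN (w : F ≃ₐ[L] F)
    (hw₁ : ∀ f b, T.V₂.HasRes f b → T.V₁.HasRes (w f) b)
    (hw₂ : ∀ f b, T.V₁.HasRes f b → T.V₂.HasRes (w f) b)
    (γ : GalV T) (hγ : ∀ a, γ.σ a = φ a) {n : ℕ} (hn : n ≠ 0)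
    {x : Pic0 L F} (hx : x ∈ Pic0.torsion L F n) (hα : pushPic α x = 0)
    (hβ : pushPic β x = 0) : γ.g • x + SemilinearAut.ofAlgAut w • x ∈ T.NN n := by
  obtain ⟨D, rfl⟩ := Pic0.mk_surjective x
  obtain ⟨f, hf, hD⟩ := exists_of_mem_torsion hx
  refine ⟨SemilinearAut.degZeroSMulHom γ.g D +
    SemilinearAut.degZeroSMulHom (SemilinearAut.ofAlgAut w) D, rfl, ?_⟩
  exact ND.inN_add w hw₁ hw₂ hn γ hγ hf hD
    (by rw [hNα]; exact exists_normAlong_eq α hf hD hα)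
    (by rw [hNβ]; exact exists_normAlong_eq β hf hD hβ)

end TwoVal

end Fermat.Agent.BadRed
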