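import Fermat.Agent.BadRed.CPFinal
import Fermat.Agent.BadRed.PicLevel
import Fermat.Agent.BadRed.NormConc2

/-!
# The local package for `J₀(N r)` at `r`
-/

set_option autoImplicit false
set_option linter.unusedSectionVars false

noncomputable section

open AlgebraicCurve Module IntermediateField ModularCurve HahnSeries

namespace Fermat.Agent.BadRed

open Fermat.Agent.FunField Fermat.Agent.Igusa Fermat.Agent.Deuring Fermat.Agent.AtkinLehner
  Fermat.Agent.HeckeRed Fermat.Agent.Degen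

section Def

variable {L κ : Type*} [Field L] [Field κ]

/-- `g` is the coefficientwise semilinear automorphism attached to `σ` -/
def IsCoeff {E : IntermediateField L (LaurentSeries L)} (σ : L ≃+* L) (g : SemilinearAut L E) :
    Prop :=
  ∀ x : E, ((g • x : E) : LaurentSeries L) = coeffMap (σ : L →+* L) (x : LaurentSeries L)

/-- the properties of the subgroup `NN` (the "toric part" of the `n`-torsion) at a prime `r`
exactly dividing the level -/
structure IsLocNN [IsAlgClosed L] (A : ValuationSubring L) (π : A →+* κ) (r n : ℕ)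
    {E E₀ : IntermediateField L (LaurentSeries L)} [IsFF L E] [IsFF L E₀]
    (α β : E₀ →ₐ[L] E) (w : E ≃ₐ[L] E) (NN : AddSubgroup (Pic0 L E)) : Prop where
  tors : ∀ y ∈ NN, n • y = 0
  stable : ∀ (σ : L ≃+* L) (hσ : ∀ a, a ∈ A ↔ σ a ∈ A) (s : κ ≃+* κ)
    (_ : ∀ a : A, π ⟨σ a, (hσ a).mp a.2⟩ = s (π a)) (g : SemilinearAut L E) (_ : IsCoeff σ g),
    ∀ y ∈ NN, g • y ∈ NN
  inertia : ∀ (σ : L ≃+* L) (hσ : ∀ a, a ∈ A ↔ σ a ∈ A)
    (_ : ∀ a : A, π ⟨σ a, (hσ a).mp a.2⟩ = π a) (g : SemilinearAut L E) (_ : IsCoeff σ g),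
    (∀ y ∈ NN, g • y = y) ∧ ∀ x, n • x = 0 → g • x - x ∈ NN
  frob : ∀ (σ : L ≃+* L) (hσ : ∀ a, a ∈ A ↔ σ a ∈ A)
    (_ : ∀ a : A, π ⟨σ a, (hσ a).mp a.2⟩ = π a ^ r) (g : SemilinearAut L E) (_ : IsCoeff σ g),
    (∀ y ∈ NN, g • g • y = (r * r) • y) ∧
    ∀ x, n • x = 0 → pushPic α x = 0 → pushPic β x = 0 →
        g • g • x - x ∈ NN ∧ g • x + SemilinearAut.ofAlgAut w • x ∈ NN

end Def

variable {L : Type*} [Field L] [IsAlgClosed L] [CharZero L] (A : ValuationSubring L)
  {κ : Type*} [Field κ] [IsAlgClosed κ] (π : A →+* κ) [IsLocalHom π] (hπ : Function.Surjective π)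
  (harch : ArchA π)
  (N r : ℕ) [hr : Fact r.Prime] [hN : NeZero N] [CharP κ r] (hrN : ¬ r ∣ N)

omit [IsAlgClosed L] [CharZero L] in
theorem nsmul_eq_zero_iff_torsion {F : Type*} [Field F] [Algebra L F] (n : ℕ) (x : Pic0 L F) :
    x ∈ Pic0.torsion L F n ↔ n • x = 0 := by
  rw [Pic0.mem_torsion, natCast_zsmul]

variable (hg : genusFF κ (modularFunctionFieldFullC κ N) =
    genusFF L (modularFunctionFieldFullC L N))
  (d : CP.DecAut A π) (hd : CP.IsFrob d r)

include hπ harch hrN hg hd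

/-- **The local package**, concrete form. -/
theorem isLocNN_full {n : ℕ} (hn : (n : κ) ≠ 0)
    (α β : modularFunctionFieldFullC L N →ₐ[L] modularFunctionFieldFullC L (N * r))
    (hα : ∀ x, (α x : LaurentSeries L) = x) (hβ : ∀ x, (β x : LaurentSeries L) =
      (haveI : NeZero r := ⟨hr.out.ne_zero⟩; qExpand L r (x : LaurentSeries L))) :
    haveI : NeZero (N * r) := ⟨mul_ne_zero (NeZero.ne N) hr.out.ne_zero⟩
    IsLocNN A π r n α β (ww L N r hrN) ((twoVal A π hπ harch N r hrN).NN n) := by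
  have : NeZero (N * r) := ⟨mul_ne_zero (NeZero.ne N) hr.out.ne_zero⟩
  have H := CP.pen_hyp A π hπ harch N r hrN hg d hd
  have hn0 : n ≠ 0 := by
    rintro rfl
    exact hn (by simp)
  refine ⟨fun y hy => ?_, fun σ hσ s hs g hgc y hy => ?_, fun σ hσ hs g hgc => ⟨fun y hy => ?_,
    fun x hx => ?_⟩, fun σ hσ hs g hgc => ⟨fun y hy => ?_, fun x hx hxα hxβ => ?_⟩⟩
  · rw [← nsmul_eq_zero_iff_torsion]
    exact TwoVal.NN_le_torsion hy
  · exact TwoVal.GalV.smul_mem_NN (galV A π hπ harch N r hrN hσ hs hgc) hy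
  · have hs' : ∀ a : A, π ⟨σ a, (hσ a).mp a.2⟩ = (RingEquiv.refl κ) (π a) := hs
    refine TwoVal.inertia_fix H hn (galV A π hπ harch N r hrN hσ hs' hgc) (fun a => ?_)
      (CP.smul_pen_t A π hπ harch N r hrN hg d hd hgc) hy
    apply Subtype.ext
    show coeffMap ((RingEquiv.refl κ : κ ≃+* κ) : κ →+* κ) (a : LaurentSeries κ) = a
    ext m
    rw [coeffMap_coeff]
    rfl
  · have hs' : ∀ a : A, π ⟨σ a, (hσ a).mp a.2⟩ = (RingEquiv.refl κ) (π a) := hs
    rw [← nsmul_eq_zero_iff_torsion] at hx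
    refine TwoVal.GalV.smul_sub_mem_NN (galV A π hπ harch N r hrN hσ hs' hgc) (fun a => ?_) hx
    apply Subtype.ext
    show coeffMap ((RingEquiv.refl κ : κ ≃+* κ) : κ →+* κ) (a : LaurentSeries κ) = a
    ext m
    rw [coeffMap_coeff]
    rfl
  · have hs' : ∀ a : A, π ⟨σ a, (hσ a).mp a.2⟩ = d.τ (π a) := fun a => by rw [hs, hd]
    refine TwoVal.frob_sq H hn (galV A π hπ harch N r hrN hσ hs' hgc) (fun a => ?_)
      (CP.smul_pen_t A π hπ harch N r hrN hg d hd hgc) hy
    apply Subtype.ext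
    rw [CP.pen_φ]
    show coeffMap (d.τ : κ →+* κ) (a : LaurentSeries κ) = _
    ext m
    rw [coeffMap_coeff, coeffMap_coeff, frobenius_def]
    exact hd _
  · have hs' : ∀ a : A, π ⟨σ a, (hσ a).mp a.2⟩ = d.τ (π a) := fun a => by rw [hs, hd]
    rw [← nsmul_eq_zero_iff_torsion] at hx
    let ND := normDat A π hπ harch N r hrN hd
    have hincl : inclNr L N r = α :=
      AlgHom.ext fun x => Subtype.ext ((coe_inclNr L N r x).trans (hα x).symm)
    have e1 : ∀ f, ND.Nα f = normAlong α f := by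
      intro f
      show normNr L N r f = _
      rw [normNr_apply, hincl]
    have e2 : ∀ f, ND.Nβ f = normAlong β f := by
      intro f
      show normNr L N r (ww L N r hrN f) = _
      rw [normNr_apply, hincl]
      exact (normAlong_beta _ _ _ α β hα hβ f).symm
    exact ⟨TwoVal.smul_smul_sub_mem_NN ND α β e1 e2 (galV A π hπ harch N r hrN hσ hs' hgc)
      (fun a => rfl) hn0 hx hxα hxβ,
      TwoVal.smul_add_mem_NN ND α β e1 e2 (ww L N r hrN)
        (fun f b h => hasRes₁_w A π hπ harch N r hrN h)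
        (fun f b h => hasRes₂_w A π hπ harch N r hrN h)
        (galV A π hπ harch N r hrN hσ hs' hgc) (fun a => rfl) hn0 hx hxα hxβ⟩

omit [IsAlgClosed κ] [CharP κ r] hπ harch hg hd in
/-- the involution exchanging the two degeneracy maps is unique -/
theorem eq_ww (α β : modularFunctionFieldFullC L N →ₐ[L] modularFunctionFieldFullC L (N * r))
    (hα : ∀ x, (α x : LaurentSeries L) = x) (hβ : ∀ x, (β x : LaurentSeries L) =
      (haveI : NeZero r := ⟨hr.out.ne_zero⟩; qExpand L r (x : LaurentSeries L)))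
    (w : modularFunctionFieldFullC L (N * r) ≃ₐ[L] modularFunctionFieldFullC L (N * r))
    (h1 : ∀ x, w (α x) = β x) (h2 : ∀ x, w (β x) = α x) : w = ww L N r hrN := by
  have : NeZero r := ⟨hr.out.ne_zero⟩
  have hbe := beta_eq (cast_ne_zero_L L N) (cast_ne_zero_Lr L r) hrN α β hα hβ
  have h12 := AtkinLehner.ringHom_ext (w.toAlgHom.toRingHom)
    ((ww L N r hrN).toAlgHom.toRingHom) (fun c => ?_) (fun d hd hd0 => ?_)
  · exact AlgEquiv.ext fun x => DFunLike.congr_fun h12 x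
  · exact (w.commutes c).trans ((ww L N r hrN).commutes c).symm
  · show w (⟨ModDeg.vj L d, _⟩ : modularFunctionFieldFullC L (N * r)) =
      ww L N r hrN (⟨ModDeg.vj L d, _⟩ : modularFunctionFieldFullC L (N * r))
    rcases dvd_mul_prime_cases hr.out hd with hd1 | ⟨e, he, rfl⟩
    · have e1 : (⟨ModDeg.vj L d, ModDeg.vj_mem_full L hd0 hd⟩ :
          modularFunctionFieldFullC L (N * r)) = α ⟨ModDeg.vj L d, ModDeg.vj_mem_full L hd0 hd1⟩ := by
        apply Subtype.ext
        rw [hα]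
      rw [e1, h1, hbe]
      rfl
    · have he0 : e ≠ 0 := left_ne_zero_of_mul hd0
      have e1 : (⟨ModDeg.vj L (e * r), ModDeg.vj_mem_full L hd0 hd⟩ :
          modularFunctionFieldFullC L (N * r)) = β ⟨ModDeg.vj L e, ModDeg.vj_mem_full L he0 he⟩ := by
        apply Subtype.ext
        rw [hβ]
        exact (ModDeg.qExpand_vj L r e he0).symm
      rw [e1, h2, hbe]
      exact (ww_ww L N r hrN _).symm

/-- **The local package**, general form. -/
theorem exists_isLocNN {n : ℕ} (hn : (n : κ) ≠ 0)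
    {E E₀ : IntermediateField L (LaurentSeries L)} [IsFF L E] [IsFF L E₀]
    (hE : E = modularFunctionFieldFullC L (N * r)) (hE₀ : E₀ = modularFunctionFieldFullC L N)
    (α β : E₀ →ₐ[L] E) (hα : ∀ x, (α x : LaurentSeries L) = x)
    (hβ : ∀ x, (β x : LaurentSeries L) =
      (haveI : NeZero r := ⟨hr.out.ne_zero⟩; qExpand L r (x : LaurentSeries L)))
    (w : E ≃ₐ[L] E) (h1 : ∀ x, w (α x) = β x) (h2 : ∀ x, w (β x) = α x) :
    ∃ NN : AddSubgroup (Pic0 L E), IsLocNN A π r n α β w NN := by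
  subst hE hE₀
  refine ⟨(twoVal A π hπ harch N r hrN).NN n, ?_⟩
  rw [eq_ww N r hrN α β hα hβ w h1 h2]
  exact isLocNN_full A π hπ harch N r hrN hg d hd hn α β hα hβ

end Fermat.Agent.BadRed
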