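import Fermat.Agent.BadRed.LocalPkg
import Fermat.Agent.BadRed.Arch
import Fermat.Agent.Cusps.GenusFinal
import Fermat.Agent.Frob.Exists
import Fermat.Agent.HeckeRed.Residue

/-!
# The local package for `J₀(N r)` over `ℚ̄` at `r`
-/

set_option autoImplicit false
set_option linter.unusedSectionVars false

noncomputable section

open AlgebraicCurve Module IntermediateField ModularCurve HahnSeries

namespace Fermat.Agent.BadRed

open Fermat.Agent.FunField Fermat.Agent.Igusa Fermat.Agent.Deuring Fermat.Agent.AtkinLehner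
  Fermat.Agent.HeckeRed Fermat.Agent.Degen

section Decomp

variable {Ω : Type*} [Field Ω] [Algebra ℚ Ω] {A : ValuationSubring Ω}

theorem mem_iff_decomp {σ : Ω ≃ₐ[ℚ] Ω} (hσ : σ ∈ A.decompositionSubgroup ℚ) (a : Ω) :
    a ∈ A ↔ (σ : Ω ≃+* Ω) a ∈ A := by
  have key : ∀ (τ : A.decompositionSubgroup ℚ) (b : Ω), b ∈ A → (τ : Ω ≃ₐ[ℚ] Ω) b ∈ A :=
    fun τ b hb => (MulSemiringAction.toRingHom (A.decompositionSubgroup ℚ) A τ ⟨b, hb⟩).2
  constructor
  · exact key ⟨σ, hσ⟩ a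
  · intro h
    have h1 := key (⟨σ, hσ⟩⁻¹) _ h
    have h2 : ((⟨σ, hσ⟩⁻¹ : A.decompositionSubgroup ℚ) : Ω ≃ₐ[ℚ] Ω) (σ a) = a :=
      σ.symm_apply_apply a
    rw [← h2]
    exact h1

theorem residue_decomp {σ : Ω ≃ₐ[ℚ] Ω} (hσ : σ ∈ A.decompositionSubgroup ℚ) (a : A) :
    IsLocalRing.residue A ⟨(σ : Ω ≃+* Ω) a, (mem_iff_decomp hσ a).mp a.2⟩ =
      MulSemiringAction.toRingAut (A.decompositionSubgroup ℚ) (IsLocalRing.ResidueField A)
        ⟨σ, hσ⟩ (IsLocalRing.residue A a) := rfl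

theorem decomp_of_inertia {σ : Ω ≃ₐ[ℚ] Ω} (hσ : σ ∈ A.inertiaSubgroupIn ℚ) :
    σ ∈ A.decompositionSubgroup ℚ := by
  obtain ⟨τ, -, rfl⟩ := hσ
  exact τ.2

theorem residue_inertia {σ : Ω ≃ₐ[ℚ] Ω} (hσ : σ ∈ A.inertiaSubgroupIn ℚ) (a : A) :
    IsLocalRing.residue A ⟨(σ : Ω ≃+* Ω) a, (mem_iff_decomp (decomp_of_inertia hσ) a).mp a.2⟩ =
      IsLocalRing.residue A a := by
  refine (residue_decomp (decomp_of_inertia hσ) a).trans ?_
  obtain ⟨τ, hτ, rfl⟩ := hσ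
  have h1 : MulSemiringAction.toRingAut (A.decompositionSubgroup ℚ)
      (IsLocalRing.ResidueField A) τ = 1 := hτ
  exact congrArg (fun e => e (IsLocalRing.residue A a)) h1

theorem residue_frobenius {ℓ : ℕ} {σ : Ω ≃ₐ[ℚ] Ω} (hσ : A.IsFrobeniusAt σ ℓ) (a : A) :
    IsLocalRing.residue A ⟨(σ : Ω ≃+* Ω) a,
      (mem_iff_decomp hσ.mem_decompositionSubgroup a).mp a.2⟩ = IsLocalRing.residue A a ^ ℓ :=
  (residue_decomp hσ.mem_decompositionSubgroup a).trans (hσ.smul_residue_eq _)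

end Decomp

local notation "Qb" => AlgebraicClosure ℚ

theorem isCoeff_galois (M : ℕ) (σ : Qb ≃ₐ[ℚ] Qb) :
    IsCoeff (E := modularFunctionFieldBar M) (σ : Qb ≃+* Qb)
      (arithmeticGalois (modularFunctionFieldFull M) σ) :=
  fun x => coe_arithmeticGalois_smul (modularFunctionFieldFull M) σ x

/-- the "toric part" of the `n`-torsion of `J₀(M)` at the prime below `A` -/
structure IsToric {N M : ℕ} [NeZero N] [NeZero M] (A : ValuationSubring Qb) (r n : ℕ)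
    (α β : modularFunctionFieldBar N →ₐ[Qb] modularFunctionFieldBar M)
    (w : modularFunctionFieldBar M ≃ₐ[Qb] modularFunctionFieldBar M)
    (NN : AddSubgroup (JZero M)) : Prop where
  tors : ∀ y ∈ NN, n • y = 0
  stable : ∀ σ ∈ A.decompositionSubgroup ℚ, ∀ y ∈ NN, σ • y ∈ NN
  inertia_fix : ∀ σ ∈ A.inertiaSubgroupIn ℚ, ∀ y ∈ NN, σ • y = y
  inertia_sub : ∀ σ ∈ A.inertiaSubgroupIn ℚ, ∀ x : JZero M, n • x = 0 → σ • x - x ∈ NN
  frob_sq : ∀ σ : Qb ≃ₐ[ℚ] Qb, A.IsFrobeniusAt σ r → ∀ y ∈ NN, σ • σ • y = (r * r) • y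
  frob_sub : ∀ σ : Qb ≃ₐ[ℚ] Qb, A.IsFrobeniusAt σ r → ∀ x : JZero M, n • x = 0 →
    pushPic α x = 0 → pushPic β x = 0 → σ • σ • x - x ∈ NN
  frob_add : ∀ σ : Qb ≃ₐ[ℚ] Qb, A.IsFrobeniusAt σ r → ∀ x : JZero M, n • x = 0 →
    pushPic α x = 0 → pushPic β x = 0 → σ • x + SemilinearAut.ofAlgAut w • x ∈ NN

/-- **The local package over `ℚ̄`.** -/
theorem exists_isToric {N M r : ℕ} [NeZero N] [NeZero M] (hr : r.Prime) (hM : M = N * r)
    (hrN : ¬ r ∣ N) (A : ValuationSubring Qb) (hA : A.LiesOverPrime r) {n : ℕ} (hn : ¬ r ∣ n)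
    (α β : modularFunctionFieldBar N →ₐ[Qb] modularFunctionFieldBar M)
    (hα : ∀ x, (α x : LaurentSeries Qb) = x)
    (hβ : ∀ x, (β x : LaurentSeries Qb) =
      (haveI : NeZero r := ⟨hr.ne_zero⟩; qExpand Qb r (x : LaurentSeries Qb)))
    (w : modularFunctionFieldBar M ≃ₐ[Qb] modularFunctionFieldBar M)
    (h1 : ∀ x, w (α x) = β x) (h2 : ∀ x, w (β x) = α x) :
    ∃ NN : AddSubgroup (JZero M), IsToric A r n α β w NN := by
  subst hM
  have i0 : Fact r.Prime := ⟨hr⟩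
  have i1 : IsAlgClosed (IsLocalRing.ResidueField A) := isAlgClosed_residueField A
  have i2 : CharP (IsLocalRing.ResidueField A) r := charP_residueField hr hA
  have i5 : IsLocalHom (IsLocalRing.residue A) := inferInstance
  have hN : (N : IsLocalRing.ResidueField A) ≠ 0 := fun h =>
    hrN ((CharP.cast_eq_zero_iff _ r N).mp h)
  have hn' : (n : IsLocalRing.ResidueField A) ≠ 0 := fun h =>
    hn ((CharP.cast_eq_zero_iff _ r n).mp h)
  obtain ⟨σ₀, hσ₀⟩ := Fermat.Agent.Frob.exists_isFrobeniusAt hr hA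
  let d : CP.DecAut A (IsLocalRing.residue A) :=
    { σ := (σ₀ : Qb ≃+* Qb)
      τ := MulSemiringAction.toRingAut (A.decompositionSubgroup ℚ) (IsLocalRing.ResidueField A)
        ⟨σ₀, hσ₀.mem_decompositionSubgroup⟩
      mem_iff := fun a => (mem_iff_decomp hσ₀.mem_decompositionSubgroup a).symm
      res := residue_decomp hσ₀.mem_decompositionSubgroup }
  have hd : CP.IsFrob d r := fun a => hσ₀.smul_residue_eq a
  obtain ⟨NN, H⟩ := exists_isLocNN A (IsLocalRing.residue A) IsLocalRing.residue_surjective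
    (archA hr hA) N r hrN (Cusps.genusFF_residue A N hN) d hd hn'
    (E := modularFunctionFieldBar (N * r)) (E₀ := modularFunctionFieldBar N)
    (modularFunctionFieldBar_eq _) (modularFunctionFieldBar_eq _) α β hα hβ w h1 h2
  refine ⟨NN, H.tors, fun σ hσ y hy => ?_, fun σ hσ y hy => ?_, fun σ hσ x hx => ?_,
    fun σ hσ y hy => ?_, fun σ hσ x hx hx1 hx2 => ?_, fun σ hσ x hx hx1 hx2 => ?_⟩
  · exact H.stable (σ : Qb ≃+* Qb) (mem_iff_decomp hσ) _ (residue_decomp hσ) _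
      (isCoeff_galois _ σ) y hy
  · exact (H.inertia (σ : Qb ≃+* Qb) (mem_iff_decomp (decomp_of_inertia hσ))
      (residue_inertia hσ) _ (isCoeff_galois _ σ)).1 y hy
  · exact (H.inertia (σ : Qb ≃+* Qb) (mem_iff_decomp (decomp_of_inertia hσ))
      (residue_inertia hσ) _ (isCoeff_galois _ σ)).2 x hx
  · exact (H.frob (σ : Qb ≃+* Qb) (mem_iff_decomp hσ.mem_decompositionSubgroup)
      (residue_frobenius hσ) _ (isCoeff_galois _ σ)).1 y hy
  · exact ((H.frob (σ : Qb ≃+* Qb) (mem_iff_decomp hσ.mem_decompositionSubgroup)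
      (residue_frobenius hσ) _ (isCoeff_galois _ σ)).2 x hx hx1 hx2).1
  · exact ((H.frob (σ : Qb ≃+* Qb) (mem_iff_decomp hσ.mem_decompositionSubgroup)
      (residue_frobenius hσ) _ (isCoeff_galois _ σ)).2 x hx hx1 hx2).2

end Fermat.Agent.BadRed
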