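import Fermat.Agent.BadRed.TwoVal
import Fermat.Agent.Igusa.DeuringData

/-!
# Gauss valuations along embeddings in `L((q))`; joint orthonormal bases
-/

set_option autoImplicit false

noncomputable section

open HahnSeries ModularCurve Module

namespace Fermat.Agent.BadRed

open Fermat.Agent.Igusa

attribute [local instance 2000] lsModule lsSMul

variable {L : Type*} [Field L] (A : ValuationSubring L) {κ : Type*} [Field κ] (π : A →+* κ)

section Pivot

/-- pivots for a finite dimensional space of functions for which suprema are attained -/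
theorem exists_pivot_fun {X : Type*} (n : ℕ) : ∀ V : Submodule L (X → L), FiniteDimensional L V →
    finrank L V = n → (∀ v ∈ V, v ≠ 0 → ∃ x, v x ≠ 0 ∧ ∀ x', v x' / v x ∈ A) →
    ∃ (y : Fin n → X → L) (x : Fin n → X), (∀ j, y j ∈ V) ∧ (∀ j x', y j x' ∈ A) ∧
      ∀ i j, y j (x i) = if i = j then 1 else 0 := by
  induction n with
  | zero =>
    intro V _ _ _
    exact ⟨Fin.elim0, Fin.elim0, fun i => i.elim0, fun i => i.elim0, fun i => i.elim0⟩
  | succ n ih =>
    intro V hfin hn htame
    have hpos : 0 < finrank L V := by omega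
    obtain ⟨v, hv0⟩ : ∃ v : V, v ≠ 0 := by
      by_contra hcon
      push Not at hcon
      have : Subsingleton V := ⟨fun a b => (hcon a).trans (hcon b).symm⟩
      rw [finrank_zero_of_subsingleton] at hpos
      exact lt_irrefl _ hpos
    have hv0' : (v : X → L) ≠ 0 := fun h => hv0 (Subtype.ext h)
    obtain ⟨x₀, hx₀, hmax⟩ := htame v v.2 hv0'
    set P : X → L := ((v : X → L) x₀)⁻¹ • (v : X → L) with hP
    have hPV : P ∈ V := V.smul_mem _ v.2
    have hP1 : P x₀ = 1 := by
      rw [hP, Pi.smul_apply, smul_eq_mul, inv_mul_cancel₀ hx₀]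
    have hPA : ∀ x', P x' ∈ A := by
      intro x'
      rw [hP, Pi.smul_apply, smul_eq_mul, mul_comm, ← div_eq_mul_inv]
      exact hmax x'
    set φ₀ : (X → L) →ₗ[L] L := LinearMap.proj x₀ with hφ₀
    set V' : Submodule L (X → L) := V ⊓ LinearMap.ker φ₀ with hV'
    have hV'le : V' ≤ V := inf_le_left
    have : FiniteDimensional L V' := Submodule.finiteDimensional_of_le hV'le
    have hdim : finrank L V' = n := by
      set φ : V →ₗ[L] L := φ₀.comp V.subtype with hφ
      have hsurj : LinearMap.range φ = ⊤ := by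
        rw [LinearMap.range_eq_top]
        intro a
        refine ⟨a • ⟨P, hPV⟩, ?_⟩
        rw [map_smul]
        have : φ ⟨P, hPV⟩ = 1 := hP1
        rw [this, smul_eq_mul, mul_one]
      have h1 := φ.finrank_range_add_finrank_ker
      rw [hsurj, finrank_top, finrank_self, hn] at h1
      have h2 : (LinearMap.ker φ).map V.subtype = V' := by
        ext z
        simp only [Submodule.mem_map, LinearMap.mem_ker, Submodule.coe_subtype,
          Subtype.exists, exists_and_right, exists_eq_right, hV', Submodule.mem_inf]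
        constructor
        · rintro ⟨hz, h⟩; exact ⟨hz, h⟩
        · rintro ⟨hz, h⟩; exact ⟨hz, h⟩
      have h3 : finrank L V' = finrank L (LinearMap.ker φ) := by
        rw [← h2]
        exact (LinearEquiv.finrank_eq (Submodule.equivMapOfInjective V.subtype
          V.injective_subtype (LinearMap.ker φ))).symm
      omega
    obtain ⟨y, x, hyV, hyA, hpiv⟩ := ih V' inferInstance hdim (fun z hz => htame z (hV'le hz))
    have hy0 : ∀ j, y j x₀ = 0 := fun j => (hyV j).2
    set P' : X → L := P - ∑ j, P (x j) • y j with hP'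
    have hP'a : ∀ z, P' z = P z - ∑ j, P (x j) * y j z := by
      intro z
      rw [hP', Pi.sub_apply, Finset.sum_apply]
      rfl
    refine ⟨Fin.cons P' y, Fin.cons x₀ x, ?_, ?_, ?_⟩
    · intro j
      refine Fin.cases ?_ (fun j => ?_) j
      · simp only [Fin.cons_zero]
        exact V.sub_mem hPV (V.sum_mem fun j _ => V.smul_mem _ (hV'le (hyV j)))
      · simp only [Fin.cons_succ]
        exact hV'le (hyV j)
    · intro j
      refine Fin.cases ?_ (fun j => ?_) j
      · intro x'
        simp only [Fin.cons_zero]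
        rw [hP'a]
        exact sub_mem (hPA _) (sum_mem fun j _ => mul_mem (hPA _) (hyA j _))
      · intro x'
        simp only [Fin.cons_succ]
        exact hyA j x'
    · intro i j
      refine Fin.cases ?_ (fun i => ?_) i
      · refine Fin.cases ?_ (fun j => ?_) j
        · simp only [Fin.cons_zero, if_true]
          rw [hP'a, hP1]
          simp [hy0]
        · simp only [Fin.cons_zero, Fin.cons_succ]
          rw [hy0, if_neg (Fin.succ_ne_zero j).symm]
      · refine Fin.cases ?_ (fun j => ?_) j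
        · simp only [Fin.cons_zero, Fin.cons_succ]
          rw [hP'a, if_neg (Fin.succ_ne_zero i)]
          have : ∑ j, P (x j) * y j (x i) = P (x i) := by
            simp only [hpiv i]
            simp
          rw [this, sub_self]
        · simp only [Fin.cons_succ, hpiv i j, Fin.succ_inj]

end Pivot

variable {F : Type*} [Field F] [Algebra L F]

/-- the image of `ψ` consists of quotients of tame series -/
def IsTameHom (ψ : F →ₐ[L] LaurentSeries L) : Prop :=
  ∀ x : F, ∃ P ∈ tame L, ∃ Q ∈ tame L, Q ≠ 0 ∧ ψ x * Q = P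

theorem IsTameHom.comp {ψ : F →ₐ[L] LaurentSeries L} (h : IsTameHom ψ) {F' : Type*} [Field F']
    [Algebra L F'] (f : F' →ₐ[L] F) : IsTameHom (ψ.comp f) := fun x => h (f x)

theorem isTameHom_val {F : IntermediateField L (LaurentSeries L)} (hF : IsTameField F) :
    IsTameHom F.val := fun x => hF x x.2

variable {ψ : F →ₐ[L] LaurentSeries L}

theorem psi_smul (ψ : F →ₐ[L] LaurentSeries L) (c : L) (x : F) :
    ψ (c • x) = algebraMap L (LaurentSeries L) c * ψ x := by
  rw [Algebra.smul_def, map_mul, AlgHom.commutes]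

theorem emb_ne_zero {P : LaurentSeries A} (hP : coeffMap π P ≠ 0) : coeffMap A.subtype P ≠ 0 := by
  intro h
  apply hP
  rw [emb_injective A (h.trans (map_zero _).symm), map_zero]

theorem exists_scale_gauss (hψ : IsTameHom ψ) {x : F} (hx : x ≠ 0) :
    ∃ c : L, c ≠ 0 ∧ ∃ h : ψ (c • x) ∈ gaussRing A π, gaussRes A π ⟨ψ (c • x), h⟩ ≠ 0 := by
  obtain ⟨P, hP, Q, hQ, hQ0, hxQ⟩ := hψ x
  have hψx : ψ x ≠ 0 := by
    intro h
    exact hx (ψ.injective (h.trans (map_zero ψ).symm))
  have hP0 : P ≠ 0 := by rw [← hxQ]; exact mul_ne_zero hψx hQ0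
  obtain ⟨c, hc0, P₀, hP₀, hcP, -⟩ := exists_normalize A π hP hP0
  obtain ⟨d, hd0, Q₀, hQ₀, hdQ, -⟩ := exists_normalize A π hQ hQ0
  have hc' : algebraMap L (LaurentSeries L) c ≠ 0 := fun h =>
    hc0 ((algebraMap L (LaurentSeries L)).injective (h.trans (map_zero _).symm))
  have h1 : ψ ((d / c) • x) * coeffMap A.subtype Q₀ = coeffMap A.subtype P₀ := by
    apply mul_left_cancel₀ hc'
    rw [hcP, ← hxQ, ← hdQ, psi_smul, ← mul_assoc, ← mul_assoc, ← map_mul,
      mul_div_cancel₀ _ hc0]
    ring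
  have h2 : ψ ((d / c) • x) ∈ gaussRing A π := mem_gaussRing_iff.mpr ⟨P₀, Q₀, hQ₀, h1⟩
  refine ⟨d / c, div_ne_zero hd0 hc0, h2, ?_⟩
  have h3 := gaussRes_eq (⟨_, h2⟩ : gaussRing A π) hQ₀ h1
  rw [h3]
  exact div_ne_zero hP₀ hQ₀

theorem inv_mem_gauss {y : LaurentSeries L} (h : y ∈ gaussRing A π)
    (hr : gaussRes A π ⟨y, h⟩ ≠ 0) : y⁻¹ ∈ gaussRing A π := by
  have := inv_mem_gaussRing (x := ⟨y, h⟩) hr
  exact this

theorem gauss_or {y z : LaurentSeries L} {c : L}
    (hz : z = algebraMap L (LaurentSeries L) c⁻¹ * y) (h : y ∈ gaussRing A π)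
    (hr : gaussRes A π ⟨y, h⟩ ≠ 0) : z ∈ gaussRing A π ∨ z⁻¹ ∈ gaussRing A π := by
  rcases A.mem_or_inv_mem c with h1 | h1
  · right
    have h2 : z⁻¹ = algebraMap L (LaurentSeries L) c * y⁻¹ := by
      rw [hz, mul_inv, map_inv₀, inv_inv]
    rw [h2]
    exact (gaussRing A π).mul_mem (algebraMap_mem_gaussRing A π ⟨c, h1⟩) (inv_mem_gauss A π h hr)
  · left
    rw [hz]
    exact (gaussRing A π).mul_mem (algebraMap_mem_gaussRing A π ⟨c⁻¹, h1⟩) h

theorem mem_or_inv_mem_gauss (hψ : IsTameHom ψ) (x : F) :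
    ψ x ∈ gaussRing A π ∨ ψ x⁻¹ ∈ gaussRing A π := by
  by_cases hx : x = 0
  · left
    rw [hx, map_zero]
    exact (gaussRing A π).zero_mem
  obtain ⟨c, hc, h, hr⟩ := exists_scale_gauss A π hψ hx
  have hx' : ψ x = algebraMap L (LaurentSeries L) c⁻¹ * ψ (c • x) := by
    rw [psi_smul, ← mul_assoc, ← map_mul, inv_mul_cancel₀ hc, map_one, one_mul]
  have := gauss_or A π hx' h hr
  rwa [← map_inv₀] at this

/-- the valuation ring attached to `ψ` -/
def gaussAlong (hψ : IsTameHom ψ) : ValuationSubring F where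
  toSubring := (gaussRing A π).comap (ψ : F →+* LaurentSeries L)
  mem_or_inv_mem' x := mem_or_inv_mem_gauss A π hψ x

theorem mem_gaussAlong (hψ : IsTameHom ψ) {x : F} :
    x ∈ gaussAlong A π hψ ↔ ψ x ∈ gaussRing A π := Iff.rfl

/-- residue map -/
def gaussAlongRes (hψ : IsTameHom ψ) :
    gaussAlong A π hψ →+* LaurentSeries κ :=
  (gaussRes A π).comp (RingHom.codRestrict
    ((ψ : F →+* LaurentSeries L).comp (gaussAlong A π hψ).subtype) (gaussRing A π)
    (fun x => x.2))

theorem gaussAlongRes_apply (hψ : IsTameHom ψ) (x : gaussAlong A π hψ) :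
    gaussAlongRes A π hψ x = gaussRes A π ⟨ψ x, x.2⟩ := rfl

theorem pi_ker [IsLocalHom π] (a : A) : π a = 0 ↔ ¬ IsUnit a := by
  constructor
  · intro h hu
    have := hu.map π
    rw [h] at this
    exact not_isUnit_zero this
  · intro h
    by_contra hcon
    exact h (isUnit_of_map_unit π a (isUnit_iff_ne_zero.mpr hcon))

/-- `ψ` gives a residually transcendental valuation. -/
def mkResVal (hψ : IsTameHom ψ) [IsLocalHom π] (E₁ : IntermediateField κ (LaurentSeries κ))
    (hE₁ : ∀ x : gaussAlong A π hψ, gaussAlongRes A π hψ x ∈ E₁) :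
    ResVal A π F E₁ where
  O := gaussAlong A π hψ
  r := RingHom.codRestrict (gaussAlongRes A π hψ) E₁ hE₁
  mem_iff a := by
    rw [mem_gaussAlong, AlgHom.commutes]
    exact ⟨fun h => mem_of_algebraMap_mem_gaussRing (π := π) h,
      fun h => algebraMap_mem_gaussRing A π ⟨a, h⟩⟩
  r_ker f := by
    constructor
    · intro h hu
      have := hu.map (RingHom.codRestrict (gaussAlongRes A π hψ) E₁ hE₁)
      rw [h] at this
      exact not_isUnit_zero this
    · intro h
      by_contra hcon
      apply h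
      have hcon' : gaussRes A π ⟨ψ f, f.2⟩ ≠ 0 := fun h0 => hcon (Subtype.ext h0)
      have h1 : (f : F)⁻¹ ∈ gaussAlong A π hψ := by
        rw [mem_gaussAlong, map_inv₀]
        exact inv_mem_gauss A π _ hcon'
      have hf : (f : F) ≠ 0 := by
        intro h0
        apply hcon
        rw [show f = 0 from Subtype.ext h0, map_zero]
      exact IsUnit.of_mul_eq_one ⟨_, h1⟩ (Subtype.ext (mul_inv_cancel₀ hf))
  r_algebraMap a := Subtype.ext (gaussRes_algebraMap A π a (by
    show ψ (algebraMap L F a) = _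
    rw [AlgHom.commutes]))
  scale f hf := by
    obtain ⟨c, hc, h, hr⟩ := exists_scale_gauss A π hψ hf
    exact ⟨c, hc, h, fun h0 => hr (congrArg Subtype.val h0)⟩

theorem coe_mkResVal_r (hψ : IsTameHom ψ) [IsLocalHom π]
    (E₁ : IntermediateField κ (LaurentSeries κ))
    (hE₁ : ∀ x : gaussAlong A π hψ, gaussAlongRes A π hψ x ∈ E₁) {x : F}
    (hx : x ∈ (mkResVal A π hψ E₁ hE₁).O) :
    (((mkResVal A π hψ E₁ hE₁).r ⟨x, hx⟩ : E₁) : LaurentSeries κ) = gaussRes A π ⟨ψ x, hx⟩ := rfl

/-- common denominator -/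
theorem IsTameHom.exists_common_denom (hψ : IsTameHom ψ) {n : ℕ} (b : Fin n → F) :
    ∃ Q ∈ tame L, Q ≠ 0 ∧ ∀ i, ψ (b i) * Q ∈ tame L := by
  choose P hP Q hQ hQ0 hPQ using fun i => hψ (b i)
  refine ⟨∏ i, Q i, Subalgebra.prod_mem _ fun i _ => hQ i, Finset.prod_ne_zero_iff.mpr
    fun i _ => hQ0 i, fun i => ?_⟩
  rw [← Finset.mul_prod_erase Finset.univ Q (Finset.mem_univ i), ← mul_assoc, hPQ i]
  exact mul_mem (hP i) (Subalgebra.prod_mem _ fun i _ => hQ i)

/-- the subspace of functions with a given denominator -/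
def tameSub (ψ : F →ₐ[L] LaurentSeries L) (Q : LaurentSeries L) : Submodule L F where
  carrier := {x | ψ x * Q ∈ tame L}
  zero_mem' := by
    show ψ 0 * Q ∈ tame L
    rw [map_zero, zero_mul]
    exact (tame L).zero_mem
  add_mem' := by
    intro x y hx hy
    show ψ (x + y) * Q ∈ tame L
    rw [map_add, add_mul]
    exact (tame L).add_mem hx hy
  smul_mem' := by
    intro a x hx
    show ψ (a • x) * Q ∈ tame L
    rw [psi_smul, mul_assoc]
    exact (tame L).mul_mem ((tame L).algebraMap_mem a) hx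

theorem mem_tameSub {Q : LaurentSeries L} {x : F} : x ∈ tameSub ψ Q ↔ ψ x * Q ∈ tame L := Iff.rfl

theorem le_tameSub_of_basis {ι : Type*} [Fintype ι] {V : Submodule L F} (e : Basis ι L V)
    {Q : LaurentSeries L} (h : ∀ i, ψ (e i : F) * Q ∈ tame L) : V ≤ tameSub ψ Q := by
  intro x hx
  have h1 := e.sum_repr ⟨x, hx⟩
  have h2 : x = ∑ i, e.repr ⟨x, hx⟩ i • (e i : F) := by
    have := congrArg (fun z : V => (z : F)) h1
    simp only at this
    refine this.symm.trans ?_
    push_cast
    rfl
  rw [h2]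
  exact Submodule.sum_mem _ fun i _ => Submodule.smul_mem _ _ (h i)

theorem tame_scale {Q y : LaurentSeries L} {Q₀ : LaurentSeries A} {c : L} (hc0 : c ≠ 0)
    (hcQ : algebraMap L (LaurentSeries L) c * coeffMap A.subtype Q₀ = Q)
    (h : y * Q ∈ tame L) : y * coeffMap A.subtype Q₀ ∈ tame L := by
  have h1 : coeffMap A.subtype Q₀ = algebraMap L (LaurentSeries L) c⁻¹ * Q := by
    rw [← hcQ, ← mul_assoc, ← map_mul, inv_mul_cancel₀ hc0, map_one, one_mul]
  rw [h1, mul_left_comm]
  exact (tame L).mul_mem ((tame L).algebraMap_mem _) h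

/-- denominators for a finite dimensional space -/
theorem IsTameHom.exists_denom (hψ : IsTameHom ψ) (V : Submodule L F) [FiniteDimensional L V] :
    ∃ Q : LaurentSeries A, coeffMap π Q ≠ 0 ∧
      ∀ x ∈ V, ψ x * coeffMap A.subtype Q ∈ tame L := by
  have : Module.Free L V := Module.Free.of_divisionRing L V
  let e : Basis (Fin (finrank L V)) L V := Module.finBasis L V
  obtain ⟨Q, hQ, hQ0, hbQ⟩ := hψ.exists_common_denom (fun i => ((e i : V) : F))
  obtain ⟨c, hc0, Q₀, hQ₀, hcQ, -⟩ := exists_normalize A π hQ hQ0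
  exact ⟨Q₀, hQ₀, fun x hx =>
    le_tameSub_of_basis e (fun i => tame_scale A hc0 hcQ (hbQ i)) hx⟩

/-- **Joint orthonormal bases** for finitely many Gauss valuations. -/
theorem exists_joint_orthonormal {ι : Type*} [Finite ι] [Nonempty ι]
    (ψ : ι → F →ₐ[L] LaurentSeries L)
    (hψ : ∀ i, IsTameHom (ψ i)) (V : Submodule L F) [FiniteDimensional L V] :
    ∃ (b : Fin (finrank L V) → F) (h : ∀ j i, ψ i (b j) ∈ gaussRing A π), (∀ j, b j ∈ V) ∧
      LinearIndependent κ (fun j => (fun i => gaussRes A π ⟨ψ i (b j), h j i⟩ :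
        ι → LaurentSeries κ)) := by
  classical
  choose Q hQ hQV using fun i => (hψ i).exists_denom A π V
  -- the map to functions
  let μ : F →ₗ[L] (ι × ℤ → L) :=
    { toFun := fun x p => (ψ p.1 x * coeffMap A.subtype (Q p.1)).coeff p.2
      map_add' := fun x y => by
        funext p
        show (ψ p.1 (x + y) * _).coeff p.2 = (ψ p.1 x * _).coeff p.2 + (ψ p.1 y * _).coeff p.2
        rw [map_add, add_mul, HahnSeries.coeff_add]
      map_smul' := fun a x => by
        funext p
        show (ψ p.1 (a • x) * _).coeff p.2 = a * (ψ p.1 x * _).coeff p.2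
        rw [psi_smul, mul_assoc, coeff_algebraMap_mul] }
  have hμapp : ∀ (x : F) (p : ι × ℤ),
      μ x p = (ψ p.1 x * coeffMap A.subtype (Q p.1)).coeff p.2 := fun _ _ => rfl
  have hμinj : Function.Injective μ := by
    rw [injective_iff_map_eq_zero]
    intro x hx
    obtain ⟨i⟩ := ‹Nonempty ι›
    have h1 : ψ i x * coeffMap A.subtype (Q i) = 0 := by
      ext m
      exact congrFun hx (i, m)
    rcases mul_eq_zero.mp h1 with h2 | h2
    · rwa [map_eq_zero] at h2
    · exact absurd h2 (emb_ne_zero A π (hQ i))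
  have hfr : finrank L (V.map μ) = finrank L V :=
    (LinearEquiv.finrank_eq (Submodule.equivMapOfInjective μ hμinj V)).symm
  -- suprema are attained
  have htame : ∀ v ∈ V.map μ, v ≠ 0 → ∃ x, v x ≠ 0 ∧ ∀ x', v x' / v x ∈ A := by
    rintro _ ⟨x, hx, rfl⟩ hne
    have hx0 : x ≠ 0 := by
      rintro rfl
      exact hne (map_zero μ)
    have hne' : ∀ i, ψ i x * coeffMap A.subtype (Q i) ≠ 0 := fun i =>
      mul_ne_zero (by rwa [Ne, map_eq_zero]) (emb_ne_zero A π (hQ i))
    choose m hm0 hm using fun i => exists_max_coeff A (hQV i x hx) (hne' i)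
    have := Fintype.ofFinite ι
    obtain ⟨i₀, -, hi₀⟩ := Finset.exists_max_image Finset.univ
      (fun i => A.valuation ((ψ i x * coeffMap A.subtype (Q i)).coeff (m i)))
      (Finset.univ_nonempty)
    refine ⟨(i₀, m i₀), hm0 i₀, ?_⟩
    rintro ⟨i, n⟩
    rw [hμapp, hμapp]
    simp only
    rw [← A.valuation_le_one_iff, map_div₀]
    apply div_le_one_of_le₀ _ zero_le
    refine le_trans ?_ (hi₀ i (Finset.mem_univ _))
    have h3 := hm i n
    rw [← A.valuation_le_one_iff, map_div₀] at h3
    have h4 : A.valuation ((ψ i x * coeffMap A.subtype (Q i)).coeff (m i)) ≠ 0 :=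
      (Valuation.ne_zero_iff _).mpr (hm0 i)
    exact (div_le_one₀ (zero_lt_iff.mpr h4)).mp h3
  obtain ⟨y, x, hyV, hyA, hpiv⟩ := exists_pivot_fun A (finrank L V) (V.map μ) inferInstance hfr
    htame
  choose b hbV hby using fun j => (Submodule.mem_map.mp (hyV j))
  -- lifts of the products
  have hlift : ∀ j i, ∃ P : LaurentSeries A,
      coeffMap A.subtype P = ψ i (b j) * coeffMap A.subtype (Q i) := by
    intro j i
    apply exists_lift_of_coeff_mem
    intro m
    have := hyA j (i, m)
    rwa [← hby, hμapp] at this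
  choose P hP using hlift
  have hmem : ∀ j i, ψ i (b j) ∈ gaussRing A π := fun j i =>
    mem_gaussRing_iff.mpr ⟨P j i, Q i, hQ i, (hP j i).symm⟩
  have hres : ∀ j i, gaussRes A π ⟨ψ i (b j), hmem j i⟩ =
      coeffMap π (P j i) / coeffMap π (Q i) := fun j i =>
    gaussRes_eq (⟨_, hmem j i⟩ : gaussRing A π) (hQ i) (hP j i).symm
  refine ⟨b, hmem, hbV, ?_⟩
  rw [Fintype.linearIndependent_iff]
  intro g hg l
  have h1 : ∀ i, ∑ j, algebraMap κ (LaurentSeries κ) (g j) * coeffMap π (P j i) = 0 := by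
    intro i
    have h2 := congrFun hg i
    rw [Finset.sum_apply] at h2
    have h3 : ∀ j, (g j • (fun i => gaussRes A π ⟨ψ i (b j), hmem j i⟩ :
        ι → LaurentSeries κ)) i = algebraMap κ (LaurentSeries κ) (g j) * coeffMap π (P j i) /
          coeffMap π (Q i) := by
      intro j
      rw [Pi.smul_apply, hres j i, Algebra.smul_def, mul_div_assoc]
    rw [Finset.sum_congr rfl (fun j _ => h3 j), ← Finset.sum_div] at h2
    exact (div_eq_zero_iff.mp h2).resolve_right (hQ i)
  have h4 := congrArg (fun z => coeffLin κ (x l).2 z) (h1 (x l).1)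
  simp only [map_sum, map_zero] at h4
  rw [← h4, Finset.sum_eq_single l]
  · rw [coeffLin_apply, coeff_algebraMap_mul, coeffMap_coeff]
    have h5 : ((P l (x l).1).coeff (x l).2 : L) = 1 := by
      have h6 := congrArg (fun z => z.coeff (x l).2) (hP l (x l).1)
      simp only [coeffMap_coeff] at h6
      have h7 := hpiv l l
      rw [if_pos rfl, ← hby, hμapp] at h7
      rw [← h7]
      exact h6
    rw [show (P l (x l).1).coeff (x l).2 = 1 from Subtype.ext h5, map_one, mul_one]
  · intro j _ hj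
    rw [coeffLin_apply, coeff_algebraMap_mul, coeffMap_coeff]
    have h5 : ((P j (x l).1).coeff (x l).2 : L) = 0 := by
      have h6 := congrArg (fun z => z.coeff (x l).2) (hP j (x l).1)
      simp only [coeffMap_coeff] at h6
      have h7 := hpiv l j
      rw [if_neg (Ne.symm hj), ← hby, hμapp] at h7
      rw [← h7]
      exact h6
    rw [show (P j (x l).1).coeff (x l).2 = 0 from Subtype.ext h5, map_zero, mul_zero]
  · intro h
    exact absurd (Finset.mem_univ l) h

end Fermat.Agent.BadRed
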