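import Mathlib

/-!
# Newton iteration for `n`-th roots in Riemann–Roch spaces ("Theorem K")

Abstract, completion-free form of the fact that the kernel of reduction has no torsion prime to the
residue characteristic.

`L` is an algebraically closed field, `A` a valuation subring of `L` of rank one, `F` an `L`-algebra
(field), `B` a subring of `F` containing `A` (the unit ball for finitely many Gauss valuations).
-/

set_option autoImplicit false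

open MvPolynomial

namespace Fermat.Agent.BadRed

section Step

variable {L : Type*} [Field L] {F : Type*} [Field F] [Algebra L F] (B : Subring F)

/-- `x` is divisible by the scalar `ε` in `B`. -/
def DivBy (ε : L) (x : F) : Prop := ∃ y ∈ B, x = algebraMap L F ε * y

variable {B}

lemma DivBy.add {ε : L} {x y : F} (hx : DivBy B ε x) (hy : DivBy B ε y) : DivBy B ε (x + y) := by
  obtain ⟨a, ha, rfl⟩ := hx
  obtain ⟨b, hb, rfl⟩ := hy
  exact ⟨a + b, B.add_mem ha hb, by ring⟩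

lemma DivBy.neg {ε : L} {x : F} (hx : DivBy B ε x) : DivBy B ε (-x) := by
  obtain ⟨a, ha, rfl⟩ := hx
  exact ⟨-a, B.neg_mem ha, by ring⟩

lemma DivBy.sub {ε : L} {x y : F} (hx : DivBy B ε x) (hy : DivBy B ε y) : DivBy B ε (x - y) := by
  rw [sub_eq_add_neg]; exact hx.add hy.neg

lemma DivBy.mul_right {ε : L} {x y : F} (hx : DivBy B ε x) (hy : y ∈ B) : DivBy B ε (x * y) := by
  obtain ⟨a, ha, rfl⟩ := hx
  exact ⟨a * y, B.mul_mem ha hy, by ring⟩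

lemma DivBy.mul_left {ε : L} {x y : F} (hx : DivBy B ε x) (hy : y ∈ B) : DivBy B ε (y * x) := by
  rw [mul_comm]; exact hx.mul_right hy

lemma DivBy.smul {ε δ : L} {x : F} (hx : DivBy B ε x) :
    DivBy B (δ * ε) (algebraMap L F δ * x) := by
  obtain ⟨a, ha, rfl⟩ := hx
  exact ⟨a, ha, by rw [map_mul]; ring⟩

lemma DivBy.mem {ε : L} (hε : algebraMap L F ε ∈ B) {x : F} (hx : DivBy B ε x) : x ∈ B := by
  obtain ⟨a, ha, rfl⟩ := hx
  exact B.mul_mem hε ha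

lemma DivBy.of_mul {ε δ : L} (hε : ε ≠ 0) {x : F}
    (hx : DivBy B (ε * δ) (algebraMap L F ε * x)) : DivBy B δ x := by
  obtain ⟨a, ha, h⟩ := hx
  refine ⟨a, ha, ?_⟩
  have hε' : algebraMap L F ε ≠ 0 := by simpa using hε
  rw [map_mul, mul_assoc] at h
  exact mul_left_cancel₀ hε' h

lemma DivBy.weaken {ε δ : L} (hδ : algebraMap L F δ ∈ B) {x : F} (hx : DivBy B (ε * δ) x) :
    DivBy B ε x := by
  obtain ⟨a, ha, rfl⟩ := hx
  exact ⟨algebraMap L F δ * a, B.mul_mem hδ ha, by rw [map_mul]; ring⟩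

/-- second order Taylor expansion of `x ↦ x ^ n` inside the subring `B` -/
lemma exists_pow_add (n : ℕ) {a b : F} (ha : a ∈ B) (hb : b ∈ B) :
    ∃ Q ∈ B, (a + b) ^ n = a ^ n + n * a ^ (n - 1) * b + Q * b ^ 2 := by
  obtain ⟨Q, hQ⟩ := Polynomial.powAddExpansion (⟨a, ha⟩ : B) ⟨b, hb⟩ n
  refine ⟨Q, Q.2, ?_⟩
  have h := congrArg (fun x : B => (x : F)) hQ
  simpa using h

variable (B) in
/-- intersection property modulo `ε`: an element of `V` congruent to an element of `W` modulo `ε`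
is congruent to an element of `Z`. -/
def InterProp (ε : L) (V W Z : Submodule L F) : Prop :=
  ∀ x ∈ V, x ∈ B → ∀ y ∈ W, y ∈ B → DivBy B ε (x - y) → ∃ z ∈ Z, z ∈ B ∧ DivBy B ε (x - z)

/-- the intersection property follows from surjectivity on unit balls -/
lemma interProp_of_surj {V W Z : Submodule L F} (hZ : V ⊓ W ≤ Z)
    (hsurj : ∀ w ∈ V ⊔ W, w ∈ B → ∃ w₁ ∈ V, w₁ ∈ B ∧ ∃ w₂ ∈ W, w₂ ∈ B ∧ w = w₁ + w₂)
    {ε : L} (hε0 : ε ≠ 0) (hε : algebraMap L F ε ∈ B) : InterProp B ε V W Z := by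
  rintro x hxV hxB y hyW hyB ⟨w, hwB, hw⟩
  have hε' : algebraMap L F ε ≠ 0 := by simpa using hε0
  have hwVW : w ∈ V ⊔ W := by
    have h1 : w = ε⁻¹ • (x - y) := by
      rw [hw, Algebra.smul_def, ← mul_assoc, ← map_mul, inv_mul_cancel₀ hε0, map_one, one_mul]
    rw [h1]
    exact Submodule.smul_mem _ _
      (Submodule.sub_mem _ (Submodule.mem_sup_left hxV) (Submodule.mem_sup_right hyW))
  obtain ⟨w₁, hw₁V, hw₁B, w₂, hw₂W, hw₂B, hsum⟩ := hsurj w hwVW hwB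
  refine ⟨x - algebraMap L F ε * w₁, hZ ⟨?_, ?_⟩, ?_, ⟨w₁, hw₁B, by ring⟩⟩
  · refine V.sub_mem hxV ?_
    rw [← Algebra.smul_def]; exact V.smul_mem _ hw₁V
  · have h2 : x - algebraMap L F ε * w₁ = y + ε • w₂ := by
      rw [Algebra.smul_def]
      linear_combination hw + algebraMap L F ε * hsum
    rw [h2]
    exact W.add_mem hyW (W.smul_mem _ hw₂W)
  · exact B.sub_mem hxB (B.mul_mem hε hw₁B)

/-- half of the Newton step: improves `u` -/
lemma newton_half {n : ℕ} (hn0 : n ≠ 0) (hnL : (n : L) ≠ 0) (hn : algebraMap L F ((n : L)⁻¹) ∈ B)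
    {U U' V1 V1' W1 E1 X1 Y : Submodule L F} {f : F} (hf : f ∈ B)
    (hone : (1 : F) ∈ V1) (hone' : (1 : F) ∈ V1')
    (hUV : ∀ x ∈ U, x ^ n * f ∈ V1) (hUV' : ∀ x ∈ U', x ^ n * f ∈ V1')
    (hUY : U ≤ Y) (hUY' : U' ≤ Y) (hVW : V1' ≤ W1)
    (hYW : ∀ y ∈ Y, ∀ x ∈ U', y * x ^ (n - 1) * f ∈ W1)
    (hEX : ∀ e ∈ E1, ∀ x ∈ U, e * x ∈ X1) (hEY : ∀ e ∈ E1, ∀ x ∈ U', e * x ∈ Y)
    {ε : L} (hε0 : ε ≠ 0) (hε : algebraMap L F ε ∈ B)
    (ip1 : InterProp B ε V1 W1 E1) (ip2 : InterProp B ε X1 Y U)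
    {u u' : F} (hu : u ∈ U) (huB : u ∈ B) (hu' : u' ∈ U') (huB' : u' ∈ B)
    (h1 : DivBy B ε (u ^ n * f - 1)) (h1' : DivBy B ε (u' ^ n * f - 1))
    (h2 : DivBy B ε (u - u')) :
    ∃ v ∈ U, v ∈ B ∧ DivBy B ε (u - v) ∧ DivBy B (ε * ε) (v ^ n * f - 1) := by
  have hε' : algebraMap L F ε ≠ 0 := by simpa using hε0
  obtain ⟨z, hzB, hz⟩ := h1
  obtain ⟨z', hzB', hz'⟩ := h1'
  obtain ⟨w, hwB, hw⟩ := h2
  have hinv : ∀ t s : F, t = algebraMap L F ε * s → s = ε⁻¹ • t := by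
    intro t s hts
    rw [hts, Algebra.smul_def, ← mul_assoc, ← map_mul, inv_mul_cancel₀ hε0, map_one, one_mul]
  have hzV : z ∈ V1 := by
    rw [hinv _ _ hz]
    exact V1.smul_mem _ (V1.sub_mem (hUV u hu) hone)
  have hzV' : z' ∈ V1' := by
    rw [hinv _ _ hz']
    exact V1'.smul_mem _ (V1'.sub_mem (hUV' u' hu') hone')
  have hwY : w ∈ Y := by
    rw [hinv _ _ hw]
    exact Y.smul_mem _ (Y.sub_mem (hUY hu) (hUY' hu'))
  -- comparison of z and z'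
  obtain ⟨Q, hQB, hQ⟩ := exists_pow_add n huB' (B.mul_mem hε hwB)
  have hueq : u' + algebraMap L F ε * w = u := by rw [← hw]; ring
  rw [hueq] at hQ
  set y₁ : F := z' + n * (w * u' ^ (n - 1) * f) with hy₁
  have hy₁W : y₁ ∈ W1 := by
    refine W1.add_mem (hVW hzV') ?_
    rw [← nsmul_eq_mul]
    exact W1.nsmul_mem (hYW w hwY u' hu') n
  have hy₁B : y₁ ∈ B :=
    B.add_mem hzB' (B.mul_mem (natCast_mem B n) (B.mul_mem (B.mul_mem hwB (B.pow_mem huB' _)) hf))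
  have hcmp : DivBy B ε (z - y₁) := by
    refine ⟨Q * w ^ 2 * f, B.mul_mem (B.mul_mem hQB (B.pow_mem hwB 2)) hf, ?_⟩
    apply mul_left_cancel₀ hε'
    rw [hy₁]
    linear_combination (-1 : F) * hz + hz' + f * hQ
  obtain ⟨z₁, hz₁E, hz₁B, hz₁⟩ := ip1 z hzV hzB y₁ hy₁W hy₁B hcmp
  -- lift
  obtain ⟨v₀, hv₀U, hv₀B, hv₀⟩ := ip2 (z₁ * u) (hEX _ hz₁E _ hu) (B.mul_mem hz₁B huB)
    (z₁ * u') (hEY _ hz₁E _ hu') (B.mul_mem hz₁B huB')
    ⟨z₁ * w, B.mul_mem hz₁B hwB, by linear_combination z₁ * hw⟩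
  set c : F := algebraMap L F ((n : L)⁻¹) with hc
  have hcn : c * (n : F) = 1 := by
    rw [hc, ← map_natCast (algebraMap L F) n, ← map_mul, inv_mul_cancel₀ hnL, map_one]
  refine ⟨u - algebraMap L F ε * (c * v₀), ?_, ?_, ⟨c * v₀, B.mul_mem hn hv₀B, by ring⟩, ?_⟩
  · refine U.sub_mem hu ?_
    rw [← mul_assoc, hc, ← map_mul, ← Algebra.smul_def]
    exact U.smul_mem _ hv₀U
  · exact B.sub_mem huB (B.mul_mem hε (B.mul_mem hn hv₀B))
  · obtain ⟨Q2, hQ2B, hQ2⟩ := exists_pow_add n huB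
      (b := -(algebraMap L F ε * (c * v₀))) (B.neg_mem (B.mul_mem hε (B.mul_mem hn hv₀B)))
    obtain ⟨p, hpB, hp⟩ := hz₁
    obtain ⟨s, hsB, hs⟩ := hv₀
    have hpow : u ^ n = u ^ (n - 1) * u := by
      rw [← pow_succ, Nat.sub_add_cancel (Nat.one_le_iff_ne_zero.mpr hn0)]
    refine ⟨p - z₁ * z + u ^ (n - 1) * f * s + Q2 * (c * v₀) ^ 2 * f, ?_, ?_⟩
    · refine B.add_mem (B.add_mem (B.sub_mem hpB (B.mul_mem hz₁B hzB)) ?_) ?_
      · exact B.mul_mem (B.mul_mem (B.pow_mem huB _) hf) hsB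
      · exact B.mul_mem (B.mul_mem hQ2B (B.pow_mem (B.mul_mem hn hv₀B) 2)) hf
    · rw [map_mul, sub_eq_add_neg u]
      linear_combination f * hQ2 + hz + algebraMap L F ε * hp + algebraMap L F ε * u ^ (n - 1) * f * hs
        - algebraMap L F ε * u ^ (n - 1) * v₀ * f * hcn
        - algebraMap L F ε * z₁ * hz + algebraMap L F ε * z₁ * f * hpow

/-- The full Newton step: improves `u` and `u'` simultaneously. -/
lemma newton_step {n : ℕ} (hn0 : n ≠ 0) (hnL : (n : L) ≠ 0) (hn : algebraMap L F ((n : L)⁻¹) ∈ B)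
    {U U' V1 V1' W1 W1' E1 E1' X1 X1' Y : Submodule L F} {f : F} (hf : f ∈ B)
    (hone : (1 : F) ∈ V1) (hone' : (1 : F) ∈ V1')
    (hUV : ∀ x ∈ U, x ^ n * f ∈ V1) (hUV' : ∀ x ∈ U', x ^ n * f ∈ V1')
    (hUY : U ≤ Y) (hUY' : U' ≤ Y) (hVW : V1' ≤ W1) (hVW' : V1 ≤ W1')
    (hYW : ∀ y ∈ Y, ∀ x ∈ U', y * x ^ (n - 1) * f ∈ W1)
    (hYW' : ∀ y ∈ Y, ∀ x ∈ U, y * x ^ (n - 1) * f ∈ W1')
    (hEX : ∀ e ∈ E1, ∀ x ∈ U, e * x ∈ X1) (hEY : ∀ e ∈ E1, ∀ x ∈ U', e * x ∈ Y)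
    (hEX' : ∀ e ∈ E1', ∀ x ∈ U', e * x ∈ X1') (hEY' : ∀ e ∈ E1', ∀ x ∈ U, e * x ∈ Y)
    {ε : L} (hε0 : ε ≠ 0) (hε : algebraMap L F ε ∈ B)
    (ip1 : InterProp B ε V1 W1 E1) (ip2 : InterProp B ε X1 Y U)
    (ip1' : InterProp B ε V1' W1' E1') (ip2' : InterProp B ε X1' Y U')
    {u u' : F} (hu : u ∈ U) (huB : u ∈ B) (hu' : u' ∈ U') (huB' : u' ∈ B)
    (h1 : DivBy B ε (u ^ n * f - 1)) (h1' : DivBy B ε (u' ^ n * f - 1))
    (h2 : DivBy B ε (u - u')) :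
    ∃ v ∈ U, v ∈ B ∧ ∃ v' ∈ U', v' ∈ B ∧ DivBy B (ε * ε) (v ^ n * f - 1) ∧
      DivBy B (ε * ε) (v' ^ n * f - 1) ∧ DivBy B (ε * ε) (v - v') := by
  obtain ⟨v, hvU, hvB, hv, hv1⟩ := newton_half hn0 hnL hn hf hone hone' hUV hUV' hUY hUY' hVW hYW
    hEX hEY hε0 hε ip1 ip2 hu huB hu' huB' h1 h1' h2
  obtain ⟨v', hvU', hvB', hv', hv1'⟩ := newton_half hn0 hnL hn hf hone' hone hUV' hUV hUY' hUY
    hVW' hYW' hEX' hEY' hε0 hε ip1' ip2' hu' huB' hu huB h1' h1 (by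
      have := h2.neg; rwa [neg_sub] at this)
  refine ⟨v, hvU, hvB, v', hvU', hvB', hv1, hv1', ?_⟩
  have hε' : algebraMap L F ε ≠ 0 := by simpa using hε0
  -- v - v' is divisible by ε
  have h3 : DivBy B ε (v - v') := by
    have h := (h2.sub hv).add hv'
    have heq : u - u' - (u - v) + (u' - v') = v - v' := by ring
    rwa [heq] at h
  obtain ⟨w, hwB, hw⟩ := h3
  obtain ⟨Q, hQB, hQ⟩ := exists_pow_add n hvB' (B.mul_mem hε hwB)
  have hveq : v' + algebraMap L F ε * w = v := by rw [← hw]; ring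
  rw [hveq] at hQ
  set c : F := algebraMap L F ((n : L)⁻¹) with hc
  have hcn : c * (n : F) = 1 := by
    rw [hc, ← map_natCast (algebraMap L F) n, ← map_mul, inv_mul_cancel₀ hnL, map_one]
  have hpow : v' ^ n = v' ^ (n - 1) * v' := by
    rw [← pow_succ, Nat.sub_add_cancel (Nat.one_le_iff_ne_zero.mpr hn0)]
  obtain ⟨a, haB, ha⟩ := hv1
  obtain ⟨a', haB', ha'⟩ := hv1'
  rw [map_mul] at ha ha'
  -- `w` is divisible by `ε`
  have hwdiv : DivBy B ε w := by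
    refine ⟨c * v' * (a - a') - c * v' * Q * w ^ 2 * f - a' * algebraMap L F ε * w, ?_, ?_⟩
    · refine B.sub_mem (B.sub_mem ?_ ?_) ?_
      · exact B.mul_mem (B.mul_mem hn hvB') (B.sub_mem haB haB')
      · exact B.mul_mem (B.mul_mem (B.mul_mem (B.mul_mem hn hvB') hQB) (B.pow_mem hwB 2)) hf
      · exact B.mul_mem (B.mul_mem haB' hε) hwB
    · apply mul_left_cancel₀ hε'
      linear_combination (c * v') * ha - (c * v') * ha' - (c * v' * f) * hQ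
        - algebraMap L F ε * w * ha' - (algebraMap L F ε * w * v' ^ (n-1) * v' * f) * hcn
        + (algebraMap L F ε * w * f) * hpow
  obtain ⟨w₂, hw₂B, hw₂⟩ := hwdiv
  exact ⟨w₂, hw₂B, by rw [hw, hw₂, map_mul]; ring⟩

end Step

section Nullstellensatz

variable {L : Type*} [Field L] [IsAlgClosed L] {F : Type*} [Field F] [Algebra L F] {B : Subring F}
  (A : ValuationSubring L)

/-- clearing denominators for finitely many polynomials -/
lemma exists_clear_denominators {ι κ : Type*} [Fintype κ] (g : κ → MvPolynomial ι L) :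
    ∃ a : L, a ≠ 0 ∧ ∀ j, ∀ m, a * (g j).coeff m ∈ A := by
  classical
  obtain ⟨b, hb⟩ := IsLocalization.exist_integer_multiples_of_finset (nonZeroDivisors A) (S := L)
    (Finset.univ.biUnion fun j => (g j).support.image fun m => (g j).coeff m)
  refine ⟨(b : A), ?_, fun j m => ?_⟩
  · have := nonZeroDivisors.ne_zero b.2
    exact_mod_cast this
  · by_cases hm : m ∈ (g j).support
    · have h := hb ((g j).coeff m) (Finset.mem_biUnion.mpr ⟨j, Finset.mem_univ j,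
        Finset.mem_image.mpr ⟨m, hm, rfl⟩⟩)
      obtain ⟨c, hc⟩ := h
      have h2 : ((b : A) : L) * (g j).coeff m = (c : L) := by
        rw [show (c : L) = algebraMap A L c from rfl, hc]
        rw [Submonoid.smul_def, Algebra.smul_def]
        rfl
      rw [h2]
      exact c.2
    · rw [MvPolynomial.notMem_support_iff.mp hm, mul_zero]
      exact A.zero_mem

lemma mul_eval_mem {ι : Type*} [Fintype ι] (g : MvPolynomial ι L) (a : L)
    (ha : ∀ m, a * g.coeff m ∈ A) (x : ι → L) (hx : ∀ i, x i ∈ A) : a * eval x g ∈ A := by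
  rw [MvPolynomial.eval_eq', Finset.mul_sum]
  refine sum_mem fun m _ => ?_
  rw [← mul_assoc]
  exact A.mul_mem _ _ (ha m) (prod_mem fun i _ => pow_mem (hx i) _)

/-- If the equation `u ^ n * f = 1` can be solved in `U` with arbitrary precision by integral
elements, then it can be solved exactly. -/
theorem exists_pow_mul_eq_one {n : ℕ} {ι κ : Type*} [Fintype ι] [Fintype κ] (e : ι → F)
    (φ : κ → F →ₗ[L] L) {U V : Submodule L F} {f : F} (heU : ∀ i, e i ∈ U)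
    (hspan : ∀ u ∈ U, u ∈ B → ∃ x : ι → L, (∀ i, x i ∈ A) ∧ u = ∑ i, x i • e i)
    (hone : (1 : F) ∈ V) (hUV : ∀ x ∈ U, x ^ n * f ∈ V)
    (hφ : ∀ v ∈ V, (∀ j, φ j v = 0) → v = 0)
    (hφA : ∀ v ∈ V, v ∈ B → ∀ j, φ j v ∈ A)
    {ε : L} (hε0 : ε ≠ 0) (harch : ∀ a : L, a ≠ 0 → ∃ k : ℕ, a * (ε ^ k)⁻¹ ∉ A)
    (happrox : ∀ k : ℕ, ∃ u ∈ U, u ∈ B ∧ DivBy B (ε ^ k) (u ^ n * f - 1)) :
    ∃ w ∈ U, w ^ n * f = 1 := by
  classical
  -- the polynomial equations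
  set P : κ → MvPolynomial ι L := fun j =>
    ∑ s : Fin n → ι, C (φ j ((∏ t, e (s t)) * f)) * ∏ t, X (s t) - C (φ j 1) with hP
  have hevalP : ∀ (j : κ) (x : ι → L),
      eval x (P j) = φ j ((∑ i, x i • e i) ^ n * f - 1) := by
    intro j x
    rw [hP, Fintype.sum_pow, Finset.sum_mul, map_sub, map_sub, map_sum, map_sum, eval_C]
    congr 1
    refine Finset.sum_congr rfl fun s _ => ?_
    rw [map_mul, eval_C, map_prod]
    simp only [eval_X]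
    have h1 : (∏ t, x (s t) • e (s t)) * f = (∏ t, x (s t)) • ((∏ t, e (s t)) * f) := by
      simp only [Algebra.smul_def, Finset.prod_mul_distrib, map_prod]
      ring
    rw [h1, map_smul, smul_eq_mul, mul_comm]
  have hmemU : ∀ x : ι → L, ∑ i, x i • e i ∈ U := fun x =>
    U.sum_mem fun i _ => U.smul_mem _ (heU i)
  -- suppose there is no solution
  by_contra hno
  push Not at hno
  have hzero : zeroLocus L (Ideal.span (Set.range P)) = ∅ := by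
    rw [Set.eq_empty_iff_forall_notMem]
    intro x hx
    rw [mem_zeroLocus_iff] at hx
    apply hno (∑ i, x i • e i) (hmemU x)
    have h2 : (∑ i, x i • e i) ^ n * f - 1 = 0 := by
      apply hφ _ (V.sub_mem (hUV _ (hmemU x)) hone)
      intro j
      rw [← hevalP j x]
      have := hx (P j) (Ideal.subset_span ⟨j, rfl⟩)
      simpa [MvPolynomial.aeval_eq_eval] using this
    exact sub_eq_zero.mp h2
  have htop : Ideal.span (Set.range P) = ⊤ := by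
    rw [← Ideal.radical_eq_top, ← MvPolynomial.vanishingIdeal_zeroLocus_eq_radical (K := L), hzero,
      vanishingIdeal_empty]
  have h1mem : (1 : MvPolynomial ι L) ∈ Ideal.span (Set.range P) := by rw [htop]; trivial
  rw [Ideal.mem_span_range_iff_exists_fun] at h1mem
  obtain ⟨g, hg⟩ := h1mem
  obtain ⟨a, ha0, ha⟩ := exists_clear_denominators A g
  obtain ⟨k, hk⟩ := harch a ha0
  obtain ⟨u, huU, huB, y, hyB, hy⟩ := happrox k
  obtain ⟨x, hxA, rfl⟩ := hspan u huU huB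
  have hεk : ε ^ k ≠ 0 := pow_ne_zero _ hε0
  have hyV : y ∈ V := by
    have h3 : y = (ε ^ k)⁻¹ • ((∑ i, x i • e i) ^ n * f - 1) := by
      rw [hy, Algebra.smul_def, ← mul_assoc, ← map_mul, inv_mul_cancel₀ hεk, map_one, one_mul]
    rw [h3]
    exact V.smul_mem _ (V.sub_mem (hUV _ (hmemU x)) hone)
  have hPval : ∀ j, eval x (P j) = ε ^ k * φ j y := by
    intro j
    rw [hevalP j x, hy, ← Algebra.smul_def, map_smul, smul_eq_mul]
  apply hk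
  have hsum := congrArg (fun p => a * eval x p * (ε ^ k)⁻¹) hg
  simp only [map_sum, map_mul, map_one, mul_one] at hsum
  rw [← hsum, Finset.mul_sum, Finset.sum_mul]
  refine sum_mem fun j _ => ?_
  have h4 : a * (eval x (g j) * eval x (P j)) * (ε ^ k)⁻¹ = (a * eval x (g j)) * φ j y := by
    rw [hPval j]
    field_simp
  rw [h4]
  exact A.mul_mem _ _ (mul_eval_mem A (g j) a (ha j) x hxA) (hφA y hyV hyB j)

end Nullstellensatz

section Main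

variable {L : Type*} [Field L] [IsAlgClosed L] {F : Type*} [Field F] [Algebra L F] {B : Subring F}
  (A : ValuationSubring L)

/-- **Theorem K**. `U = L(E+D)`, `U' = L(E*+D)`, `V1 = L(nE)`, `V1' = L(nE*)`, `W1 = L(E+nE*)`,
`W1' = L(E*+nE)`, `E1 = L(E)`, `E1' = L(E*)`, `X1 = L(2E+D)`, `X1' = L(2E*+D)`, `Y = L(E+E*+D)`. -/
theorem theoremK {n : ℕ} (hn0 : n ≠ 0) (hnL : (n : L) ≠ 0)
    (hAB : ∀ a ∈ A, algebraMap L F a ∈ B) (hnA : ((n : L)⁻¹) ∈ A)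
    {U U' V1 V1' W1 W1' E1 E1' X1 X1' Y : Submodule L F} {f : F} (hf : f ∈ B)
    (hone : (1 : F) ∈ V1) (hone' : (1 : F) ∈ V1')
    (hUV : ∀ x ∈ U, x ^ n * f ∈ V1) (hUV' : ∀ x ∈ U', x ^ n * f ∈ V1')
    (hUY : U ≤ Y) (hUY' : U' ≤ Y) (hVW : V1' ≤ W1) (hVW' : V1 ≤ W1')
    (hYW : ∀ y ∈ Y, ∀ x ∈ U', y * x ^ (n - 1) * f ∈ W1)
    (hYW' : ∀ y ∈ Y, ∀ x ∈ U, y * x ^ (n - 1) * f ∈ W1')
    (hEX : ∀ e ∈ E1, ∀ x ∈ U, e * x ∈ X1) (hEY : ∀ e ∈ E1, ∀ x ∈ U', e * x ∈ Y)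
    (hEX' : ∀ e ∈ E1', ∀ x ∈ U', e * x ∈ X1') (hEY' : ∀ e ∈ E1', ∀ x ∈ U, e * x ∈ Y)
    (ip1 : ∀ ε ∈ A, ε ≠ 0 → InterProp B ε V1 W1 E1) (ip2 : ∀ ε ∈ A, ε ≠ 0 → InterProp B ε X1 Y U)
    (ip1' : ∀ ε ∈ A, ε ≠ 0 → InterProp B ε V1' W1' E1')
    (ip2' : ∀ ε ∈ A, ε ≠ 0 → InterProp B ε X1' Y U')
    {ι κ : Type*} [Fintype ι] [Fintype κ] (e : ι → F) (φ : κ → F →ₗ[L] L) (heU : ∀ i, e i ∈ U)
    (hspan : ∀ u ∈ U, u ∈ B → ∃ x : ι → L, (∀ i, x i ∈ A) ∧ u = ∑ i, x i • e i)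
    (hφ : ∀ v ∈ V1, (∀ j, φ j v = 0) → v = 0)
    (hφA : ∀ v ∈ V1, v ∈ B → ∀ j, φ j v ∈ A)
    {ε : L} (hεA : ε ∈ A) (hε0 : ε ≠ 0) (harch : ∀ a : L, a ≠ 0 → ∃ k : ℕ, a * (ε ^ k)⁻¹ ∉ A)
    {u u' : F} (hu : u ∈ U) (huB : u ∈ B) (hu' : u' ∈ U') (huB' : u' ∈ B)
    (h1 : DivBy B ε (u ^ n * f - 1)) (h1' : DivBy B ε (u' ^ n * f - 1))
    (h2 : DivBy B ε (u - u')) :
    ∃ w ∈ U, w ^ n * f = 1 := by
  have hn : algebraMap L F ((n : L)⁻¹) ∈ B := hAB _ hnA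
  have hstep : ∀ k : ℕ, ∃ v ∈ U, v ∈ B ∧ ∃ v' ∈ U', v' ∈ B ∧
      DivBy B (ε ^ (2 ^ k)) (v ^ n * f - 1) ∧ DivBy B (ε ^ (2 ^ k)) (v' ^ n * f - 1) ∧
      DivBy B (ε ^ (2 ^ k)) (v - v') := by
    intro k
    induction k with
    | zero => exact ⟨u, hu, huB, u', hu', huB', by simpa using h1, by simpa using h1',
        by simpa using h2⟩
    | succ k ih =>
      obtain ⟨v, hv, hvB, v', hv', hvB', h3, h3', h4⟩ := ih
      have hA : ε ^ (2 ^ k) ∈ A := pow_mem hεA _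
      have h0 : ε ^ (2 ^ k) ≠ 0 := pow_ne_zero _ hε0
      have := newton_step hn0 hnL hn hf hone hone' hUV hUV' hUY hUY' hVW hVW' hYW hYW' hEX hEY
        hEX' hEY' h0 (hAB _ hA) (ip1 _ hA h0) (ip2 _ hA h0) (ip1' _ hA h0) (ip2' _ hA h0)
        hv hvB hv' hvB' h3 h3' h4
      rwa [← pow_add, ← two_mul, ← pow_succ'] at this
  refine exists_pow_mul_eq_one (B := B) A e φ heU hspan hone hUV hφ hφA hε0 harch fun k => ?_
  obtain ⟨v, hv, hvB, _, _, _, h3, _, _⟩ := hstep k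
  refine ⟨v, hv, hvB, ?_⟩
  have hle : k ≤ 2 ^ k := (Nat.lt_two_pow_self).le
  obtain ⟨d, hd⟩ := Nat.exists_eq_add_of_le hle
  rw [hd, pow_add] at h3
  exact h3.weaken (hAB _ (pow_mem hεA _))

end Main

end Fermat.Agent.BadRed
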