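import Fermat.Agent.BadRed.Conc5
import Fermat.Agent.AtkinLehner.Norm

/-!
# The norm data of `X₀(N r) → X₀(N)` at `r`
-/

set_option autoImplicit false
set_option linter.unusedSectionVars false

noncomputable section

open HahnSeries ModularCurve Module Polynomial AlgebraicCurve

namespace Fermat.Agent.BadRed

open Fermat.Agent.Igusa Fermat.Agent.AtkinLehner Fermat.Agent.ModPoly Fermat.Agent.HeckeRed

section Twist

variable {L : Type*} [Field L] {A : ValuationSubring L} {κ : Type*} [Field κ] {π : A →+* κ}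

theorem coeffMap_twist {R S : Type*} [CommRing R] [CommRing S] (f : R →+* S) (u : Rˣ)
    (x : LaurentSeries R) :
    coeffMap f (twist u x) = twist (Units.map (f : R →* S) u) (coeffMap f x) := by
  ext n
  rw [coeffMap_coeff, twist_coeff, twist_coeff, coeffMap_coeff, map_mul, ← map_zpow]
  rfl

theorem gauss_twist (u : Aˣ) {x : LaurentSeries L} (hx : x ∈ gaussRing A π) :
    ∃ h : twist (Units.map (A.subtype : A →* L) u) x ∈ gaussRing A π,
      gaussRes A π ⟨_, h⟩ = twist (Units.map (π : A →* κ) u) (gaussRes A π ⟨x, hx⟩) := by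
  obtain ⟨P, Q, hQ, hPQ⟩ := mem_gaussRing_iff.mp hx
  have hQ' : coeffMap π (twist u Q) ≠ 0 := by
    rw [coeffMap_twist]
    intro h
    exact hQ (twist_injective _ (h.trans (map_zero _).symm))
  have h1 : twist (Units.map (A.subtype : A →* L) u) x * coeffMap A.subtype (twist u Q) =
      coeffMap A.subtype (twist u P) := by
    rw [coeffMap_twist, coeffMap_twist, ← hPQ, map_mul]
  have h2 : twist (Units.map (A.subtype : A →* L) u) x ∈ gaussRing A π :=
    mem_gaussRing_iff.mpr ⟨_, _, hQ', h1⟩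
  refine ⟨h2, ?_⟩
  rw [gaussRes_eq (⟨_, h2⟩ : gaussRing A π) hQ' h1,
    gaussRes_eq (⟨x, hx⟩ : gaussRing A π) hQ hPQ, map_div₀, coeffMap_twist, coeffMap_twist]

theorem mem_of_pow_eq_one {r : ℕ} (hr : r ≠ 0) {x : L} (hx : x ^ r = 1) : x ∈ A := by
  rw [← A.valuation_le_one_iff]
  have h1 : A.valuation x ^ r = 1 := by
    rw [← map_pow, hx, map_one]
  exact (pow_le_one_iff_of_nonneg zero_le hr).mp h1.le

/-- roots of unity of order the residue characteristic -/
theorem exists_unit_of_pow_eq_one {r : ℕ} [Fact r.Prime] [CharP κ r] {v : Lˣ} (hv : v ^ r = 1) :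
    ∃ u : Aˣ, Units.map (A.subtype : A →* L) u = v ∧ Units.map (π : A →* κ) u = 1 := by
  have hr : r ≠ 0 := (Fact.out : r.Prime).ne_zero
  have h0 : (v : L) ^ r = 1 := by rw [← Units.val_pow_eq_pow_val, hv, Units.val_one]
  have hv' : ((v⁻¹ : Lˣ) : L) ^ r = 1 := by
    rw [← Units.val_pow_eq_pow_val, inv_pow, hv, inv_one, Units.val_one]
  obtain ⟨a, ha⟩ : ∃ a : A, (a : L) = v := ⟨⟨v, mem_of_pow_eq_one hr h0⟩, rfl⟩
  obtain ⟨b, hb⟩ : ∃ b : A, (b : L) = (v⁻¹ : Lˣ) := ⟨⟨_, mem_of_pow_eq_one hr hv'⟩, rfl⟩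
  have hab : a * b = 1 := Subtype.ext (by
    rw [MulMemClass.coe_mul, ha, hb, ← Units.val_mul, mul_inv_cancel, Units.val_one]; rfl)
  have hba : b * a = 1 := by rw [mul_comm]; exact hab
  let u : Aˣ := ⟨a, b, hab, hba⟩
  have har : a ^ r = 1 := Subtype.ext (by
    rw [SubmonoidClass.coe_pow, ha, h0]; rfl)
  have h3 : (π a) ^ r = 1 := by rw [← map_pow, har, map_one]
  have h4 : π a = 1 := by
    have h5 : (π a) ^ r = 1 ^ r := by rw [h3, one_pow]
    exact frobenius_inj κ r h5
  exact ⟨u, Units.ext ha, Units.ext h4⟩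

/-- twisting by a root of unity of order the residue characteristic does not change residues. -/
theorem gauss_twist_of_pow {r : ℕ} [Fact r.Prime] [CharP κ r] {v : Lˣ} (hv : v ^ r = 1)
    {x : LaurentSeries L} (hx : x ∈ gaussRing A π) :
    ∃ h : twist v x ∈ gaussRing A π, gaussRes A π ⟨_, h⟩ = gaussRes A π ⟨x, hx⟩ := by
  obtain ⟨u, rfl, hu2⟩ := exists_unit_of_pow_eq_one (A := A) (π := π) hv
  obtain ⟨h5, h6⟩ := gauss_twist (A := A) (π := π) u hx
  rw [hu2, twist_one] at h6
  exact ⟨h5, h6⟩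

/-- the residue of `f(q^r) ∏ g(ζ^b q)` -/
theorem gauss_norm {r : ℕ} [Fact r.Prime] [CharP κ r] {v : Lˣ} (hv : v ^ r = 1)
    {x y : LaurentSeries L} (hx : x ∈ gaussRing A π) (hy : y ∈ gaussRing A π)
    {z : LaurentSeries L}
    (hz : z = qExpand L r x * ∏ b : Fin r, twist (v ^ (b : ℕ)) y) :
    ∃ h : z ∈ gaussRing A π, gaussRes A π ⟨z, h⟩ =
      qExpand κ r (gaussRes A π ⟨x, hx⟩) * (gaussRes A π ⟨y, hy⟩) ^ r := by
  obtain ⟨g₃, r₃⟩ := qExpand_mem_gauss (A := A) (π := π) r hx
  have tw : ∀ b : Fin r, ∃ h : twist (v ^ (b : ℕ)) y ∈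
      gaussRing A π, gaussRes A π ⟨_, h⟩ = gaussRes A π ⟨_, hy⟩ := fun b =>
    gauss_twist_of_pow (by rw [← pow_mul, mul_comm, pow_mul, hv, one_pow]) hy
  choose g₄ r₄ using tw
  have hP : ((⟨_, g₃⟩ * ∏ b : Fin r, ⟨_, g₄ b⟩ : gaussRing A π) : LaurentSeries L) = z := by
    rw [hz, Subring.coe_mul, SubmonoidClass.coe_finsetProd]
  subst hP
  refine ⟨SetLike.coe_mem _, ?_⟩
  have h1 : gaussRes A π (⟨_, g₃⟩ * ∏ b : Fin r, ⟨_, g₄ b⟩) =
      qExpand κ r (gaussRes A π ⟨x, hx⟩) * (gaussRes A π ⟨y, hy⟩) ^ r := by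
    rw [map_mul, map_prod, r₃, Finset.prod_congr rfl fun b _ => r₄ b,
      Finset.prod_const, Finset.card_univ, Fintype.card_fin]
  exact h1

end Twist

section Generic

variable {K : Type*} [Field K] {E E' : IntermediateField K (LaurentSeries K)}

/-- the inclusion -/
def inclE (h : E ≤ E') : E →ₐ[K] E' where
  toFun x := ⟨x, h x.2⟩
  map_one' := Subtype.ext rfl
  map_mul' _ _ := Subtype.ext rfl
  map_zero' := Subtype.ext rfl
  map_add' _ _ := Subtype.ext rfl
  commutes' _ := Subtype.ext rfl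

theorem coe_inclE (h : E ≤ E') (x : E) : ((inclE h x : E') : LaurentSeries K) = x := rfl

theorem coe_smulE (c : K) (x : E) :
    ((c • x : E) : LaurentSeries K) =
      algebraMap K (LaurentSeries K) c * (x : LaurentSeries K) := by
  rw [Algebra.smul_def]
  rfl

theorem coe_mapE (w : E ≃ₐ[K] E) (c : K) (x : E) : ((w (c • x) : E) : LaurentSeries K) =
      algebraMap K (LaurentSeries K) c * (w x : LaurentSeries K) := by
  rw [Algebra.smul_def, map_mul, AlgEquiv.commutes]
  rfl

end Generic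

section NormNr

variable (L : Type*) [Field L] (N r : ℕ) [hr : Fact r.Prime] [hN : NeZero N]

omit hr hN in
theorem full_le_mul' [hr : Fact r.Prime] [hN : NeZero N] :
    modularFunctionFieldFullC L N ≤ modularFunctionFieldFullC L (N * r) :=
  haveI : NeZero (N * r) := ⟨mul_ne_zero hN.out hr.out.ne_zero⟩
  full_degeneracyC_le L (Dvd.intro r rfl)

/-- the inclusion `F_N → F_{Nr}` -/
def inclNr : modularFunctionFieldFullC L N →ₐ[L] modularFunctionFieldFullC L (N * r) :=
  inclE (full_le_mul' L N r)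

theorem coe_inclNr (x : modularFunctionFieldFullC L N) :
    ((inclNr L N r x : modularFunctionFieldFullC L (N * r)) : LaurentSeries L) = x :=
  coe_inclE _ x

/-- the norm from `F_{Nr}` to `F_N` -/
def normNr : modularFunctionFieldFullC L (N * r) →* modularFunctionFieldFullC L N :=
  letI := algebraAlong (inclNr L N r)
  Algebra.norm (modularFunctionFieldFullC L N)

theorem normNr_apply (x : modularFunctionFieldFullC L (N * r)) :
    normNr L N r x = normAlong (inclNr L N r) x := rfl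

variable {L}

theorem qExpand_alg [NeZero r] (c : L) :
    qExpand L r (algebraMap L (LaurentSeries L) c) = algebraMap L (LaurentSeries L) c :=
  (qExpandAlgHomC L r).commutes c

variable [IsAlgClosed L] [CharZero L] {N r} (hrN : ¬ r ∣ N)

/-- the norm formula with scalars -/
theorem normNr_formula {v : Lˣ} (hv : IsPrimitiveRoot v r) (c₁ c₂ : L)
    (f : modularFunctionFieldFullC L (N * r)) :
    qExpand L r (((c₁ * c₂ ^ r) • normNr L N r f : modularFunctionFieldFullC L N) :
      LaurentSeries L) =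
      qExpand L r ((c₁ • f : modularFunctionFieldFullC L (N * r)) : LaurentSeries L) *
        ∏ b : Fin r, twist (v ^ (b : ℕ)) (ww L N r hrN (c₂ • f) : LaurentSeries L) := by
  have h3 : qExpand L r ((normNr L N r f : modularFunctionFieldFullC L N) : LaurentSeries L) =
      qExpand L r (f : LaurentSeries L) *
        ∏ b : Fin r, twist (v ^ (b : ℕ)) (ww L N r hrN f : LaurentSeries L) :=
    normAlong_alpha' (cast_ne_zero_L L N) (cast_ne_zero_Lr L r) hrN hv rfl rfl
      (inclNr L N r) (fun x => coe_inclNr L N r x) f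
  have e4 : ∀ b : Fin r, twist (v ^ (b : ℕ)) (algebraMap L (LaurentSeries L) c₂ *
        (ww L N r hrN f : LaurentSeries L)) = algebraMap L (LaurentSeries L) c₂ *
          twist (v ^ (b : ℕ)) (ww L N r hrN f : LaurentSeries L) := by
    intro b
    rw [map_mul, twist_algebraMap]
  have e5 : (ww L N r hrN (c₂ • f) : LaurentSeries L) =
      algebraMap L (LaurentSeries L) c₂ * (ww L N r hrN f : LaurentSeries L) :=
    coe_mapE _ _ _
  rw [e5, coe_smulE, coe_smulE, map_mul (qExpand L r), map_mul (qExpand L r),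
    qExpand_alg, qExpand_alg, Finset.prod_congr rfl fun b _ => e4 b, Finset.prod_mul_distrib,
    Finset.prod_const, Finset.card_univ, Fintype.card_fin, h3, map_mul, map_pow]
  ring

end NormNr

end Fermat.Agent.BadRed
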