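import Fermat.Agent.BadRed.Degree2
import Fermat.Agent.BadRed.GlueD

/-!
# Pencils: the reductions of `L(mE + D)`
-/

set_option autoImplicit false

noncomputable section

open AlgebraicCurve Module IntermediateField

namespace Fermat.Agent.BadRed

open Fermat.Agent.FunField Fermat.Agent.FunField.PlaceLemmas Fermat.Agent.Deuring

variable {L k F F₁ : Type*} [Field L] [Field k] [Field F] [Field F₁] [Algebra L F] [Algebra k F₁]

/-- A function `t` with equal reductions `tb` on both components, such that the degree is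
preserved. -/
structure Pencil (𝔇 : RData L k F (F₁ × F₁)) where
  t : 𝔇.O
  tb : F₁
  res_t : 𝔇.res t = (tb, tb)
  tb_ne : tb ≠ 0
  E : Divisor L F
  hE : ∀ v, E v = max 0 (-(v.ord (t : F)))
  Eb : Divisor k F₁
  hEb : ∀ v, Eb v = max 0 (-(v.ord tb))
  deg_eq : Divisor.degree E = 2 * Divisor.degree Eb

/-- normalised torsion data: `n D = div f` with `f` reducing to `1` on both components -/
structure Tors (𝔇 : RData L k F (F₁ × F₁)) (n : ℕ) where
  D : Divisor L F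
  f : 𝔇.O
  res_f : 𝔇.res f = 1
  hD : ∀ v : Place L F, (n : ℤ) * D v = v.ord (f : F)

namespace RData

variable (𝔇 : RData L k F (F₁ × F₁))

theorem coe_ne_zero {f : 𝔇.O} (hf : 𝔇.res f ≠ 0) : (f : F) ≠ 0 := by
  intro h
  have : f = 0 := Subtype.ext h
  rw [this, map_zero] at hf
  exact hf rfl

end RData

section General

variable {K E : Type*} [Field K] [Field E] [Algebra K E]

theorem pow_mem_rr_iff {D : Divisor K E} {a : E} {n : ℕ} (hn : n ≠ 0)
    (h : a ^ n ∈ riemannRochSpace (n • D)) : a ∈ riemannRochSpace D := by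
  rcases eq_or_ne a 0 with rfl | ha
  · exact Submodule.zero_mem _
  rw [mem_rr_of_ne (pow_ne_zero n ha)] at h
  rw [mem_rr_of_ne ha]
  intro v
  have h1 := h v
  rw [ord_pow, Finsupp.smul_apply, nsmul_eq_mul] at h1
  have hn' : (0 : ℤ) < n := by exact_mod_cast Nat.pos_of_ne_zero hn
  by_contra hlt
  push Not at hlt
  have : (n : ℤ) * v.ord a < n * (-D v) := by
    exact (mul_lt_mul_iff_right₀ hn').mpr hlt
  linarith

end General

variable {𝔇 : RData L k F (F₁ × F₁)}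

namespace Tors

variable {n : ℕ} (τ : Tors 𝔇 n)

theorem f_ne : (τ.f : F) ≠ 0 := 𝔇.coe_ne_zero (by rw [τ.res_f]; exact one_ne_zero)

theorem degree_eq_zero [HasPrincipalDivisors L F] (hn : n ≠ 0) : Divisor.degree τ.D = 0 := by
  have h1 : n • τ.D = dv (K := L) (τ.f : F) τ.f_ne := by
    ext v
    rw [Finsupp.smul_apply, nsmul_eq_mul, τ.hD, dv_apply]
  have h2 : Divisor.degree (n • τ.D) = 0 := by rw [h1, degree_dv]
  rw [map_nsmul, nsmul_eq_mul] at h2
  have hn' : (n : ℤ) ≠ 0 := by exact_mod_cast hn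
  exact (mul_eq_zero.mp h2).resolve_left hn'

theorem pow_mul_mem {u : F} {G : Divisor L F} (hu : u ∈ riemannRochSpace (G + τ.D)) :
    u ^ n * (τ.f : F) ∈ riemannRochSpace (n • G) := by
  have h1 := pow_mem_rr hu n
  have h2 : (τ.f : F) ∈ riemannRochSpace (-(n • τ.D)) := by
    rw [mem_rr_of_ne τ.f_ne]
    intro v
    rw [← τ.hD v, Finsupp.neg_apply, neg_neg, Finsupp.smul_apply, nsmul_eq_mul]
  have h3 := mul_mem_rr h1 h2
  have h4 : n • (G + τ.D) + -(n • τ.D) = n • G := by rw [smul_add]; abel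
  rwa [h4] at h3

/-- the zero torsion data -/
def zero (𝔇 : RData L k F (F₁ × F₁)) (n : ℕ) : Tors 𝔇 n where
  D := 0
  f := 1
  res_f := map_one _
  hD := fun v => by simp

end Tors

namespace Pencil

variable (p : Pencil 𝔇)

theorem E_nonneg : 0 ≤ p.E := by
  rw [Finsupp.le_def]
  intro v
  rw [p.hE v]
  exact le_max_left _ _

theorem Eb_nonneg : 0 ≤ p.Eb := by
  rw [Finsupp.le_def]
  intro v
  rw [p.hEb v]
  exact le_max_left _ _

theorem t_ne : (p.t : F) ≠ 0 := 𝔇.coe_ne_zero (by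
  rw [p.res_t]
  intro h
  exact p.tb_ne (congrArg Prod.fst h))

theorem t_mem : (p.t : F) ∈ riemannRochSpace p.E := by
  rw [mem_rr_of_ne p.t_ne]
  intro v
  rw [p.hE v]
  have := le_max_right 0 (-(v.ord (p.t : F)))
  omega

theorem tb_mem : p.tb ∈ riemannRochSpace p.Eb := by
  rw [mem_rr_of_ne p.tb_ne]
  intro v
  rw [p.hEb v]
  have := le_max_right 0 (-(v.ord p.tb))
  omega

variable [IsFF L F] [IsFF k F₁] [HasPrincipalDivisors L F] [HasPrincipalDivisors k F₁]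
  [IsAlgClosed k] {g g₁ : ℤ} (hRR : RRLarge L F g)
include hRR

/-- reduction of the multiples of `E` -/
theorem red_le (m : ℕ) : 𝔇.red (riemannRochSpace (m • p.E)) ≤
    (riemannRochSpace (m • p.Eb)).prod (riemannRochSpace (m • p.Eb)) := by
  have hfd := finiteDimensional_rr hRR (m • p.E)
  have hE0 : 0 ≤ m • p.E := nsmul_nonneg p.E_nonneg m
  have hone : (1 : F₁ × F₁) ∈ 𝔇.red (riemannRochSpace (m • p.E)) :=
    ⟨1, by simpa using one_mem_rr hE0, map_one _⟩
  have htm : (p.tb ^ m, p.tb ^ m) ∈ 𝔇.red (riemannRochSpace (m • p.E)) :=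
    ⟨p.t ^ m, by push_cast; exact pow_mem_rr p.t_mem m, by
      rw [map_pow, p.res_t]; rfl⟩
  have key : ∀ (Λ : Submodule k F₁) (D : Divisor k F₁), IsPoleDiv Λ D → (1 : F₁) ∈ Λ →
      p.tb ^ m ∈ Λ → m • p.Eb ≤ D := by
    intro Λ D hD h1 ht
    have hD0 := hD.zero_le_of_one_mem h1
    rw [Finsupp.le_def]
    intro v
    have h2 := (mem_rr_of_ne (pow_ne_zero m p.tb_ne)).mp (hD.le ht) v
    have h3 := Finsupp.le_def.mp hD0 v
    rw [Finsupp.zero_apply] at h3
    rw [Finsupp.smul_apply, nsmul_eq_mul, p.hEb v]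
    rw [ord_pow] at h2
    rcases le_total 0 (-(v.ord p.tb)) with h4 | h4
    · rw [max_eq_right h4]; linarith
    · rw [max_eq_left h4, mul_zero]; exact h3
  have hne1 : (𝔇.red (riemannRochSpace (m • p.E))).map (LinearMap.fst k F₁ F₁) ≠ ⊥ := by
    intro h
    have h1 : (1 : F₁) ∈ (𝔇.red (riemannRochSpace (m • p.E))).map (LinearMap.fst k F₁ F₁) :=
      ⟨1, hone, rfl⟩
    rw [h] at h1
    exact one_ne_zero ((Submodule.mem_bot k).mp h1)
  have hne2 : (𝔇.red (riemannRochSpace (m • p.E))).map (LinearMap.snd k F₁ F₁) ≠ ⊥ := by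
    intro h
    have h1 : (1 : F₁) ∈ (𝔇.red (riemannRochSpace (m • p.E))).map (LinearMap.snd k F₁ F₁) :=
      ⟨1, hone, rfl⟩
    rw [h] at h1
    exact one_ne_zero ((Submodule.mem_bot k).mp h1)
  obtain ⟨D₁, hD₁⟩ := IsPoleDiv.exists_isPoleDiv _ hne1
  obtain ⟨D₂, hD₂⟩ := IsPoleDiv.exists_isPoleDiv _ hne2
  have hle := 𝔇.degree_le₂ hRR hE0 hD₁ hD₂
  have h1 := key _ D₁ hD₁ ⟨1, hone, rfl⟩ ⟨_, htm, rfl⟩
  have h2 := key _ D₂ hD₂ ⟨1, hone, rfl⟩ ⟨_, htm, rfl⟩
  have hd1 := degree_mono h1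
  have hd2 := degree_mono h2
  have hdE : Divisor.degree (m • p.E) = 2 * Divisor.degree (m • p.Eb) := by
    rw [map_nsmul, map_nsmul, p.deg_eq, nsmul_eq_mul, nsmul_eq_mul]
    ring
  have e1 := eq_of_le_of_degree_le h1 (by omega)
  have e2 := eq_of_le_of_degree_le h2 (by omega)
  intro q hq
  refine ⟨?_, ?_⟩
  · rw [SetLike.mem_coe, e1]
    exact hD₁.le ⟨q, hq, rfl⟩
  · rw [SetLike.mem_coe, e2]
    exact hD₂.le ⟨q, hq, rfl⟩

/-- reduction of `L(mE + D)` for a normalised torsion divisor `D` -/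
theorem red_add_le {n : ℕ} (hn : n ≠ 0) (τ : Tors 𝔇 n) (m : ℕ) :
    𝔇.red (riemannRochSpace (m • p.E + τ.D)) ≤
      (riemannRochSpace (m • p.Eb)).prod (riemannRochSpace (m • p.Eb)) := by
  rintro _ ⟨u, hu, rfl⟩
  have h1 : 𝔇.res (u ^ n * τ.f) ∈ 𝔇.red (riemannRochSpace ((n * m) • p.E)) := by
    refine ⟨u ^ n * τ.f, ?_, rfl⟩
    push_cast
    rw [mul_smul]
    exact τ.pow_mul_mem hu
  have h2 := p.red_le hRR _ h1
  rw [map_mul, τ.res_f, mul_one, map_pow, mul_smul] at h2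
  exact ⟨pow_mem_rr_iff hn h2.1, pow_mem_rr_iff hn h2.2⟩

end Pencil

end Fermat.Agent.BadRed
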