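import Fermat.Agent.BadRed.Pencil

/-!
# The affine ring of a pencil and the structure of the special fibre
-/

set_option autoImplicit false

noncomputable section

open AlgebraicCurve Module IntermediateField

namespace Fermat.Agent.BadRed

open Fermat.Agent.FunField Fermat.Agent.FunField.PlaceLemmas Fermat.Agent.Deuring

variable {L k F F₁ : Type*} [Field L] [Field k] [Field F] [Field F₁] [Algebra L F] [Algebra k F₁]
  {𝔇 : RData L k F (F₁ × F₁)}

namespace Pencil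

variable (p : Pencil 𝔇)

theorem Eb_mono {m m' : ℕ} (h : m ≤ m') : m • p.Eb ≤ m' • p.Eb :=
  nsmul_le_nsmul_left p.Eb_nonneg h

theorem E_mono {m m' : ℕ} (h : m ≤ m') : m • p.E ≤ m' • p.E :=
  nsmul_le_nsmul_left p.E_nonneg h

/-- the ring of functions on the affine part of the (normalised) special fibre -/
def OO : Subalgebra k F₁ where
  carrier := {a | ∃ m : ℕ, a ∈ riemannRochSpace (m • p.Eb)}
  mul_mem' := by
    rintro a b ⟨m, ha⟩ ⟨m', hb⟩
    exact ⟨m + m', by rw [add_smul]; exact mul_mem_rr ha hb⟩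
  add_mem' := by
    rintro a b ⟨m, ha⟩ ⟨m', hb⟩
    exact ⟨max m m', Submodule.add_mem _ (rr_mono (p.Eb_mono (le_max_left _ _)) ha)
      (rr_mono (p.Eb_mono (le_max_right _ _)) hb)⟩
  algebraMap_mem' := by
    intro c
    refine ⟨0, ?_⟩
    rw [Algebra.algebraMap_eq_smul_one]
    exact Submodule.smul_mem _ _ (one_mem_rr (by rw [zero_smul]))

theorem mem_OO {a : F₁} : a ∈ p.OO ↔ ∃ m : ℕ, a ∈ riemannRochSpace (m • p.Eb) := Iff.rfl

/-- filtration of the affine ring -/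
def P (m : ℕ) : Submodule k p.OO := (riemannRochSpace (m • p.Eb)).comap p.OO.val.toLinearMap

theorem mem_P {m : ℕ} {a : p.OO} : a ∈ p.P m ↔ (a : F₁) ∈ riemannRochSpace (m • p.Eb) := Iff.rfl

theorem P_mono : Monotone p.P := fun _ _ h _ ha => rr_mono (p.Eb_mono h) ha

theorem exists_mem_P (a : p.OO) : ∃ m, a ∈ p.P m := a.2

/-- the inclusion of pairs -/
def ii : p.OO × p.OO →ₗ[k] F₁ × F₁ := LinearMap.prodMap p.OO.val.toLinearMap p.OO.val.toLinearMap

@[simp] theorem ii_apply (q : p.OO × p.OO) : p.ii q = ((q.1 : F₁), (q.2 : F₁)) := rfl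

theorem ii_injective : Function.Injective p.ii := by
  intro a b h
  exact Prod.ext (Subtype.ext (congrArg Prod.fst h)) (Subtype.ext (congrArg Prod.snd h))

/-- reduction of `L(mE + D)` -/
def T {n : ℕ} (τ : Tors 𝔇 n) (m : ℕ) : Submodule k (p.OO × p.OO) :=
  (𝔇.red (riemannRochSpace (m • p.E + τ.D))).comap p.ii

theorem mem_T {n : ℕ} {τ : Tors 𝔇 n} {m : ℕ} {q : p.OO × p.OO} :
    q ∈ p.T τ m ↔ ((q.1 : F₁), (q.2 : F₁)) ∈ 𝔇.red (riemannRochSpace (m • p.E + τ.D)) := Iff.rfl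

theorem T_mono {n : ℕ} (τ : Tors 𝔇 n) : Monotone (p.T τ) := fun m m' h _ ha =>
  𝔇.red_mono (rr_mono (add_le_add_left (p.E_mono h) _)) ha

theorem T_mul {n : ℕ} {τ τ' τ'' : Tors 𝔇 n} (h : τ''.D = τ.D + τ'.D) {m m' : ℕ}
    {q q' : p.OO × p.OO} (hq : q ∈ p.T τ m) (hq' : q' ∈ p.T τ' m') : q * q' ∈ p.T τ'' (m + m') := by
  obtain ⟨u, hu, hur⟩ := hq
  obtain ⟨u', hu', hur'⟩ := hq'
  refine ⟨u * u', ?_, ?_⟩
  · have := mul_mem_rr hu hu'
    rw [h, add_smul]
    have e : m • p.E + m' • p.E + (τ.D + τ'.D) = m • p.E + τ.D + (m' • p.E + τ'.D) := by abel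
    rw [e]
    push_cast
    exact this
  · rw [map_mul, hur, hur']
    rfl

/-- the reduction of the integral closure of `A[t]` -/
def S : Subalgebra k (p.OO × p.OO) where
  carrier := {q | ∃ m : ℕ, q ∈ p.T (Tors.zero 𝔇 1) m}
  mul_mem' := by
    rintro a b ⟨m, ha⟩ ⟨m', hb⟩
    exact ⟨m + m', p.T_mul (by simp [Tors.zero]) ha hb⟩
  add_mem' := by
    rintro a b ⟨m, ha⟩ ⟨m', hb⟩
    exact ⟨max m m', Submodule.add_mem _ (p.T_mono _ (le_max_left _ _) ha)
      (p.T_mono _ (le_max_right _ _) hb)⟩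
  algebraMap_mem' := by
    intro c
    refine ⟨0, ?_⟩
    rw [Algebra.algebraMap_eq_smul_one]
    refine Submodule.smul_mem _ _ ?_
    refine ⟨1, ?_, by rw [map_one]; rfl⟩
    simp only [zero_smul, Tors.zero, add_zero]
    exact one_mem_rr le_rfl

theorem mem_S {q : p.OO × p.OO} : q ∈ p.S ↔ ∃ m : ℕ, q ∈ p.T (Tors.zero 𝔇 1) m := Iff.rfl

theorem T_zero_iff {m : ℕ} {q : p.OO × p.OO} : q ∈ p.T (Tors.zero 𝔇 1) m ↔
    ((q.1 : F₁), (q.2 : F₁)) ∈ 𝔇.red (riemannRochSpace (m • p.E)) := by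
  rw [mem_T]
  simp only [Tors.zero, add_zero]

variable [IsFF L F] [IsFF k F₁] [HasPrincipalDivisors L F] [HasPrincipalDivisors k F₁]
  [IsAlgClosed k] {g g₁ : ℤ}

theorem finiteDimensional_P (hRR₁ : RRLarge k F₁ g₁) (m : ℕ) : FiniteDimensional k (p.P m) := by
  have := finiteDimensional_rr hRR₁ (m • p.Eb)
  have h1 : (p.P m).map p.OO.val.toLinearMap ≤ riemannRochSpace (m • p.Eb) :=
    Submodule.map_comap_le _ _
  have h2 := Submodule.finiteDimensional_of_le h1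
  exact Module.Finite.equiv
    (Submodule.equivMapOfInjective p.OO.val.toLinearMap Subtype.val_injective (p.P m)).symm

theorem finrank_P (m : ℕ) : finrank k (p.P m) = finrank k (riemannRochSpace (m • p.Eb)) := by
  have h : (p.P m).map p.OO.val.toLinearMap = riemannRochSpace (m • p.Eb) := by
    rw [P, Submodule.map_comap_eq, inf_eq_right.mpr]
    intro a ha
    exact ⟨⟨a, m, ha⟩, rfl⟩
  rw [← finrank_map_inj p.OO.val.toLinearMap Subtype.val_injective (p.P m), h]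

theorem T_le (hRR : RRLarge L F g) {n : ℕ} (hn : n ≠ 0) (τ : Tors 𝔇 n) (m : ℕ) :
    p.T τ m ≤ (p.P m).prod (p.P m) := by
  intro q hq
  exact p.red_add_le hRR hn τ m hq

theorem finrank_T (hRR : RRLarge L F g) {n : ℕ} (hn : n ≠ 0) (τ : Tors 𝔇 n) (m : ℕ) :
    finrank k (p.T τ m) = finrank L (riemannRochSpace (m • p.E + τ.D)) := by
  have hfd := finiteDimensional_rr hRR (m • p.E + τ.D)
  have h1 : (p.T τ m).map p.ii = 𝔇.red (riemannRochSpace (m • p.E + τ.D)) := by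
    rw [T, Submodule.map_comap_eq, inf_eq_right.mpr]
    intro a ha
    have h := p.red_add_le hRR hn τ m ha
    exact ⟨(⟨a.1, m, h.1⟩, ⟨a.2, m, h.2⟩), rfl⟩
  rw [← 𝔇.finrank_red, ← finrank_map_inj p.ii p.ii_injective (p.T τ m), h1]

theorem exists_finrank_P (hRR₁ : RRLarge k F₁ g₁) (hpos : 0 < Divisor.degree p.Eb) :
    ∃ m₀ : ℕ, ∀ m, m₀ ≤ m → (finrank k (p.P m) : ℤ) = m * Divisor.degree p.Eb + (1 - g₁) := by
  obtain ⟨c, hc⟩ := hRR₁
  refine ⟨c.toNat, fun m hm => ?_⟩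
  have h1 : c ≤ m := (Int.self_le_toNat c).trans (by exact_mod_cast hm)
  have h2 : c ≤ Divisor.degree (m • p.Eb) := by
    rw [map_nsmul, nsmul_eq_mul]
    nlinarith [Int.natCast_nonneg m]
  rw [p.finrank_P, (hc _ h2).2, map_nsmul, nsmul_eq_mul]
  ring

theorem exists_finrank_T (hRR : RRLarge L F g) (hpos : 0 < Divisor.degree p.Eb) {n : ℕ}
    (hn : n ≠ 0) (τ : Tors 𝔇 n) :
    ∃ m₀ : ℕ, ∀ m, m₀ ≤ m →
      (finrank k (p.T τ m) : ℤ) = m * (2 * Divisor.degree p.Eb) + (1 - g) := by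
  have hRR' := hRR
  obtain ⟨c, hc⟩ := hRR'
  refine ⟨c.toNat, fun m hm => ?_⟩
  have h1 : c ≤ m := (Int.self_le_toNat c).trans (by exact_mod_cast hm)
  have h2 : c ≤ Divisor.degree (m • p.E + τ.D) := by
    rw [map_add, τ.degree_eq_zero hn, add_zero, map_nsmul, nsmul_eq_mul, p.deg_eq]
    nlinarith [Int.natCast_nonneg m]
  rw [p.finrank_T hRR hn, (hc _ h2).2, map_add, τ.degree_eq_zero hn, add_zero, map_nsmul,
    nsmul_eq_mul, p.deg_eq]
  ring

end Pencil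

end Fermat.Agent.BadRed
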