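import Fermat.Agent.BadRed.FrobPencil
import Fermat.Agent.BadRed.Newton

/-!
# Torsion classes with trivial gluing data are principal
-/

set_option autoImplicit false

noncomputable section

open AlgebraicCurve Module IntermediateField

namespace Fermat.Agent.BadRed

open Fermat.Agent.FunField Fermat.Agent.FunField.PlaceLemmas Fermat.Agent.Deuring

section Units

variable {L k F R : Type*} [Field L] [Field k] [Field F] [CommRing R] [Algebra L F] [Algebra k R]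
  [Nontrivial R] (𝔇 : RData L k F R)

/-- elements with invertible reduction are units -/
theorem RData.isUnit_of_res {f : 𝔇.O} (hf : IsUnit (𝔇.res f)) : ∃ f' : 𝔇.O, (f : F) * f' = 1 := by
  have hf0 : (f : F) ≠ 0 := by
    intro h
    have : f = 0 := Subtype.ext h
    rw [this, map_zero] at hf
    exact not_isUnit_zero hf
  obtain ⟨c, hc0, hcO, hres⟩ := 𝔇.exists_smul_res_ne_zero (inv_ne_zero hf0)
  have hprod : f * ⟨c • (f : F)⁻¹, hcO⟩ = (⟨algebraMap L F c, by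
      have := 𝔇.O.mul_mem f.2 hcO
      rwa [mul_smul_comm, mul_inv_cancel₀ hf0, ← Algebra.algebraMap_eq_smul_one] at this⟩ : 𝔇.O) := by
    apply Subtype.ext
    push_cast
    rw [mul_smul_comm, mul_inv_cancel₀ hf0, ← Algebra.algebraMap_eq_smul_one]
  have hcA : c ∈ 𝔇.A := by
    rw [← 𝔇.mem_iff]
    have := 𝔇.O.mul_mem f.2 hcO
    rwa [mul_smul_comm, mul_inv_cancel₀ hf0, ← Algebra.algebraMap_eq_smul_one] at this
  have hne : 𝔇.res (𝔇.cst ⟨c, hcA⟩) ≠ 0 := by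
    have h1 : 𝔇.cst ⟨c, hcA⟩ = f * ⟨c • (f : F)⁻¹, hcO⟩ := by
      rw [hprod]; rfl
    rw [h1, map_mul]
    intro h
    apply hres
    exact (hf.mul_right_eq_zero).mp h
  have hu : IsUnit (⟨c, hcA⟩ : 𝔇.A) := by
    by_contra h
    apply hne
    rw [𝔇.res_cst, (𝔇.π_ker _).mpr h, map_zero]
  obtain ⟨d, hd⟩ := hu.exists_right_inv
  have hd' : c * (d : L) = 1 := congrArg Subtype.val hd
  refine ⟨𝔇.cst d * ⟨c • (f : F)⁻¹, hcO⟩, ?_⟩
  push_cast
  rw [𝔇.coe_cst, Algebra.smul_def]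
  have h2 : (f : F) * (algebraMap L F (d : L) * (algebraMap L F c * (f : F)⁻¹))
      = algebraMap L F (c * d) * ((f : F) * (f : F)⁻¹) := by rw [map_mul]; ring
  rw [h2, hd', map_one, mul_inv_cancel₀ hf0, one_mul]

end Units

variable {L k F F₁ : Type*} [Field L] [Field k] [Field F] [Field F₁] [Algebra L F] [Algebra k F₁]
variable {𝔇 : RData L k F (F₁ × F₁)}

namespace Pencil

variable (p : Pencil 𝔇) [HasPrincipalDivisors L F]

/-- the divisor of `t` -/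
def dt : Divisor L F := dv (K := L) (p.t : F) p.t_ne

theorem dt_apply (v : Place L F) : p.dt v = v.ord (p.t : F) := dv_apply _ v

/-- zeros of `t` -/
def Es : Divisor L F := p.E + p.dt

theorem Es_apply (v : Place L F) : p.Es v = max 0 (v.ord (p.t : F)) := by
  rw [Es, Finsupp.add_apply, p.hE, p.dt_apply]
  omega

theorem Es_nonneg : 0 ≤ p.Es := by
  rw [Finsupp.le_def]
  intro v
  rw [p.Es_apply v]
  exact le_max_left _ _

/-- the divisor `aE + bE*` -/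
def G (a b : ℕ) : Divisor L F := a • p.E + b • p.Es

theorem G_mono {a a' b b' : ℕ} (h : a ≤ a') (h' : b ≤ b') : p.G a b ≤ p.G a' b' :=
  add_le_add (nsmul_le_nsmul_left p.E_nonneg h) (nsmul_le_nsmul_left p.Es_nonneg h')

theorem G_add (a a' b b' : ℕ) : p.G a b + p.G a' b' = p.G (a + a') (b + b') := by
  simp only [G, add_smul]; abel

theorem G_smul (n a b : ℕ) : n • p.G a b = p.G (n * a) (n * b) := by
  simp only [G, smul_add, mul_smul]

theorem G_nonneg (a b : ℕ) : 0 ≤ p.G a b :=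
  add_nonneg (nsmul_nonneg p.E_nonneg _) (nsmul_nonneg p.Es_nonneg _)

/-- translation to the first chart -/
theorem mem_G_iff (a b : ℕ) (D : Divisor L F) (u : F) :
    u ∈ riemannRochSpace (p.G a b + D) ↔
      (p.t : F) ^ b * u ∈ riemannRochSpace ((a + b) • p.E + D) := by
  rw [mul_mem_rr_iff (pow_ne_zero b p.t_ne) (G := b • p.dt) (fun v => by
    rw [Finsupp.smul_apply, nsmul_eq_mul, p.dt_apply, ord_pow])]
  have : p.G a b + D = (a + b) • p.E + D + b • p.dt := by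
    simp only [G, Es, smul_add, add_smul]; abel
  rw [this]

theorem mem_red_G_iff (a b : ℕ) (D : Divisor L F) (q : F₁ × F₁) :
    q ∈ 𝔇.red (riemannRochSpace (p.G a b + D)) ↔
      (p.tb, p.tb) ^ b * q ∈ 𝔇.red (riemannRochSpace ((a + b) • p.E + D)) := by
  constructor
  · rintro ⟨u, hu, rfl⟩
    refine ⟨p.t ^ b * u, ?_, ?_⟩
    · push_cast
      exact (p.mem_G_iff a b D _).mp hu
    · rw [map_mul, map_pow, p.res_t]
  · rintro ⟨u, hu, hur⟩
    obtain ⟨t', ht'⟩ := 𝔇.isUnit_of_res (f := p.t) (by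
      rw [p.res_t]
      exact Prod.isUnit_iff.mpr ⟨isUnit_iff_ne_zero.mpr p.tb_ne, isUnit_iff_ne_zero.mpr p.tb_ne⟩)
    have ht1 : p.t * t' = 1 := Subtype.ext ht'
    refine ⟨t' ^ b * u, ?_, ?_⟩
    · rw [p.mem_G_iff]
      have : (p.t : F) ^ b * ((t' ^ b * u : 𝔇.O) : F) = ((p.t : F) * t') ^ b * u := by
        push_cast; ring
      rw [this, ht', one_pow, one_mul]
      exact hu
    · rw [map_mul, hur, map_pow, ← p.res_t, ← mul_assoc, ← map_pow, ← map_pow, ← map_mul,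
        ← mul_pow, mul_comm t', ht1, one_pow, map_one, one_mul]

end Pencil

namespace FrobPencil

variable (p : FrobPencil 𝔇)

theorem t_mem_S : (p.tO, p.tO) ∈ p.S :=
  ⟨1, p.T_zero_iff.mpr ⟨p.t, by rw [one_smul]; exact p.t_mem, p.res_t⟩⟩

/-- the numerical form of the gluing condition with trivial gluing -/
def Good (a b : ℕ) (q : F₁ × F₁) : Prop :=
  ∃ q' ∈ Subalgebra.toSubmodule p.S ⊓ (p.P (a + b)).prod (p.P (a + b)),
    p.ii q' = (p.tb, p.tb) ^ b * q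

theorem Good.of_le {a b a' b' : ℕ} {q : F₁ × F₁}
    (h : p.Good a b q) (h' : p.Good a' b' q) : p.Good a' b q := by
  obtain ⟨q', ⟨hS, h1, h2⟩, hq'⟩ := h
  obtain ⟨q'', ⟨-, h3, h4⟩, hq''⟩ := h'
  have key : ∀ x : F₁, p.tb ^ b * x ∈ riemannRochSpace ((a + b) • p.Eb) →
      p.tb ^ b' * x ∈ riemannRochSpace ((a' + b') • p.Eb) →
      p.tb ^ b * x ∈ riemannRochSpace ((a' + b) • p.Eb) := by
    intro x hx hx'
    rcases eq_or_ne x 0 with rfl | h0
    · rw [mul_zero]; exact Submodule.zero_mem _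
    have e1 := pow_ne_zero b p.tb_ne
    have e2 := pow_ne_zero b' p.tb_ne
    rw [mem_rr_of_ne (mul_ne_zero e1 h0)] at hx ⊢
    rw [mem_rr_of_ne (mul_ne_zero e2 h0)] at hx'
    intro v
    have h5 := hx v
    have h6 := hx' v
    rw [v.ord_mul e1 h0, ord_pow] at h5 ⊢
    rw [v.ord_mul e2 h0, ord_pow] at h6
    simp only [Finsupp.smul_apply, nsmul_eq_mul, p.hEb v] at h5 h6 ⊢
    push_cast at h5 h6 ⊢
    rcases le_total 0 (-(v.ord p.tb)) with h7 | h7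
    · rw [max_eq_right h7] at h5 h6 ⊢
      linarith
    · rw [max_eq_left h7] at h5 h6 ⊢
      linarith
  have e1 : (q'.1 : F₁) = p.tb ^ b * q.1 := congrArg Prod.fst hq'
  have e2 : (q'.2 : F₁) = p.tb ^ b * q.2 := congrArg Prod.snd hq'
  have e3 : (q''.1 : F₁) = p.tb ^ b' * q.1 := congrArg Prod.fst hq''
  have e4 : (q''.2 : F₁) = p.tb ^ b' * q.2 := congrArg Prod.snd hq''
  refine ⟨q', ⟨hS, ?_, ?_⟩, hq'⟩
  · rw [SetLike.mem_coe, p.mem_P] at h1 h3 ⊢
    rw [e1] at h1 ⊢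
    rw [e3] at h3
    exact key _ h1 h3
  · rw [SetLike.mem_coe, p.mem_P] at h2 h4 ⊢
    rw [e2] at h2 ⊢
    rw [e4] at h4
    exact key _ h2 h4

/-- the family with trivial gluing -/
def TrivGlue {n : ℕ} (τ : Tors 𝔇 n) (m₁ : ℕ) : Prop :=
  ∀ m, m₁ ≤ m → p.T τ m = Subalgebra.toSubmodule p.S ⊓ (p.P m).prod (p.P m)

variable [IsFF L F] [IsFF k F₁] [HasPrincipalDivisors L F] [HasPrincipalDivisors k F₁]
  [IsAlgClosed k] {g g₁ : ℤ} (hRR : RRLarge L F g) (hRR₁ : RRLarge k F₁ g₁)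
  (hpos : 0 < Divisor.degree p.Eb)

include hRR in
theorem TrivGlue.mem_red_iff {n : ℕ} {τ : Tors 𝔇 n} {m₁ : ℕ} (h : p.TrivGlue τ m₁)
    (hn : n ≠ 0) {a b : ℕ} (hab : m₁ ≤ a + b) (q : F₁ × F₁) :
    q ∈ 𝔇.red (riemannRochSpace (p.G a b + τ.D)) ↔ p.Good a b q := by
  rw [p.mem_red_G_iff, Good, ← h _ hab]
  constructor
  · intro hq
    have h1 := p.red_add_le hRR hn τ _ hq
    exact ⟨(⟨_, _, h1.1⟩, ⟨_, _, h1.2⟩), hq, rfl⟩
  · rintro ⟨q', hq', hqq⟩
    rw [← hqq]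
    exact hq'

include hRR in
/-- the reductions in the family are distributive -/
theorem red_inf_le {n : ℕ} {τ : Tors 𝔇 n} {m₁ : ℕ} (h : p.TrivGlue τ m₁)
    (hn : n ≠ 0) {a b a' b' : ℕ} (hb : b ≤ b') (ha : a' ≤ a) (hab : m₁ ≤ a' + b) :
    𝔇.red (riemannRochSpace (p.G a b + τ.D)) ⊓ 𝔇.red (riemannRochSpace (p.G a' b' + τ.D)) ≤
      𝔇.red (riemannRochSpace (p.G a b + τ.D) ⊓ riemannRochSpace (p.G a' b' + τ.D)) := by
  intro q hq
  have h1 := (h.mem_red_iff p hRR hn (by omega) q).mp hq.1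
  have h2 := (h.mem_red_iff p hRR hn (by omega) q).mp hq.2
  have h3 := (h.mem_red_iff p hRR hn hab q).mpr (h1.of_le p h2)
  refine 𝔇.red_mono (le_inf (rr_mono ?_) (rr_mono ?_)) h3
  · exact add_le_add_left (p.G_mono ha le_rfl) _
  · exact add_le_add_left (p.G_mono le_rfl hb) _

include hRR in
theorem interProp {n : ℕ} {τ : Tors 𝔇 n} {m₁ : ℕ} (h : p.TrivGlue τ m₁)
    (hn : n ≠ 0) {a b a' b' : ℕ} (hb : b ≤ b') (ha : a' ≤ a) (hab : m₁ ≤ a' + b)
    {ε : L} (hε0 : ε ≠ 0) (hε : ε ∈ 𝔇.A) :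
    InterProp 𝔇.O ε (riemannRochSpace (p.G a b + τ.D)) (riemannRochSpace (p.G a' b' + τ.D))
      (riemannRochSpace (p.G a' b + τ.D)) ∧
    InterProp 𝔇.O ε (riemannRochSpace (p.G a' b' + τ.D)) (riemannRochSpace (p.G a b + τ.D))
      (riemannRochSpace (p.G a' b + τ.D)) := by
  have hfd1 := finiteDimensional_rr hRR (p.G a b + τ.D)
  have hfd2 := finiteDimensional_rr hRR (p.G a' b' + τ.D)
  have h1 := 𝔇.exists_add_of_red_inf_le _ _ (p.red_inf_le hRR h hn hb ha hab)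
  have h2 := 𝔇.exists_add_of_red_inf_le (riemannRochSpace (p.G a' b' + τ.D))
    (riemannRochSpace (p.G a b + τ.D)) (by
      have := p.red_inf_le hRR h hn hb ha hab
      rwa [inf_comm, inf_comm (riemannRochSpace (p.G a b + τ.D))] at this)
  have hle : riemannRochSpace (p.G a b + τ.D) ⊓ riemannRochSpace (p.G a' b' + τ.D) ≤
      riemannRochSpace (p.G a' b + τ.D) := by
    rintro u ⟨hu, hu'⟩
    rcases eq_or_ne u 0 with rfl | h0
    · exact Submodule.zero_mem _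
    rw [SetLike.mem_coe, mem_rr_of_ne h0] at hu hu'
    rw [mem_rr_of_ne h0]
    intro v
    have e1 := hu v
    have e2 := hu' v
    simp only [Pencil.G, Finsupp.add_apply, Finsupp.smul_apply, nsmul_eq_mul, p.Es_apply,
      p.hE] at e1 e2 ⊢
    rcases le_total 0 (-(v.ord (p.t : F))) with h7 | h7
    · rw [max_eq_right h7, max_eq_left (by omega)] at e1 e2 ⊢
      linarith
    · rw [max_eq_left h7, max_eq_right (by omega)] at e1 e2 ⊢
      linarith
  refine ⟨interProp_of_surj hle h1 hε0 ((𝔇.mem_iff _).mpr hε),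
    interProp_of_surj (by rw [inf_comm]; exact hle) h2 hε0 ((𝔇.mem_iff _).mpr hε)⟩

omit [IsFF L F] [IsFF k F₁] [HasPrincipalDivisors L F] [HasPrincipalDivisors k F₁]
  [IsAlgClosed k] in
/-- an element with zero reduction is divisible by a nonzero constant with zero reduction -/
theorem _root_.Fermat.Agent.BadRed.RData.exists_divBy (𝔇 : RData L k F (F₁ × F₁))
    (hnt : ∃ ε : 𝔇.A, (ε : L) ≠ 0 ∧ 𝔇.π ε = 0) (x : 𝔇.O) (hx : 𝔇.res x = 0) :
    ∃ ε : 𝔇.A, (ε : L) ≠ 0 ∧ 𝔇.π ε = 0 ∧ DivBy 𝔇.O (ε : L) (x : F) := by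
  rcases eq_or_ne (x : F) 0 with h0 | h0
  · obtain ⟨ε, h1, h2⟩ := hnt
    exact ⟨ε, h1, h2, 0, 𝔇.O.zero_mem, by rw [h0, mul_zero]⟩
  · obtain ⟨ε, h1, h2, y, hy⟩ := 𝔇.exists_dvd_of_res_eq_zero hx h0
    refine ⟨ε, h1, h2, y, y.2, ?_⟩
    have := congrArg Subtype.val hy
    simpa using this

omit [IsFF L F] [IsFF k F₁] [HasPrincipalDivisors L F] [HasPrincipalDivisors k F₁]
  [IsAlgClosed k] in
theorem _root_.Fermat.Agent.BadRed.RData.exists_divBy₃ (𝔇 : RData L k F (F₁ × F₁))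
    (hnt : ∃ ε : 𝔇.A, (ε : L) ≠ 0 ∧ 𝔇.π ε = 0) (x : Fin 3 → 𝔇.O) (hx : ∀ i, 𝔇.res (x i) = 0) :
    ∃ ε : 𝔇.A, (ε : L) ≠ 0 ∧ 𝔇.π ε = 0 ∧ ∀ i, DivBy 𝔇.O (ε : L) (x i : F) := by
  choose ε h1 h2 h3 using fun i => 𝔇.exists_divBy hnt (x i) (hx i)
  obtain ⟨j, hj0, hj⟩ := 𝔇.exists_scale (fun i => (ε i : L)) (by
    intro h
    exact h1 0 (congrFun h 0))
  refine ⟨ε j, h1 j, h2 j, fun i => ?_⟩
  obtain ⟨y, hy, hxy⟩ := h3 i
  refine ⟨algebraMap L F ((ε i : L) / (ε j : L)) * y,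
    𝔇.O.mul_mem ((𝔇.mem_iff _).mpr (hj i)) hy, ?_⟩
  rw [hxy, ← mul_assoc, ← map_mul, mul_div_cancel₀ _ (h1 j)]

include hRR in
/-- **Torsion classes with trivial gluing are principal.** -/
theorem principal [IsAlgClosed L] {n : ℕ} (hn : n ≠ 0) (hnk : (n : k) ≠ 0) {τ : Tors 𝔇 n}
    {m₁ m₀ : ℕ} (hτ : p.TrivGlue τ m₁) (hz : p.TrivGlue (Tors.zero 𝔇 1) m₀)
    (hnt : ∃ ε : 𝔇.A, (ε : L) ≠ 0 ∧ 𝔇.π ε = 0)
    (harch : ∀ ε : 𝔇.A, (ε : L) ≠ 0 → 𝔇.π ε = 0 → ∀ a : L, a ≠ 0 →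
      ∃ m : ℕ, a * ((ε : L) ^ m)⁻¹ ∉ 𝔇.A) :
    ∃ w : F, w ≠ 0 ∧ ∀ v : Place L F, τ.D v = -(v.ord w) := by
  classical
  obtain ⟨M, hM⟩ : ∃ M, M = max m₁ m₀ := ⟨_, rfl⟩
  have hM1 : m₁ ≤ M := by rw [hM]; exact le_max_left _ _
  have hM0 : m₀ ≤ M := by rw [hM]; exact le_max_right _ _
  have hn1 : 1 ≤ n := Nat.one_le_iff_ne_zero.mpr hn
  have hMn : M ≤ n * M := Nat.le_mul_of_pos_left M hn1
  -- constants
  have hnAmem : (n : L) ∈ 𝔇.A := natCast_mem 𝔇.A n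
  have hnu : IsUnit (⟨(n : L), hnAmem⟩ : 𝔇.A) := by
    by_contra h
    have h1 := (𝔇.π_ker _).mpr h
    have h2 : (⟨(n : L), hnAmem⟩ : 𝔇.A) = (n : 𝔇.A) := Subtype.ext (by simp)
    rw [h2, map_natCast] at h1
    exact hnk h1
  obtain ⟨n', hn'⟩ := hnu.exists_right_inv
  have hn'' : (n : L) * (n' : L) = 1 := congrArg Subtype.val hn'
  have hnL : (n : L) ≠ 0 := left_ne_zero_of_mul_eq_one hn''
  have hnA : ((n : L)⁻¹) ∈ 𝔇.A := by
    have : (n : L)⁻¹ = (n' : L) := by field_simp; exact hn''.symm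
    rw [this]; exact n'.2
  have hAB : ∀ a ∈ 𝔇.A, algebraMap L F a ∈ 𝔇.O := fun a ha => (𝔇.mem_iff a).mpr ha
  -- the initial approximations
  have hS1 : ((1 : p.OO), (1 : p.OO)) ∈ p.S := p.S.one_mem
  have hP1 : ∀ m, (1 : p.OO) ∈ p.P m := fun m => one_mem_rr (nsmul_nonneg p.Eb_nonneg m)
  have hg1 : p.Good M 0 1 := by
    refine ⟨((1 : p.OO), (1 : p.OO)), ⟨hS1, hP1 _, hP1 _⟩, ?_⟩
    rw [pow_zero, one_mul]
    rfl
  have hg2 : p.Good 0 M 1 := by
    refine ⟨(p.tO, p.tO) ^ M, ⟨p.S.pow_mem p.t_mem_S M, ?_, ?_⟩, ?_⟩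
    · show p.tO ^ M ∈ p.P (0 + M)
      rw [zero_add, p.mem_P]
      exact pow_mem_rr p.tb_mem M
    · show p.tO ^ M ∈ p.P (0 + M)
      rw [zero_add, p.mem_P]
      exact pow_mem_rr p.tb_mem M
    · rw [mul_one]
      rfl
  obtain ⟨u, hu, hur⟩ := (hτ.mem_red_iff p hRR hn (by omega) 1).mpr hg1
  obtain ⟨u', hu', hur'⟩ := (hτ.mem_red_iff p hRR hn (by omega) 1).mpr hg2
  obtain ⟨ε, hε0, hεπ, hε⟩ := 𝔇.exists_divBy₃ hnt ![u ^ n * τ.f - 1, u' ^ n * τ.f - 1, u - u'] (by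
    intro i
    fin_cases i
    · simp [hur, τ.res_f]
    · simp [hur', τ.res_f]
    · simp [hur, hur'])
  have hε1 := hε 0
  have hε2 := hε 1
  have hε3 := hε 2
  simp only [Matrix.cons_val_zero, Matrix.cons_val_one] at hε1 hε2
  have hε3' : DivBy 𝔇.O (ε : L) ((u : F) - u') := by simpa using hε3
  have hε1' : DivBy 𝔇.O (ε : L) ((u : F) ^ n * τ.f - 1) := by simpa using hε1
  have hε2' : DivBy 𝔇.O (ε : L) ((u' : F) ^ n * τ.f - 1) := by simpa using hε2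
  -- orthonormal bases
  have hfdU := finiteDimensional_rr hRR (p.G M 0 + τ.D)
  have hfdV := finiteDimensional_rr hRR (p.G (n * M) 0 + (Tors.zero 𝔇 1).D)
  obtain ⟨e, heU, heli, hespan, -⟩ := 𝔇.exists_orthonormal (riemannRochSpace (p.G M 0 + τ.D))
  obtain ⟨b, hbV, hbli, hbspan, -⟩ :=
    𝔇.exists_orthonormal (riemannRochSpace (p.G (n * M) 0 + (Tors.zero 𝔇 1).D))
  have hbL := 𝔇.linearIndependent_of_res b hbli
  -- coordinate functionals
  have hφex : ∃ φ : Fin (finrank L (riemannRochSpace (p.G (n * M) 0 + (Tors.zero 𝔇 1).D))) →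
      F →ₗ[L] L, ∀ i j, φ i (b j : F) = if i = j then 1 else 0 := by
    obtain ⟨ψ, hψ⟩ := hbL.repr.exists_extend
    refine ⟨fun i => (Finsupp.lapply i).comp ψ, fun i j => ?_⟩
    have h1 : ψ ((b j : 𝔇.O) : F) = Finsupp.single j 1 := by
      have h2 := LinearMap.congr_fun hψ ⟨((b j : 𝔇.O) : F), Submodule.subset_span ⟨j, rfl⟩⟩
      rw [LinearMap.comp_apply, Submodule.subtype_apply] at h2
      rw [h2]
      exact hbL.repr_eq_single j _ rfl
    rw [LinearMap.comp_apply, h1, Finsupp.lapply_apply, Finsupp.single_apply]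
    simp [eq_comm]
  obtain ⟨φ, hφ⟩ := hφex
  have hφsum : ∀ (c : Fin (finrank L (riemannRochSpace (p.G (n * M) 0 + (Tors.zero 𝔇 1).D))) → L) i,
      φ i (∑ j, c j • (b j : F)) = c i := by
    intro c i
    rw [map_sum]
    simp [hφ]
  have hpm : ∀ (a b' : ℕ) (x : F), x ∈ riemannRochSpace (p.G a b' + τ.D) →
      x ^ n * (τ.f : F) ∈ riemannRochSpace (p.G (n * a) (n * b') + (Tors.zero 𝔇 1).D) := by
    intro a b' x hx
    have := τ.pow_mul_mem hx
    rw [p.G_smul] at this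
    simpa [Tors.zero] using this
  have hz0 : ∀ a b', p.G a b' + (Tors.zero 𝔇 1).D = p.G a b' := fun a b' => by simp [Tors.zero]
  have hpy : ∀ (a b' a' b'' : ℕ) (y x : F), y ∈ riemannRochSpace (p.G a b' + τ.D) →
      x ∈ riemannRochSpace (p.G a' b'' + τ.D) →
      y * x ^ (n - 1) * (τ.f : F) ∈ riemannRochSpace
        (p.G (a + (n - 1) * a') (b' + (n - 1) * b'') + (Tors.zero 𝔇 1).D) := by
    intro a b' a' b'' y x hy hx
    rw [hz0]
    have h1 := pow_mem_rr hx (n - 1)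
    have h2 := mul_mem_rr hy h1
    have h3 : (τ.f : F) ∈ riemannRochSpace (-(n • τ.D)) := by
      rw [mem_rr_of_ne τ.f_ne]
      intro v
      rw [← τ.hD v, Finsupp.neg_apply, neg_neg, Finsupp.smul_apply, nsmul_eq_mul]
    have h4 := mul_mem_rr h2 h3
    have h5 : p.G a b' + τ.D + (n - 1) • (p.G a' b'' + τ.D) + -(n • τ.D)
        = p.G (a + (n - 1) * a') (b' + (n - 1) * b'') := by
      have h6 : n • τ.D = (n - 1) • τ.D + τ.D := by rw [← succ_nsmul, Nat.sub_add_cancel hn1]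
      rw [← p.G_add, ← p.G_smul, smul_add, h6]
      abel
    rwa [h5] at h4
  have hpe : ∀ (a b' a' b'' : ℕ) (y x : F),
      y ∈ riemannRochSpace (p.G a b' + (Tors.zero 𝔇 1).D) →
      x ∈ riemannRochSpace (p.G a' b'' + τ.D) →
      y * x ∈ riemannRochSpace (p.G (a + a') (b' + b'') + τ.D) := by
    intro a b' a' b'' y x hy hx
    rw [hz0] at hy
    have h1 := mul_mem_rr hy hx
    rwa [← add_assoc, p.G_add] at h1
  have hmono : ∀ {a b' a' b'' : ℕ} (D : Divisor L F), a ≤ a' → b' ≤ b'' →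
      riemannRochSpace (p.G a b' + D) ≤ riemannRochSpace (p.G a' b'' + D) := fun D h h' =>
    rr_mono (add_le_add_left (p.G_mono h h') _)
  have hle1 : M + (n - 1) * M ≤ n * M := by
    obtain ⟨l, hl⟩ : ∃ l, n = l + 1 := ⟨n - 1, by omega⟩
    rw [hl, Nat.add_sub_cancel]; nlinarith
  obtain ⟨w, hwU, hw⟩ := theoremK (B := 𝔇.O) 𝔇.A hn hnL hAB hnA
    (U := riemannRochSpace (p.G M 0 + τ.D)) (U' := riemannRochSpace (p.G 0 M + τ.D))
    (V1 := riemannRochSpace (p.G (n * M) 0 + (Tors.zero 𝔇 1).D))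
    (V1' := riemannRochSpace (p.G 0 (n * M) + (Tors.zero 𝔇 1).D))
    (W1 := riemannRochSpace (p.G M (n * M) + (Tors.zero 𝔇 1).D))
    (W1' := riemannRochSpace (p.G (n * M) M + (Tors.zero 𝔇 1).D))
    (E1 := riemannRochSpace (p.G M 0 + (Tors.zero 𝔇 1).D))
    (E1' := riemannRochSpace (p.G 0 M + (Tors.zero 𝔇 1).D))
    (X1 := riemannRochSpace (p.G (2 * M) 0 + τ.D)) (X1' := riemannRochSpace (p.G 0 (2 * M) + τ.D))
    (Y := riemannRochSpace (p.G M M + τ.D)) (f := τ.f) τ.f.2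
    (by rw [hz0]; exact one_mem_rr (p.G_nonneg _ _))
    (by rw [hz0]; exact one_mem_rr (p.G_nonneg _ _))
    (fun x hx => hpm M 0 x hx) (fun x hx => hpm 0 M x hx)
    (hmono _ le_rfl (Nat.zero_le _)) (hmono _ (Nat.zero_le _) le_rfl)
    (hmono _ (Nat.zero_le _) le_rfl) (hmono _ le_rfl (Nat.zero_le _))
    (fun y hy x hx => hmono _ (by simp) hle1 (hpy M M 0 M y x hy hx))
    (fun y hy x hx => hmono _ hle1 (by simp) (hpy M M M 0 y x hy hx))
    (fun y hy x hx => hmono _ (by omega) (by omega) (hpe M 0 M 0 y x hy hx))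
    (fun y hy x hx => hmono _ (by omega) (by omega) (hpe M 0 0 M y x hy hx))
    (fun y hy x hx => hmono _ (by omega) (by omega) (hpe 0 M 0 M y x hy hx))
    (fun y hy x hx => hmono _ (by omega) (by omega) (hpe 0 M M 0 y x hy hx))
    (fun ε hε hε0 => (p.interProp hRR hz one_ne_zero (Nat.zero_le _) hMn (by omega) hε0 hε).1)
    (fun ε hε hε0 => (p.interProp hRR hτ hn (Nat.zero_le _) (by omega) (by omega) hε0 hε).1)
    (fun ε hε hε0 => (p.interProp hRR hz one_ne_zero hMn (Nat.zero_le _) (by omega) hε0 hε).2)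
    (fun ε hε hε0 => (p.interProp hRR hτ hn (by omega) (Nat.zero_le _) (by omega) hε0 hε).2)
    (fun i => ((e i : 𝔇.O) : F)) φ heU
    (by
      intro x hx hxO
      obtain ⟨c, hc⟩ := hespan x hx
      exact ⟨c, 𝔇.coeff_mem e heli c (by rw [← hc]; exact hxO), hc⟩)
    (by
      intro x hx hx0
      obtain ⟨c, hc⟩ := hbspan x hx
      rw [hc]
      refine Finset.sum_eq_zero fun i _ => ?_
      have := hx0 i
      rw [hc, hφsum] at this
      rw [this, zero_smul])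
    (by
      intro x hx hxO j
      obtain ⟨c, hc⟩ := hbspan x hx
      have := 𝔇.coeff_mem b hbli c (by rw [← hc]; exact hxO)
      rw [hc, hφsum]
      exact this j)
    ε.2 hε0 (harch ε hε0 hεπ) hu u.2 hu' u'.2 hε1' hε2' hε3'
  have hw0 : w ≠ 0 := by
    rintro rfl
    rw [zero_pow hn, zero_mul] at hw
    exact zero_ne_one hw
  refine ⟨w, hw0, fun v => ?_⟩
  have h1 := congrArg v.ord hw
  rw [v.ord_mul (pow_ne_zero n hw0) τ.f_ne, ord_pow, v.ord_one, ← τ.hD v] at h1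
  have hn' : (n : ℤ) ≠ 0 := by exact_mod_cast hn
  have h2 : (n : ℤ) * (v.ord w + τ.D v) = 0 := by linarith
  have h3 := (mul_eq_zero.mp h2).resolve_left hn'
  omega

end FrobPencil

end Fermat.Agent.BadRed
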