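import Fermat.Agent.Deuring.Degree

/-!
# Reduction data with several components

`RData L k F R`: a subring `O` of a function field `F/L` (the unit ball for finitely many Gauss
valuations) above a valuation ring `A` of `L`, with a surjective reduction map `O → R` (`R` a
`k`-algebra, e.g. a product of function fields over the residue field `k`), such that every finite
dimensional `L`-subspace of `F` has an orthonormal basis (`lat`).
-/

set_option autoImplicit false

noncomputable section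

open AlgebraicCurve Module

namespace Fermat.Agent.BadRed

variable (L k F R : Type*) [Field L] [Field k] [Field F] [CommRing R] [Algebra L F] [Algebra k R]

/-- Reduction data. -/
structure RData where
  /-- valuation ring of the constants -/
  A : ValuationSubring L
  /-- unit ball of the function field -/
  O : Subring F
  /-- reduction of constants -/
  π : A →+* k
  /-- reduction of functions -/
  res : O →+* R
  mem_iff : ∀ a : L, algebraMap L F a ∈ O ↔ a ∈ A
  π_surj : Function.Surjective π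
  π_ker : ∀ a : A, π a = 0 ↔ ¬ IsUnit a
  res_surj : Function.Surjective res
  res_algebraMap : ∀ a : A,
    res ⟨algebraMap L F (a : L), (mem_iff (a : L)).mpr a.2⟩ = algebraMap k R (π a)
  lat : ∀ V : Submodule L F, FiniteDimensional L V →
    ∃ b : Fin (finrank L V) → O, (∀ i, ((b i : O) : F) ∈ V) ∧
      LinearIndependent k (fun i => res (b i))

variable {L k F R}

namespace RData

variable (𝔇 : RData L k F R)

/-- a constant of `A` as an element of `O`. -/
def cst (a : 𝔇.A) : 𝔇.O := ⟨algebraMap L F (a : L), (𝔇.mem_iff (a : L)).mpr a.2⟩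

@[simp] theorem coe_cst (a : 𝔇.A) : ((𝔇.cst a : 𝔇.O) : F) = algebraMap L F (a : L) := rfl

@[simp] theorem res_cst (a : 𝔇.A) : 𝔇.res (𝔇.cst a) = algebraMap k R (𝔇.π a) :=
  𝔇.res_algebraMap a

/-- scaling of a nonzero vector of constants. -/
theorem exists_scale {ι : Type*} [Finite ι] (c : ι → L) (hc : c ≠ 0) :
    ∃ j, c j ≠ 0 ∧ ∀ i, c i / c j ∈ 𝔇.A := by
  classical
  obtain ⟨i₀, hi₀⟩ : ∃ i, c i ≠ 0 := by
    by_contra h
    push Not at h
    exact hc (funext h)
  have := Fintype.ofFinite ι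
  obtain ⟨j, -, hj⟩ := Finset.exists_max_image Finset.univ (fun i => 𝔇.A.valuation (c i))
    ⟨i₀, Finset.mem_univ _⟩
  have hj0 : c j ≠ 0 := by
    intro h0
    have h1 := hj i₀ (Finset.mem_univ _)
    rw [h0, map_zero, le_zero_iff, map_eq_zero] at h1
    exact hi₀ h1
  refine ⟨j, hj0, fun i => ?_⟩
  rw [← 𝔇.A.valuation_le_one_iff, map_div₀]
  exact div_le_one_of_le₀ (hj i (Finset.mem_univ _)) zero_le

/-- elements of `O` whose residues are linearly independent over `k` are linearly independent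
over `L`; moreover a combination lies in `O` only if all coefficients lie in `A`. -/
theorem coeff_mem {ι : Type*} [Fintype ι] (b : ι → 𝔇.O)
    (hb : LinearIndependent k (fun i => 𝔇.res (b i))) (c : ι → L)
    (h : ∑ i, c i • ((b i : 𝔇.O) : F) ∈ 𝔇.O) : ∀ i, c i ∈ 𝔇.A := by
  classical
  by_contra hcon
  push Not at hcon
  obtain ⟨i₀, hi₀⟩ := hcon
  have hc : c ≠ 0 := by
    rintro rfl
    exact hi₀ (by simp)
  obtain ⟨j, hj0, hj⟩ := 𝔇.exists_scale c hc
  -- `c j ∉ A`
  have hjA : c j ∉ 𝔇.A := by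
    intro hmem
    apply hi₀
    have : c i₀ = c i₀ / c j * c j := by field_simp
    rw [this]
    exact mul_mem (hj i₀) hmem
  have hinv : (c j)⁻¹ ∈ 𝔇.A := (𝔇.A.mem_or_inv_mem (c j)).resolve_left hjA
  let d : ι → 𝔇.A := fun i => ⟨c i / c j, hj i⟩
  let e : 𝔇.A := ⟨(c j)⁻¹, hinv⟩
  have hrel : ∑ i, 𝔇.cst (d i) * b i = 𝔇.cst e * ⟨_, h⟩ := by
    apply Subtype.ext
    push_cast
    rw [coe_cst, Finset.mul_sum]
    refine Finset.sum_congr rfl fun i _ => ?_
    rw [coe_cst, Algebra.smul_def]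
    show algebraMap L F (c i / c j) * _ = algebraMap L F (c j)⁻¹ * (algebraMap L F (c i) * _)
    rw [← mul_assoc, ← map_mul]
    congr 2
    field_simp
  have he : 𝔇.π e = 0 := by
    rw [𝔇.π_ker]
    intro hu
    apply hjA
    obtain ⟨b', hb'⟩ := hu.exists_right_inv
    have h1 : (c j)⁻¹ * (b' : L) = 1 := congrArg Subtype.val hb'
    have h2 : c j = b' := by
      field_simp at h1
      exact h1.symm
    rw [h2]
    exact b'.2
  have hres := congrArg 𝔇.res hrel
  rw [map_sum, map_mul, res_cst, he, map_zero, zero_mul] at hres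
  have hres' : ∑ i, 𝔇.π (d i) • 𝔇.res (b i) = 0 := by
    rw [← hres]
    refine Finset.sum_congr rfl fun i _ => ?_
    rw [map_mul, res_cst, Algebra.smul_def]
  have := Fintype.linearIndependent_iff.mp hb _ hres' j
  have h1 : d j = 1 := Subtype.ext (div_self hj0)
  rw [h1, map_one] at this
  exact one_ne_zero this

theorem linearIndependent_of_res {ι : Type*} (b : ι → 𝔇.O)
    (hb : LinearIndependent k (fun i => 𝔇.res (b i))) :
    LinearIndependent L (fun i => ((b i : 𝔇.O) : F)) := by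
  classical
  rw [linearIndependent_iff_finset_linearIndependent] at hb ⊢
  intro s
  have hbs := hb s
  rw [Fintype.linearIndependent_iff]
  intro c hc0
  by_contra hne
  push Not at hne
  obtain ⟨i₀, hi₀⟩ := hne
  have hc : c ≠ 0 := fun h => hi₀ (congrFun h i₀)
  obtain ⟨j, hj0, hj⟩ := 𝔇.exists_scale c hc
  let d : s → 𝔇.A := fun i => ⟨c i / c j, hj i⟩
  have hrel : ∑ i : s, 𝔇.cst (d i) * b i = 0 := by
    apply Subtype.ext
    push_cast
    have : ∑ i : s, algebraMap L F (c i / c j) * ((b i : 𝔇.O) : F)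
        = (algebraMap L F (c j))⁻¹ * ∑ i : s, c i • ((b i : 𝔇.O) : F) := by
      rw [Finset.mul_sum]
      refine Finset.sum_congr rfl fun i _ => ?_
      rw [Algebra.smul_def, map_div₀]
      ring
    refine Eq.trans ?_ (this.trans ?_)
    · rfl
    · have hc1 : ∑ i : s, c i • ((b i : 𝔇.O) : F) = 0 := hc0
      rw [hc1, mul_zero]
  have hres := congrArg 𝔇.res hrel
  rw [map_sum, map_zero] at hres
  have hres' : ∑ i : s, 𝔇.π (d i) • 𝔇.res (b i) = 0 := by
    rw [← hres]
    refine Finset.sum_congr rfl fun i _ => ?_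
    rw [map_mul, res_cst, Algebra.smul_def]
  have := Fintype.linearIndependent_iff.mp hbs _ hres' j
  have h1 : d j = 1 := Subtype.ext (div_self hj0)
  rw [h1, map_one] at this
  exact one_ne_zero this

/-- Every nonzero function can be scaled to have nonzero reduction. -/
theorem exists_smul_res_ne_zero {f : F} (hf : f ≠ 0) :
    ∃ c : L, c ≠ 0 ∧ ∃ h : c • f ∈ 𝔇.O, 𝔇.res ⟨c • f, h⟩ ≠ 0 := by
  have hfr : finrank L (Submodule.span L {f}) = 1 := finrank_span_singleton hf
  obtain ⟨b, hbV, hb⟩ := 𝔇.lat (Submodule.span L {f}) (by infer_instance)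
  let i : Fin (finrank L (Submodule.span L {f})) := ⟨0, by rw [hfr]; exact one_pos⟩
  obtain ⟨c, hc⟩ := Submodule.mem_span_singleton.mp (hbV i)
  have hne : 𝔇.res (b i) ≠ 0 := hb.ne_zero i
  refine ⟨c, ?_, ?_⟩
  · rintro rfl
    apply hne
    have : b i = 0 := Subtype.ext (by rw [← hc]; simp)
    rw [this, map_zero]
  · refine ⟨by rw [hc]; exact (b i).2, ?_⟩
    have : (⟨c • f, by rw [hc]; exact (b i).2⟩ : 𝔇.O) = b i := Subtype.ext hc
    rw [this]
    exact hne

/-- an element of `O` with zero reduction is divisible by a constant of positive valuation. -/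
theorem exists_dvd_of_res_eq_zero {f : 𝔇.O} (hf : 𝔇.res f = 0) (hf0 : (f : F) ≠ 0) :
    ∃ ε : 𝔇.A, (ε : L) ≠ 0 ∧ 𝔇.π ε = 0 ∧ ∃ g : 𝔇.O, f = 𝔇.cst ε * g := by
  obtain ⟨c, hc0, hcO, hres⟩ := 𝔇.exists_smul_res_ne_zero hf0
  have hcA : c ∉ 𝔇.A := by
    intro hc
    apply hres
    have h1 : (⟨c • (f : F), hcO⟩ : 𝔇.O) = 𝔇.cst ⟨c, hc⟩ * f := by
      apply Subtype.ext
      push_cast
      rw [coe_cst, Algebra.smul_def]
    rw [h1, map_mul, hf, mul_zero]
  have hinv : c⁻¹ ∈ 𝔇.A := (𝔇.A.mem_or_inv_mem c).resolve_left hcA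
  refine ⟨⟨c⁻¹, hinv⟩, inv_ne_zero hc0, ?_, ⟨c • (f : F), hcO⟩, ?_⟩
  · rw [𝔇.π_ker]
    intro hu
    apply hcA
    obtain ⟨b', hb'⟩ := hu.exists_right_inv
    have h1 : c⁻¹ * (b' : L) = 1 := congrArg Subtype.val hb'
    have h2 : c = b' := by
      field_simp at h1
      exact h1.symm
    rw [h2]
    exact b'.2
  · apply Subtype.ext
    push_cast
    rw [coe_cst, Algebra.smul_def, ← mul_assoc, ← map_mul]
    rw [show ((⟨c⁻¹, hinv⟩ : 𝔇.A) : L) = c⁻¹ from rfl, inv_mul_cancel₀ hc0, map_one, one_mul]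

/-- The reduction of a subspace `V` of `F`: residues of elements of `V ∩ O`. -/
def red (V : Submodule L F) : Submodule k R where
  carrier := {x | ∃ f : 𝔇.O, (f : F) ∈ V ∧ 𝔇.res f = x}
  zero_mem' := ⟨0, by simp, map_zero _⟩
  add_mem' := by
    rintro x y ⟨f, hf, rfl⟩ ⟨g, hg, rfl⟩
    exact ⟨f + g, by push_cast; exact V.add_mem hf hg, map_add _ _ _⟩
  smul_mem' := by
    rintro c x ⟨f, hf, rfl⟩
    obtain ⟨a, rfl⟩ := 𝔇.π_surj c
    refine ⟨𝔇.cst a * f, ?_, ?_⟩
    · have : ((𝔇.cst a * f : 𝔇.O) : F) = (a : L) • (f : F) := by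
        rw [Algebra.smul_def]; rfl
      rw [this]
      exact V.smul_mem _ hf
    · rw [map_mul, res_cst, Algebra.smul_def]

theorem mem_red {V : Submodule L F} {x : R} :
    x ∈ 𝔇.red V ↔ ∃ f : 𝔇.O, (f : F) ∈ V ∧ 𝔇.res f = x := Iff.rfl

theorem res_mem_red {V : Submodule L F} {f : 𝔇.O} (hf : (f : F) ∈ V) : 𝔇.res f ∈ 𝔇.red V :=
  ⟨f, hf, rfl⟩

theorem red_mono {V W : Submodule L F} (h : V ≤ W) : 𝔇.red V ≤ 𝔇.red W := by
  rintro x ⟨f, hf, rfl⟩
  exact ⟨f, h hf, rfl⟩

/-- An orthonormal basis of a finite dimensional subspace. -/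
theorem exists_orthonormal (V : Submodule L F) [FiniteDimensional L V] :
    ∃ b : Fin (finrank L V) → 𝔇.O, (∀ i, ((b i : 𝔇.O) : F) ∈ V) ∧
      LinearIndependent k (fun i => 𝔇.res (b i)) ∧
      (∀ f ∈ V, ∃ c : Fin (finrank L V) → L, f = ∑ i, c i • ((b i : 𝔇.O) : F)) ∧
      𝔇.red V = Submodule.span k (Set.range fun i => 𝔇.res (b i)) := by
  obtain ⟨b, hbV, hb⟩ := 𝔇.lat V inferInstance
  have hli := 𝔇.linearIndependent_of_res b hb
  have hspan : ∀ f ∈ V, ∃ c : Fin (finrank L V) → L, f = ∑ i, c i • ((b i : 𝔇.O) : F) := by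
    intro f hf
    have hli' : LinearIndependent L (fun i => (⟨((b i : 𝔇.O) : F), hbV i⟩ : V)) := by
      apply LinearIndependent.of_comp V.subtype
      exact hli
    have htop := hli'.span_eq_top_of_card_eq_finrank' (by simp)
    have hfmem : (⟨f, hf⟩ : V) ∈
        Submodule.span L (Set.range fun i => (⟨((b i : 𝔇.O) : F), hbV i⟩ : V)) := by
      rw [htop]; trivial
    obtain ⟨c, hc⟩ := (Submodule.mem_span_range_iff_exists_fun L).mp hfmem
    refine ⟨c, ?_⟩
    have := congrArg Subtype.val hc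
    simpa using this.symm
  refine ⟨b, hbV, hb, hspan, ?_⟩
  apply le_antisymm
  · rintro x ⟨f, hf, rfl⟩
    obtain ⟨c, hc⟩ := hspan f hf
    have hcA : ∀ i, c i ∈ 𝔇.A := 𝔇.coeff_mem b hb c (by rw [← hc]; exact f.2)
    have hf' : f = ∑ i, 𝔇.cst ⟨c i, hcA i⟩ * b i := by
      apply Subtype.ext
      push_cast
      rw [hc]
      refine Finset.sum_congr rfl fun i _ => ?_
      rw [Algebra.smul_def]; rfl
    rw [hf', map_sum]
    refine Submodule.sum_mem _ fun i _ => ?_
    rw [map_mul, res_cst, ← Algebra.smul_def]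
    exact Submodule.smul_mem _ _ (Submodule.subset_span ⟨i, rfl⟩)
  · rw [Submodule.span_le]
    rintro _ ⟨i, rfl⟩
    exact ⟨b i, hbV i, rfl⟩

instance finiteDimensional_red (V : Submodule L F) [FiniteDimensional L V] :
    FiniteDimensional k (𝔇.red V) := by
  obtain ⟨b, -, -, -, h⟩ := 𝔇.exists_orthonormal V
  rw [h]
  exact FiniteDimensional.span_of_finite k (Set.finite_range _)

theorem finrank_red [Nontrivial R] (V : Submodule L F) [FiniteDimensional L V] :
    finrank k (𝔇.red V) = finrank L V := by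
  obtain ⟨b, -, hb, -, h⟩ := 𝔇.exists_orthonormal V
  rw [h, finrank_span_eq_card hb, Fintype.card_fin]

/-- **Lifting criterion**: if the reductions of `V` and `W` meet in the reduction of `V ⊓ W`, then
`V ∩ O + W ∩ O = (V + W) ∩ O`. -/
theorem exists_add_of_red_inf_le [Nontrivial R] (V W : Submodule L F) [FiniteDimensional L V]
    [FiniteDimensional L W] (h : 𝔇.red V ⊓ 𝔇.red W ≤ 𝔇.red (V ⊓ W)) :
    ∀ w ∈ V ⊔ W, w ∈ 𝔇.O → ∃ w₁ ∈ V, w₁ ∈ 𝔇.O ∧ ∃ w₂ ∈ W, w₂ ∈ 𝔇.O ∧ w = w₁ + w₂ := by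
  classical
  intro w hw hwO
  obtain ⟨bV, hbV, -, -, hV⟩ := 𝔇.exists_orthonormal V
  obtain ⟨bW, hbW, -, -, hW⟩ := 𝔇.exists_orthonormal W
  -- dimension count
  have hsup : 𝔇.red V ⊔ 𝔇.red W = 𝔇.red (V ⊔ W) := by
    apply Submodule.eq_of_le_of_finrank_eq
      (sup_le (𝔇.red_mono le_sup_left) (𝔇.red_mono le_sup_right))
    have h1 := Submodule.finrank_sup_add_finrank_inf_eq (𝔇.red V) (𝔇.red W)
    have h2 := Submodule.finrank_sup_add_finrank_inf_eq V W
    have h3 : 𝔇.red V ⊓ 𝔇.red W = 𝔇.red (V ⊓ W) :=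
      le_antisymm h (le_inf (𝔇.red_mono inf_le_left) (𝔇.red_mono inf_le_right))
    have : FiniteDimensional L (V ⊓ W : Submodule L F) :=
      Submodule.finiteDimensional_of_le (inf_le_left)
    rw [h3, 𝔇.finrank_red, 𝔇.finrank_red, 𝔇.finrank_red] at h1
    rw [𝔇.finrank_red]
    omega
  -- joint family
  let c : (Fin (finrank L V) ⊕ Fin (finrank L W)) → 𝔇.O := Sum.elim bV bW
  let r : (Fin (finrank L V) ⊕ Fin (finrank L W)) → R := fun i => 𝔇.res (c i)
  have hspan : Submodule.span k (Set.range r) = 𝔇.red (V ⊔ W) := by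
    rw [← hsup, hV, hW, ← Submodule.span_union]
    congr 1
    ext x
    constructor
    · rintro ⟨i | i, rfl⟩
      · exact Or.inl ⟨i, rfl⟩
      · exact Or.inr ⟨i, rfl⟩
    · rintro (⟨i, rfl⟩ | ⟨i, rfl⟩)
      · exact ⟨Sum.inl i, rfl⟩
      · exact ⟨Sum.inr i, rfl⟩
  -- extract a maximal linearly independent subfamily
  obtain ⟨κ, a, ha, hsp, hli⟩ := exists_linearIndependent' k r
  have : Finite κ := Finite.of_injective a ha
  have := Fintype.ofFinite κ
  have hcard : Fintype.card κ = finrank L (V ⊔ W : Submodule L F) := by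
    rw [← 𝔇.finrank_red, ← hspan, ← hsp, finrank_span_eq_card hli]
  have hmem : ∀ i, ((c i : 𝔇.O) : F) ∈ V ⊔ W := by
    rintro (i | i)
    · exact Submodule.mem_sup_left (hbV i)
    · exact Submodule.mem_sup_right (hbW i)
  have hli2 : LinearIndependent k (fun i => 𝔇.res (c (a i))) := hli
  have hliL := 𝔇.linearIndependent_of_res (fun i => c (a i)) hli2
  have hli' : LinearIndependent L (fun i => (⟨((c (a i) : 𝔇.O) : F), hmem (a i)⟩ :
      (V ⊔ W : Submodule L F))) := by
    apply LinearIndependent.of_comp (V ⊔ W).subtype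
    exact hliL
  have htop := hli'.span_eq_top_of_card_eq_finrank' hcard
  have hfmem : (⟨w, hw⟩ : (V ⊔ W : Submodule L F)) ∈
      Submodule.span L (Set.range fun i => (⟨((c (a i) : 𝔇.O) : F), hmem (a i)⟩ :
        (V ⊔ W : Submodule L F))) := by
    rw [htop]; trivial
  obtain ⟨x, hx⟩ := (Submodule.mem_span_range_iff_exists_fun L).mp hfmem
  have hx' : w = ∑ i, x i • ((c (a i) : 𝔇.O) : F) := by
    have := congrArg Subtype.val hx
    simpa using this.symm
  have hxA : ∀ i, x i ∈ 𝔇.A := 𝔇.coeff_mem _ hli2 x (by rw [← hx']; exact hwO)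
  have hterm : ∀ i, x i • ((c (a i) : 𝔇.O) : F) ∈ 𝔇.O := by
    intro i
    rw [Algebra.smul_def]
    exact 𝔇.O.mul_mem ((𝔇.mem_iff _).mpr (hxA i)) (c (a i)).2
  refine ⟨∑ i, if (a i).isLeft then x i • ((c (a i) : 𝔇.O) : F) else 0, ?_, ?_,
    ∑ i, if (a i).isLeft then 0 else x i • ((c (a i) : 𝔇.O) : F), ?_, ?_, ?_⟩
  · refine Submodule.sum_mem _ fun i _ => ?_
    cases hai : a i with
    | inl j => simpa [c] using V.smul_mem _ (hbV j)
    | inr j => simp
  · refine Subring.sum_mem _ fun i _ => ?_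
    split_ifs
    · exact hterm i
    · exact 𝔇.O.zero_mem
  · refine Submodule.sum_mem _ fun i _ => ?_
    cases hai : a i with
    | inl j => simp
    | inr j => simpa [c] using W.smul_mem _ (hbW j)
  · refine Subring.sum_mem _ fun i _ => ?_
    split_ifs
    · exact 𝔇.O.zero_mem
    · exact hterm i
  · rw [hx', ← Finset.sum_add_distrib]
    refine Finset.sum_congr rfl fun i _ => ?_
    split_ifs
    · rw [add_zero]
    · rw [zero_add]

end RData

end Fermat.Agent.BadRed
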