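import Fermat.Agent.BadRed.KLat6
import Fermat.Agent.BadRed.PicLevel
import Fermat.Agent.FunField.AlgClosed

/-!
# Rational representatives of rational classes

`Γ` is a set of semilinear automorphisms of `F / L` fixing a place. Every divisor class of degree
zero fixed by `Γ` contains a divisor fixed by `Γ`.
-/

set_option autoImplicit false
set_option linter.unusedSectionVars false

noncomputable section

open AlgebraicCurve Module

namespace Fermat.Agent.BadRed

open Fermat.Agent.FunField Fermat.Agent.FunField.PlaceLemmas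

variable {L F : Type*} [Field L] [IsAlgClosed L] [Field F] [Algebra L F] [IsFF L F]

theorem exists_finrank_one {D₀ : Divisor L F} (h0 : Divisor.degree D₀ = 0) (oo : Place L F) :
    ∃ m : ℤ, finrank L (riemannRochSpace (D₀ + Finsupp.single oo m)) = 1 := by
  let P : ℤ → Prop := fun m => 0 < finrank L (riemannRochSpace (D₀ + Finsupp.single oo m))
  have hdeg : ∀ m : ℤ, Divisor.degree (D₀ + Finsupp.single oo m) = m := by
    intro m
    rw [map_add, h0, zero_add, Divisor.degree_single, deg_eq_one]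
    simp
  have hex : P (genusFF L F) := by
    have h1 := riemann_roch (D₀ + Finsupp.single oo (genusFF L F : ℤ))
    rw [hdeg] at h1
    show 0 < _
    have : (0 : ℤ) < finrank L (riemannRochSpace (D₀ + Finsupp.single oo (genusFF L F : ℤ))) := by
      linarith [Int.natCast_nonneg (finrank L (H1 (D₀ + Finsupp.single oo (genusFF L F : ℤ))))]
    exact_mod_cast this
  have hbd : ∀ m, P m → 0 ≤ m := by
    intro m hm
    by_contra hlt
    push Not at hlt
    have h1 := finrank_rr_of_degree_neg (D := D₀ + Finsupp.single oo m) (by rw [hdeg]; exact hlt)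
    exact absurd hm (by show ¬ (0 < _); omega)
  obtain ⟨m, hm, hmin⟩ := Int.exists_least_of_bdd ⟨0, hbd⟩ ⟨_, hex⟩
  refine ⟨m, ?_⟩
  have h1 : ¬ P (m - 1) := fun h => by
    have := hmin _ h
    omega
  have h2 : finrank L (riemannRochSpace (D₀ + Finsupp.single oo (m - 1))) = 0 := by
    have : ¬ (0 < finrank L (riemannRochSpace (D₀ + Finsupp.single oo (m - 1)))) := h1
    omega
  have h3 := finrank_rr_add_le (D₀ + Finsupp.single oo (m - 1)) (Finsupp.single oo (1 : ℤ))
    (Finsupp.single_nonneg.mpr zero_le_one)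
  rw [add_assoc, ← Finsupp.single_add, sub_add_cancel, h2, Divisor.degree_single,
    deg_eq_one] at h3
  have h4 : 0 < finrank L (riemannRochSpace (D₀ + Finsupp.single oo m)) := hm
  push_cast at h3
  omega

/-- **Rational divisors in rational classes.** -/
theorem exists_mem_fixD {Γ : Set (SemilinearAut L F)} {oo : Place L F}
    (hoo : ∀ g ∈ Γ, g • oo = oo) {x : Pic0 L F} (hx : ∀ g ∈ Γ, g • x = x) :
    ∃ D : Divisor.degZero (K := L) (F := F), Pic0.mk D = x ∧ (D : Divisor L F) ∈ fixD Γ := by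
  obtain ⟨D₀, rfl⟩ := Pic0.mk_surjective x
  have hD₀ : Divisor.degree (D₀ : Divisor L F) = 0 := D₀.2
  obtain ⟨m, hm⟩ := exists_finrank_one hD₀ oo
  obtain ⟨f₀, hf₀, hf₀0⟩ := exists_ne_zero_of_finrank_pos (by rw [hm]; exact one_pos)
  have huniq : ∀ f ∈ riemannRochSpace ((D₀ : Divisor L F) + Finsupp.single oo m),
      ∃ c : L, f = c • f₀ := by
    intro f hf
    have h1 : (⟨f₀, hf₀⟩ : riemannRochSpace ((D₀ : Divisor L F) + Finsupp.single oo m)) ≠ 0 :=
      fun h => hf₀0 (congrArg Subtype.val h)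
    obtain ⟨c, hc⟩ := (finrank_eq_one_iff_of_nonzero' _ h1).mp hm ⟨f, hf⟩
    exact ⟨c, (congrArg Subtype.val hc).symm⟩
  have hdeg : Divisor.degree ((D₀ : Divisor L F) + divOf f₀) = 0 := by
    rw [map_add, degree_divOf, hD₀, add_zero]
  refine ⟨⟨(D₀ : Divisor L F) + divOf f₀, hdeg⟩, ?_, ?_⟩
  · apply Pic0.mk_eq_of_ord hf₀0
    intro v
    rw [← divOf_apply]
    rfl
  · intro g hg
    -- `g D₀ - D₀ = div h`
    have h1 : Pic0.mk (SemilinearAut.degZeroSMulHom g D₀ - D₀) = 0 := by
      have h2 := hx g hg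
      rw [SemilinearAut.pic0_smul_mk] at h2
      have h3 : Pic0.mk (SemilinearAut.degZeroSMulHom g D₀ - D₀) =
        Pic0.mk (SemilinearAut.degZeroSMulHom g D₀) - Pic0.mk D₀ := rfl
      rw [h3, sub_eq_zero]
      exact h2
    obtain ⟨h, hh0, hh⟩ := exists_of_mk_eq_zero h1
    have hh' : ∀ v : Place L F, (g • (D₀ : Divisor L F)) v = (D₀ : Divisor L F) v + v.ord h := by
      intro v
      rw [← hh v]
      show _ = (D₀ : Divisor L F) v + ((g • (D₀ : Divisor L F)) - (D₀ : Divisor L F)) v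
      rw [Finsupp.sub_apply]
      ring
    have hgf : g • f₀ ≠ 0 := fun h => hf₀0 ((smul_eq_zero_iff_eq g).mp h)
    have hgs : g • (Finsupp.single oo m : Divisor L F) = Finsupp.single oo m := by
      ext v
      rw [SemilinearAut.divisor_smul_apply]
      by_cases hv : v = oo
      · have h4 : g⁻¹ • v = oo := by rw [hv, inv_smul_eq_iff, hoo g hg]
        rw [h4, hv]
      · have h4 : g⁻¹ • v ≠ oo := by
          intro h5
          rw [inv_smul_eq_iff, hoo g hg] at h5
          exact hv h5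
        rw [Finsupp.single_eq_of_ne h4, Finsupp.single_eq_of_ne hv]
    have hmem : h * (g • f₀) ∈ riemannRochSpace ((D₀ : Divisor L F) + Finsupp.single oo m) := by
      rw [mem_rr] at hf₀ ⊢
      intro v
      have h5 := hf₀ (g⁻¹ • v)
      rw [mem_geSub_of_ne hf₀0] at h5
      rw [mem_geSub_of_ne (mul_ne_zero hh0 hgf), v.ord_mul hh0 hgf, ord_semi]
      rw [Finsupp.add_apply] at h5 ⊢
      have h6 := hh' v
      rw [SemilinearAut.divisor_smul_apply] at h6
      have h7 := DFunLike.congr_fun hgs v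
      rw [SemilinearAut.divisor_smul_apply] at h7
      omega
    obtain ⟨c, hc⟩ := huniq _ hmem
    have hc0 : c ≠ 0 := by
      rintro rfl
      rw [zero_smul] at hc
      exact mul_ne_zero hh0 hgf hc
    show g • ((D₀ : Divisor L F) + divOf f₀) = (D₀ : Divisor L F) + divOf f₀
    ext v
    rw [smul_add, Finsupp.add_apply, Finsupp.add_apply, hh', divOf_apply,
      SemilinearAut.divisor_smul_apply, divOf_apply, ← ord_semi]
    have h8 := congrArg v.ord hc
    rw [v.ord_mul hh0 hgf, ord_smul_of_ne_zero v hc0] at h8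
    linarith

/-- **Rational functions with rational divisors.** -/
theorem exists_mem_fixF {Γ : Set (SemilinearAut L F)} (lc : F → L)
    (hlc0 : ∀ f, f ≠ 0 → lc f ≠ 0) (hlc : ∀ (c : L) f, lc (c • f) = c * lc f)
    (hlcg : ∀ g ∈ Γ, ∀ f, lc (g • f) = SemilinearAut.baseAut g (lc f))
    {D : Divisor L F} (hD : D ∈ fixD Γ) {f : F} (hf : f ≠ 0)
    (hfD : ∀ v : Place L F, D v = v.ord f) :
    ∃ f' : F, f' ≠ 0 ∧ f' ∈ fixF Γ ∧ ∀ v : Place L F, D v = v.ord f' := by
  have hc0 : (lc f)⁻¹ ≠ 0 := inv_ne_zero (hlc0 f hf)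
  have hf' : (lc f)⁻¹ • f ≠ 0 := smul_ne_zero hc0 hf
  have hord : ∀ v : Place L F, D v = v.ord ((lc f)⁻¹ • f) := by
    intro v
    rw [ord_smul_of_ne_zero v hc0, hfD]
  have hlc1 : lc ((lc f)⁻¹ • f) = 1 := by rw [hlc, inv_mul_cancel₀ (hlc0 f hf)]
  refine ⟨(lc f)⁻¹ • f, hf', ?_, hord⟩
  intro g hg
  set f' := (lc f)⁻¹ • f with hf'def
  have hgf : g • f' ≠ 0 := fun h => hf' ((smul_eq_zero_iff_eq g).mp h)
  have h1 : ∀ v : Place L F, 0 ≤ v.ord ((g • f') / f') := by
    intro v
    rw [div_eq_mul_inv, v.ord_mul hgf (inv_ne_zero hf'), v.ord_inv, ord_semi, ← hord, ← hord]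
    have := DFunLike.congr_fun (hD g hg) v
    rw [SemilinearAut.divisor_smul_apply] at this
    omega
  obtain ⟨c, hc⟩ := exists_eq_algebraMap_of_forall_ord_nonneg h1
  have h2 : g • f' = c • f' := by
    rw [Algebra.smul_def, hc, div_mul_cancel₀ _ hf']
  have h3 := congrArg lc h2
  rw [hlcg g hg, hlc c f', hlc1, map_one, mul_one] at h3
  rw [h2, ← h3, one_smul]

end Fermat.Agent.BadRed
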