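import Fermat.Agent.BadRed.RatClass
import Fermat.Agent.BadRed.KLat8
import Fermat.Agent.BadRed.LocalPkg
import Fermat.Agent.MzCusp.Places

/-!
# Rational representatives of rational classes on `X₀(M)`
-/

set_option autoImplicit false
set_option linter.unusedSectionVars false

noncomputable section

open AlgebraicCurve Module HahnSeries ModularCurve

namespace Fermat.Agent.BadRed

open Fermat.Agent.FunField Fermat.Agent.FunField.PlaceLemmas Fermat.Agent.Igusa

section Coeff

variable {L : Type*} [Field L]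

theorem order_coeffMap_equiv (σ : L ≃+* L) (x : LaurentSeries L) :
    (coeffMap (σ : L →+* L) x).order = x.order := by
  by_cases hx : x = 0
  · rw [hx, map_zero]
  have hx' : coeffMap (σ : L →+* L) x ≠ 0 := by rwa [Ne, map_eq_zero]
  apply le_antisymm
  · apply HahnSeries.order_le_of_coeff_ne_zero
    rw [coeffMap_coeff]
    exact (map_ne_zero _).mpr (HahnSeries.coeff_order_eq_zero.not.mpr hx)
  · apply HahnSeries.order_le_of_coeff_ne_zero
    have h1 := HahnSeries.coeff_order_eq_zero.not.mpr hx'
    rw [coeffMap_coeff] at h1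
    exact (map_ne_zero _).mp h1

/-- leading coefficient -/
def lcL {M : ℕ} (f : modularFunctionFieldFullC L M) : L :=
  (f : LaurentSeries L).coeff (f : LaurentSeries L).order

theorem lcL_ne_zero {M : ℕ} {f : modularFunctionFieldFullC L M} (hf : f ≠ 0) : lcL f ≠ 0 :=
  HahnSeries.coeff_order_eq_zero.not.mpr (fun h => hf (Subtype.ext h))

theorem coe_smul_full {M : ℕ} (c : L) (f : modularFunctionFieldFullC L M) :
    ((c • f : modularFunctionFieldFullC L M) : LaurentSeries L) =
      algebraMap L (LaurentSeries L) c * (f : LaurentSeries L) :=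
  psi_smul (modularFunctionFieldFullC L M).val c f

theorem lcL_smul {M : ℕ} (c : L) (f : modularFunctionFieldFullC L M) :
    lcL (c • f) = c * lcL f := by
  rcases eq_or_ne c 0 with rfl | hc
  · rw [zero_smul, zero_mul]
    show ((0 : LaurentSeries L)).coeff _ = 0
    rfl
  have h1 : (algebraMap L (LaurentSeries L) c * (f : LaurentSeries L)).order =
      (f : LaurentSeries L).order := by
    rcases eq_or_ne (f : LaurentSeries L) 0 with h0 | h0
    · rw [h0, mul_zero]
    have h2 : algebraMap L (LaurentSeries L) c * (f : LaurentSeries L) ≠ 0 :=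
      mul_ne_zero (by rwa [Ne, map_eq_zero]) h0
    apply le_antisymm
    · apply HahnSeries.order_le_of_coeff_ne_zero
      rw [Igusa.coeff_algebraMap_mul]
      exact mul_ne_zero hc (HahnSeries.coeff_order_eq_zero.not.mpr h0)
    · apply HahnSeries.order_le_of_coeff_ne_zero
      have h3 := HahnSeries.coeff_order_eq_zero.not.mpr h2
      rw [Igusa.coeff_algebraMap_mul] at h3
      exact right_ne_zero_of_mul h3
  rw [lcL, coe_smul_full, h1, Igusa.coeff_algebraMap_mul, lcL]

theorem lcL_coef [IsAlgClosed L] [CharZero L] {M : ℕ} {σ : L ≃+* L} {g : SemilinearAut L (modularFunctionFieldFullC L M)}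
    (hg : ∀ x : modularFunctionFieldFullC L M,
      ((g • x : modularFunctionFieldFullC L M) : LaurentSeries L) =
        coeffMap (σ : L →+* L) (x : LaurentSeries L)) (f : modularFunctionFieldFullC L M) :
    lcL (g • f) = SemilinearAut.baseAut g (lcL f) := by
  rw [lcL, hg, order_coeffMap_equiv, coeffMap_coeff, baseAut_of_coef hg]
  rfl

end Coeff

variable {L : Type*} [Field L] [IsAlgClosed L] [CharZero L] (M : ℕ) [NeZero M]

theorem smul_cuspInf_full {σ : L ≃+* L}
    {g : SemilinearAut L (modularFunctionFieldFullC L M)}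
    (hg : ∀ x : modularFunctionFieldFullC L M,
      ((g • x : modularFunctionFieldFullC L M) : LaurentSeries L) =
        coeffMap (σ : L →+* L) (x : LaurentSeries L)) :
    g • MzCusp.cuspInf L M = MzCusp.cuspInf L M := by
  -- the orders agree
  have h1 : ∀ x : modularFunctionFieldFullC L M,
      (g • MzCusp.cuspInf L M).ord x = (MzCusp.cuspInf L M).ord x := by
    intro x
    have h2 := SemilinearAut.ord_smul g (MzCusp.cuspInf L M) (g⁻¹ • x)
    rw [smul_inv_smul] at h2
    rw [h2, MzCusp.ord_cuspInf, MzCusp.ord_cuspInf]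
    have h3 := hg (g⁻¹ • x)
    rw [smul_inv_smul] at h3
    rw [h3, order_coeffMap_equiv]
  apply Place.ext
  ext x
  rcases eq_or_ne x 0 with rfl | hx
  · exact ⟨fun _ => zero_mem _, fun _ => zero_mem _⟩
  · rw [mem_iff_ord_nonneg _ hx, mem_iff_ord_nonneg _ hx, h1]

/-- **Rational representatives.** -/
theorem exists_rat_rep {Γ₀ : Set (L ≃+* L)} {x : Pic0 L (modularFunctionFieldFullC L M)}
    (hx : ∀ g ∈ coefΓ L M Γ₀, g • x = x) {n : ℕ} (hn : n • x = 0) :
    ∃ D : Divisor.degZero (K := L) (F := modularFunctionFieldFullC L M), Pic0.mk D = x ∧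
      (D : Divisor L (modularFunctionFieldFullC L M)) ∈ fixD (coefΓ L M Γ₀) ∧
      ∃ f : modularFunctionFieldFullC L M, f ≠ 0 ∧ f ∈ fixF (coefΓ L M Γ₀) ∧
        ∀ v : Place L (modularFunctionFieldFullC L M),
          (n : ℤ) * (D : Divisor L (modularFunctionFieldFullC L M)) v = v.ord f := by
  obtain ⟨D, hDx, hD⟩ := exists_mem_fixD (oo := MzCusp.cuspInf L M) (fun g hg => by
    obtain ⟨σ, -, hσ⟩ := hg
    exact smul_cuspInf_full M hσ) hx
  rw [← hDx] at hn
  rw [← nsmul_eq_zero_iff_torsion] at hn
  obtain ⟨f, hf, hfD⟩ := exists_of_mem_torsion hn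
  have h1 : ((n : ℤ) • (D : Divisor L (modularFunctionFieldFullC L M))) ∈ fixD (coefΓ L M Γ₀) :=
    (fixD (coefΓ L M Γ₀)).zsmul_mem hD n
  obtain ⟨f', hf', hfix, hfD'⟩ := exists_mem_fixF (lcL (L := L) (M := M))
    (fun f hf => lcL_ne_zero hf) lcL_smul (fun g hg f => by
      obtain ⟨σ, -, hσ⟩ := hg
      exact lcL_coef hσ f) h1 hf (fun v => by
        rw [← hfD v]; rfl)
  exact ⟨D, hDx, hD, f', hf', hfix, fun v => by rw [← hfD' v]; rfl⟩

end Fermat.Agent.BadRed
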