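import Fermat.Agent.BadRed.KLConc
import Fermat.Agent.BadRed.RatClassX
import Fermat.Agent.AtkinLehner.Norm

/-!
# `(T_l - (l+1)) y` has divisible reductions for `y` fixed by inertia
-/

set_option autoImplicit false
set_option linter.unusedSectionVars false

noncomputable section

open AlgebraicCurve Module IntermediateField ModularCurve HahnSeries

namespace Fermat.Agent.BadRed

open Fermat.Agent.FunField Fermat.Agent.FunField.PlaceLemmas Fermat.Agent.Igusa
  Fermat.Agent.Deuring Fermat.Agent.AtkinLehner Fermat.Agent.HeckeRed Fermat.Agent.Degen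

section General

variable {K F F' : Type*} [Field K] [Field F] [Field F'] [Algebra K F] [Algebra K F']

theorem normAlong_algebraMap (ψ : F →ₐ[K] F') (c : K) :
    normAlong ψ (algebraMap K F' c) = algebraMap K F (c ^ finrankAlong K ψ) := by
  let _ := algebraAlong ψ
  have h1 : algebraMap K F' c = algebraMap F F' (algebraMap K F c) := (ψ.commutes c).symm
  show Algebra.norm F (algebraMap K F' c) = _
  rw [h1, Algebra.norm_algebraMap, ← map_pow]
  rfl

theorem algHom_smul' (φ : F →ₐ[K] F') (c : K) (x : F) : φ (c • x) = c • φ x := by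
  rw [Algebra.smul_def, map_mul, AlgHom.commutes, ← Algebra.smul_def]

theorem normAlong_smul (ψ : F →ₐ[K] F') (c : K) (x : F') :
    normAlong ψ (c • x) = (c ^ finrankAlong K ψ) • normAlong ψ x := by
  rw [Algebra.smul_def, normAlong_mul, normAlong_algebraMap, ← Algebra.smul_def]

variable [IsAlgClosed K] [IsFF K F] [IsFF K F']

theorem push_pull_ord (α β : F →ₐ[K] F') {n : ℕ} {D : Divisor K F} {f : F} (hf : f ≠ 0)
    (h : ∀ v : Place K F, (n : ℤ) * D v = v.ord f) (v : Place K F) :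
    (n : ℤ) * (push α (pull β D)) v = v.ord (normAlong α (β f)) := by
  have h1 : (n : ℤ) • D = divOf f := by
    ext v
    rw [divOf_apply, ← h v]
    rfl
  have hβf : β f ≠ 0 := by rwa [Ne, map_eq_zero]
  have h2 : (n : ℤ) • push α (pull β D) = divOf (normAlong α (β f)) := by
    rw [← push_divOf α hβf, ← pull_divOf, ← h1, map_zsmul, map_zsmul]
  have h3 := DFunLike.congr_fun h2 v
  rw [divOf_apply] at h3
  rw [← h3]
  rfl

end General

section Slope

variable {L : Type*} [Field L] [IsAlgClosed L] [CharZero L] (A : ValuationSubring L)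
  {κ : Type*} [Field κ] [IsAlgClosed κ] (π : A →+* κ) [IsLocalHom π] (hπ : Function.Surjective π)
  (harch : ArchA π)
  (N r : ℕ) [hr : Fact r.Prime] [hN : NeZero N] [CharP κ r] (hrN : ¬ r ∣ N)
  {l : ℕ} [hl : Fact l.Prime] (hlr : l ≠ r)
  {E' : IntermediateField L (LaurentSeries L)} {E₁' : IntermediateField κ (LaurentSeries κ)}
  (hE' : E' = modularFunctionFieldFullC L (N * r * l))
  (hE₁' : E₁' = modularFunctionFieldFullC κ (N * l))
  (α β : modularFunctionFieldFullC L (N * r) →ₐ[L] E')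
  (α₁ β₁ : modularFunctionFieldFullC κ N →ₐ[κ] E₁')
  (hα : ∀ x, (α x : LaurentSeries L) = x)
  (hβ : ∀ x, (β x : LaurentSeries L) = qExpand L l (x : LaurentSeries L))
  (hα₁ : ∀ x, (α₁ x : LaurentSeries κ) = x)
  (hβ₁ : ∀ x, (β₁ x : LaurentSeries κ) = qExpand κ l (x : LaurentSeries κ))

include hlr hE' hE₁' hα hβ hα₁ hβ₁ in
theorem slopeAt_hecke {ϖ : L} {f : modularFunctionFieldFullC L (N * r)} {s : ℤ}
    {x₁ x₂ : modularFunctionFieldFullC κ N}
    (h : (twoVal A π hπ harch N r hrN).SlopeAt ϖ f s x₁ x₂) :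
    (twoVal A π hπ harch N r hrN).SlopeAt ϖ (normAlong α (β f)) (finrankAlong L α * s)
      (normAlong α₁ (β₁ x₁)) (normAlong α₁ (β₁ x₂)) := by
  obtain ⟨h1, h2, c, hc, h3, h4⟩ := h
  have : NeZero (N * l) := ⟨mul_ne_zero hN.out hl.out.ne_zero⟩
  subst hE₁'
  have hfin₁ : FiniteAlong κ α₁ := finiteAlong_of_isFF α₁
  refine ⟨normAlong_ne_zero α₁ hfin₁ (by rwa [Ne, map_eq_zero]),
    normAlong_ne_zero α₁ hfin₁ (by rwa [Ne, map_eq_zero]), c ^ finrankAlong L α,
    pow_ne_zero _ hc, ?_, ?_⟩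
  · have h5 := hecke_er₁ A π hπ harch N r hrN hlr hE' rfl α β α₁ β₁ hα hβ hα₁ hβ₁ h3
    rwa [algHom_smul' β, normAlong_smul] at h5
  · have h5 := hecke_er₂ A π hπ harch N r hrN hlr hE' rfl α β α₁ β₁ hα hβ hα₁ hβ₁ h4
    rw [algHom_smul' β, normAlong_smul] at h5
    convert h5 using 2
    rw [mul_pow, inv_pow]
    congr 2
    rw [mul_comm, zpow_mul, zpow_natCast]

end Slope

section Fixed

variable {L : Type*} [Field L] [IsAlgClosed L] [CharZero L] {M M' l : ℕ} [NeZero M] [NeZero M']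
  [NeZero l] {Γ₀ : Set (L ≃+* L)}

theorem push_pull_mem_fixD
    (α β : modularFunctionFieldFullC L M →ₐ[L] modularFunctionFieldFullC L M')
    (hα : ∀ x, (α x : LaurentSeries L) = x)
    (hβ : ∀ x, (β x : LaurentSeries L) = qExpand L l (x : LaurentSeries L))
    {D : Divisor L (modularFunctionFieldFullC L M)} (hD : D ∈ fixD (coefΓ L M Γ₀)) :
    push α (pull β D) ∈ fixD (coefΓ L M Γ₀) := by
  rintro g ⟨σ, hσ, hg⟩
  obtain ⟨g', hg'⟩ := exists_coefAut L M' σ
  have h1 : SemilinearAut.IntertwinesAlong α.toRingHom g g' := by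
    intro x
    apply Subtype.ext
    refine (hg' _).trans ?_
    rw [show ((α.toRingHom x : modularFunctionFieldFullC L M') : LaurentSeries L) = x from hα x,
      show ((α.toRingHom (g • x) : modularFunctionFieldFullC L M') : LaurentSeries L) =
        ((g • x : modularFunctionFieldFullC L M) : LaurentSeries L) from hα _, hg]
  have h2 : SemilinearAut.IntertwinesAlong β.toRingHom g g' := by
    intro x
    apply Subtype.ext
    refine (hg' _).trans ?_
    rw [show ((β.toRingHom x : modularFunctionFieldFullC L M') : LaurentSeries L) =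
        qExpand L l (x : LaurentSeries L) from hβ x,
      show ((β.toRingHom (g • x) : modularFunctionFieldFullC L M') : LaurentSeries L) =
        qExpand L l ((g • x : modularFunctionFieldFullC L M) : LaurentSeries L) from hβ _, hg,
      coeffMap_qExpand]
  rw [← push_smul α h1, ← pull_smul β h2, hD g ⟨σ, hσ, hg⟩]

end Fixed

section OverQb

local notation "Qb" => AlgebraicClosure ℚ

variable {A : ValuationSubring Qb}
  {κ : Type*} [Field κ] [IsAlgClosed κ] (π : A →+* κ) [IsLocalHom π]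
  (hπ : Function.Surjective π) (harch : ArchA π)
  (N r : ℕ) [hr : Fact r.Prime] [hN : NeZero N] [CharP κ r] (hrN : ¬ r ∣ N)
  (hA : A.LiesOverPrime r)
  (hg : genusFF κ (modularFunctionFieldFullC κ N) =
    genusFF Qb (modularFunctionFieldFullC Qb N))
  (d : CP.DecAut A π) (hd : CP.IsFrob d r)
  {l : ℕ} [hl : Fact l.Prime] (hlr : l ≠ r) (hlN : ¬ l ∣ N)
  (α β : modularFunctionFieldFullC Qb (N * r) →ₐ[Qb] modularFunctionFieldFullC Qb (N * r * l))
  (hα : ∀ x, (α x : LaurentSeries Qb) = x)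
  (hβ : ∀ x, (β x : LaurentSeries Qb) = qExpand Qb l (x : LaurentSeries Qb))

include hA hg hd hlr hlN hα hβ in
/-- **`(T_l - (l+1)) y` has divisible reductions** for `y` fixed by inertia. -/
theorem hecke_sub_mem_Zn (ι : Qb →+* ℂ) (hE : NodeCount.NoEll N r) {n : ℕ} (hn : n ≠ 0)
    {y : Pic0 Qb (modularFunctionFieldFullC Qb (N * r))} (hy : n • y = 0)
    (hI : ∀ g ∈ IΓ A (N * r), g • y = y) :
    haveI : NeZero (N * r) := ⟨mul_ne_zero (NeZero.ne N) hr.out.ne_zero⟩
    haveI : NeZero (N * r * l) := ⟨mul_ne_zero (mul_ne_zero hN.out hr.out.ne_zero) hl.out.ne_zero⟩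
    pushPic α (pullPic β y) - (l + 1) • y ∈ (twoVal A π hπ harch N r hrN).Zn n := by
  have i1 : NeZero (N * r) := ⟨mul_ne_zero (NeZero.ne N) hr.out.ne_zero⟩
  have i2 : NeZero (N * r * l) :=
    ⟨mul_ne_zero (mul_ne_zero hN.out hr.out.ne_zero) hl.out.ne_zero⟩
  have i3 : NeZero (N * l) := ⟨mul_ne_zero hN.out hl.out.ne_zero⟩
  obtain ⟨D, hDy, hD, f, hf0, hf, hfD⟩ := exists_rat_rep (N * r) hI hy
  obtain ⟨hfin, Z, H, -, -⟩ := exists_KLQ π hπ harch N r hrN hA hg d hd ι hE
  set R := RQ π hπ harch N r hrN hA hg d hd with hR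
  obtain ⟨s, x₁, x₂, hs⟩ := R.exists_slopeAt hf hf0
  have hdeg : finrankAlong Qb α = l + 1 := by
    refine finrankAlong_alpha_eq (N := N * r) (p := l) ?_ ?_ ?_ rfl rfl α hα
    · exact Nat.cast_ne_zero.mpr (NeZero.ne _)
    · exact Nat.cast_ne_zero.mpr hl.out.ne_zero
    · rw [hl.out.dvd_mul]
      rintro (h | h)
      · exact hlN h
      · exact hlr ((Nat.prime_dvd_prime_iff_eq hl.out hr.out).mp h)
  have hs1 := slopeAt_hecke A π hπ harch N r hrN hlr rfl rfl α β (alpha1 κ N l) (beta1 κ N l) hα hβ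
    (coe_alpha1 κ N l) (coe_beta1 κ N l) hs
  have hs2 := hs1.mul (hs.pow R.ne (l + 1)).inv R.ne
  rw [hdeg, add_neg_cancel] at hs2
  set D' : Divisor Qb (modularFunctionFieldFullC Qb (N * r)) :=
    push α (pull β (D : Divisor Qb (modularFunctionFieldFullC Qb (N * r)))) -
      (l + 1) • (D : Divisor Qb (modularFunctionFieldFullC Qb (N * r))) with hD'
  have hD'mem : D' ∈ R.𝒟 :=
    AddSubgroup.sub_mem _ (push_pull_mem_fixD α β hα hβ hD) (AddSubgroup.nsmul_mem _ hD _)
  have hNf : normAlong α (β f) ≠ 0 := hs1.ne_zero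
  have hord : ∀ v : Place Qb (modularFunctionFieldFullC Qb (N * r)),
      (n : ℤ) * D' v = v.ord (normAlong α (β f) * (f ^ (l + 1))⁻¹) := by
    intro v
    rw [v.ord_mul hNf (inv_ne_zero (pow_ne_zero _ hf0)), v.ord_inv, ord_pow,
      ← push_pull_ord α β hf0 hfD, ← hfD, hD', Finsupp.sub_apply, Finsupp.smul_apply,
      nsmul_eq_mul]
    ring
  obtain ⟨B₁, B₂, hB⟩ := H.isSp R hD'mem hs2 hord (dvd_zero _)
  have h4 := TwoVal.mem_Zn_of_isSp hn hB
  convert h4 using 1
  rw [← hDy]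
  rfl

end OverQb

end Fermat.Agent.BadRed
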