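import Fermat.Agent.BadRed.HeckeSp
import Fermat.Agent.BadRed.LocalPkgQb
import Fermat.Agent.PIC.CharP
import Fermat.Agent.BadRed.ZnConc

/-!
# The specialisation map of `X₀(N r)` at `r`, as a package
-/

set_option autoImplicit false
set_option linter.unusedSectionVars false

noncomputable section

open HahnSeries ModularCurve Module Polynomial AlgebraicCurve IntermediateField

namespace Fermat.Agent.BadRed

open Fermat.Agent.Igusa Fermat.Agent.AtkinLehner Fermat.Agent.HeckeRed Fermat.Agent.FunField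

section Full

variable {L : Type*} [Field L] [IsAlgClosed L] [CharZero L] (A : ValuationSubring L)
  {κ : Type*} [Field κ] [IsAlgClosed κ] (π : A →+* κ) [IsLocalHom π]
  (hπ : Function.Surjective π) (harch : ArchA π)
  (N r : ℕ) [hr : Fact r.Prime] [hN : NeZero N] [CharP κ r] (hrN : ¬ r ∣ N)

/-- `sp` commutes with Hecke operators. -/
theorem sp_hecke {l : ℕ} [hl : Fact l.Prime] [NeZero l] (hlr : l ≠ r) {n : ℕ} (hn : n ≠ 0)
    {E' : IntermediateField L (LaurentSeries L)} [IsFF L E']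
    (hE' : E' = modularFunctionFieldFullC L (N * r * l))
    (α β : modularFunctionFieldFullC L (N * r) →ₐ[L] E')
    (hα : ∀ x, (α x : LaurentSeries L) = x)
    (hβ : ∀ x, (β x : LaurentSeries L) = qExpand L l (x : LaurentSeries L))
    (hαi : α.toRingHom.IsIntegral) (hβi : β.toRingHom.IsIntegral) (hαf : FiniteAlong L α)
    (hFI : FundamentalIdentityAlong L β hβi) (hNF : NormFormulaAlong L α hαf)
    {x : Pic0 L (modularFunctionFieldFullC L (N * r))}
    (hx : x ∈ (twoVal A π hπ harch N r hrN).Zn n) :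
    ∃ h : Pic0.correspondence β α hβi hαi hFI hαf hNF x ∈ (twoVal A π hπ harch N r hrN).Zn n,
      TwoVal.sp hn ⟨_, h⟩ =
        (PIC.heckeC κ N l (TwoVal.sp hn ⟨x, hx⟩).1, PIC.heckeC κ N l (TwoVal.sp hn ⟨x, hx⟩).2) := by
  have hne : NeZero (N * l) := ⟨mul_ne_zero (NeZero.ne N) hl.out.ne_zero⟩
  exact sp_correspondence hβi hαi hαf hFI hNF (HeckeRed.isIntegral_of_isFF (beta1 κ N l))
    (HeckeRed.isIntegral_of_isFF (alpha1 κ N l)) (finiteAlong_of_isFF (alpha1 κ N l))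
    (HeckeRed.fundamentalIdentityAlong _ _ (finiteAlong_of_isFF (beta1 κ N l))) (HeckeRed.normFormulaAlong _ _)
    (fun h => hecke_er₁ A π hπ harch N r hrN hlr hE' rfl α β (alpha1 κ N l) (beta1 κ N l) hα hβ
      (coe_alpha1 κ N l) (coe_beta1 κ N l) h)
    (fun h => hecke_er₂ A π hπ harch N r hrN hlr hE' rfl α β (alpha1 κ N l) (beta1 κ N l) hα hβ
      (coe_alpha1 κ N l) (coe_beta1 κ N l) h) hn hx

end Full


section Pkg

local notation "Qb" => AlgebraicClosure ℚ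

open Degen

/-- the specialisation package at a prime `r` exactly dividing the level `N r`, generic field -/
structure IsSpec (κ : Type) [Field κ] [IsAlgClosed κ] (A : ValuationSubring Qb)
    (N r n : ℕ) [NeZero N] {E : IntermediateField Qb (LaurentSeries Qb)} [IsFF Qb E]
    (NN Zn : AddSubgroup (Pic0 Qb E))
    (sp : Zn →+ Pic0 κ (modularFunctionFieldFullC κ N) × Pic0 κ (modularFunctionFieldFullC κ N)) :
    Prop where
  ker : ∀ x : Zn, sp x = 0 → (x : Pic0 Qb E) ∈ NN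
  frob : ∀ (g : SemilinearAut Qb E) (σ : Qb ≃ₐ[ℚ] Qb), A.IsFrobeniusAt σ r →
    IsCoeff (σ : Qb ≃+* Qb) g → ∀ y ∈ NN, g • g • y = (r * r) • y
  hecke : ∀ (l : ℕ) [Fact l.Prime] [NeZero l] (_ : l ≠ r)
    (E' : IntermediateField Qb (LaurentSeries Qb)) [IsFF Qb E']
    (_ : E' = modularFunctionFieldFullC Qb (N * r * l)) (α β : E →ₐ[Qb] E')
    (_ : ∀ x, (α x : LaurentSeries Qb) = x)
    (_ : ∀ x, (β x : LaurentSeries Qb) = qExpand Qb l (x : LaurentSeries Qb))
    (x : Pic0 Qb E) (hx : x ∈ Zn), ∃ h : pushPic α (pullPic β x) ∈ Zn,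
      sp ⟨_, h⟩ = (PIC.heckeC κ N l (sp ⟨x, hx⟩).1, PIC.heckeC κ N l (sp ⟨x, hx⟩).2)
  eis : ∀ (l : ℕ) [Fact l.Prime] [NeZero l] (_ : l ≠ r) (_ : ¬ l ∣ N)
    (E' : IntermediateField Qb (LaurentSeries Qb)) [IsFF Qb E']
    (_ : E' = modularFunctionFieldFullC Qb (N * r * l)) (α β : E →ₐ[Qb] E')
    (_ : ∀ x, (α x : LaurentSeries Qb) = x)
    (_ : ∀ x, (β x : LaurentSeries Qb) = qExpand Qb l (x : LaurentSeries Qb))
    (y : Pic0 Qb E) (_ : n • y = 0)
    (_ : ∀ (g : SemilinearAut Qb E) (σ : Qb ≃ₐ[ℚ] Qb), σ ∈ A.inertiaSubgroupIn ℚ →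
      IsCoeff (σ : Qb ≃+* Qb) g → g • y = y),
    pushPic α (pullPic β y) - (l + 1) • y ∈ Zn

theorem correspondence_eq {K F F' : Type*} [Field K] [Field F] [Field F'] [Algebra K F]
    [Algebra K F'] [IsAlgClosed K] [IsFF K F] [IsFF K F'] (α β : F →ₐ[K] F')
    (hαi : α.toRingHom.IsIntegral) (hβi : β.toRingHom.IsIntegral) (hαf : FiniteAlong K α)
    (hFI : FundamentalIdentityAlong K β hβi) (hNF : NormFormulaAlong K α hαf) (x : Pic0 K F) :
    Pic0.correspondence β α hβi hαi hFI hαf hNF x = pushPic α (pullPic β x) := by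
  obtain ⟨D, rfl⟩ := Pic0.mk_surjective x
  rfl

variable {A : ValuationSubring Qb}
  {κ : Type} [Field κ] [IsAlgClosed κ] (π : A →+* κ) [IsLocalHom π]
  (hπ : Function.Surjective π) (harch : ArchA π)
  (N r : ℕ) [hr : Fact r.Prime] [hN : NeZero N] [CharP κ r] (hrN : ¬ r ∣ N)
  (hA : A.LiesOverPrime r)
  (hg : genusFF κ (modularFunctionFieldFullC κ N) =
    genusFF Qb (modularFunctionFieldFullC Qb N))
  (d : CP.DecAut A π) (hd : CP.IsFrob d r)
  (hfr : ∀ σ : Qb ≃ₐ[ℚ] Qb, A.IsFrobeniusAt σ r → ∃ hσ : ∀ a, a ∈ A ↔ (σ : Qb ≃+* Qb) a ∈ A,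
    ∀ a : A, π ⟨(σ : Qb ≃+* Qb) a, (hσ a).mp a.2⟩ = π a ^ r)

include hπ harch hrN hA hg hd hfr in
/-- **The specialisation package**. -/
theorem exists_isSpec (ι : Qb →+* ℂ) (hE : NodeCount.NoEll N r) {n : ℕ} (hn : (n : κ) ≠ 0)
    {E : IntermediateField Qb (LaurentSeries Qb)} [IsFF Qb E]
    (hEE : E = modularFunctionFieldFullC Qb (N * r)) :
    ∃ (NN Zn : AddSubgroup (Pic0 Qb E)) (sp : Zn →+ Pic0 κ (modularFunctionFieldFullC κ N) ×
      Pic0 κ (modularFunctionFieldFullC κ N)), IsSpec κ A N r n NN Zn sp := by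
  have hn0 : n ≠ 0 := by
    rintro rfl
    exact hn (by simp)
  have i1 : NeZero (N * r) := ⟨mul_ne_zero (NeZero.ne N) hr.out.ne_zero⟩
  subst hEE
  have HL := isLocNN_full A π hπ harch N r hrN hg d hd hn
    (inclusion (full_degeneracyC_le Qb (Dvd.intro r rfl)))
    (haveI : NeZero r := ⟨hr.out.ne_zero⟩; beta1 Qb N r) (fun x => coe_inclusion _ x)
    (fun x => rfl)
  refine ⟨(twoVal A π hπ harch N r hrN).NN n, (twoVal A π hπ harch N r hrN).Zn n,
    TwoVal.sp hn0, fun x hx => TwoVal.mem_NN_of_sp_eq_zero hn0 hx, ?_, ?_, ?_⟩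
  · intro g σ hσ hg y hy
    obtain ⟨h1, h2⟩ := hfr σ hσ
    exact (HL.frob (σ : Qb ≃+* Qb) h1 h2 g hg).1 y hy
  · intro l _ _ hlr E' _ hE' α β hα hβ x hx
    have h1 := sp_hecke A π hπ harch N r hrN hlr hn0 hE' α β hα hβ
      (HeckeRed.isIntegral_of_isFF α) (HeckeRed.isIntegral_of_isFF β) (finiteAlong_of_isFF α)
      (HeckeRed.fundamentalIdentityAlong _ _ (finiteAlong_of_isFF β))
      (HeckeRed.normFormulaAlong _ _) hx
    rw [correspondence_eq] at h1
    exact h1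
  · intro l hl _ hlr hlN E' _ hE' α β hα hβ y hy hI
    subst hE'
    exact hecke_sub_mem_Zn π hπ harch N r hrN hA hg d hd hlr hlN α β hα hβ ι hE hn0 hy
      (fun g hg => by
        obtain ⟨σ, ⟨s, hs, rfl⟩, hg⟩ := hg
        exact hI g s hs hg)

end Pkg

end Fermat.Agent.BadRed
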