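import Fermat.Agent.BadRed.Galois

/-!
# Two residually transcendental valuations; normalisation of torsion classes
-/

set_option autoImplicit false

noncomputable section

open AlgebraicCurve Module IntermediateField

namespace Fermat.Agent.BadRed

open Fermat.Agent.FunField Fermat.Agent.FunField.PlaceLemmas Fermat.Agent.Deuring

variable {L k : Type*} [Field L] [Field k]

/-- a valuation ring `O` of `F` above `A` with residue field `F₁` and enough constants -/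
structure ResVal (A : ValuationSubring L) (π : A →+* k) (F F₁ : Type*) [Field F] [Field F₁]
    [Algebra L F] [Algebra k F₁] where
  O : ValuationSubring F
  r : O →+* F₁
  mem_iff : ∀ a : L, algebraMap L F a ∈ O ↔ a ∈ A
  r_ker : ∀ f : O, r f = 0 ↔ ¬ IsUnit f
  r_algebraMap : ∀ a : A,
    r ⟨algebraMap L F (a : L), (mem_iff (a : L)).mpr a.2⟩ = algebraMap k F₁ (π a)
  scale : ∀ f : F, f ≠ 0 → ∃ c : L, c ≠ 0 ∧ ∃ h : c • f ∈ O, r ⟨c • f, h⟩ ≠ 0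

variable {F F₁ : Type*} [Field F] [Field F₁] [Algebra L F] [Algebra k F₁]

namespace ResVal

variable {A : ValuationSubring L} {π : A →+* k} (V : ResVal A π F F₁)

/-- a constant -/
def cst (a : A) : V.O := ⟨algebraMap L F (a : L), (V.mem_iff (a : L)).mpr a.2⟩

@[simp] theorem coe_cst (a : A) : ((V.cst a : V.O) : F) = algebraMap L F (a : L) := rfl

@[simp] theorem r_cst (a : A) : V.r (V.cst a) = algebraMap k F₁ (π a) := V.r_algebraMap a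

theorem ne_zero_of_r {f : V.O} (hf : V.r f ≠ 0) : (f : F) ≠ 0 := by
  intro h
  have : f = 0 := Subtype.ext h
  rw [this, map_zero] at hf
  exact hf rfl

theorem inv_mem {f : V.O} (hf : V.r f ≠ 0) :
    ∃ h : (f : F)⁻¹ ∈ V.O, V.r ⟨(f : F)⁻¹, h⟩ = (V.r f)⁻¹ := by
  have hu : IsUnit f := by
    by_contra h
    exact hf ((V.r_ker f).mpr h)
  obtain ⟨g, hg⟩ := hu.exists_right_inv
  have hg' : (f : F) * g = 1 := congrArg Subtype.val hg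
  have h1 : (f : F)⁻¹ = g := inv_eq_of_mul_eq_one_right hg'
  refine ⟨by rw [h1]; exact g.2, ?_⟩
  have h2 : (⟨(f : F)⁻¹, by rw [h1]; exact g.2⟩ : V.O) = g := Subtype.ext h1
  rw [h2]
  apply eq_inv_of_mul_eq_one_left
  rw [← map_mul, mul_comm, hg, map_one]

/-- an element with zero residue is divisible by a constant in the maximal ideal -/
theorem exists_dvd (hA : ∀ a : A, π a = 0 ↔ ¬ IsUnit a) {f : V.O} (hf : V.r f = 0)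
    (hf0 : (f : F) ≠ 0) :
    ∃ ε : A, (ε : L) ≠ 0 ∧ π ε = 0 ∧ ∃ g : V.O, (f : F) = algebraMap L F (ε : L) * g := by
  obtain ⟨c, hc0, hcO, hres⟩ := V.scale f hf0
  have hcA : c ∉ A := by
    intro hc
    apply hres
    have h1 : (⟨c • (f : F), hcO⟩ : V.O) = V.cst ⟨c, hc⟩ * f := by
      apply Subtype.ext
      push_cast
      rw [coe_cst, Algebra.smul_def]
    rw [h1, map_mul, hf, mul_zero]
  have hinv : c⁻¹ ∈ A := (A.mem_or_inv_mem c).resolve_left hcA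
  refine ⟨⟨c⁻¹, hinv⟩, inv_ne_zero hc0, ?_, ⟨c • (f : F), hcO⟩, ?_⟩
  · rw [hA]
    intro hu
    apply hcA
    obtain ⟨b', hb'⟩ := hu.exists_right_inv
    have h1 : c⁻¹ * (b' : L) = 1 := congrArg Subtype.val hb'
    have h2 : c = b' := by
      field_simp at h1
      exact h1.symm
    rw [h2]
    exact b'.2
  · show (f : F) = algebraMap L F c⁻¹ * (c • (f : F))
    rw [Algebra.smul_def, ← mul_assoc, ← map_mul, inv_mul_cancel₀ hc0, map_one, one_mul]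

end ResVal

variable (L k F F₁) in
/-- two residually transcendental valuations with joint orthonormal bases -/
structure TwoVal where
  A : ValuationSubring L
  π : A →+* k
  π_surj : Function.Surjective π
  π_ker : ∀ a : A, π a = 0 ↔ ¬ IsUnit a
  V₁ : ResVal A π F F₁
  V₂ : ResVal A π F F₁
  surj : ∀ x y : F₁, ∃ (f : F) (h₁ : f ∈ V₁.O) (h₂ : f ∈ V₂.O), V₁.r ⟨f, h₁⟩ = x ∧ V₂.r ⟨f, h₂⟩ = y
  lat : ∀ V : Submodule L F, FiniteDimensional L V →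
    ∃ (b : Fin (finrank L V) → F) (h₁ : ∀ i, b i ∈ V₁.O) (h₂ : ∀ i, b i ∈ V₂.O), (∀ i, b i ∈ V) ∧
      LinearIndependent k (fun i => ((V₁.r ⟨b i, h₁ i⟩, V₂.r ⟨b i, h₂ i⟩) : F₁ × F₁))

namespace TwoVal

variable (T : TwoVal L k F F₁)

/-- the joint reduction map -/
def jres : (T.V₁.O.toSubring ⊓ T.V₂.O.toSubring : Subring F) →+* F₁ × F₁ :=
  RingHom.prod (T.V₁.r.comp (Subring.inclusion inf_le_left))
    (T.V₂.r.comp (Subring.inclusion inf_le_right))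

/-- the reduction data -/
def toRData : RData L k F (F₁ × F₁) where
  A := T.A
  O := T.V₁.O.toSubring ⊓ T.V₂.O.toSubring
  π := T.π
  res := T.jres
  mem_iff a := ⟨fun h => (T.V₁.mem_iff a).mp h.1,
    fun h => ⟨(T.V₁.mem_iff a).mpr h, (T.V₂.mem_iff a).mpr h⟩⟩
  π_surj := T.π_surj
  π_ker := T.π_ker
  res_surj := by
    rintro ⟨x, y⟩
    obtain ⟨f, h₁, h₂, e₁, e₂⟩ := T.surj x y
    exact ⟨⟨f, h₁, h₂⟩, Prod.ext e₁ e₂⟩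
  res_algebraMap a := Prod.ext (T.V₁.r_algebraMap a) (T.V₂.r_algebraMap a)
  lat := by
    intro V hV
    obtain ⟨b, h₁, h₂, hb, hli⟩ := T.lat V hV
    exact ⟨fun i => ⟨b i, h₁ i, h₂ i⟩, hb, hli⟩

theorem mem_O {f : F} : f ∈ T.toRData.O ↔ f ∈ T.V₁.O ∧ f ∈ T.V₂.O := Iff.rfl

theorem res_eq (f : T.toRData.O) :
    T.toRData.res f = (T.V₁.r ⟨f, f.2.1⟩, T.V₂.r ⟨f, f.2.2⟩) := rfl

/-- rank one hypothesis -/
def Arch : Prop := ∀ ε : T.A, (ε : L) ≠ 0 → T.π ε = 0 → ∀ a : L, a ≠ 0 →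
      ∃ m : ℕ, a * ((ε : L) ^ m)⁻¹ ∉ T.A

theorem exists_small (harch : T.Arch) {ε : T.A} (hε0 : (ε : L) ≠ 0) (hε : T.π ε = 0) {a : L}
    (ha : a ≠ 0) : ∃ (m : ℕ) (b : T.A), (b : L) = a * (ε : L) ^ m ∧ T.π b = 0 := by
  obtain ⟨m, hm⟩ := harch ε hε0 hε a⁻¹ (inv_ne_zero ha)
  have h1 : (a⁻¹ * ((ε : L) ^ m)⁻¹)⁻¹ ∈ T.A := (T.A.mem_or_inv_mem _).resolve_left hm
  have h2 : (a⁻¹ * ((ε : L) ^ m)⁻¹)⁻¹ = a * (ε : L) ^ m := by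
    rw [mul_inv, inv_inv, inv_inv]
  rw [h2] at h1
  refine ⟨m, ⟨_, h1⟩, rfl, ?_⟩
  rw [T.π_ker]
  intro hu
  apply hm
  obtain ⟨b', hb'⟩ := hu.exists_right_inv
  have h3 : (a * (ε : L) ^ m) * (b' : L) = 1 := congrArg Subtype.val hb'
  have h4 : a⁻¹ * ((ε : L) ^ m)⁻¹ = b' := by
    rw [← mul_inv]
    exact inv_eq_of_mul_eq_one_right h3
  rw [h4]
  exact b'.2

/-- one-sided weak approximation. -/
theorem approx_aux (harch : T.Arch) (V V' : ResVal T.A T.π F F₁) {d d' : L} (hd : d ≠ 0)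
    (hd' : d' ≠ 0) {x y : F} (hx : x ∈ V.O) (hx' : x ∈ V'.O) (hy : y ∈ V.O) (hy' : y ∈ V'.O)
    (hy1 : V.r ⟨y, hy⟩ = 1) (hy0 : V'.r ⟨y, hy'⟩ = 0) :
    ∃ h : F, (∃ h₁ : d • h ∈ V.O, V.r ⟨d • h, h₁⟩ = V.r ⟨x, hx⟩) ∧
      (∃ h₂ : d' • h ∈ V'.O, V'.r ⟨d' • h, h₂⟩ = 0) := by
  have hyne : y ≠ 0 := by
    rintro rfl
    have : (⟨0, hy⟩ : V.O) = 0 := rfl
    rw [this, map_zero] at hy1
    exact zero_ne_one hy1
  obtain ⟨ε, hε0, hε, ⟨y', hy'O⟩, hyy'⟩ := V'.exists_dvd T.π_ker (f := ⟨y, hy'⟩) hy0 hyne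
  obtain ⟨M, b, hb, hb0⟩ := T.exists_small harch hε0 hε (mul_ne_zero hd' (inv_ne_zero hd))
  change y = algebraMap L F (ε : L) * y' at hyy'
  refine ⟨d⁻¹ • (x * y ^ M), ?_, ?_⟩
  · have h1 : d • d⁻¹ • (x * y ^ M) = x * y ^ M := by
      rw [smul_smul, mul_inv_cancel₀ hd, one_smul]
    have h2 : d • d⁻¹ • (x * y ^ M) ∈ V.O := by rw [h1]; exact mul_mem hx (pow_mem hy M)
    refine ⟨h2, ?_⟩
    have h3 : (⟨_, h2⟩ : V.O) = ⟨x, hx⟩ * ⟨y, hy⟩ ^ M := Subtype.ext h1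
    rw [h3, map_mul, map_pow, hy1, one_pow, mul_one]
  · have h1 : d' • d⁻¹ • (x * y ^ M) = algebraMap L F (b : L) * (x * y' ^ M) := by
      rw [hb, smul_smul, Algebra.smul_def, hyy', mul_pow, map_mul, map_mul, map_pow]
      rw [map_mul]
      ring
    have h2 : d' • d⁻¹ • (x * y ^ M) ∈ V'.O := by
      rw [h1]; exact mul_mem ((V'.mem_iff _).mpr b.2) (mul_mem hx' (pow_mem hy'O M))
    refine ⟨h2, ?_⟩
    have h3 : (⟨_, h2⟩ : V'.O) = V'.cst b * (⟨x, hx'⟩ * ⟨y', hy'O⟩ ^ M) := Subtype.ext h1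
    rw [h3, map_mul, V'.r_cst, hb0, map_zero, zero_mul]

/-- **Weak approximation.** -/
theorem approx (harch : T.Arch) {d₁ d₂ : L} (hd₁ : d₁ ≠ 0) (hd₂ : d₂ ≠ 0) (a₁ a₂ : F₁) :
    ∃ h : F, (∃ h₁ : d₁ • h ∈ T.V₁.O, T.V₁.r ⟨d₁ • h, h₁⟩ = a₁) ∧
      (∃ h₂ : d₂ • h ∈ T.V₂.O, T.V₂.r ⟨d₂ • h, h₂⟩ = a₂) := by
  obtain ⟨x₁, hx₁₁, hx₁₂, ex₁₁, ex₁₂⟩ := T.surj a₁ 0
  obtain ⟨x₂, hx₂₁, hx₂₂, ex₂₁, ex₂₂⟩ := T.surj 0 a₂
  obtain ⟨y₁, hy₁₁, hy₁₂, ey₁₁, ey₁₂⟩ := T.surj 1 0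
  obtain ⟨y₂, hy₂₁, hy₂₂, ey₂₁, ey₂₂⟩ := T.surj 0 1
  obtain ⟨u, ⟨hu₁, eu₁⟩, ⟨hu₂, eu₂⟩⟩ := T.approx_aux harch T.V₁ T.V₂ hd₁ hd₂ hx₁₁ hx₁₂ hy₁₁ hy₁₂
    ey₁₁ ey₁₂
  obtain ⟨v, ⟨hv₂, ev₂⟩, ⟨hv₁, ev₁⟩⟩ := T.approx_aux harch T.V₂ T.V₁ hd₂ hd₁ hx₂₂ hx₂₁ hy₂₂ hy₂₁
    ey₂₂ ey₂₁
  refine ⟨u + v, ?_, ?_⟩
  · have h2 : d₁ • (u + v) ∈ T.V₁.O := by rw [smul_add]; exact add_mem hu₁ hv₁
    refine ⟨h2, ?_⟩
    have h3 : (⟨_, h2⟩ : T.V₁.O) = ⟨_, hu₁⟩ + ⟨_, hv₁⟩ := Subtype.ext (smul_add _ _ _)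
    rw [h3, map_add, eu₁, ev₁, ex₁₁, add_zero]
  · have h2 : d₂ • (u + v) ∈ T.V₂.O := by rw [smul_add]; exact add_mem hu₂ hv₂
    refine ⟨h2, ?_⟩
    have h3 : (⟨_, h2⟩ : T.V₂.O) = ⟨_, hu₂⟩ + ⟨_, hv₂⟩ := Subtype.ext (smul_add _ _ _)
    rw [h3, map_add, eu₂, ev₂, ex₂₂, zero_add]

end TwoVal

end Fermat.Agent.BadRed
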