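import Fermat.Agent.BadRed.LocalPkgQb
import Fermat.Agent.ZAL.WHecke

/-!
# The local conditions at odd primes exactly dividing the level (Z-LOC)
-/

set_option autoImplicit false
set_option linter.unusedSectionVars false

noncomputable section

open AlgebraicCurve ModularCurve

namespace Fermat.Agent.BadRed

open Fermat.Agent.ZAL Fermat.Agent.TorsCmp Fermat.Agent.X0Places Fermat.Agent.Degen
  Fermat.Agent.FunField

section W

variable {L : Type*} [Field L] [Algebra ℚ L] (ι : L →+* ℂ)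

theorem star_coprime {k v : ℕ} (h : Nat.Coprime k v) : ZAL.star k v = v * k := by
  unfold ZAL.star
  rw [h.gcd_eq_one, Nat.div_one, Nat.div_one, mul_comm]

variable {N M v : ℕ} [NeZero N] [NeZero M]

theorem wF_alpha_eq_beta (hv : v.Prime) (hM : M = N * v) (h : ExDiv v M)
    (α β : FF L N →ₐ[L] FF L M) (hα : ∀ x, (α x : LaurentSeries L) = x)
    (hβ : ∀ x, (β x : LaurentSeries L) =
      (haveI : NeZero v := ⟨hv.ne_zero⟩; qExpand L v (x : LaurentSeries L))) (x : FF L N) :
    wF ι h (α x) = β x := by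
  have hv0 : NeZero v := ⟨hv.ne_zero⟩
  have hvN : Nat.Coprime v N := by
    have h1 := h.cop
    rwa [hM, Nat.mul_div_cancel _ hv.pos] at h1
  have h1 : (wF ι h : FF L M →+* FF L M).comp (α : FF L N →+* FF L M) =
      (β : FF L N →+* FF L M) := by
    apply ff_ringHom_ext_gen
    · intro c
      show wF ι h (α (algebraMap L (FF L N) c)) = β (algebraMap L (FF L N) c)
      rw [AlgHom.commutes, AlgEquiv.commutes, AlgHom.commutes]
    · intro k _ hk
      have hk0 : 0 < k := Nat.pos_of_ne_zero (NeZero.ne k)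
      have h2 : NeZero (ZAL.star k v) := ⟨(star_pos hk0 hv.pos).ne'⟩
      have h3 : NeZero (v * k) := ⟨(Nat.mul_pos hv.pos hk0).ne'⟩
      have hkM : k ∣ M := hM ▸ hk.mul_right v
      have hkM' : v * k ∣ M := by rw [hM, mul_comm N v]; exact Nat.mul_dvd_mul_left v hk
      have e1 : α (jdF L N k hk) = jdF L M k hkM := by
        apply Subtype.ext
        rw [hα]
        rfl
      have e2 : β (jdF L N k hk) = jdF L M (v * k) hkM' := by
        apply Subtype.ext
        rw [hβ]
        show qExpand L v (coeffEmb L (qExpand ℚ k jq)) = coeffEmb L (qExpand ℚ (v * k) jq)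
        rw [coeffEmb, ← coeffMap_qExpand, qExpand_qExpand]
      show wF ι h (α (jdF L N k hk)) = β (jdF L N k hk)
      rw [e1, e2, wF_jdF]
      have e3 : ZAL.star k v = v * k := star_coprime (hvN.symm.coprime_dvd_left hk)
      exact jdF_congr e3 _ _
  exact RingHom.congr_fun h1 x

end W

local notation "Qb" => AlgebraicClosure ℚ

variable {N M v : ℕ} [NeZero N] [NeZero M]

/-- the toric package, with helper5's Atkin-Lehner involution -/
theorem exists_isToric_wF (hv : v.Prime) (hM : M = N * v) (h : ExDiv v M)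
    (A : ValuationSubring Qb) (hA : A.LiesOverPrime v) {n : ℕ} (hn : ¬ v ∣ n)
    (α β : modularFunctionFieldBar N →ₐ[Qb] modularFunctionFieldBar M)
    (hα : ∀ x, (α x : LaurentSeries Qb) = x)
    (hβ : ∀ x, (β x : LaurentSeries Qb) =
      (haveI : NeZero v := ⟨hv.ne_zero⟩; qExpand Qb v (x : LaurentSeries Qb))) :
    ∃ NN : AddSubgroup (JZero M), IsToric A v n α β (wF iotaQbar h) NN := by
  have hvN : ¬ v ∣ N := by
    have h1 := h.cop
    rw [hM, Nat.mul_div_cancel _ hv.pos] at h1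
    exact (Nat.Prime.coprime_iff_not_dvd hv).mp h1
  have e1 := wF_alpha_eq_beta iotaQbar hv hM h α β hα hβ
  exact exists_isToric hv hM hvN A hA hn α β hα hβ (wF iotaQbar h) e1
    fun x => by rw [← e1, wF_wF]

/-- **Z-LOC** -/
theorem zloc (hv : v.Prime) (hM : M = N * v) (h : ExDiv v M)
    (A : ValuationSubring Qb) (hA : A.LiesOverPrime v) {n : ℕ} (hn : ¬ v ∣ n)
    (α β : modularFunctionFieldBar N →ₐ[Qb] modularFunctionFieldBar M)
    (hα : ∀ x, (α x : LaurentSeries Qb) = x)
    (hβ : ∀ x, (β x : LaurentSeries Qb) =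
      (haveI : NeZero v := ⟨hv.ne_zero⟩; qExpand Qb v (x : LaurentSeries Qb)))
    {s s' Φ : Qb ≃ₐ[ℚ] Qb} (hs : s ∈ A.inertiaSubgroupIn ℚ) (hs' : s' ∈ A.inertiaSubgroupIn ℚ)
    (hΦ : A.IsFrobeniusAt Φ v) {x : JZero M} (hx : n • x = 0) (h1 : pushPic α x = 0)
    (h2 : pushPic β x = 0) :
    s' • (s • x - x) = s • x - x ∧
    s' • (Φ • x + wS iotaQbar h • x) = Φ • x + wS iotaQbar h • x ∧
    Φ • Φ • (s • x - x) = (v * v) • (s • x - x) ∧
    Φ • Φ • (Φ • x + wS iotaQbar h • x) = (v * v) • (Φ • x + wS iotaQbar h • x) := by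
  obtain ⟨NN, H⟩ := exists_isToric_wF hv hM h A hA hn α β hα hβ
  have m1 := H.inertia_sub s hs x hx
  have m2 : Φ • x + wS iotaQbar h • x ∈ NN := H.frob_add Φ hΦ x hx h1 h2
  exact ⟨H.inertia_fix s' hs' _ m1, H.inertia_fix s' hs' _ m2, H.frob_sq Φ hΦ _ m1,
    H.frob_sq Φ hΦ _ m2⟩

end Fermat.Agent.BadRed
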