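import Fermat.Agent.BadRed.ZnConc
import Fermat.Agent.Degen.HeckeEq

/-!
# Push-forward of classes with divisible reductions
-/

set_option autoImplicit false
set_option linter.unusedSectionVars false

noncomputable section

open AlgebraicCurve Module IntermediateField ModularCurve HahnSeries

namespace Fermat.Agent.BadRed

open Fermat.Agent.FunField Fermat.Agent.FunField.PlaceLemmas Fermat.Agent.Igusa
  Fermat.Agent.Deuring Fermat.Agent.AtkinLehner Fermat.Agent.HeckeRed Fermat.Agent.Degen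

section Abs

variable {L k : Type*} [Field L] [Field k] [IsAlgClosed L] [IsAlgClosed k]
variable {F F' F₁ F₁' : Type*} [Field F] [Field F'] [Field F₁] [Field F₁'] [Algebra L F]
  [Algebra L F'] [Algebra k F₁] [Algebra k F₁'] [IsFF L F] [IsFF L F'] [IsFF k F₁] [IsFF k F₁']
  [HasPrincipalDivisors L F] [HasPrincipalDivisors L F'] [HasPrincipalDivisors k F₁]
  [HasPrincipalDivisors k F₁']

theorem push_ord (δ : F →ₐ[L] F') {n : ℕ} {D : Divisor L F'} {f : F'} (hf : f ≠ 0)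
    (h : ∀ v : Place L F', (n : ℤ) * D v = v.ord f) (v : Place L F) :
    (n : ℤ) * (push δ D) v = v.ord (normAlong δ f) := by
  have h1 : (n : ℤ) • D = divOf f := by
    ext v
    rw [divOf_apply, ← h v]
    rfl
  have h2 : (n : ℤ) • push δ D = divOf (normAlong δ f) := by
    rw [← push_divOf δ hf, ← h1, map_zsmul]
  have h3 := DFunLike.congr_fun h2 v
  rw [divOf_apply] at h3
  rw [← h3]
  rfl

theorem hasRes_normAlong' {A A' : ValuationSubring L} {π : A →+* k} {π' : A' →+* k}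
    {V : ResVal A π F F₁} {V' : ResVal A' π' F' F₁'} (δ : F →ₐ[L] F') (δ₁ : F₁ →ₐ[k] F₁')
    (h : ∀ f y, V'.ER f y → V.ER (normAlong δ f) (normAlong δ₁ y)) {f : F'} {x : F₁'}
    (hx : V'.HasRes f x) : V.HasRes (normAlong δ f) (normAlong δ₁ x) := by
  obtain ⟨c, hc, hcx⟩ := hx
  refine ResVal.ER.hasRes (c := c ^ finrankAlong L δ) (pow_ne_zero _ hc) ?_
  rw [← normAlong_smul]
  exact h _ _ hcx

variable {T : TwoVal L k F F₁} {T' : TwoVal L k F' F₁'} (δ : F →ₐ[L] F') (δ₁ : F₁ →ₐ[k] F₁')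
  (h₁ : ∀ f y, T'.V₁.ER f y → T.V₁.ER (normAlong δ f) (normAlong δ₁ y))
  (h₂ : ∀ f y, T'.V₂.ER f y → T.V₂.ER (normAlong δ f) (normAlong δ₁ y))

include h₁ h₂

theorem TwoVal.IsSp.push {n : ℕ} {D : Divisor L F'} {B₁ B₂ : Divisor k F₁'}
    (h : T'.IsSp n D B₁ B₂) : T.IsSp n (push δ D) (push δ₁ B₁) (push δ₁ B₂) := by
  obtain ⟨f, hf, hD, x₁, x₂, g1, g2, g3, g4, g5, g6⟩ := h
  exact ⟨normAlong δ f, normAlong_ne_zero δ (finiteAlong_of_isFF δ) hf, push_ord δ hf hD,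
    normAlong δ₁ x₁, normAlong δ₁ x₂, normAlong_ne_zero δ₁ (finiteAlong_of_isFF δ₁) g1,
    normAlong_ne_zero δ₁ (finiteAlong_of_isFF δ₁) g2, hasRes_normAlong' δ δ₁ h₁ g3,
    hasRes_normAlong' δ δ₁ h₂ g4, push_ord δ₁ g1 g5, push_ord δ₁ g2 g6⟩

theorem TwoVal.pushPic_mem_Zn {n : ℕ} {x : Pic0 L F'} (hx : x ∈ T'.Zn n) :
    pushPic δ x ∈ T.Zn n := by
  obtain ⟨D, rfl, B₁, B₂, hB⟩ := hx
  exact ⟨pushZ δ D, rfl, pushZ δ₁ B₁, pushZ δ₁ B₂, TwoVal.IsSp.push δ δ₁ h₁ h₂ hB⟩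

end Abs

section Conc

variable {L : Type*} [Field L] [IsAlgClosed L] [CharZero L] (A : ValuationSubring L)
  {κ : Type*} [Field κ] [IsAlgClosed κ] (π : A →+* κ) [IsLocalHom π] (hπ : Function.Surjective π)
  (harch : ArchA π)
  (N r : ℕ) [hr : Fact r.Prime] [hN : NeZero N] [CharP κ r] (hrN : ¬ r ∣ N)
  {c : ℕ} [hc : Fact c.Prime] (hcr : c ≠ r) [NeZero (N * c)] (hrN' : ¬ r ∣ N * c)
  (δ : modularFunctionFieldFullC L (N * r) →ₐ[L] modularFunctionFieldFullC L (N * c * r))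
  (δ₁ : modularFunctionFieldFullC κ N →ₐ[κ] modularFunctionFieldFullC κ (N * c))
  (hδ : ∀ x, (δ x : LaurentSeries L) = x) (hδ₁ : ∀ x, (δ₁ x : LaurentSeries κ) = x)

include hcr hδ hδ₁ in
theorem push_er₁ {f : modularFunctionFieldFullC L (N * c * r)}
    {y : modularFunctionFieldFullC κ (N * c)}
    (h : (twoVal A π hπ harch (N * c) r hrN').V₁.ER f y) :
    (twoVal A π hπ harch N r hrN).V₁.ER (normAlong δ f) (normAlong δ₁ y) := by
  have hN0 : N ≠ 0 := hN.out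
  have hr0 : r ≠ 0 := hr.out.ne_zero
  have hc0 : c ≠ 0 := hc.out.ne_zero
  have : NeZero (N * r) := ⟨mul_ne_zero hN0 hr0⟩
  have : NeZero (N * c * r) := ⟨mul_ne_zero (mul_ne_zero hN0 hc0) hr0⟩
  have hcκ : ((N * c : ℕ) : κ) ≠ 0 := by
    rw [Ne, CharP.cast_eq_zero_iff κ r]
    exact hrN'
  have hfin : FiniteAlong L δ := finiteAlong_of_isFF δ
  have hfin₁ : FiniteAlong κ δ₁ := finiteAlong_of_isFF δ₁
  obtain ⟨hf, hy⟩ := h
  have hG := LLu.isGauss_badData A π hπ harch N r hrN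
  have hG' := LLu.isGauss_badData A π hπ harch (N * c) r hrN'
  obtain ⟨h1, h2⟩ := normAlong_res (LLu.badData A π hπ harch N r hrN)
    (LLu.badData A π hπ harch (N * c) r hrN') δ δ₁ hfin hfin₁ (IsGauss.alpha_mem hG hG' hδ)
    (IsGauss.alpha_res hG hG' hδ hδ₁)
    (LLu.finrank_ratio N r hcr hrN rfl (by congr 1; ring) rfl rfl hcκ δ δ₁ hδ hδ₁) ⟨f, hf⟩
  rw [← hy]
  exact ⟨h1, h2⟩

include hcr hδ in
theorem norm_ww' (f : modularFunctionFieldFullC L (N * c * r)) :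
    normAlong δ (ww L (N * c) r hrN' f) = ww L N r hrN (normAlong δ f) := by
  refine normAlong_equiv' δ (ww L N r hrN) (ww L (N * c) r hrN') (fun x => ?_) f
  apply Subtype.ext
  have h1 : (δ x : LaurentSeries L) = qExpand L 1 (x : LaurentSeries L) := by
    rw [hδ, qExpand_one_apply]
  have hmem : qExpand L 1 (x : LaurentSeries L) ∈ modularFunctionFieldFullC L (N * c * r) := by
    rw [← h1]
    exact (δ x).2
  have h2 : δ x = ⟨qExpand L 1 (x : LaurentSeries L), hmem⟩ := Subtype.ext h1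
  rw [hδ, h2]
  refine (Degen.w_dg (cast_ne_zero_L L (N * c)) (cast_ne_zero_Lr L r) hrN'
    (d := 1) (by rw [mul_one]; exact Dvd.intro c rfl)
    (cast_ne_zero_L L N) hrN x hmem).trans ?_
  rw [qExpand_one_apply]
  rfl

include hcr hδ hδ₁ in
theorem push_er₂ {f : modularFunctionFieldFullC L (N * c * r)}
    {y : modularFunctionFieldFullC κ (N * c)}
    (h : (twoVal A π hπ harch (N * c) r hrN').V₂.ER f y) :
    (twoVal A π hπ harch N r hrN).V₂.ER (normAlong δ f) (normAlong δ₁ y) := by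
  rw [er₂_iff] at h ⊢
  have h1 := push_er₁ A π hπ harch N r hrN hcr hrN' δ δ₁ hδ hδ₁ h
  rwa [norm_ww' N r hrN hcr hrN' δ hδ] at h1

include hcr hδ hδ₁ in
/-- **push-forward preserves classes with divisible reductions** -/
theorem pushPic_mem_Zn' {n : ℕ} :
    haveI : NeZero (N * r) := ⟨mul_ne_zero (NeZero.ne N) hr.out.ne_zero⟩
    haveI : NeZero (N * c * r) := ⟨mul_ne_zero (NeZero.ne _) hr.out.ne_zero⟩
    ∀ {x : Pic0 L (modularFunctionFieldFullC L (N * c * r))}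
    (_ : x ∈ (twoVal A π hπ harch (N * c) r hrN').Zn n),
    pushPic δ x ∈ (twoVal A π hπ harch N r hrN).Zn n := by
  have : NeZero (N * r) := ⟨mul_ne_zero (NeZero.ne N) hr.out.ne_zero⟩
  have : NeZero (N * c * r) := ⟨mul_ne_zero (NeZero.ne _) hr.out.ne_zero⟩
  intro x hx
  exact TwoVal.pushPic_mem_Zn δ δ₁
    (fun f y h => push_er₁ A π hπ harch N r hrN hcr hrN' δ δ₁ hδ hδ₁ h)
    (fun f y h => push_er₂ A π hπ harch N r hrN hcr hrN' δ δ₁ hδ hδ₁ h) hx

end Conc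

section OverQb

local notation "Qb" => AlgebraicClosure ℚ

variable {A : ValuationSubring Qb}
  {κ : Type*} [Field κ] [IsAlgClosed κ] (π : A →+* κ) [IsLocalHom π]
  (hπ : Function.Surjective π) (harch : ArchA π)
  (N r : ℕ) [hr : Fact r.Prime] [hN : NeZero N] [CharP κ r] (hrN : ¬ r ∣ N)
  (hA : A.LiesOverPrime r)
  {l : ℕ} [hl : Fact l.Prime] (hlr : l ≠ r) (hlN : ¬ l ∣ N)
  (α β : modularFunctionFieldFullC Qb (N * r) →ₐ[Qb] modularFunctionFieldFullC Qb (N * r * l))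
  (hα : ∀ x, (α x : LaurentSeries Qb) = x)
  (hβ : ∀ x, (β x : LaurentSeries Qb) = qExpand Qb l (x : LaurentSeries Qb))

theorem nsmul_mem_of_two {V : Type*} [AddCommGroup V] {Z : AddSubgroup V} {n : ℕ} (hn : ¬ 2 ∣ n)
    {z : V} (hz : n • z = 0) (h2 : 2 • z ∈ Z) : z ∈ Z := by
  obtain ⟨m, rfl⟩ : ∃ m, n = 2 * m + 1 := ⟨n / 2, by omega⟩
  have h3 : z = -(m • (2 • z)) := by
    rw [add_smul, one_smul, mul_comm, mul_smul] at hz
    exact (neg_eq_of_add_eq_zero_right hz).symm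
  rw [h3]
  exact neg_mem (nsmul_mem h2 m)

include hA hlr hlN hα hβ in
/-- **`(T_l - (l+1)) y` has divisible reductions** for `y` fixed by inertia, even level, odd
torsion. -/
theorem hecke_sub_mem_Zn' (ι : Qb →+* ℂ)
    (hg : genusFF κ (modularFunctionFieldFullC κ (N * 2)) =
      genusFF Qb (modularFunctionFieldFullC Qb (N * 2)))
    (d : CP.DecAut A π) (hd : CP.IsFrob d r) (h2N : 2 ∣ N) (hr2 : r ≠ 2) {n : ℕ} (hn : ¬ 2 ∣ n)
    {y : Pic0 Qb (modularFunctionFieldFullC Qb (N * r))} (hy : n • y = 0)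
    (hI : ∀ g ∈ IΓ A (N * r), g • y = y) :
    haveI : NeZero (N * r) := ⟨mul_ne_zero (NeZero.ne N) hr.out.ne_zero⟩
    haveI : NeZero (N * r * l) := ⟨mul_ne_zero (mul_ne_zero hN.out hr.out.ne_zero) hl.out.ne_zero⟩
    pushPic α (pullPic β y) - (l + 1) • y ∈ (twoVal A π hπ harch N r hrN).Zn n := by
  have i0 : NeZero (N * 2) := ⟨mul_ne_zero hN.out two_ne_zero⟩
  have i1 : NeZero (N * r) := ⟨mul_ne_zero (NeZero.ne N) hr.out.ne_zero⟩
  have i2 : NeZero (N * r * l) :=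
    ⟨mul_ne_zero (mul_ne_zero hN.out hr.out.ne_zero) hl.out.ne_zero⟩
  have i3 : NeZero (N * 2 * r) := ⟨mul_ne_zero (NeZero.ne (N * 2)) hr.out.ne_zero⟩
  have i4 : NeZero (N * 2 * r * l) := ⟨mul_ne_zero (NeZero.ne (N * 2 * r)) hl.out.ne_zero⟩
  have i5 : Fact (Nat.Prime 2) := ⟨Nat.prime_two⟩
  have hl2 : ¬ l ∣ 2 := fun h => hlN (h.trans h2N)
  have hrN' : ¬ r ∣ N * 2 := by
    rw [hr.out.dvd_mul]
    rintro (h | h)
    · exact hrN h
    · exact hr2 ((Nat.prime_dvd_prime_iff_eq hr.out Nat.prime_two).mp h)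
  have hlN' : ¬ l ∣ N * 2 := by
    rw [hl.out.dvd_mul]
    rintro (h | h)
    · exact hlN h
    · exact hl2 h
  have hn0 : n ≠ 0 := by
    rintro rfl
    exact hn (dvd_zero 2)
  let δ : modularFunctionFieldFullC Qb (N * r) →ₐ[Qb] modularFunctionFieldFullC Qb (N * 2 * r) :=
    IntermediateField.inclusion (full_degeneracyC_le Qb (by
      rw [mul_right_comm]; exact Dvd.intro 2 rfl))
  let δ₁ : modularFunctionFieldFullC κ N →ₐ[κ] modularFunctionFieldFullC κ (N * 2) :=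
    IntermediateField.inclusion (full_degeneracyC_le κ (Dvd.intro 2 rfl))
  have hδ : ∀ x, (δ x : LaurentSeries Qb) = x := fun x => rfl
  have hδ₁ : ∀ x, (δ₁ x : LaurentSeries κ) = x := fun x => rfl
  -- the class at level `2 N r`
  have hy' : n • pullPic δ y = 0 := by rw [← map_nsmul, hy, map_zero]
  have hI' : ∀ g ∈ IΓ A (N * 2 * r), g • pullPic δ y = pullPic δ y := by
    rintro g ⟨σ, hσ, hg⟩
    obtain ⟨g₀, hg₀⟩ := exists_coefAut Qb (N * r) σ
    have h1 : SemilinearAut.IntertwinesAlong δ.toRingHom g₀ g := by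
      intro x
      apply Subtype.ext
      exact (hg _).trans (hg₀ x).symm
    rw [← pullPic_smul δ h1, hI g₀ ⟨σ, hσ, hg₀⟩]
  have key := hecke_sub_mem_Zn π hπ harch (N * 2) r hrN' hA hg d hd hlr hlN'
    (alpha1 Qb (N * 2 * r) l) (beta1 Qb (N * 2 * r) l) (coe_alpha1 Qb (N * 2 * r) l)
    (coe_beta1 Qb (N * 2 * r) l) ι
    (NodeCount.noEll_of_four_dvd (by
      obtain ⟨m, rfl⟩ := h2N
      exact ⟨m, by ring⟩)) hn0 hy' hI'
  have hlNr : ¬ l ∣ N * 2 * r := by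
    rw [hl.out.dvd_mul]
    rintro (h | h)
    · exact hlN' h
    · exact hlr ((Nat.prime_dvd_prime_iff_eq hl.out hr.out).mp h)
  have hT := pullPic_hecke (K := Qb) (N := N * r) (M := N * 2 * r) (ℓ := l) (d := 1)
    (Nat.cast_ne_zero.mpr (NeZero.ne _)) (Nat.cast_ne_zero.mpr hl.out.ne_zero) hlNr
    (by rw [mul_one, mul_right_comm]; exact Dvd.intro 2 rfl) rfl rfl rfl rfl δ
    (fun x => by rw [hδ, qExpand_one_apply]) α β hα hβ (alpha1 Qb (N * 2 * r) l)
    (beta1 Qb (N * 2 * r) l) (coe_alpha1 Qb (N * 2 * r) l) (coe_beta1 Qb (N * 2 * r) l) y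
  rw [← hT, ← map_nsmul, ← map_sub] at key
  have h2 := pushPic_mem_Zn' A π hπ harch N r hrN (c := 2) (Ne.symm hr2) hrN' δ δ₁ hδ hδ₁ key
  rw [pushPic_pullPic] at h2
  have hdeg : finrankAlong Qb δ = 2 := by
    have h3 := finrankAlong_alpha (K := Qb) (N := N * r) (p := 2) rfl
      (by congr 1; ring : modularFunctionFieldFullC Qb (N * 2 * r) =
        modularFunctionFieldFullC Qb (N * r * 2)) δ hδ
      (Nat.cast_ne_zero.mpr (mul_ne_zero (NeZero.ne (N * r)) two_ne_zero))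
    rw [ModDeg.psi_mul_prime_of_dvd (NeZero.ne (N * r)) Nat.prime_two (h2N.mul_right r)] at h3
    exact Nat.eq_of_mul_eq_mul_right (dedekindPsi_pos (N * r)) h3
  rw [hdeg] at h2
  refine nsmul_mem_of_two hn ?_ h2
  rw [nsmul_sub, ← map_nsmul, ← map_nsmul, hy, map_zero, map_zero, smul_comm, hy, smul_zero,
    sub_zero]

end OverQb

end Fermat.Agent.BadRed
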